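import Fermat.Agent.Mazur.LatticeCurve
import Fermat.Agent.Bridge.JInjective
import Fermat.Agent.Bridge.JSurjective
import Mathlib.NumberTheory.LSeries.HurwitzZetaValues

/-!
# Lattice invariants: `j`, scaling, and existence of the lattice of a curve
-/

set_option autoImplicit false

open UpperHalfPlane ModularForm EisensteinSeries PeriodPair WeierstrassCurve FLTA.Bridge
open scoped Real

namespace FLTA.Mazur.Lattice

/-- The `j`-invariant of a lattice. -/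
noncomputable def latJ (L : PeriodPair) : ℂ := 1728 * L.g₂ ^ 3 / (L.g₂ ^ 3 - 27 * L.g₃ ^ 2)

theorem G_congr {L L' : PeriodPair} (h : L.lattice = L'.lattice) (k : ℕ) : L.G k = L'.G k := by
  have h' : (L.lattice : Set ℂ) = L'.lattice := by rw [h]
  exact tsum_congr_set_coe (fun z : ℂ => (z ^ k)⁻¹) h'

theorem g₂_congr {L L' : PeriodPair} (h : L.lattice = L'.lattice) : L.g₂ = L'.g₂ := by
  simp [PeriodPair.g₂, G_congr h]

theorem g₃_congr {L L' : PeriodPair} (h : L.lattice = L'.lattice) : L.g₃ = L'.g₃ := by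
  simp [PeriodPair.g₃, G_congr h]

theorem latJ_congr {L L' : PeriodPair} (h : L.lattice = L'.lattice) : latJ L = latJ L' := by
  simp [latJ, g₂_congr h, g₃_congr h]

theorem g₂_scalePair (c : ℂ) (hc : c ≠ 0) (L : PeriodPair) :
    (scalePair c hc L).g₂ = (c ^ 4)⁻¹ * L.g₂ := by
  simp [PeriodPair.g₂, G_scalePair]; ring

theorem g₃_scalePair (c : ℂ) (hc : c ≠ 0) (L : PeriodPair) :
    (scalePair c hc L).g₃ = (c ^ 6)⁻¹ * L.g₃ := by
  simp [PeriodPair.g₃, G_scalePair]; ring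

theorem latJ_scalePair (c : ℂ) (hc : c ≠ 0) (L : PeriodPair) :
    latJ (scalePair c hc L) = latJ L := by
  rw [latJ, latJ, g₂_scalePair, g₃_scalePair]
  have hk : ((c ^ 12)⁻¹ : ℂ) ≠ 0 := inv_ne_zero (pow_ne_zero _ hc)
  rw [show 1728 * ((c ^ 4)⁻¹ * L.g₂) ^ 3 = (c ^ 12)⁻¹ * (1728 * L.g₂ ^ 3) by ring,
    show ((c ^ 4)⁻¹ * L.g₂) ^ 3 - 27 * ((c ^ 6)⁻¹ * L.g₃) ^ 2
      = (c ^ 12)⁻¹ * (L.g₂ ^ 3 - 27 * L.g₃ ^ 2) by ring, mul_div_mul_left _ _ hk]

theorem riemannZeta_six : riemannZeta 6 = (π : ℂ) ^ 6 / 945 := by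
  convert riemannZeta_two_mul_nat (k := 3) (by norm_num) using 1
  · norm_num
  · rw [bernoulli_eq_bernoulli'_of_ne_one (by norm_num)]
    simp [bernoulli'_def 6, bernoulli'_def 5, Finset.sum_range_succ, Nat.choose, Nat.factorial]
    ring

theorem g₂_periodPairOf (τ : ℍ) :
    (periodPairOf τ).g₂ = (2 * (π : ℂ)) ^ 4 * (E₄ τ / 12) := by
  rw [PeriodPair.g₂, G_periodPairOf τ 4 (by norm_num), Nat.cast_ofNat, riemannZeta_four]
  ring

theorem g₃_periodPairOf (τ : ℍ) :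
    (periodPairOf τ).g₃ = (2 * (π : ℂ)) ^ 6 * (E₆ τ / 216) := by
  rw [PeriodPair.g₃, G_periodPairOf τ 6 (by norm_num), Nat.cast_ofNat, riemannZeta_six]
  ring

theorem latJ_periodPairOf (τ : ℍ) : latJ (periodPairOf τ) = jInv τ := by
  have hD := ModularForm.discriminant_ne_zero τ
  have e := ModularForm.discriminant_eq_E₄_cube_sub_E₆_sq τ
  have h2π : (2 * (π : ℂ)) ^ 12 ≠ 0 :=
    pow_ne_zero _ (mul_ne_zero two_ne_zero (Complex.ofReal_ne_zero.mpr Real.pi_ne_zero))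
  rw [latJ, g₂_periodPairOf, g₃_periodPairOf, jInv,
    show ((2 * (π : ℂ)) ^ 4 * (E₄ τ / 12)) ^ 3 - 27 * ((2 * (π : ℂ)) ^ 6 * (E₆ τ / 216)) ^ 2
      = (2 * (π : ℂ)) ^ 12 * ModularForm.discriminant τ by rw [e]; ring,
    show 1728 * ((2 * (π : ℂ)) ^ 4 * (E₄ τ / 12)) ^ 3 = (2 * (π : ℂ)) ^ 12 * E₄ τ ^ 3 by ring,
    mul_div_mul_left _ _ h2π]

/-- Every lattice is a multiple of some `ℤ + τ ℤ`. -/
theorem exists_tau (L : PeriodPair) :
    ∃ (τ : ℍ) (c : ℂ) (hc : c ≠ 0), (scalePair c hc (periodPairOf τ)).lattice = L.lattice := by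
  have h1 : L.ω₁ ≠ 0 := L.indep.ne_zero 0
  have h2 : L.ω₂ ≠ 0 := L.indep.ne_zero 1
  have him : (L.ω₂ / L.ω₁).im ≠ 0 := by
    intro h
    have hre : L.ω₂ / L.ω₁ = ((L.ω₂ / L.ω₁).re : ℂ) := Complex.ext (by simp) (by simp [h])
    rw [div_eq_iff h1] at hre
    have := (LinearIndependent.pair_iff.mp L.indep (L.ω₂ / L.ω₁).re (-1) (by
      simp only [Complex.real_smul, Complex.ofReal_neg, Complex.ofReal_one]
      linear_combination -hre)).2
    norm_num at this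
  rcases lt_or_gt_of_ne him with h | h
  · have h' : 0 < (L.ω₁ / L.ω₂).im := by
      rw [← inv_div, Complex.inv_im]
      exact div_pos (neg_pos.mpr h) (Complex.normSq_pos.mpr (div_ne_zero h2 h1))
    refine ⟨⟨_, h'⟩, L.ω₂, h2, ?_⟩
    simp only [PeriodPair.lattice, periodPairOf, scalePair, mul_one,
      mul_div_cancel₀ _ h2, Set.pair_comm]
  · refine ⟨⟨_, h⟩, L.ω₁, h1, ?_⟩
    simp only [PeriodPair.lattice, periodPairOf, scalePair, mul_one,
      mul_div_cancel₀ _ h1]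

theorem disc_ne_zero (L : PeriodPair) : L.g₂ ^ 3 - 27 * L.g₃ ^ 2 ≠ 0 := by
  obtain ⟨τ, c, hc, h⟩ := exists_tau L
  rw [← g₂_congr h, ← g₃_congr h, g₂_scalePair, g₃_scalePair, g₂_periodPairOf, g₃_periodPairOf]
  have hD := ModularForm.discriminant_ne_zero τ
  have e := ModularForm.discriminant_eq_E₄_cube_sub_E₆_sq τ
  have hk : ((2 * (π : ℂ)) ^ 12) / c ^ 12 ≠ 0 := div_ne_zero
    (pow_ne_zero _ (mul_ne_zero two_ne_zero (Complex.ofReal_ne_zero.mpr Real.pi_ne_zero)))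
    (pow_ne_zero _ hc)
  intro h0
  refine mul_ne_zero hk hD ?_
  rw [e]
  linear_combination h0

/-- Two pairs `(a, b)` with the same `a³/b²` differ by a scaling. -/
theorem exists_weight_scale {a b a' b' : ℂ} (hD : a ^ 3 - b ^ 2 ≠ 0) (hD' : a' ^ 3 - b' ^ 2 ≠ 0)
    (h : a ^ 3 * b' ^ 2 = a' ^ 3 * b ^ 2) :
    ∃ c : ℂ, c ≠ 0 ∧ (c ^ 4)⁻¹ * a' = a ∧ (c ^ 6)⁻¹ * b' = b := by
  by_cases h4 : a = 0
  · subst h4
    have hb : b ≠ 0 := by rintro rfl; simp at hD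
    have ha' : a' = 0 := by simpa [hb] using h.symm
    subst ha'
    have hb' : b' ≠ 0 := by rintro rfl; simp at hD'
    obtain ⟨c, hc⟩ := IsAlgClosed.exists_pow_nat_eq (b' / b) (by norm_num : 0 < 6)
    have hc0 : c ≠ 0 := by
      rintro rfl; rw [zero_pow (by norm_num : 6 ≠ 0)] at hc; exact div_ne_zero hb' hb hc.symm
    refine ⟨c, hc0, by simp, ?_⟩
    rw [hc]; field_simp
  · have ha' : a' ≠ 0 := by
      rintro rfl
      have : b' = 0 := by simpa [h4] using h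
      subst this; simp at hD'
    obtain ⟨c, hc⟩ := IsAlgClosed.exists_pow_nat_eq (a' / a) (by norm_num : 0 < 4)
    have hc0 : c ≠ 0 := by
      rintro rfl; rw [zero_pow (by norm_num : 4 ≠ 0)] at hc; exact div_ne_zero ha' h4 hc.symm
    rw [eq_div_iff h4] at hc
    have hsq : b' ^ 2 = (c ^ 6 * b) ^ 2 := by
      refine mul_left_cancel₀ (pow_ne_zero 3 h4) ?_
      rw [h, ← hc]; ring
    have hc4 : (c ^ 4)⁻¹ * a' = a := by rw [← hc]; field_simp
    rcases eq_or_eq_neg_of_sq_eq_sq _ _ hsq with h' | h'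
    · exact ⟨c, hc0, hc4, by rw [h']; field_simp⟩
    · refine ⟨Complex.I * c, mul_ne_zero Complex.I_ne_zero hc0, ?_, ?_⟩
      · rw [mul_pow, Complex.I_pow_four, one_mul]; exact hc4
      · rw [h', mul_pow, show (Complex.I : ℂ) ^ 6 = -1 by
          rw [show (6 : ℕ) = 4 + 2 from rfl, pow_add, Complex.I_pow_four, Complex.I_sq, one_mul]]
        field_simp

/-- Every elliptic curve over `ℂ` comes from a lattice. -/
theorem exists_isLatticeOf (W : WeierstrassCurve ℂ) [W.IsElliptic] :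
    ∃ L : PeriodPair, IsLatticeOf L W := by
  obtain ⟨τ, hτ⟩ := jInv_surjective W.j
  have hD := ModularForm.discriminant_ne_zero τ
  have e := ModularForm.discriminant_eq_E₄_cube_sub_E₆_sq τ
  have hΔ : W.Δ ≠ 0 := W.isUnit_Δ.ne_zero
  have hj : W.c₄ ^ 3 * ModularForm.discriminant τ = E₄ τ ^ 3 * W.Δ := by
    rw [jInv, WeierstrassCurve.j, Units.val_inv_eq_inv_val, coe_Δ', div_eq_iff hD] at hτ
    rw [hτ]; field_simp
  have hc := W.c_relation
  obtain ⟨c, hc0, h4, h6⟩ := exists_weight_scale (a := W.c₄) (b := W.c₆) (a' := E₄ τ) (b' := E₆ τ)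
    (by rw [← hc]; exact mul_ne_zero (by norm_num) hΔ)
    (fun h0 => hD (by rw [e, h0]; simp))
    (by rw [e] at hj; linear_combination -1728 * hj - E₄ τ ^ 3 * hc)
  have h2π : (2 * (π : ℂ)) ≠ 0 :=
    mul_ne_zero two_ne_zero (Complex.ofReal_ne_zero.mpr Real.pi_ne_zero)
  refine ⟨scalePair (c * (2 * (π : ℂ))) (mul_ne_zero hc0 h2π) (periodPairOf τ), ?_, ?_⟩
  · rw [g₂_scalePair, g₂_periodPairOf, curveG2, ← h4]; field_simp
  · rw [g₃_scalePair, g₃_periodPairOf, curveG3, ← h6]; field_simp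

end FLTA.Mazur.Lattice
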