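import Fermat.Agent.Mazur.InductionLocal

/-!
# A cofixed line at a Mazur level

Stable cyclic groups of every `p`-power order above the cofixed line, unramified outside the
identity components; the count at one good prime then gives a contradiction.
-/

set_option autoImplicit false

open scoped Classical

open WeierstrassCurve WeierstrassCurve.Affine.Point

open scoped WeierstrassCurve.Affine

namespace FLTA.Mazur

open FLTA.EllReduction

local notation "Qbar" => AlgebraicClosure ℚ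
local notation "Γℚ" => (AlgebraicClosure ℚ ≃ₐ[ℚ] AlgebraicClosure ℚ)

variable {W : WeierstrassCurve ℤ} {p : ℕ} [Fact p.Prime] {P₁ : GeomPoint W}

/-- A stable cyclic group of order `p ^ m` over `⟨P₁⟩`, in the identity component at the bad
primes away from `p` and in the kernel of reduction at `p`. -/
structure IsGoodLine (W : WeierstrassCurve ℤ) (p : ℕ) (P₁ : GeomPoint W) (m : ℕ)
    (Q : GeomPoint W) : Prop where
  order : addOrderOf Q = p ^ m
  stable : ∀ σ : Γℚ, σ • Q ∈ AddSubgroup.zmultiples Q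
  mem_E0 : ∀ ℓ : ℕ, ℓ.Prime → ℓ ≠ p → (ℓ : ℤ) ∣ W.Δ →
    ∀ A : ValuationSubring Qbar, A.LiesOverPrime ℓ → Q ∈ E0Z W A
  mem_E1 : ∀ A : ValuationSubring Qbar, A.LiesOverPrime p → Q ∈ E1Z W A
  base : P₁ ∈ AddSubgroup.zmultiples Q

omit [Fact p.Prime] in
lemma exists_smul_eq_zsmul {σ : Γℚ} {Y : GeomPoint W}
    (h : σ • Y ∈ AddSubgroup.zmultiples Y) :
    ∃ a : ℤ, DistribSMul.toAddMonoidHom (GeomPoint W) σ Y = a • Y := by
  obtain ⟨a, ha⟩ := AddSubgroup.mem_zmultiples_iff.1 h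
  exact ⟨a, ha.symm⟩

/-- Two stable lifts are equal when `σ` is non-trivial on the cofixed line. -/
lemma lift_unique (hP₁ : IsCofixedGen W p P₁) {m : ℕ} {Q Y R : GeomPoint W}
    (hQ : addOrderOf Q = p ^ m) (hP₁Q : P₁ ∈ AddSubgroup.zmultiples Q)
    (hY : addOrderOf Y = p ^ (m + 1)) (hR : addOrderOf R = p ^ (m + 1))
    (hYQ : AddSubgroup.zmultiples (p • Y) = AddSubgroup.zmultiples Q)
    (hRQ : AddSubgroup.zmultiples (p • R) = AddSubgroup.zmultiples Q) {σ : Γℚ}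
    (hσY : σ • Y ∈ AddSubgroup.zmultiples Y) (hσR : σ • R ∈ AddSubgroup.zmultiples R)
    (hσ : (ExtCitation.cycloExp p σ : ZMod p) ≠ 1) :
    AddSubgroup.zmultiples Y = AddSubgroup.zmultiples R := by
  obtain ⟨a, ha⟩ := exists_smul_eq_zsmul hσY
  obtain ⟨c, hc⟩ := exists_smul_eq_zsmul hσR
  refine Cyclic.eq_of_eigen Fact.out (DistribSMul.toAddMonoidHom (GeomPoint W) σ)
    (e := (ExtCitation.cycloExp p σ : ℤ)) hQ hY hR hYQ hRQ hP₁Q hP₁.ne_zero ha hc ?_ ?_ ?_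
  · rw [natCast_zsmul]; exact hP₁.smul_eq σ
  · intro h
    apply hσ
    have h' := (ZMod.intCast_zmod_eq_zero_iff_dvd _ p).2 h
    push_cast at h'
    exact sub_eq_zero.1 h'
  · exact fun z hz => AddSubgroup.zmultiples_le_of_mem hP₁Q (hP₁.quot σ z hz)

/-- A point in a subgroup with cyclic `p ^ m`-torsion generates the same line as `Q`. -/
lemma zmultiples_eq_of_mem {m : ℕ} {Q Y : GeomPoint W} (hQ : addOrderOf Q = p ^ m)
    (hY : addOrderOf Y = p ^ (m + 1)) (h : Q ∈ AddSubgroup.zmultiples (p • Y)) :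
    AddSubgroup.zmultiples (p • Y) = AddSubgroup.zmultiples Q :=
  Cyclic.zmultiples_nsmul_eq Fact.out hQ hY
    ((AddSubgroup.zmultiples_le_of_mem h).trans (AddSubgroup.zmultiples_le_of_mem
      (AddSubgroup.nsmul_mem _ (AddSubgroup.mem_zmultiples Y) p)))

lemma addOrderOf_nsmul_lift {m : ℕ} {Y : GeomPoint W} (hY : addOrderOf Y = p ^ (m + 1)) :
    addOrderOf (p • Y) = p ^ m := by
  have h1 := Cyclic.addOrderOf_pow_nsmul Fact.out hY (k := 1) (by omega)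
  rwa [pow_one, Nat.add_sub_cancel] at h1

/-- The first step: the cofixed line itself. -/
lemma isGoodLine_one (hΔ : W.Δ ≠ 0) (hss : W.IsSemistableModel) (hlev : IsMazurLevel p)
    (hline : HasGaloisStableCofixedLine (K := Qbar) ℚ (W.map (Int.castRingHom ℚ)) p)
    (hP₁ : IsCofixedGen W p P₁) : IsGoodLine W p P₁ 1 P₁ := by
  have hp : p.Prime := Fact.out
  have hp11 := hlev.eleven_le
  refine ⟨by rw [hP₁.order, pow_one], hP₁.stable, fun ℓ hℓ hℓp hℓΔ A hA => ?_,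
    fun A hA => (exists_E1Z_stable hΔ hss hline hP₁ hp11 hA).2.1,
    AddSubgroup.mem_zmultiples _⟩
  obtain ⟨A₂, hA₂⟩ := FLTA.Galois.exists_liesOverPrime Nat.prime_two
  obtain ⟨A₃, hA₃⟩ := FLTA.Galois.exists_liesOverPrime Nat.prime_three
  have h2 := dvd_Δ_of_small hΔ hP₁ hp11 Nat.prime_two (by norm_num)
  have h3 := dvd_Δ_of_small hΔ hP₁ hp11 Nat.prime_three (le_refl 3)
  exact mem_E0Z_of_two_three hΔ hlev (m := 0) (by rw [hP₁.order, zero_add, pow_one]) hP₁.stable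
    (fun _ _ _ _ _ B _ => by rw [hP₁.nsmul_eq_zero]; exact zero_mem _)
    h2 (hss 2 Nat.prime_two h2) hA₂
    (mem_E0Z_of_small hΔ hss hP₁ hp11 Nat.prime_two (by norm_num) hA₂)
    h3 (hss 3 Nat.prime_three h3) hA₃
    (mem_E0Z_of_small hΔ hss hP₁ hp11 Nat.prime_three (le_refl 3) hA₃)
    hℓ hℓp hℓΔ (hss ℓ hℓ hℓΔ) hA

/-- The inductive step. -/
lemma IsGoodLine.exists_succ (hΔ : W.Δ ≠ 0) (hss : W.IsSemistableModel) (hlev : IsMazurLevel p)
    (hline : HasGaloisStableCofixedLine (K := Qbar) ℚ (W.map (Int.castRingHom ℚ)) p)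
    (hExt : ExtCitation.ExtVanishingCts p) (hP₁ : IsCofixedGen W p P₁) {m : ℕ} (hm : 1 ≤ m)
    {Q : GeomPoint W} (hQ : IsGoodLine W p P₁ m Q) :
    ∃ R, IsGoodLine W p P₁ (m + 1) R := by
  have hp : p.Prime := Fact.out
  have hp11 := hlev.eleven_le
  have hQ0 : p ^ m • Q = 0 := by rw [← hQ.order]; exact addOrderOf_nsmul_eq_zero Q
  have hnd : ∀ {ℓ : ℕ}, ℓ.Prime → ℓ ≠ p → ∀ k, ¬ ℓ ∣ p ^ k := fun hℓ hℓp k h =>
    hℓp ((Nat.prime_dvd_prime_iff_eq hℓ hp).1 (hℓ.dvd_of_dvd_pow h))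
  have hunr : ∀ ℓ : ℕ, ℓ.Prime → ℓ ≠ p → ∀ A : ValuationSubring Qbar, A.LiesOverPrime ℓ →
      ∀ σ ∈ A.inertiaSubgroupIn ℚ, ∀ x : GeomPoint W, p • x ∈ AddSubgroup.zmultiples Q →
        σ • x - x ∈ AddSubgroup.zmultiples Q := by
    intro ℓ hℓ hℓp A hA σ hσ x hx
    obtain ⟨k, hk⟩ := AddSubgroup.mem_zmultiples_iff.1 hx
    by_cases hℓΔ : (ℓ : ℤ) ∣ W.Δ
    · have hc₄ := hss ℓ hℓ hℓΔ
      have hQE0 := hQ.mem_E0 ℓ hℓ hℓp hℓΔ A hA
      have hfixQ : σ • Q = Q := smul_eq_of_mem_E0Z hℓ hA (hnd hℓ hℓp m) hσ hQE0 hQ0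
      have hd0 : p • (σ • x - x) = 0 := by
        rw [nsmul_sub, ← smul_nsmul_geom, ← hk, smul_zsmul_geom, hfixQ, sub_self]
      exact AddSubgroup.zmultiples_le_of_mem hQ.base
        (mem_zmultiples_of_E0Z (hp := hp) hℓ hA hΔ hℓΔ hc₄ hℓp
          (smul_sub_mem_E0Z hℓ hA (Or.inr hc₄) hΔ hσ x)
          (AddSubgroup.zmultiples_le_of_mem hQE0 hQ.base) hd0 hP₁.nsmul_eq_zero hP₁.ne_zero)
    · have hx0 : p ^ (m + 1) • x = 0 := by
        rw [pow_succ, mul_smul, ← hk, nsmul_zsmul_comm, hQ0, zsmul_zero]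
      have h : σ • x = x := smul_eq_of_good hℓ hA hℓΔ (hnd hℓ hℓp _) hσ hx0
      rw [h, sub_self]
      exact zero_mem _
  have hlocp : ∀ A : ValuationSubring Qbar, A.LiesOverPrime p →
      ∃ Y : GeomPoint W, addOrderOf Y = p ^ (m + 1) ∧
        AddSubgroup.zmultiples (p • Y) = AddSubgroup.zmultiples Q ∧ Y ∈ E1Z W A ∧
        ∀ σ ∈ A.decompositionSubgroup ℚ, σ • Y ∈ AddSubgroup.zmultiples Y := by
    intro A hA
    obtain ⟨⟨P, hP, hP1⟩, -, hex⟩ := exists_E1Z_stable hΔ hss hline hP₁ hp11 hA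
    obtain ⟨Y, hY1, hY⟩ := hex (m + 1)
    refine ⟨Y, hY, zmultiples_eq_of_mem hQ.order hY ?_, hY1, fun σ hσ => ?_⟩
    · exact mem_zmultiples_of_E1Z_pow hp hΔ hP hP1 (hQ.mem_E1 A hA) (nsmul_mem hY1 p) hQ0
        (addOrderOf_nsmul_lift hY)
    · refine mem_zmultiples_of_E1Z_pow hp hΔ hP hP1 (smul_mem_E1Z hσ hY1) hY1 ?_ hY
      rw [← smul_nsmul_geom, ← hY, addOrderOf_nsmul_eq_zero]
      exact (DistribSMul.toAddMonoidHom (GeomPoint W) σ).map_zero
  obtain ⟨R, hR, hRQ, hRst⟩ := exists_stable_next hΔ hExt hP₁ hm hQ.order hQ.stable hQ.base hunr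
    (fun A hA => by
      obtain ⟨Y, h1, h2, -, h4⟩ := hlocp A hA
      exact ⟨Y, h1, h2, h4⟩)
  have hRbase : P₁ ∈ AddSubgroup.zmultiples R := Cyclic.zmultiples_le_of_nsmul hRQ hQ.base
  have hpR : ∀ S : AddSubgroup (GeomPoint W), Q ∈ S → p • R ∈ S := fun S hS => by
    refine AddSubgroup.zmultiples_le_of_mem hS ?_
    rw [← hRQ]; exact AddSubgroup.mem_zmultiples _
  have hsmall : ∀ ℓ : ℕ, ℓ.Prime → ℓ ≤ 3 → ∀ A : ValuationSubring Qbar, A.LiesOverPrime ℓ →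
      R ∈ E0Z W A := by
    intro ℓ hℓ hℓ3 A hA
    have hℓp : ℓ ≠ p := by omega
    have hℓΔ := dvd_Δ_of_small hΔ hP₁ hp11 hℓ hℓ3
    have hc₄ := hss ℓ hℓ hℓΔ
    obtain ⟨Y, hY, hY0, hYst⟩ := exists_mem_E0Z_stable hΔ hp hℓ hℓp hA hℓΔ hc₄ (m + 1)
    have hYQ := zmultiples_eq_of_mem hQ.order hY
      (mem_zmultiples_of_E0Z_pow (hp := hp) hℓ hA hΔ hℓΔ hc₄ hℓp (hQ.mem_E0 ℓ hℓ hℓp hℓΔ A hA)
        (nsmul_mem hY0 p) hQ0 (addOrderOf_nsmul_lift hY))
    obtain ⟨φ, hφ⟩ := FLTA.Galois.exists_isFrobeniusAt hℓ hA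
    have hcφ : (ExtCitation.cycloExp p φ : ZMod p) ≠ 1 := by
      rw [FLTA.Galois.cycloExp_frobenius p hℓ hℓp hA hφ, ← Nat.cast_one, ne_eq,
        ZMod.natCast_eq_natCast_iff', Nat.mod_eq_of_lt (by omega), Nat.mod_eq_of_lt (by omega)]
      exact hℓ.one_lt.ne'
    have := lift_unique hP₁ hQ.order hQ.base hY hR hYQ hRQ
      (hYst φ (FLTA.Galois.isFrobeniusAt_iff.1 hφ).1) (hRst φ) hcφ
    exact AddSubgroup.zmultiples_le_of_mem hY0 (this ▸ AddSubgroup.mem_zmultiples R)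
  obtain ⟨A₂, hA₂⟩ := FLTA.Galois.exists_liesOverPrime Nat.prime_two
  obtain ⟨A₃, hA₃⟩ := FLTA.Galois.exists_liesOverPrime Nat.prime_three
  have h2 := dvd_Δ_of_small hΔ hP₁ hp11 Nat.prime_two (by norm_num)
  have h3 := dvd_Δ_of_small hΔ hP₁ hp11 Nat.prime_three (le_refl 3)
  refine ⟨R, hR, hRst, fun ℓ hℓ hℓp hℓΔ A hA => ?_, fun A hA => ?_, hRbase⟩
  · exact mem_E0Z_of_two_three hΔ hlev hR hRst
      (fun l hl hlp hlΔ _ B hB => hpR _ (hQ.mem_E0 l hl hlp hlΔ B hB))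
      h2 (hss 2 Nat.prime_two h2) hA₂ (hsmall 2 Nat.prime_two (by norm_num) A₂ hA₂)
      h3 (hss 3 Nat.prime_three h3) hA₃ (hsmall 3 Nat.prime_three (le_refl 3) A₃ hA₃)
      hℓ hℓp hℓΔ (hss ℓ hℓ hℓΔ) hA
  · obtain ⟨Y, hY, hYQ, hY1, hYst⟩ := hlocp A hA
    obtain ⟨σ, hσ, hσc⟩ := exists_inertia_neg_one (p := p) hA
    have hne : (ExtCitation.cycloExp p σ : ZMod p) ≠ 1 := by
      rw [hσc]
      intro h
      refine not_dvd_neg_two (p := p) hp11 ((ZMod.intCast_zmod_eq_zero_iff_dvd _ p).1 ?_)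
      push_cast
      linear_combination h
    have := lift_unique hP₁ hQ.order hQ.base hY hR hYQ hRQ
      (hYst σ (FLTA.Galois.inertiaSubgroupIn_le_decompositionSubgroup hσ)) (hRst σ) hne
    exact AddSubgroup.zmultiples_le_of_mem hY1 (this ▸ AddSubgroup.mem_zmultiples R)

lemma exists_isGoodLine (hΔ : W.Δ ≠ 0) (hss : W.IsSemistableModel) (hlev : IsMazurLevel p)
    (hline : HasGaloisStableCofixedLine (K := Qbar) ℚ (W.map (Int.castRingHom ℚ)) p)
    (hExt : ExtCitation.ExtVanishingCts p) (hP₁ : IsCofixedGen W p P₁) (m : ℕ) :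
    ∃ Q, IsGoodLine W p P₁ (m + 1) Q := by
  induction m with
  | zero => exact ⟨P₁, isGoodLine_one hΔ hss hlev hline hP₁⟩
  | succ m ih =>
    obtain ⟨Q, hQ⟩ := ih
    exact hQ.exists_succ hΔ hss hlev hline hExt hP₁ (Nat.succ_pos m)

/-- Inertia moves the `p ^ m`-torsion into the line. -/
lemma IsGoodLine.inertia_sub_mem (hΔ : W.Δ ≠ 0) (hss : W.IsSemistableModel)
    (hlev : IsMazurLevel p)
    (hline : HasGaloisStableCofixedLine (K := Qbar) ℚ (W.map (Int.castRingHom ℚ)) p)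
    (hP₁ : IsCofixedGen W p P₁) {m : ℕ} {Q : GeomPoint W} (hQ : IsGoodLine W p P₁ m Q)
    {q : ℕ} (hq : q.Prime) {A : ValuationSubring Qbar} (hA : A.LiesOverPrime q) {σ : Γℚ}
    (hσ : σ ∈ A.inertiaSubgroupIn ℚ) {x : GeomPoint W} (hx : p ^ m • x = 0) :
    σ • x - x ∈ AddSubgroup.zmultiples Q := by
  have hp : p.Prime := Fact.out
  have hd0 := nsmul_smul_sub_eq_zero σ hx
  by_cases hqp : q = p
  · subst hqp
    obtain ⟨⟨P, hP, hP1⟩, -, -⟩ := exists_E1Z_stable hΔ hss hline hP₁ hlev.eleven_le hA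
    exact mem_zmultiples_of_E1Z_pow hp hΔ hP hP1
      (smul_sub_mem_E1Z_atP hp hA hΔ
        ((em ((q : ℤ) ∣ W.Δ)).elim (fun h => Or.inr (hss q hp h)) Or.inl) hσ hx)
      (hQ.mem_E1 A hA) hd0 hQ.order
  · by_cases hqΔ : (q : ℤ) ∣ W.Δ
    · have hc₄ := hss q hq hqΔ
      exact mem_zmultiples_of_E0Z_pow (hp := hp) hq hA hΔ hqΔ hc₄ hqp
        (smul_sub_mem_E0Z hq hA (Or.inr hc₄) hΔ hσ x) (hQ.mem_E0 q hq hqp hqΔ A hA) hd0 hQ.order
    · have h : σ • x = x := smul_eq_of_good hq hA hqΔ (fun h => hqp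
        ((Nat.prime_dvd_prime_iff_eq hq hp).1 (hq.dvd_of_dvd_pow h))) hσ hx
      rw [h, sub_self]
      exact zero_mem _

/-- All of Galois moves the `p ^ m`-torsion into the line. -/
lemma IsGoodLine.smul_sub_mem (hΔ : W.Δ ≠ 0) (hss : W.IsSemistableModel)
    (hlev : IsMazurLevel p)
    (hline : HasGaloisStableCofixedLine (K := Qbar) ℚ (W.map (Int.castRingHom ℚ)) p)
    (hP₁ : IsCofixedGen W p P₁) {m : ℕ} {Q : GeomPoint W} (hQ : IsGoodLine W p P₁ m Q)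
    (σ : Γℚ) {x : GeomPoint W} (hx : p ^ m • x = 0) :
    σ • x - x ∈ AddSubgroup.zmultiples Q := by
  have hp : p.Prime := Fact.out
  set K := AddSubgroup.zmultiples Q with hK
  let act : Γℚ → GeomPoint W ⧸ K →+ GeomPoint W ⧸ K := fun τ =>
    QuotientAddGroup.map K K (DistribSMul.toAddMonoidHom (GeomPoint W) τ)
      fun y hy => smul_mem_zmultiples hQ.stable τ hy
  let Z : Set (GeomPoint W ⧸ K) :=
    {v | ∃ y : GeomPoint W, p ^ m • y = 0 ∧ QuotientAddGroup.mk y = v}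
  have hmaps : ∀ (τ : Γℚ), ∀ v ∈ Z, act τ v ∈ Z := by
    rintro τ _ ⟨y, hy, rfl⟩
    refine ⟨τ • y, ?_, rfl⟩
    rw [← smul_nsmul_geom, hy]
    exact (DistribSMul.toAddMonoidHom (GeomPoint W) τ).map_zero
  let ρ : Γℚ →* Function.End Z :=
    { toFun := fun τ v => ⟨act τ v.1, hmaps τ v.1 v.2⟩
      map_one' := funext fun v => Subtype.ext (by
        obtain ⟨_, y, _, rfl⟩ := v
        exact congrArg QuotientAddGroup.mk (one_smul Γℚ y))
      map_mul' := fun τ τ' => funext fun v => Subtype.ext (by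
        obtain ⟨_, y, _, rfl⟩ := v
        exact congrArg QuotientAddGroup.mk (mul_smul τ τ' y)) }
  have hρ : ∀ τ : Γℚ, (∀ y : GeomPoint W, p ^ m • y = 0 → τ • y - y ∈ K) → ρ τ = 1 := by
    intro τ hτ
    refine funext fun v => Subtype.ext ?_
    obtain ⟨_, y, hy, rfl⟩ := v
    exact (QuotientAddGroup.eq_iff_sub_mem).2 (hτ y hy)
  have h1 : ρ σ = 1 := by
    refine FLTA.Galois.hom_eq_one_of_unramified ρ ?_ (fun q hq A hA τ hτ =>
      hρ τ fun y hy => hQ.inertia_sub_mem hΔ hss hlev hline hP₁ hq hA hτ hy) σ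
    obtain ⟨L, hL, hLfix⟩ := FLTA.EllTorsion.galoisFactorsThroughFiniteLevel_intModel W hΔ
      (pow_ne_zero m hp.ne_zero)
    refine ⟨L, hL, fun τ hτ => hρ τ fun y hy => ?_⟩
    have := congrArg Subtype.val (LinearMap.congr_fun (hLfix τ hτ)
      ⟨y, (Submodule.mem_torsionBy_iff _ _).2 (by rw [natCast_zsmul]; exact hy)⟩)
    rw [show τ • y = y from this, sub_self]
    exact zero_mem _
  have h2 := congrArg Subtype.val (congrFun h1 ⟨QuotientAddGroup.mk x, x, hx, rfl⟩)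
  exact (QuotientAddGroup.eq_iff_sub_mem).1 h2

/-- No semistable curve has a cofixed line at a Mazur level (given the vanishing of extensions). -/
theorem false_of_cofixedLine (hΔ : W.Δ ≠ 0) (hss : W.IsSemistableModel) (hlev : IsMazurLevel p)
    (hline : HasGaloisStableCofixedLine (K := Qbar) ℚ (W.map (Int.castRingHom ℚ)) p)
    (hExt : ExtCitation.ExtVanishingCts p) : False := by
  have hp : p.Prime := Fact.out
  obtain ⟨-, -, P₁, hP₁⟩ := exists_isCofixedGen W hΔ hline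
  obtain ⟨ℓ, hℓge, hℓ⟩ := Nat.exists_infinite_primes (W.Δ.natAbs + p + 1)
  have hℓp : ℓ ≠ p := by omega
  have hgood : ¬ (ℓ : ℤ) ∣ W.Δ := fun h => by
    have := Nat.le_of_dvd (Int.natAbs_pos.2 hΔ) (Int.natCast_dvd.1 h)
    omega
  obtain ⟨Q, hQ⟩ := exists_isGoodLine hΔ hss hlev hline hExt hP₁ (ℓ ^ 2 + 1)
  set m := ℓ ^ 2 + 1 + 1 with hm
  have hbig : ℓ ^ 2 + 1 < p ^ m := (Nat.lt_succ_self _).trans (Nat.lt_pow_self hp.one_lt)
  obtain ⟨A, hA⟩ := FLTA.Galois.exists_liesOverPrime hℓ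
  obtain ⟨φ, hφ⟩ := FLTA.Galois.exists_isFrobeniusAt hℓ hA
  let T : AddSubgroup (GeomPoint W) := (nsmulAddMonoidHom (p ^ m)).ker
  let f : T →+ GeomPoint W :=
    (DistribSMul.toAddMonoidHom (GeomPoint W) φ - AddMonoidHom.id _).comp T.subtype
  have hcardT : Nat.card T = (p ^ m) ^ 2 := by
    rw [← FLTA.EllTorsion.natCard_torsionBy_intModel W hΔ (pow_ne_zero m hp.ne_zero)]
    exact Nat.card_congr (Equiv.subtypeEquivRight fun y => by
      rw [Submodule.mem_torsionBy_iff, natCast_zsmul]; exact Iff.rfl)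
  have hrange : f.range ≤ AddSubgroup.zmultiples Q := by
    rintro _ ⟨y, rfl⟩
    exact hQ.smul_sub_mem hΔ hss hlev hline hP₁ φ y.2
  have : Finite (AddSubgroup.zmultiples Q) :=
    finite_zmultiples_of_order hQ.order (pow_ne_zero _ hp.ne_zero)
  have hr : Nat.card f.range ≤ p ^ m := by
    refine (AddSubgroup.card_le_of_le hrange).trans ?_
    rw [Nat.card_zmultiples, hQ.order]
  have hker : Nat.card f.ker ≤ ℓ ^ 2 + 1 := by
    rw [Nat.card_congr (AddSubgroup.equivMapOfInjective f.ker T.subtype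
      T.subtype_injective).toEquiv]
    refine natCard_le_of_frobenius_fixed W A hℓ hA hφ (n := p ^ m)
      (fun h => hℓp ((Nat.prime_dvd_prime_iff_eq hℓ hp).1 (hℓ.dvd_of_dvd_pow h))) _
      (fun y _ => mem_E0Z_of_good hℓ hA hgood y) ?_ ?_
    · rintro _ ⟨y, hy, rfl⟩
      exact sub_eq_zero.1 (show φ • (y : GeomPoint W) - (y : GeomPoint W) = 0 from hy)
    · rintro _ ⟨y, -, rfl⟩
      exact y.2
  have hmul : Nat.card f.ker * Nat.card f.range = (p ^ m) ^ 2 := by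
    rw [← hcardT, ← AddSubgroup.index_ker, AddSubgroup.card_mul_index]
  nlinarith [Nat.mul_le_mul hker hr, pow_pos hp.pos m]

end FLTA.Mazur
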