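import Fermat.Agent.Carayol.MatchRamified

/-!
# Components of inertia-fixed points
-/

set_option autoImplicit false

open scoped Classical

namespace FLTA.Mazur

open FLTA.EllReduction

local notation "Qbar" => AlgebraicClosure ℚ

/-- At a multiplicative place `v_ℓ(Δ)` kills the component of every inertia-fixed point. -/
theorem nsmul_mem_E0Z_of_inertia_fixed (W : WeierstrassCurve ℤ) {A : ValuationSubring Qbar}
    {ℓ : ℕ} (hℓ : ℓ.Prime) (hA : A.LiesOverPrime ℓ) (hΔ : W.Δ ≠ 0) (hℓΔ : (ℓ : ℤ) ∣ W.Δ)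
    (hc₄ : ¬ (ℓ : ℤ) ∣ W.c₄) {P : GeomPoint W}
    (hP : ∀ σ ∈ A.inertiaSubgroupIn ℚ, σ • P = P) :
    W.Δ.natAbs.factorization ℓ • P ∈ E0Z W A :=
  FLTA.Carayol.nsmul_mem_E0Z_of_inertia_fixed hℓ hA hΔ hℓΔ hc₄ hP

end FLTA.Mazur
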