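import Fermat.Agent.EllTorsion.Card
import Mathlib.GroupTheory.QuotientGroup.Basic
import Mathlib.Tactic

/-!
# Subgroups of prime index above a finite subgroup

For an elliptic curve over an algebraically closed field of characteristic zero, a finite subgroup
`K` has `[n]⁻¹ K` of order `n² |K|` and exactly `N + 1` overgroups of prime index `N`.
-/

set_option autoImplicit false

open WeierstrassCurve
open scoped WeierstrassCurve.Affine

namespace FLTA.Mazur

section Group

variable {G : Type*} [AddCommGroup G]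

/-- Adjoining an element of order `N` modulo `K` multiplies the order by `N`. -/
theorem natCard_sup_zmultiples {K : AddSubgroup G} [Finite K] {N : ℕ} (hN : N.Prime) {P : G}
    (hP : P ∉ K) (hNP : N • P ∈ K) :
    Nat.card (K ⊔ AddSubgroup.zmultiples P : AddSubgroup G) = N * Nat.card K := by
  haveI : NeZero N := ⟨hN.ne_zero⟩
  have hmem : ∀ (i : Fin N) (k : K),
      (i : ℕ) • P + (k : G) ∈ K ⊔ AddSubgroup.zmultiples P := fun i k =>
    add_mem (AddSubgroup.mem_sup_right (AddSubgroup.nsmul_mem _ (AddSubgroup.mem_zmultiples P) _))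
      (AddSubgroup.mem_sup_left k.2)
  let f : Fin N × K → (K ⊔ AddSubgroup.zmultiples P : AddSubgroup G) :=
    fun x => ⟨(x.1 : ℕ) • P + (x.2 : G), hmem x.1 x.2⟩
  have key : ∀ m : ℤ, m • P ∈ K → (N : ℤ) ∣ m := by
    intro m hm
    by_contra hd
    obtain ⟨a, b, hab⟩ := ((Nat.prime_iff_prime_int.mp hN).coprime_iff_not_dvd).mpr hd
    refine hP ?_
    rw [show P = a • ((N : ℤ) • P) + b • (m • P) by rw [smul_smul, smul_smul, ← add_smul, hab,
      one_smul]]
    exact add_mem (AddSubgroup.zsmul_mem _ (by rwa [natCast_zsmul]) _)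
      (AddSubgroup.zsmul_mem _ hm _)
  have hbij : Function.Bijective f := by
    constructor
    · rintro ⟨i, k⟩ ⟨j, l⟩ he
      have he' : (i : ℕ) • P + (k : G) = (j : ℕ) • P + (l : G) := congrArg Subtype.val he
      have hd : ((i : ℕ) - (j : ℕ) : ℤ) • P = (l : G) - k := by
        rw [sub_smul, natCast_zsmul, natCast_zsmul, sub_eq_sub_iff_add_eq_add, he', add_comm]
      obtain ⟨t, ht⟩ := key _ (hd ▸ sub_mem l.2 k.2)
      have hi := i.2
      have hj := j.2
      have ht0 : t = 0 := by
        rcases lt_trichotomy t 0 with h | h | h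
        · nlinarith
        · exact h
        · nlinarith
      have hij : i = j := Fin.ext (by rw [ht0, mul_zero] at ht; omega)
      subst hij
      exact Prod.ext rfl (Subtype.ext (add_left_cancel he'))
    · rintro ⟨x, hx⟩
      obtain ⟨k, hk, q, hq, rfl⟩ := AddSubgroup.mem_sup.mp hx
      obtain ⟨m, rfl⟩ := AddSubgroup.mem_zmultiples_iff.mp hq
      have hN0 : (N : ℤ) ≠ 0 := by exact_mod_cast hN.ne_zero
      obtain ⟨r, hr⟩ : ∃ r : ℕ, m % N = r :=
        Int.eq_ofNat_of_zero_le (Int.emod_nonneg m hN0)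
      have hrlt : r < N := by
        have := Int.emod_lt_of_pos m (by exact_mod_cast hN.pos : (0 : ℤ) < N)
        omega
      refine ⟨⟨⟨r, hrlt⟩, ⟨(m / N) • (N • P) + k, add_mem (AddSubgroup.zsmul_mem _ hNP _) hk⟩⟩,
        Subtype.ext ?_⟩
      show r • P + ((m / N) • (N • P) + k) = k + m • P
      conv_rhs => rw [show m = (r : ℤ) + (m / N) * (N : ℤ) by rw [← hr, Int.emod_def]; ring,
        add_smul, natCast_zsmul, ← smul_smul, natCast_zsmul]
      abel
  rw [← Nat.card_congr (Equiv.ofBijective f hbij), Nat.card_prod, Nat.card_fin]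

end Group

variable {F : Type*} [Field F] [DecidableEq F] (W : WeierstrassCurve F)

/-- The subgroups containing `K` with index `N`. -/
def overGroups (K : AddSubgroup W.toAffine.Point) (N : ℕ) :
    Set (AddSubgroup W.toAffine.Point) :=
  {K' | K ≤ K' ∧ Nat.card K' = N * Nat.card K}

variable {W} in
theorem overGroups.le_comap {K K' : AddSubgroup W.toAffine.Point} [Finite K] {N : ℕ}
    (h : K' ∈ overGroups W K N) : K' ≤ K.comap (nsmulAddMonoidHom N) := by
  intro P hP
  have hidx : (K.addSubgroupOf K').index = N := by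
    have h1 := AddSubgroup.card_mul_index (K.addSubgroupOf K')
    rw [Nat.card_congr (AddSubgroup.addSubgroupOfEquivOfLe h.1).toEquiv, h.2, mul_comm N] at h1
    exact Nat.eq_of_mul_eq_mul_left Nat.card_pos h1
  have h2 := AddSubgroup.nsmul_index_mem (K.addSubgroupOf K') (⟨P, hP⟩ : K')
  rw [hidx] at h2
  exact h2

variable [IsAlgClosed F] [CharZero F] [W.IsElliptic]

/-- `[n]⁻¹ K` has order `n² |K|`. -/
theorem natCard_comap_nsmul (K : AddSubgroup W.toAffine.Point) [Finite K] {n : ℕ} (hn : n ≠ 0) :
    Nat.card (K.comap (nsmulAddMonoidHom n)) = n ^ 2 * Nat.card K := by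
  have hn' : (n : F) ≠ 0 := Nat.cast_ne_zero.mpr hn
  let g : K.comap (nsmulAddMonoidHom n) →+ K :=
    AddMonoidHom.mk' (fun x => ⟨n • (x : W.toAffine.Point), x.2⟩)
      fun x y => Subtype.ext (nsmul_add _ _ n)
  have hg : Function.Surjective g := fun Q => by
    obtain ⟨P, hP⟩ := EllTorsion.exists_nsmul_eq W hn' Q.1
    exact ⟨⟨P, by simp [hP]⟩, Subtype.ext hP⟩
  have hker : Nat.card g.ker = n ^ 2 := by
    rw [← EllTorsion.natCard_torsionBy W hn']
    refine Nat.card_congr
      { toFun := fun x => ⟨x.1.1, by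
          rw [Submodule.mem_torsionBy_iff, natCast_zsmul]
          exact congrArg Subtype.val x.2⟩
        invFun := fun x => ⟨⟨x.1, by
          have := x.2
          rw [Submodule.mem_torsionBy_iff, natCast_zsmul] at this
          simp [this, zero_mem]⟩, Subtype.ext (by
          have := x.2
          rw [Submodule.mem_torsionBy_iff, natCast_zsmul] at this
          exact this)⟩
        left_inv := fun x => rfl
        right_inv := fun x => rfl }
  rw [AddSubgroup.card_eq_card_quotient_mul_card_addSubgroup g.ker, hker,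
    Nat.card_congr (QuotientAddGroup.quotientKerEquivOfSurjective g hg).toEquiv, mul_comm]

theorem finite_comap_nsmul (K : AddSubgroup W.toAffine.Point) [Finite K] {n : ℕ} (hn : n ≠ 0) :
    Finite (K.comap (nsmulAddMonoidHom n)) := by
  refine Nat.finite_of_card_ne_zero ?_
  rw [natCard_comap_nsmul W K hn]
  exact mul_ne_zero (pow_ne_zero _ hn) Nat.card_pos.ne'

theorem finite_overGroups (K : AddSubgroup W.toAffine.Point) [Finite K] {N : ℕ} (hN : N.Prime) :
    (overGroups W K N).Finite := by
  have hfin : ((K.comap (nsmulAddMonoidHom N) : AddSubgroup W.toAffine.Point) :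
      Set W.toAffine.Point).Finite := @Set.toFinite _ _ (finite_comap_nsmul W K hN.ne_zero)
  refine Set.Finite.of_finite_image (f := fun K' => (K' : Set W.toAffine.Point))
    (hfin.finite_subsets.subset ?_) SetLike.coe_injective.injOn
  rintro _ ⟨K', hK', rfl⟩
  exact overGroups.le_comap hK'

theorem ncard_overGroups (K : AddSubgroup W.toAffine.Point) [Finite K] {N : ℕ} (hN : N.Prime) :
    (overGroups W K N).ncard = N + 1 := by
  classical
  haveI := finite_comap_nsmul W K hN.ne_zero
  set V := K.comap (nsmulAddMonoidHom N) with hV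
  have hKV : K ≤ V := fun P hP => AddSubgroup.nsmul_mem _ hP _
  have hVf : (V : Set W.toAffine.Point).Finite := Set.toFinite _
  have hKf : (K : Set W.toAffine.Point).Finite := Set.toFinite _
  set s := hVf.toFinset \ hKf.toFinset with hs
  have hfc : ∀ {H : AddSubgroup W.toAffine.Point} (hH : (H : Set W.toAffine.Point).Finite),
      hH.toFinset.card = Nat.card H := fun hH => by
    rw [← Set.ncard_eq_toFinset_card _ hH, ← Nat.card_coe_set_eq]; rfl
  have hscard : s.card + Nat.card K = N ^ 2 * Nat.card K := by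
    rw [← natCard_comap_nsmul W K hN.ne_zero, ← hV, ← hfc hVf, ← hfc hKf, hs]
    exact Finset.card_sdiff_add_card_eq_card (Set.Finite.toFinset_mono hKV)
  have hsmem : ∀ P, P ∈ s ↔ N • P ∈ K ∧ P ∉ K := fun P => by
    simp [hs, V]
  let gen : W.toAffine.Point → AddSubgroup W.toAffine.Point :=
    fun P => K ⊔ AddSubgroup.zmultiples P
  have hgen : ∀ P ∈ s, gen P ∈ overGroups W K N := fun P hP =>
    ⟨le_sup_left, natCard_sup_zmultiples hN ((hsmem P).mp hP).2 ((hsmem P).mp hP).1⟩
  have hfib : ∀ K' ∈ (finite_overGroups W K hN).toFinset,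
      (s.filter fun P => gen P = K').card + Nat.card K = N * Nat.card K := by
    intro K' hK'
    rw [Set.Finite.mem_toFinset] at hK'
    haveI : Finite K' := Nat.finite_of_card_ne_zero (by
      rw [hK'.2]; exact mul_ne_zero hN.ne_zero Nat.card_pos.ne')
    have hK'f : (K' : Set W.toAffine.Point).Finite := Set.toFinite _
    have he : (s.filter fun P => gen P = K') = hK'f.toFinset \ hKf.toFinset := by
      ext P
      simp only [Finset.mem_filter, Finset.mem_sdiff, Set.Finite.mem_toFinset, SetLike.mem_coe]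
      constructor
      · rintro ⟨hP, rfl⟩
        exact ⟨AddSubgroup.mem_sup_right (AddSubgroup.mem_zmultiples P), ((hsmem P).mp hP).2⟩
      · rintro ⟨hP, hPK⟩
        have hPs : P ∈ s := (hsmem P).mpr ⟨overGroups.le_comap hK' hP, hPK⟩
        refine ⟨hPs, AddSubgroup.eq_of_le_of_card_ge
          (sup_le hK'.1 (AddSubgroup.zmultiples_le.mpr hP)) ?_⟩
        rw [hK'.2, ← (hgen P hPs).2]
    rw [he, ← hK'.2, ← hfc hK'f, ← hfc hKf]
    exact Finset.card_sdiff_add_card_eq_card (Set.Finite.toFinset_mono hK'.1)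
  have hsum := Finset.card_eq_sum_card_fiberwise (f := gen)
    (fun P hP => (Set.Finite.mem_toFinset (finite_overGroups W K hN)).mpr (hgen P hP))
  have hconst : ∀ K' ∈ (finite_overGroups W K hN).toFinset,
      (s.filter fun P => gen P = K').card = (N - 1) * Nat.card K := fun K' hK' => by
    rw [Nat.sub_mul, one_mul, ← hfib K' hK', Nat.add_sub_cancel]
  rw [Finset.sum_congr rfl hconst, Finset.sum_const, smul_eq_mul,
    ← Set.ncard_eq_toFinset_card _ (finite_overGroups W K hN)] at hsum
  rw [hsum] at hscard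
  obtain ⟨M, hM⟩ : ∃ M, N = M + 2 := ⟨N - 2, (Nat.sub_add_cancel hN.two_le).symm⟩
  subst hM
  have hk : 0 < Nat.card K := Nat.card_pos
  rw [show M + 2 - 1 = M + 1 by omega] at hscard
  have e : (overGroups W K (M + 2)).ncard * ((M + 1) * Nat.card K)
      = (M + 3) * ((M + 1) * Nat.card K) := by
    nlinarith [hscard]
  exact Nat.eq_of_mul_eq_mul_right (by positivity) e

end FLTA.Mazur
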