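import Fermat.Agent.Mazur.LatticeInvariants
import Fermat.Agent.Igusa.ModPoly
import Fermat.Agent.Bridge.ModHol

/-!
# The modular polynomial on the upper half plane

`Φ_N (j τ, Y) = (Y - j (N τ)) ∏_b (Y - j ((τ + b) / N))`, deduced from the identity of
`q`-expansions defining `Φ_N`.
-/

set_option autoImplicit false
set_option maxHeartbeats 400000

noncomputable section

open Polynomial UpperHalfPlane ModularCurve
open Complex (exp)
open scoped Real

namespace FLTA.Mazur.Lattice

open FLTA.Bridge (HolInfty expansion expansionFun jInv scaleTau)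

theorem coeffEmb_jq : coeffEmb ℂ jq = jqModC ℂ := by
  show coeffMap (algebraMap ℚ ℂ) (jqModC ℚ) = jqModC ℂ
  exact coeffMap_jqModC _

/-- `σ ↦ j (d σ)` with its membership. -/
def jScale (d : ℕ) [NeZero d] : HolInfty 1 :=
  ⟨fun σ => jInv (scaleTau d σ),
    Bridge.mem_holInfty_one_of_mem_modHol (1 * d)
      (Bridge.comp_scaleTau_mem_modHol d (Bridge.jInv_mem_modHol 1))⟩

theorem expansion_jScale (d : ℕ) [NeZero d] :
    expansion 1 (jScale d) = qExpand ℂ d (jqModC ℂ) := by
  rw [← coeffEmb_jq]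
  have h0 : expansionFun 1 jInv = coeffEmb ℂ jq := Bridge.qexp_jMod 1
  show expansionFun 1 (fun σ => jInv (scaleTau d σ)) = _
  rw [← h0]
  exact Bridge.expansionFun_comp_scaleTau d
    (Bridge.mem_holInfty_one_of_mem_modHol 1 (Bridge.jInv_mem_modHol 1))
    (Bridge.mem_holInfty_one_of_mem_modHol _
      (Bridge.comp_scaleTau_mem_modHol d (Bridge.jInv_mem_modHol 1)))

theorem mem_holInfty_translate (t : ℝ) : (fun σ : ℍ => jInv (t +ᵥ σ)) ∈ HolInfty 1 := by
  have hj := Bridge.mem_holInfty_one_of_mem_modHol 1 (Bridge.jInv_mem_modHol 1)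
  refine ⟨?_, ?_, ⟨1, ?_⟩⟩
  · rw [Bridge.mem_hol_iff_differentiableOn]
    refine DifferentiableOn.congr (f := (jInv ∘ ofComplex) ∘ fun z : ℂ => (t : ℂ) + z) ?_ ?_
    · exact (Bridge.mem_hol_iff_differentiableOn.mp hj.1).comp (by fun_prop)
        (fun z hz => by simpa using hz)
    · intro z hz
      have hz' : 0 < ((t : ℂ) + z).im := by simpa using hz
      simp only [Function.comp_apply, ofComplex_apply_of_im_pos hz, ofComplex_apply_of_im_pos hz']
      congr 1
  · intro w
    by_cases hw : 0 < w.im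
    · have hw1 : 0 < (w + ((1 : ℕ) : ℂ)).im := by simpa using hw
      have h := Bridge.periodic_jFun ((t : ℂ) + w)
      have h2 : 0 < ((t : ℂ) + w).im := by simpa using hw
      have h3 : 0 < ((t : ℂ) + w + 1).im := by simpa using hw
      simp only [Bridge.jFun, Function.comp_apply, ofComplex_apply_of_im_pos h2,
        ofComplex_apply_of_im_pos h3] at h
      simp only [Function.comp_apply, ofComplex_apply_of_im_pos hw, ofComplex_apply_of_im_pos hw1]
      refine Eq.trans ?_ h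
      congr 1
      ext1
      simp [coe_vadd]
      ring
    · have hw1 : ¬ 0 < (w + ((1 : ℕ) : ℂ)).im := by simpa using hw
      simp only [not_lt] at hw hw1
      simp only [Function.comp_apply, ofComplex_apply_of_im_nonpos hw,
        ofComplex_apply_of_im_nonpos hw1]
  · have hb := Bridge.isBoundedAtImInfty_qMulJ
    rw [UpperHalfPlane.isBoundedAtImInfty_iff] at hb ⊢
    obtain ⟨M, A, hA⟩ := hb
    refine ⟨M, A, fun σ hσ => ?_⟩
    have hn : ‖Function.Periodic.qParam 1 ((t +ᵥ σ : ℍ) : ℂ)‖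
        = ‖Function.Periodic.qParam 1 (σ : ℂ)‖ := by
      simp [Function.Periodic.norm_qParam, coe_vadd]
    have := hA (t +ᵥ σ) (by simpa using hσ)
    simp only [Bridge.qMulJ, norm_mul, hn] at this
    simpa [norm_mul] using this

/-- `σ ↦ j (σ + t)` with its membership. -/
def jShift (t : ℝ) : HolInfty 1 := ⟨_, mem_holInfty_translate t⟩

theorem expansion_jShift {N : ℕ} (hN : N ≠ 0) (i : ℕ) {ζ : ℂˣ}
    (hζ : (ζ : ℂ) = Complex.exp (2 * π * Complex.I / N)) :
    expansion 1 (jShift ((i : ℝ) / N)) = Igusa.jAt (ζ ^ i) 1 := by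
  ext m
  have h0 : expansionFun 1 jInv = coeffEmb ℂ jq := Bridge.qexp_jMod 1
  show (expansionFun 1 (fun σ : ℍ => jInv (((i : ℝ) / N) +ᵥ σ))).coeff m = _
  rw [Bridge.coeff_expansion_translate 1
    (Bridge.mem_holInfty_one_of_mem_modHol 1 (Bridge.jInv_mem_modHol 1)), h0, coeffEmb_jq,
    Igusa.jAt, qExpand_one_apply, Igusa.twist_coeff, ← zpow_natCast ζ i, ← zpow_mul,
    Units.val_zpow_eq_zpow_val, hζ, ← Complex.exp_int_mul]
  congr 2
  push_cast
  field_simp

/-- Transport of a root product along an injective and an arbitrary homomorphism. -/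
theorem transfer_rootProduct {A B E : Type*} [CommRing A] [CommRing B] [CommRing E]
    (Φ : Polynomial (Polynomial ℤ)) (x y : A) (z : ℕ → A) (n : ℕ) (e : A →+* B)
    (he : Function.Injective e) (ev : A →+* E)
    (h : Φ.map (aeval (R := ℤ) (e x)).toRingHom =
      (X - C (e y)) * ∏ i ∈ Finset.range n, (X - C (e (z i)))) :
    Φ.map (aeval (R := ℤ) (ev x)).toRingHom =
      (X - C (ev y)) * ∏ i ∈ Finset.range n, (X - C (ev (z i))) := by
  have hcomp : e.comp (aeval (R := ℤ) x).toRingHom = (aeval (R := ℤ) (e x)).toRingHom :=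
    Polynomial.ringHom_ext' (RingHom.ext_int _ _) (by simp)
  have hcomp' : ev.comp (aeval (R := ℤ) x).toRingHom = (aeval (R := ℤ) (ev x)).toRingHom :=
    Polynomial.ringHom_ext' (RingHom.ext_int _ _) (by simp)
  have hid : Φ.map (aeval (R := ℤ) x).toRingHom =
      (X - C y) * ∏ i ∈ Finset.range n, (X - C (z i)) := by
    refine Polynomial.map_injective e he ?_
    rw [Polynomial.map_map, hcomp, h]
    simp [Polynomial.map_prod]
  have := congrArg (Polynomial.map ev) hid
  rw [Polynomial.map_map, hcomp'] at this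
  simpa [Polynomial.map_prod] using this

/-- Evaluation at a point. -/
def evalAt (σ : ℍ) : HolInfty 1 →+* ℂ where
  toFun F := (F : ℍ → ℂ) σ
  map_one' := rfl
  map_mul' _ _ := rfl
  map_zero' := rfl
  map_add' _ _ := rfl

/-- The identity `Φ_N (j (N σ), Y) = (Y - j (N² σ)) ∏ (Y - j (σ + i / N))`. -/
theorem modPoly_jInv_scaleTau {N : ℕ} [NeZero N] (hN : N.Prime) (σ : ℍ) :
    (Igusa.modPoly N hN).map (aeval (R := ℤ) (jInv (scaleTau N σ))).toRingHom =
      (X - C (jInv (scaleTau (N * N) σ))) *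
        ∏ i ∈ Finset.range N, (X - C (jInv (((i : ℝ) / N) +ᵥ σ))) := by
  have hprim := Complex.isPrimitiveRoot_exp N (NeZero.ne N)
  obtain ⟨ζ, hζv⟩ : ∃ ζ : ℂˣ, (ζ : ℂ) = Complex.exp (2 * π * Complex.I / N) :=
    ⟨(hprim.isUnit (NeZero.ne N)).unit, IsUnit.unit_spec _⟩
  have hζ : IsPrimitiveRoot ζ N := IsPrimitiveRoot.coe_units_iff.mp (hζv ▸ hprim)
  exact transfer_rootProduct (Igusa.modPoly N hN) (jScale N) (jScale (N * N))
    (fun i => jShift ((i : ℝ) / N)) N (expansion 1).toRingHom (Bridge.expansion_injective 1)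
    (evalAt σ) (by
      have key := (Igusa.isModPoly_modPoly N hN).2.2 ℂ ζ hζ
      simp only [AlgHom.toRingHom_eq_coe] at key
      simp only [AlgHom.toRingHom_eq_coe, RingHom.coe_coe, expansion_jScale,
        expansion_jShift (NeZero.ne N) _ hζv]
      refine (congrArg (fun f => Polynomial.map f (Igusa.modPoly N hN)) ?_).trans key
      exact Polynomial.ringHom_ext' (RingHom.ext_int _ _) (by simp))

/-- `τ ↦ (τ + b) / N`. -/
def divTau (N : ℕ) [NeZero N] (b : ℕ) (τ : ℍ) : ℍ :=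
  ⟨((τ : ℂ) + b) / N, by
    simp [Complex.div_natCast_im]
    exact div_pos τ.im_pos (Nat.cast_pos.mpr (Nat.pos_of_ne_zero (NeZero.ne N)))⟩

theorem coe_divTau (N : ℕ) [NeZero N] (b : ℕ) (τ : ℍ) :
    (divTau N b τ : ℂ) = ((τ : ℂ) + b) / N := rfl

/-- `Φ_N (j τ, Y) = (Y - j (N τ)) ∏ (Y - j ((τ + b) / N))`. -/
theorem modPoly_jInv {N : ℕ} [NeZero N] (hN : N.Prime) (τ : ℍ) :
    (Igusa.modPoly N hN).map (aeval (R := ℤ) (jInv τ)).toRingHom =
      (X - C (jInv (scaleTau N τ))) * ∏ b : Fin N, (X - C (jInv (divTau N b τ))) := by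
  have hN0 : (N : ℂ) ≠ 0 := Nat.cast_ne_zero.mpr (NeZero.ne N)
  have h := modPoly_jInv_scaleTau hN (divTau N 0 τ)
  have h1 : scaleTau N (divTau N 0 τ) = τ := by
    ext1; simp [Bridge.coe_scaleTau, coe_divTau, mul_div_cancel₀ _ hN0]
  have h2 : scaleTau (N * N) (divTau N 0 τ) = scaleTau N τ := by
    ext1; simp [Bridge.coe_scaleTau, coe_divTau]; field_simp
  rw [h1, h2] at h
  rw [h, ← Fin.prod_univ_eq_prod_range (fun i => X - C (jInv (((i : ℝ) / N) +ᵥ divTau N 0 τ))) N]
  refine congrArg _ (Finset.prod_congr rfl fun b _ => ?_)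
  have hb : (((b : ℕ) : ℝ) / N) +ᵥ divTau N 0 τ = divTau N b τ := by
    ext1
    simp [coe_vadd, coe_divTau]
    field_simp
    ring
  rw [hb]

end FLTA.Mazur.Lattice
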