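import Fermat.Agent.Mazur.LatticeSub
import Fermat.Agent.Mazur.LatticeModPoly
import Fermat.Agent.Mazur.EllOverGroups

/-!
# The neighbours of a finite subgroup of `E(ℂ)`
-/

set_option autoImplicit false
set_option maxHeartbeats 1000000

open Polynomial WeierstrassCurve
open scoped WeierstrassCurve.Affine

namespace FLTA.Mazur.Lattice

open FLTA.Bridge (jInv scaleTau periodPairOf scalePair)

variable {L : PeriodPair} {W : WeierstrassCurve ℂ} [W.IsElliptic]

/-- Real coordinates with respect to `1, τ`. -/
theorem coord_eq_zero (τ : UpperHalfPlane) {x y : ℝ} (h : (x : ℂ) * τ + y = 0) : x = 0 ∧ y = 0 := by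
  have him := congrArg Complex.im h
  simp [τ.im_pos.ne'] at him
  subst him
  simpa using h

/-- `[n]⁻¹ K` has lattice `Λ_K / n`. -/
theorem subJ_comap_nsmul_complex (K : AddSubgroup W.toAffine.Point) [Finite K] {n : ℕ}
    (hn : n ≠ 0) : subJ W (K.comap (nsmulAddMonoidHom n)) = subJ W K := by
  obtain ⟨L, h⟩ := exists_isLatticeOf W
  obtain ⟨LK, hLK⟩ := exists_isSubLattice h K
  haveI := finite_comap_nsmul W K hn
  have hn' : (n : ℂ) ≠ 0 := Nat.cast_ne_zero.mpr hn
  have hK' : IsSubLattice h (K.comap (nsmulAddMonoidHom n))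
      (scalePair (n : ℂ)⁻¹ (inv_ne_zero hn') LK) := by
    intro z
    rw [Bridge.mem_lattice_scalePair, AddSubgroup.mem_comap, nsmulAddMonoidHom_apply, ← map_nsmul,
      ← hLK, nsmul_eq_mul]
    constructor
    · rintro ⟨l, hl, rfl⟩
      rwa [← mul_assoc, mul_inv_cancel₀ hn', one_mul]
    · intro hz
      exact ⟨_, hz, by rw [← mul_assoc, inv_mul_cancel₀ hn', one_mul]⟩
  rw [← latJ_isSubLattice h hK', latJ_scalePair, latJ_isSubLattice h hLK]

/-- The `N + 1` neighbours, indexed by `Option (Fin N)`. -/
theorem exists_neighbours (h : IsLatticeOf L W) (K : AddSubgroup W.toAffine.Point) [Finite K]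
    {N : ℕ} [NeZero N] (hN : N.Prime) (τ : UpperHalfPlane) {c : ℂ} (hc : c ≠ 0)
    {LK : PeriodPair} (hLK : IsSubLattice h K LK)
    (hlat : (scalePair c hc (periodPairOf τ)).lattice = LK.lattice) :
    ∃ g : Option (Fin N) → AddSubgroup W.toAffine.Point, Function.Injective g ∧
      (∀ o, g o ∈ overGroups W K N) ∧ subJ W (g none) = jInv (scaleTau N τ) ∧
      ∀ b : Fin N, subJ W (g (some b)) = jInv (divTau N b τ) := by
  have hN0 : (N : ℂ) ≠ 0 := Nat.cast_ne_zero.mpr hN.ne_zero
  let u : Option (Fin N) → ℂ := fun o => o.elim (c / N) fun b => c * ((τ : ℂ) + (b : ℕ)) / N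
  let M : Option (Fin N) → PeriodPair := fun o => o.elim
    (scalePair (c / N) (div_ne_zero hc hN0) (periodPairOf (scaleTau N τ)))
    fun b => scalePair c hc (periodPairOf (divTau N b τ))
  have hLKmem : ∀ z, latHom h z ∈ K ↔ ∃ m n : ℤ, (m : ℂ) * c + n * (c * τ) = z := fun z => by
    rw [← hLK, ← hlat, PeriodPair.mem_lattice]
    simp [scalePair, periodPairOf]
  have hMn : ∀ z, z ∈ (M none).lattice ↔
      ∃ m n : ℤ, (m : ℂ) * (c / N) + n * (c * τ) = z := fun z => by
    have e : c / (N : ℂ) * ((N : ℂ) * (τ : ℂ)) = c * τ := by field_simp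
    rw [PeriodPair.mem_lattice]
    simp [M, scalePair, periodPairOf, Bridge.coe_scaleTau, e]
  have hMs : ∀ (b : Fin N) z, z ∈ (M (some b)).lattice ↔
      ∃ m n : ℤ, (m : ℂ) * c + n * (c * ((τ : ℂ) + (b : ℕ)) / N) = z := fun b z => by
    rw [PeriodPair.mem_lattice]
    simp [M, scalePair, periodPairOf, coe_divTau, mul_div_assoc]
  have huM : ∀ o, u o ∈ (M o).lattice := by
    rintro (_ | b)
    · exact (hMn _).mpr ⟨1, 0, by simp [u]⟩
    · exact (hMs b _).mpr ⟨0, 1, by simp [u]⟩
  have hKM : ∀ o z, latHom h z ∈ K → z ∈ (M o).lattice := by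
    intro o z hz
    obtain ⟨m, n, rfl⟩ := (hLKmem z).mp hz
    rcases o with _ | b
    · exact (hMn _).mpr ⟨m * N, n, by push_cast; field_simp⟩
    · exact (hMs b _).mpr ⟨m - n * (b : ℕ), n * N, by push_cast; field_simp; ring⟩
  have hgenK : ∀ m n : ℤ, latHom h ((m : ℂ) * c + n * (c * τ)) ∈ K := fun m n =>
    (hLKmem _).mpr ⟨m, n, rfl⟩
  let g : Option (Fin N) → AddSubgroup W.toAffine.Point :=
    fun o => K ⊔ AddSubgroup.zmultiples (latHom h (u o))
  have hsub : ∀ o, IsSubLattice h (g o) (M o) := by
    intro o z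
    have hu : latHom h (u o) ∈ g o := AddSubgroup.mem_sup_right (AddSubgroup.mem_zmultiples _)
    constructor
    · intro hz
      rcases o with _ | b
      · obtain ⟨m, n, rfl⟩ := (hMn z).mp hz
        have e : (m : ℂ) * (c / N) + n * (c * τ)
            = m • u none + ((0 : ℤ) * c + n * (c * τ)) := by simp [u, zsmul_eq_mul]
        rw [e, map_add, map_zsmul]
        exact add_mem (AddSubgroup.zsmul_mem _ hu _) (AddSubgroup.mem_sup_left (hgenK 0 n))
      · obtain ⟨m, n, rfl⟩ := (hMs b z).mp hz
        have e : (m : ℂ) * c + n * (c * ((τ : ℂ) + (b : ℕ)) / N)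
            = n • u (some b) + ((m : ℂ) * c + (0 : ℤ) * (c * τ)) := by
          simp [u, zsmul_eq_mul]; ring
        rw [e, map_add, map_zsmul]
        exact add_mem (AddSubgroup.zsmul_mem _ hu _) (AddSubgroup.mem_sup_left (hgenK m 0))
    · intro hz
      obtain ⟨k, hk, q, hq, hkq⟩ := AddSubgroup.mem_sup.mp hz
      obtain ⟨m, rfl⟩ := AddSubgroup.mem_zmultiples_iff.mp hq
      have h1 : latHom h (z - m • u o) = k := by
        rw [map_sub, map_zsmul, ← hkq, add_sub_cancel_right]
      have h2 := hKM o _ (h1 ▸ hk)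
      have h3 := add_mem h2 ((M o).lattice.smul_mem m (huM o))
      rwa [sub_add_cancel] at h3
  have hNu : ∀ o, N • latHom h (u o) ∈ K := by
    intro o
    rw [← map_nsmul, nsmul_eq_mul, hLKmem]
    rcases o with _ | b
    · exact ⟨1, 0, by simp [u]; field_simp⟩
    · exact ⟨(b : ℕ), 1, by simp [u]; field_simp; ring⟩
  have hu_not : ∀ o, latHom h (u o) ∉ K := by
    intro o ho
    obtain ⟨m, n, e⟩ := (hLKmem _).mp ho
    rcases o with _ | b
    · simp only [u, Option.elim_none] at e
      field_simp at e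
      have := (coord_eq_zero τ (x := (N : ℝ) * n) (y := (N : ℝ) * m - 1)
        (by push_cast; linear_combination e)).2
      have h1 : (N : ℤ) * m = 1 := by exact_mod_cast sub_eq_zero.mp this
      have := Int.eq_one_of_mul_eq_one_right (by positivity) h1
      exact hN.ne_one (by exact_mod_cast this)
    · simp only [u, Option.elim_some] at e
      field_simp at e
      have := (coord_eq_zero τ (x := (N : ℝ) * n - 1) (y := (N : ℝ) * m - (b : ℕ))
        (by push_cast; linear_combination e)).1
      have h1 : (N : ℤ) * n = 1 := by exact_mod_cast sub_eq_zero.mp this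
      have := Int.eq_one_of_mul_eq_one_right (by positivity) h1
      exact hN.ne_one (by exact_mod_cast this)
  have hfin : ∀ o, Finite (g o) := fun o => Nat.finite_of_card_ne_zero (by
    rw [natCard_sup_zmultiples hN (hu_not o) (hNu o)]
    exact mul_ne_zero hN.ne_zero Nat.card_pos.ne')
  refine ⟨g, ?_, fun o => ⟨le_sup_left, natCard_sup_zmultiples hN (hu_not o) (hNu o)⟩, ?_, ?_⟩
  · intro o o' he
    have hmem : u o ∈ (M o').lattice := by
      rw [hsub o', ← he]
      exact AddSubgroup.mem_sup_right (AddSubgroup.mem_zmultiples _)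
    rcases o with _ | b <;> rcases o' with _ | b'
    · rfl
    · obtain ⟨m, n, e⟩ := (hMs b' _).mp hmem
      simp only [u, Option.elim_none] at e
      field_simp at e
      have := coord_eq_zero τ (x := (n : ℝ)) (y := (N : ℝ) * m + n * (b' : ℕ) - 1)
        (by push_cast; linear_combination e)
      obtain ⟨hx, hy⟩ := this
      rw [hx] at hy
      have h1 : (N : ℤ) * m = 1 := by
        have : (N : ℝ) * m = 1 := by linarith
        exact_mod_cast this
      have := Int.eq_one_of_mul_eq_one_right (by positivity) h1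
      exact absurd (by exact_mod_cast this : N = 1) hN.ne_one
    · obtain ⟨m, n, e⟩ := (hMn _).mp hmem
      simp only [u, Option.elim_some] at e
      field_simp at e
      have := coord_eq_zero τ (x := (N : ℝ) * n - 1) (y := (m : ℝ) - (b : ℕ))
        (by push_cast; linear_combination e)
      have h1 : (N : ℤ) * n = 1 := by exact_mod_cast sub_eq_zero.mp this.1
      have := Int.eq_one_of_mul_eq_one_right (by positivity) h1
      exact absurd (by exact_mod_cast this : N = 1) hN.ne_one
    · obtain ⟨m, n, e⟩ := (hMs b' _).mp hmem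
      simp only [u, Option.elim_some] at e
      field_simp at e
      have := coord_eq_zero τ (x := (n : ℝ) - 1) (y := (N : ℝ) * m + n * (b' : ℕ) - (b : ℕ))
        (by push_cast; linear_combination e)
      obtain ⟨hx, hy⟩ := this
      rw [sub_eq_zero.mp hx] at hy
      have h1 : (N : ℤ) * m + (b' : ℕ) - (b : ℕ) = 0 := by
        have : (N : ℝ) * m + (b' : ℕ) - (b : ℕ) = 0 := by linarith
        exact_mod_cast this
      have hb := b.2
      have hb' := b'.2
      have hm : m = 0 := by
        rcases lt_trichotomy m 0 with hm | hm | hm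
        · nlinarith
        · exact hm
        · nlinarith
      rw [hm, mul_zero, zero_add, sub_eq_zero] at h1
      rw [show b = b' from Fin.ext (by exact_mod_cast h1.symm)]
  · haveI := hfin none
    rw [← latJ_isSubLattice h (hsub none)]
    simp [M, latJ_scalePair, latJ_periodPairOf]
  · intro b
    haveI := hfin (some b)
    rw [← latJ_isSubLattice h (hsub (some b))]
    simp [M, latJ_scalePair, latJ_periodPairOf]

/-- The roots of `Φ_N (subJ W K, Y)` over `ℂ`. -/
theorem modPoly_subJ_complex (K : AddSubgroup W.toAffine.Point) [Finite K]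
    {N : ℕ} [NeZero N] (hN : N.Prime) :
    (Igusa.modPoly N hN).map (Polynomial.aeval (R := ℤ) (subJ W K)).toRingHom =
      ∏ K' ∈ (finite_overGroups W K hN).toFinset, (X - C (subJ W K')) := by
  classical
  obtain ⟨L, h⟩ := exists_isLatticeOf W
  obtain ⟨LK, hLK⟩ := exists_isSubLattice h K
  obtain ⟨τ, c, hc, hlat⟩ := exists_tau LK
  obtain ⟨g, hinj, hmem, hnone, hsome⟩ := exists_neighbours h K hN τ hc hLK hlat
  have hJ : subJ W K = jInv τ := by
    rw [← latJ_isSubLattice h hLK, ← latJ_congr hlat, latJ_scalePair, latJ_periodPairOf]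
  have himage : (finite_overGroups W K hN).toFinset = Finset.univ.image g := by
    symm
    refine Finset.eq_of_subset_of_card_le ?_ ?_
    · intro x hx
      obtain ⟨o, -, rfl⟩ := Finset.mem_image.mp hx
      exact (Set.Finite.mem_toFinset _).mpr (hmem o)
    · rw [← Set.ncard_eq_toFinset_card _ (finite_overGroups W K hN), ncard_overGroups W K hN,
        Finset.card_image_of_injective _ hinj, Finset.card_univ, Fintype.card_option,
        Fintype.card_fin]
  rw [hJ, modPoly_jInv hN τ, himage, Finset.prod_image hinj.injOn, Fintype.prod_option, hnone]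
  simp_rw [hsome]

end FLTA.Mazur.Lattice
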