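import Fermat.Agent.Mazur.EllSubJ
import Fermat.Agent.Igusa.ModPoly
import Fermat.Agent.Mazur.LatticeOver
import Mathlib.Analysis.Complex.Polynomial.Basic
import Mathlib.FieldTheory.IsAlgClosed.AlgebraicClosure
import Mathlib.FieldTheory.Galois.Infinite
import Fermat.Agent.Galois.Places

/-!
# Modular polynomials and cyclic subgroups

`Φ_N (subJ W K, Y) = ∏ (Y - subJ W K')`, the product over the `N + 1` subgroups `K' ⊇ K` of
index `N`, and `subJ W ([n]⁻¹ K) = subJ W K`.
-/

set_option autoImplicit false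

open WeierstrassCurve Polynomial
open scoped WeierstrassCurve.Affine

namespace FLTA.Mazur

variable {F : Type*} [Field F] [DecidableEq F] (W : WeierstrassCurve F)

/-- `subJ_map` for a curve already defined over the source field. -/
theorem subJ_map_self {E : Type*} [Field E] [DecidableEq E] [Algebra F E] (f : F →ₐ[F] E)
    (C : AddSubgroup W.toAffine.Point) [hC : Finite C] :
    subJ (W⁄E) (AddSubgroup.map (Affine.Point.map (W' := W) f :
      W.toAffine.Point →+ (W⁄E).toAffine.Point) C) = f (subJ W C) :=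
  @subJ_map F _ _ F _ W E _ _ _ _ f C hC

variable [IsAlgClosed F] [CharZero F] [W.IsElliptic]

/-- Dividing `K` by `n` does not change the quotient up to isomorphism. -/
theorem subJ_comap_nsmul (ι : F →+* ℂ) (K : AddSubgroup W.toAffine.Point) [Finite K]
    {n : ℕ} (hn : n ≠ 0) :
    subJ W (K.comap (nsmulAddMonoidHom n)) = subJ W K := by
  classical
  letI : Algebra F ℂ := ι.toAlgebra
  let f : F →ₐ[F] ℂ := Algebra.ofId F ℂ
  haveI : (W⁄ℂ).IsElliptic := inferInstanceAs (W.map (algebraMap F ℂ)).IsElliptic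
  let φ : W.toAffine.Point →+ (W⁄ℂ).toAffine.Point := Affine.Point.map (W' := W) f
  have hφ : Function.Injective φ := Affine.Point.map_injective (W' := W) (f := f)
  haveI := finite_comap_nsmul W K hn
  have hfinK : Finite (K.map φ) :=
    Finite.of_equiv _ (K.equivMapOfInjective φ hφ).toEquiv
  haveI := finite_comap_nsmul (W⁄ℂ) (K.map φ) hn
  have hmap : (K.comap (nsmulAddMonoidHom n)).map φ = (K.map φ).comap (nsmulAddMonoidHom n) := by
    refine AddSubgroup.eq_of_le_of_card_ge ?_ ?_
    · rintro _ ⟨P, hP, rfl⟩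
      exact ⟨n • P, hP, map_nsmul φ n P⟩
    · rw [natCard_comap_nsmul (W⁄ℂ) (K.map φ) hn, AddSubgroup.card_map_of_injective hφ,
        AddSubgroup.card_map_of_injective hφ, natCard_comap_nsmul W K hn]
  have h1 : subJ (W⁄ℂ) ((K.comap (nsmulAddMonoidHom n)).map φ) =
      f (subJ W (K.comap (nsmulAddMonoidHom n))) :=
    subJ_map_self W f (K.comap (nsmulAddMonoidHom n))
  have h2 : subJ (W⁄ℂ) (K.map φ) = f (subJ W K) := subJ_map_self W f K
  rw [hmap, Lattice.subJ_comap_nsmul_complex (K.map φ) hn, h2] at h1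
  exact (f.toRingHom.injective h1).symm

/-- The roots of `Φ_N (subJ W K, Y)` are the `subJ W K'`, with multiplicity. -/
theorem modPoly_subJ (ι : F →+* ℂ) (K : AddSubgroup W.toAffine.Point) [Finite K]
    {N : ℕ} [NeZero N] (hN : N.Prime) :
    (Igusa.modPoly N hN).map (Polynomial.aeval (R := ℤ) (subJ W K)).toRingHom =
      ∏ K' ∈ (finite_overGroups W K hN).toFinset, (X - C (subJ W K')) := by
  classical
  letI : Algebra F ℂ := ι.toAlgebra
  let f : F →ₐ[F] ℂ := Algebra.ofId F ℂ
  haveI : (W⁄ℂ).IsElliptic := inferInstanceAs (W.map (algebraMap F ℂ)).IsElliptic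
  let φ : W.toAffine.Point →+ (W⁄ℂ).toAffine.Point := Affine.Point.map (W' := W) f
  have hφ : Function.Injective φ := Affine.Point.map_injective (W' := W) (f := f)
  haveI hfinK : Finite (K.map φ) :=
    Finite.of_equiv _ (K.equivMapOfInjective φ hφ).toEquiv
  have himage : (finite_overGroups (W⁄ℂ) (K.map φ) hN).toFinset =
      (finite_overGroups W K hN).toFinset.image (AddSubgroup.map φ) := by
    symm
    refine Finset.eq_of_subset_of_card_le ?_ ?_
    · intro x hx
      obtain ⟨K', hK', rfl⟩ := Finset.mem_image.mp hx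
      rw [Set.Finite.mem_toFinset] at hK' ⊢
      exact ⟨AddSubgroup.map_mono hK'.1, by
        rw [AddSubgroup.card_map_of_injective hφ, AddSubgroup.card_map_of_injective hφ, hK'.2]⟩
    · rw [Finset.card_image_of_injective _ (AddSubgroup.map_injective hφ),
        ← Set.ncard_eq_toFinset_card _ (finite_overGroups (W⁄ℂ) (K.map φ) hN),
        ncard_overGroups (W⁄ℂ) (K.map φ) hN,
        ← Set.ncard_eq_toFinset_card _ (finite_overGroups W K hN), ncard_overGroups W K hN]
  refine Polynomial.map_injective f.toRingHom f.toRingHom.injective ?_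
  rw [Polynomial.map_map, Polynomial.map_prod]
  have hcomp : f.toRingHom.comp (Polynomial.aeval (R := ℤ) (subJ W K)).toRingHom =
      (Polynomial.aeval (R := ℤ) (subJ (W⁄ℂ) (K.map φ))).toRingHom := by
    refine Polynomial.ringHom_ext' (RingHom.ext_int _ _) ?_
    simp only [AlgHom.toRingHom_eq_coe, RingHom.comp_apply, RingHom.coe_coe, aeval_X]
    exact (subJ_map_self W f K).symm
  rw [hcomp, Lattice.modPoly_subJ_complex (K.map φ) hN, himage,
    Finset.prod_image (AddSubgroup.map_injective hφ).injOn]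
  refine Finset.prod_congr rfl fun K' hK' => ?_
  haveI : Finite K' := Nat.finite_of_card_ne_zero (by
    rw [((Set.Finite.mem_toFinset _).mp hK').2]
    exact mul_ne_zero hN.ne_zero Nat.card_pos.ne')
  rw [Polynomial.map_sub, Polynomial.map_X, Polynomial.map_C]
  exact congrArg (fun a => X - C a) (subJ_map_self W f K')

/-- `Φ_N (subJ W K, subJ W K') = 0` for `K ⊆ K'` of index `N`. -/
theorem modPoly_eval_subJ (ι : F →+* ℂ) {K K' : AddSubgroup W.toAffine.Point} [Finite K]
    {N : ℕ} [NeZero N] (hN : N.Prime) (h : K' ∈ overGroups W K N) :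
    (Igusa.modPoly N hN).eval₂ (Polynomial.aeval (R := ℤ) (subJ W K)).toRingHom (subJ W K') = 0 := by
  rw [← Polynomial.eval_map, modPoly_subJ W ι K hN, Polynomial.eval_prod]
  exact Finset.prod_eq_zero ((Set.Finite.mem_toFinset _).mpr h) (by simp)

section Rat

/-- An embedding of `ℚ̄` into `ℂ`. -/
theorem nonempty_qbar_embedding : Nonempty (AlgebraicClosure ℚ →+* ℂ) :=
  ⟨(IsAlgClosed.lift (R := ℚ) (S := AlgebraicClosure ℚ) (M := ℂ)).toRingHom⟩

variable {W' : WeierstrassCurve ℚ}

/-- `subJ` of a Galois stable subgroup is rational. -/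
theorem exists_rat_subJ_of_stable (C : AddSubgroup (W'⁄(AlgebraicClosure ℚ)).toAffine.Point)
    [Finite C]
    (h : ∀ σ : AlgebraicClosure ℚ ≃ₐ[ℚ] AlgebraicClosure ℚ,
      C.map (Affine.Point.map (W' := W') σ.toAlgHom) = C) :
    ∃ r : ℚ, algebraMap ℚ (AlgebraicClosure ℚ) r = subJ (W'⁄(AlgebraicClosure ℚ)) C :=
  (InfiniteGalois.mem_range_algebraMap_iff_fixed _).mpr fun σ => subJ_fixed (W' := W') σ C (h σ)

end Rat

end FLTA.Mazur
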