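import Mathlib.GroupTheory.OrderOfElement
import Mathlib.GroupTheory.Index
import Mathlib.Data.ZMod.QuotientGroup
import Mathlib.Tactic.LinearCombination
import Mathlib.Algebra.Group.Subgroup.ZPowers.Basic
import Mathlib.RingTheory.Int.Basic
import Mathlib.Data.Nat.Factorization.Basic

/-!
# Cyclic `p`-power subgroups of an abelian group
-/

set_option autoImplicit false

namespace FLTA.Mazur.Cyclic

variable {G : Type*} [AddCommGroup G] {p : ℕ} (hp : p.Prime)

lemma zmultiples_nsmul_congr {x y : G} (c : ℕ)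
    (h : AddSubgroup.zmultiples x = AddSubgroup.zmultiples y) :
    AddSubgroup.zmultiples (c • x) = AddSubgroup.zmultiples (c • y) := by
  have := congrArg (AddSubgroup.map (nsmulAddMonoidHom (α := G) c)) h
  simpa [AddMonoidHom.map_zmultiples] using this

lemma addOrderOf_congr {x y : G} (h : AddSubgroup.zmultiples x = AddSubgroup.zmultiples y) :
    addOrderOf x = addOrderOf y := by
  rw [← Nat.card_zmultiples, ← Nat.card_zmultiples, h]

include hp

lemma addOrderOf_pow_nsmul {x : G} {n k : ℕ} (hx : addOrderOf x = p ^ n) (hk : k ≤ n) :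
    addOrderOf (p ^ k • x) = p ^ (n - k) := by
  rw [addOrderOf_nsmul_of_dvd (pow_ne_zero _ hp.ne_zero) (hx ▸ pow_dvd_pow p hk), hx,
    Nat.pow_div hk hp.pos]

omit hp in
lemma eq_zero_of_order_zero {x : G} (hx : addOrderOf x = p ^ 0) : x = 0 :=
  AddMonoid.addOrderOf_eq_one_iff.1 (by simpa using hx)

lemma exists_pow_eq_combination {M n : ℕ} (k : ℤ) (hk : ¬ ((p : ℤ) ^ n) ∣ k) :
    ∃ t < n, ∃ u v : ℤ, u * k + v * (p : ℤ) ^ M = (p : ℤ) ^ t := by
  obtain ⟨t, ht, hg⟩ := (Nat.dvd_prime_pow hp).1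
    (show Int.gcd k ((p : ℤ) ^ M) ∣ p ^ M from by
      have := Int.gcd_dvd_right k ((p : ℤ) ^ M)
      exact_mod_cast this)
  refine ⟨t, ?_, Int.gcdA k ((p : ℤ) ^ M), Int.gcdB k ((p : ℤ) ^ M), ?_⟩
  · by_contra hge
    apply hk
    have := Int.gcd_dvd_left k ((p : ℤ) ^ M)
    rw [hg] at this
    push_cast at this
    exact (pow_dvd_pow _ (not_lt.1 hge)).trans this
  · have := Int.gcd_eq_gcd_ab k ((p : ℤ) ^ M)
    rw [hg] at this
    push_cast at this
    linear_combination -this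

/-- In a subgroup: a multiple `k • x` with `p ^ n ∤ k` forces `p ^ (n - 1) • x` in. -/
lemma pow_nsmul_mem {S : AddSubgroup G} {x : G} {M n : ℕ} (hx : p ^ M • x ∈ S)
    {k : ℤ} (hk : k • x ∈ S) (hdvd : ¬ ((p : ℤ) ^ n) ∣ k) : p ^ (n - 1) • x ∈ S := by
  obtain ⟨t, ht, u, v, huv⟩ := exists_pow_eq_combination (M := M) hp k hdvd
  have h0 : p ^ t • x ∈ S := by
    have : ((p ^ t : ℕ) : ℤ) • x = u • (k • x) + v • (((p ^ M : ℕ) : ℤ) • x) := by
      rw [smul_smul, smul_smul, ← add_smul]; push_cast; rw [huv]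
    rw [← natCast_zsmul, this]
    exact S.add_mem (S.zsmul_mem hk _) (S.zsmul_mem (by rwa [natCast_zsmul]) _)
  have : p ^ (n - 1) • x = p ^ (n - 1 - t) • (p ^ t • x) := by
    rw [smul_smul, ← pow_add]; congr 2; omega
  rw [this]
  exact S.nsmul_mem h0 _

/-- If `⟨Q⟩ ≤ ⟨R⟩` with orders `p ^ n`, `p ^ (n+1)` then `⟨p • R⟩ = ⟨Q⟩`. -/
lemma zmultiples_nsmul_eq {Q R : G} {n : ℕ} (hQ : addOrderOf Q = p ^ n)
    (hR : addOrderOf R = p ^ (n + 1))
    (hle : AddSubgroup.zmultiples Q ≤ AddSubgroup.zmultiples R) :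
    AddSubgroup.zmultiples (p • R) = AddSubgroup.zmultiples Q := by
  obtain ⟨k, hk⟩ := AddSubgroup.mem_zmultiples_iff.1 (hle (AddSubgroup.mem_zmultiples Q))
  have h0 : ((p : ℤ) ^ n * k) • R = 0 := by
    rw [mul_smul, hk, ← Nat.cast_pow, natCast_zsmul, ← hQ]; exact addOrderOf_nsmul_eq_zero Q
  have hdvd := addOrderOf_dvd_iff_zsmul_eq_zero.2 h0
  rw [hR, pow_succ] at hdvd
  push_cast at hdvd
  obtain ⟨m, rfl⟩ : (p : ℤ) ∣ k :=
    (mul_dvd_mul_iff_left (pow_ne_zero _ (by exact_mod_cast hp.ne_zero))).1 hdvd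
  have hQm : Q ∈ AddSubgroup.zmultiples (p • R) := by
    refine AddSubgroup.mem_zmultiples_iff.2 ⟨m, ?_⟩
    rw [← natCast_zsmul, smul_smul, mul_comm]; exact hk
  have hfin : IsOfFinAddOrder (p • R) :=
    (addOrderOf_pos_iff.1 (hR ▸ pow_pos hp.pos _)).nsmul
  have : Finite (AddSubgroup.zmultiples (p • R)) :=
    (IsOfFinAddOrder.finite_zmultiples hfin).to_subtype
  symm
  refine AddSubgroup.eq_of_le_of_card_ge (AddSubgroup.zmultiples_le_of_mem hQm) ?_
  rw [Nat.card_zmultiples, Nat.card_zmultiples, hQ,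
    ← pow_one p, addOrderOf_pow_nsmul hp hR (by omega)]
  simp

omit hp in
lemma zmultiples_le_of_nsmul {Q R : G}
    (h : AddSubgroup.zmultiples (p • R) = AddSubgroup.zmultiples Q) :
    AddSubgroup.zmultiples Q ≤ AddSubgroup.zmultiples R := by
  rw [← h]
  exact AddSubgroup.zmultiples_le_of_mem (AddSubgroup.nsmul_mem _ (AddSubgroup.mem_zmultiples R) p)

/-- If the `p`-torsion of `S` is cyclic, so is its `p ^ n`-torsion. -/
lemma mem_zmultiples_of_rank_one {S : AddSubgroup G}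
    (h1 : ∀ X ∈ S, ∀ Y ∈ S, p • X = 0 → p • Y = 0 → Y ≠ 0 → X ∈ AddSubgroup.zmultiples Y) :
    ∀ {n : ℕ} {X Y : G}, X ∈ S → Y ∈ S → p ^ n • X = 0 → addOrderOf Y = p ^ n →
      X ∈ AddSubgroup.zmultiples Y := by
  intro n
  induction n with
  | zero => intro X Y _ _ hX0 _; rw [pow_zero, one_smul] at hX0; rw [hX0]; exact zero_mem _
  | succ n ih =>
    intro X Y hX hY hX0 hY0
    have hY1 : addOrderOf (p • Y) = p ^ n := by
      rw [← pow_one p, addOrderOf_pow_nsmul hp hY0 (by omega), pow_one]; simp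
    obtain ⟨k, hk⟩ := AddSubgroup.mem_zmultiples_iff.1
      (ih (nsmul_mem hX p) (nsmul_mem hY p)
        (by rw [smul_smul, ← pow_succ]; exact hX0) hY1)
    have hne : p ^ n • Y ≠ 0 := fun h0 => by
      have h' := addOrderOf_pow_nsmul hp hY0 (Nat.le_succ n)
      rw [h0, addOrderOf_zero, show n + 1 - n = 1 by omega, pow_one] at h'
      exact hp.one_lt.ne h'
    have hd : X - k • Y ∈ AddSubgroup.zmultiples (p ^ n • Y) := by
      refine h1 _ (sub_mem hX (zsmul_mem hY k)) _ (nsmul_mem hY _) ?_ ?_ hne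
      · rw [nsmul_sub, smul_comm p k Y, hk, sub_self]
      · rw [smul_smul, ← pow_succ', ← hY0, addOrderOf_nsmul_eq_zero]
    have : X = (X - k • Y) + k • Y := by abel
    rw [this]
    refine add_mem ?_ (zsmul_mem (AddSubgroup.mem_zmultiples Y) k)
    exact AddSubgroup.zmultiples_le_of_mem
      (AddSubgroup.nsmul_mem _ (AddSubgroup.mem_zmultiples Y) _) hd

/-- A subgroup of a group of order `p ^ 2` which misses some element is cyclic on `p`-torsion. -/
lemma mem_zmultiples_of_proper (hG : Nat.card {x : G // p • x = 0} = p ^ 2) {S : AddSubgroup G}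
    {P : G} (hP : p • P = 0) (hPS : P ∉ S) {X Y : G} (hX : X ∈ S) (hY : Y ∈ S)
    (hpX : p • X = 0) (hpY : p • Y = 0) (hY0 : Y ≠ 0) : X ∈ AddSubgroup.zmultiples Y := by
  set T : AddSubgroup G := (nsmulAddMonoidHom (α := G) p).ker with hT
  have hTmem : ∀ x, x ∈ T ↔ p • x = 0 := fun x => by simp [hT]
  have hTcard : Nat.card T = p ^ 2 :=
    (Nat.card_congr (Equiv.subtypeEquivRight hTmem)).trans hG
  have : Finite T := Nat.finite_of_card_ne_zero (by rw [hTcard]; exact pow_ne_zero _ hp.ne_zero)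
  set U := S ⊓ T with hU
  have hUT : U ≤ T := inf_le_right
  have hYU : AddSubgroup.zmultiples Y ≤ U :=
    AddSubgroup.zmultiples_le_of_mem ⟨hY, (hTmem Y).2 hpY⟩
  have : Finite U := Finite.of_injective _ (AddSubgroup.inclusion_injective hUT)
  have hlt : Nat.card U ≠ p ^ 2 := fun h => by
    have he := AddSubgroup.eq_of_le_of_card_ge hUT (by rw [h, hTcard])
    exact hPS (he.ge ((hTmem P).2 hP)).1
  obtain ⟨i, hi, hcard⟩ := (Nat.dvd_prime_pow hp).1
    (hTcard ▸ AddSubgroup.card_dvd_of_le hUT)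
  have hle : Nat.card U ≤ p := by
    rcases Nat.le_one_iff_eq_zero_or_eq_one.1
        (Nat.lt_succ_iff.1 (lt_of_le_of_ne hi fun h => hlt (by rw [hcard, h]))) with rfl | rfl
    · simp [hcard, hp.one_lt.le]
    · simp [hcard]
  have hYc : Nat.card (AddSubgroup.zmultiples Y) = p := by
    rw [Nat.card_zmultiples]
    exact ((Nat.dvd_prime hp).1 (addOrderOf_dvd_of_nsmul_eq_zero hpY)).resolve_left
      (fun h => hY0 (AddMonoid.addOrderOf_eq_one_iff.1 h))
  rw [AddSubgroup.eq_of_le_of_card_ge hYU (by rw [hYc]; exact hle)]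
  exact ⟨hX, (hTmem X).2 hpX⟩

end FLTA.Mazur.Cyclic
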