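import Fermat.Agent.Mazur.CofixedData
import Fermat.Agent.Mazur.EllCyclic

/-!
# The plane `[p]⁻¹⟨Q⟩ / ⟨Q⟩` with its Galois action
-/

set_option autoImplicit false

open scoped Classical

open WeierstrassCurve

open scoped WeierstrassCurve.Affine

namespace FLTA.Mazur

open FLTA.EllReduction

local notation "Qbar" => AlgebraicClosure ℚ
local notation "Γℚ" => (AlgebraicClosure ℚ ≃ₐ[ℚ] AlgebraicClosure ℚ)

variable {W : WeierstrassCurve ℤ}

lemma nsmul_zsmul_comm {G : Type*} [AddCommGroup G] (n : ℕ) (k : ℤ) (x : G) :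
    n • (k • x) = k • (n • x) := smul_comm n k x

lemma smul_nsmul_geom (σ : Γℚ) (n : ℕ) (x : GeomPoint W) : σ • (n • x) = n • (σ • x) :=
  map_nsmul (DistribSMul.toAddMonoidHom (GeomPoint W) σ) n x

lemma smul_zsmul_geom (σ : Γℚ) (n : ℤ) (x : GeomPoint W) : σ • (n • x) = n • (σ • x) :=
  map_zsmul (DistribSMul.toAddMonoidHom (GeomPoint W) σ) n x

/-- Complements in a plane over `ZMod p`. -/
lemma isCompl_of_card {p : ℕ} [Fact p.Prime] {V : Type*} [AddCommGroup V] [Module (ZMod p) V]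
    [Finite V] (hV : Nat.card V = p ^ 2) {C : Submodule (ZMod p) V} (hC : Nat.card C = p) {y : V}
    (hy : y ∉ C) : IsCompl C (Submodule.span (ZMod p) {y}) := by
  have hp : p.Prime := Fact.out
  have hy0 : y ≠ 0 := fun h => hy (h ▸ C.zero_mem)
  have h2 : Module.finrank (ZMod p) V = 2 := by
    have h := Module.natCard_eq_pow_finrank (K := ZMod p) (V := V)
    rw [hV, Nat.card_zmod] at h
    exact (Nat.pow_right_injective hp.two_le h).symm
  have h1 : Module.finrank (ZMod p) C = 1 := by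
    have h := Module.natCard_eq_pow_finrank (K := ZMod p) (V := C)
    rw [hC, Nat.card_zmod] at h
    exact (Nat.pow_right_injective hp.two_le ((pow_one p).trans h)).symm
  refine (Submodule.isCompl_iff_disjoint _ _ ?_).2 (Submodule.disjoint_span_singleton_of_notMem hy)
  rw [h2, h1, finrank_span_singleton hy0]

/-- `x` with `p • x ∈ ⟨Q⟩`. -/
noncomputable def divSub (p : ℕ) (Q : GeomPoint W) : AddSubgroup (GeomPoint W) :=
  (AddSubgroup.zmultiples Q).comap (nsmulAddMonoidHom p)

/-- `⟨Q⟩` inside `divSub p Q`. -/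
noncomputable def baseSub (p : ℕ) (Q : GeomPoint W) : AddSubgroup (divSub p Q) :=
  (AddSubgroup.zmultiples Q).addSubgroupOf (divSub p Q)

lemma mem_divSub {p : ℕ} {Q x : GeomPoint W} :
    x ∈ divSub p Q ↔ p • x ∈ AddSubgroup.zmultiples Q := Iff.rfl

lemma mem_baseSub {p : ℕ} {Q : GeomPoint W} {x : divSub p Q} :
    x ∈ baseSub p Q ↔ (x : GeomPoint W) ∈ AddSubgroup.zmultiples Q := Iff.rfl

/-- The `ZMod p`-plane `[p]⁻¹⟨Q⟩ / ⟨Q⟩`. -/
abbrev QuotV (p : ℕ) (Q : GeomPoint W) : Type := divSub p Q ⧸ baseSub p Q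

lemma nsmul_quotV_eq_zero (p : ℕ) (Q : GeomPoint W) (v : QuotV p Q) : p • v = 0 := by
  induction v using QuotientAddGroup.induction_on with
  | _ x =>
    rw [← QuotientAddGroup.mk_nsmul, QuotientAddGroup.eq_zero_iff, mem_baseSub]
    exact x.2

noncomputable instance quotVModule (p : ℕ) (Q : GeomPoint W) : Module (ZMod p) (QuotV p Q) :=
  AddCommGroup.zmodModule (nsmul_quotV_eq_zero p Q)

/-- The class of an element with `p • x ∈ ⟨Q⟩`. -/
noncomputable def qmk (p : ℕ) (Q : GeomPoint W) : divSub p Q →+ QuotV p Q :=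
  QuotientAddGroup.mk' (baseSub p Q)

lemma qmk_surjective (p : ℕ) (Q : GeomPoint W) : Function.Surjective (qmk p Q) :=
  QuotientAddGroup.mk'_surjective _

lemma qmk_eq_zero {p : ℕ} {Q : GeomPoint W} (x : divSub p Q) :
    qmk p Q x = 0 ↔ (x : GeomPoint W) ∈ AddSubgroup.zmultiples Q :=
  (QuotientAddGroup.eq_zero_iff x).trans Iff.rfl

lemma qmk_eq_iff {p : ℕ} {Q : GeomPoint W} (x y : divSub p Q) :
    qmk p Q x = qmk p Q y ↔
      (x : GeomPoint W) - (y : GeomPoint W) ∈ AddSubgroup.zmultiples Q := by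
  rw [← sub_eq_zero, ← map_sub, qmk_eq_zero]
  rfl

section Action

variable {p : ℕ} {Q : GeomPoint W} (hst : ∀ σ : Γℚ, σ • Q ∈ AddSubgroup.zmultiples Q)

include hst

lemma smul_mem_zmultiples (σ : Γℚ) {x : GeomPoint W} (hx : x ∈ AddSubgroup.zmultiples Q) :
    σ • x ∈ AddSubgroup.zmultiples Q := by
  obtain ⟨k, rfl⟩ := AddSubgroup.mem_zmultiples_iff.1 hx
  rw [smul_zsmul_geom]
  exact AddSubgroup.zsmul_mem _ (hst σ) k

lemma smul_mem_divSub (σ : Γℚ) {x : GeomPoint W} (hx : x ∈ divSub p Q) : σ • x ∈ divSub p Q := by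
  rw [mem_divSub, ← smul_nsmul_geom]
  exact smul_mem_zmultiples hst σ hx

/-- The action on `divSub p Q`. -/
noncomputable def divSmul (σ : Γℚ) : divSub p Q →+ divSub p Q :=
  ((DistribSMul.toAddMonoidHom (GeomPoint W) σ).comp (divSub p Q).subtype).codRestrict _
    fun x => smul_mem_divSub hst σ x.2

@[simp] lemma coe_divSmul (σ : Γℚ) (x : divSub p Q) :
    ((divSmul hst σ x : divSub p Q) : GeomPoint W) = σ • (x : GeomPoint W) := rfl

/-- The induced endomorphism of the plane. -/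
noncomputable def quotSmul (σ : Γℚ) : QuotV p Q →+ QuotV p Q :=
  QuotientAddGroup.map (baseSub p Q) (baseSub p Q) (divSmul hst σ)
    fun _ hx => smul_mem_zmultiples hst σ hx

lemma quotSmul_qmk (σ : Γℚ) (x : divSub p Q) :
    quotSmul hst σ (qmk p Q x) = qmk p Q (divSmul hst σ x) := rfl

/-- The Galois action on the plane. -/
@[instance_reducible]
noncomputable def quotVAction : DistribMulAction Γℚ (QuotV p Q) where
  smul σ v := quotSmul hst σ v
  one_smul v := by
    obtain ⟨x, rfl⟩ := qmk_surjective p Q v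
    exact congrArg (qmk p Q) (Subtype.ext (one_smul Γℚ (x : GeomPoint W)))
  mul_smul σ τ v := by
    obtain ⟨x, rfl⟩ := qmk_surjective p Q v
    exact congrArg (qmk p Q) (Subtype.ext (mul_smul σ τ (x : GeomPoint W)))
  smul_zero σ := map_zero (quotSmul hst σ)
  smul_add σ v w := map_add (quotSmul hst σ) v w

lemma quotSmul_qmk_eq_self (σ : Γℚ) (x : divSub p Q)
    (h : σ • (x : GeomPoint W) - (x : GeomPoint W) ∈ AddSubgroup.zmultiples Q) :
    quotSmul hst σ (qmk p Q x) = qmk p Q x := by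
  rw [quotSmul_qmk, qmk_eq_iff, coe_divSmul]
  exact h

end Action

section Card

variable {p : ℕ} (hp : p.Prime) (hΔ : W.Δ ≠ 0) {m : ℕ} {Q : GeomPoint W}
  (hQ : addOrderOf Q = p ^ m)

include hp hΔ

lemma natCard_nsmul_ker : Nat.card (nsmulAddMonoidHom (α := GeomPoint W) p).ker = p ^ 2 := by
  rw [← FLTA.EllTorsion.natCard_torsionBy_intModel W hΔ hp.ne_zero]
  exact Nat.card_congr (Equiv.subtypeEquivRight fun x => by
    rw [Submodule.mem_torsionBy_iff, natCast_zsmul]; exact Iff.rfl)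

lemma exists_nsmul_geom (y : GeomPoint W) : ∃ x : GeomPoint W, p • x = y := by
  have : ((W.map (Int.castRingHom ℚ))⁄Qbar).IsElliptic := by
    refine ⟨isUnit_iff_ne_zero.2 ?_⟩
    simp [WeierstrassCurve.baseChange, WeierstrassCurve.map_Δ, hΔ]
  exact FLTA.EllTorsion.exists_nsmul_eq ((W.map (Int.castRingHom ℚ))⁄Qbar)
    (n := p) (by exact_mod_cast hp.ne_zero) y

include hQ

lemma natCard_divSub : Nat.card (divSub p Q) = p ^ m * p ^ 2 := by
  let ψ : divSub p Q →+ AddSubgroup.zmultiples Q :=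
    ((nsmulAddMonoidHom p).comp (divSub p Q).subtype).codRestrict _ fun x => x.2
  have hsurj : Function.Surjective ψ := fun y => by
    obtain ⟨x, hx⟩ := exists_nsmul_geom hp hΔ (y : GeomPoint W)
    exact ⟨⟨x, by rw [mem_divSub, hx]; exact y.2⟩, Subtype.ext hx⟩
  have hker : Nat.card ψ.ker = p ^ 2 := by
    refine Eq.trans (Nat.card_congr
      (β := (nsmulAddMonoidHom (α := GeomPoint W) p).ker) ?_) (natCard_nsmul_ker hp hΔ)
    exact
      { toFun := fun x => ⟨x.1.1, congrArg Subtype.val x.2⟩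
        invFun := fun x => ⟨⟨x.1, mem_divSub.2 (by
          rw [show p • (x.1) = 0 from x.2]; exact zero_mem _)⟩, Subtype.ext x.2⟩
        left_inv := fun x => rfl
        right_inv := fun x => rfl }
  rw [AddSubgroup.card_eq_card_quotient_mul_card_addSubgroup ψ.ker, hker,
    Nat.card_congr (QuotientAddGroup.quotientKerEquivOfSurjective ψ hsurj).toEquiv,
    Nat.card_zmultiples, hQ]

lemma natCard_quotV : Nat.card (QuotV p Q) = p ^ 2 := by
  have hKcard : Nat.card (baseSub p Q) = p ^ m := by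
    have hle : AddSubgroup.zmultiples Q ≤ divSub p Q := fun x hx =>
      AddSubgroup.nsmul_mem _ hx p
    rw [baseSub, Nat.card_congr (AddSubgroup.addSubgroupOfEquivOfLe hle).toEquiv,
      Nat.card_zmultiples, hQ]
  have h := AddSubgroup.card_eq_card_quotient_mul_card_addSubgroup (baseSub p Q)
  rw [natCard_divSub hp hΔ hQ, hKcard, mul_comm] at h
  exact mul_right_cancel₀ (pow_ne_zero m hp.ne_zero) h.symm

omit hΔ in
/-- Elements killed by `p` in `⟨Q⟩` are multiples of `p ^ (m - 1) • Q`. -/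
lemma mem_zmultiples_top (hm : 1 ≤ m) {y : GeomPoint W} (hy : y ∈ AddSubgroup.zmultiples Q)
    (hy0 : p • y = 0) : y ∈ AddSubgroup.zmultiples (p ^ (m - 1) • Q) := by
  obtain ⟨k, rfl⟩ := AddSubgroup.mem_zmultiples_iff.1 hy
  rw [← natCast_zsmul, smul_smul, ← addOrderOf_dvd_iff_zsmul_eq_zero, hQ] at hy0
  have hm' : p ^ m = p * p ^ (m - 1) := by rw [← pow_succ']; congr 1; omega
  rw [hm', Nat.cast_mul, mul_dvd_mul_iff_left (by exact_mod_cast hp.ne_zero)] at hy0
  obtain ⟨k', rfl⟩ := hy0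
  refine AddSubgroup.mem_zmultiples_iff.2 ⟨k', ?_⟩
  rw [← natCast_zsmul, smul_smul, mul_comm]

omit hΔ in
/-- The only subgroup of order `p` of `⟨Q⟩`. -/
lemma zmultiples_eq_top (hm : 1 ≤ m) {P : GeomPoint W} (hP : P ∈ AddSubgroup.zmultiples Q)
    (hPo : addOrderOf P = p) :
    AddSubgroup.zmultiples P = AddSubgroup.zmultiples (p ^ (m - 1) • Q) := by
  have hmem := mem_zmultiples_top hp hQ hm hP (by rw [← hPo, addOrderOf_nsmul_eq_zero])
  have : Finite (AddSubgroup.zmultiples (p ^ (m - 1) • Q)) :=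
    Nat.finite_of_card_ne_zero (by
      rw [Nat.card_zmultiples, Cyclic.addOrderOf_pow_nsmul hp hQ (by omega)]
      exact pow_ne_zero _ hp.ne_zero)
  exact AddSubgroup.eq_of_le_of_card_ge (AddSubgroup.zmultiples_le_of_mem hmem)
    (by rw [Nat.card_zmultiples, Nat.card_zmultiples, hPo,
      Cyclic.addOrderOf_pow_nsmul hp hQ (by omega), show m - (m - 1) = 1 by omega, pow_one])

/-- The image of `E[p]` in the plane. -/
lemma natCard_torsImage (hm : 1 ≤ m) {P : GeomPoint W} (hP : P ∈ AddSubgroup.zmultiples Q)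
    (hPo : addOrderOf P = p) :
    Nat.card ((qmk p Q).comp (AddSubgroup.inclusion
      (show (nsmulAddMonoidHom (α := GeomPoint W) p).ker ≤ divSub p Q from fun x hx =>
        mem_divSub.2 (by rw [show p • x = 0 from hx]; exact zero_mem _)))).range = p := by
  set ι := (qmk p Q).comp (AddSubgroup.inclusion
      (show (nsmulAddMonoidHom (α := GeomPoint W) p).ker ≤ divSub p Q from fun x hx =>
        mem_divSub.2 (by rw [show p • x = 0 from hx]; exact zero_mem _))) with hι
  have hker : Nat.card ι.ker = p := by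
    refine Eq.trans (Nat.card_congr (β := AddSubgroup.zmultiples (p ^ (m - 1) • Q)) ?_) ?_
    · exact
        { toFun := fun x => ⟨x.1.1, mem_zmultiples_top hp hQ hm ((qmk_eq_zero _).1 x.2) x.1.2⟩
          invFun := fun x => ⟨⟨x.1, by
              obtain ⟨k, hk⟩ := AddSubgroup.mem_zmultiples_iff.1 x.2
              show p • x.1 = 0
              rw [← hk, nsmul_zsmul_comm, smul_smul, ← pow_succ', show m - 1 + 1 = m by omega,
                ← hQ, addOrderOf_nsmul_eq_zero, zsmul_zero]⟩,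
            (qmk_eq_zero _).2 (AddSubgroup.zmultiples_le_of_mem
              (AddSubgroup.nsmul_mem _ (AddSubgroup.mem_zmultiples Q) _) x.2)⟩
          left_inv := fun x => rfl
          right_inv := fun x => rfl }
    · rw [← zmultiples_eq_top hp hQ hm hP hPo, Nat.card_zmultiples, hPo]
  have h := AddSubgroup.card_eq_card_quotient_mul_card_addSubgroup ι.ker
  rw [natCard_nsmul_ker hp hΔ, hker,
    Nat.card_congr (QuotientAddGroup.quotientKerEquivRange ι).toEquiv, sq] at h
  exact mul_right_cancel₀ hp.ne_zero h.symm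

end Card

end FLTA.Mazur
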