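import Fermat.Agent.Mazur.EllJData
import Fermat.Agent.Mazur.EllLattice
import Fermat.Agent.Mazur.QuotPlane

/-!
# `subJ` gives an instance of `IsEllJ`
-/

set_option autoImplicit false

open scoped Classical

open WeierstrassCurve Polynomial

open scoped WeierstrassCurve.Affine

namespace FLTA.Mazur

open FLTA.EllReduction

local notation "Qbar" => AlgebraicClosure ℚ

variable {W : WeierstrassCurve ℤ}

/-- The `j`-invariant of the quotient of `W` by a finite subgroup. -/
noncomputable def ellJ (W : WeierstrassCurve ℤ) (K : AddSubgroup (GeomPoint W)) : Qbar :=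
  subJ ((W.map (Int.castRingHom ℚ))⁄Qbar) K

lemma isElliptic_geom (hΔ : W.Δ ≠ 0) :
    ((W.map (Int.castRingHom ℚ))⁄Qbar).IsElliptic := by
  refine ⟨isUnit_iff_ne_zero.2 ?_⟩
  simp [WeierstrassCurve.baseChange, WeierstrassCurve.map_Δ, hΔ]

/-- The point type in the form used by `subJ`. -/
abbrev AffPt (W : WeierstrassCurve ℤ) : Type :=
  ((W.map (Int.castRingHom ℚ))⁄(AlgebraicClosure ℚ)).toAffine.Point

lemma finite_zmultiples_of_order {G : Type*} [AddGroup G] {Q : G} {k : ℕ} (h : addOrderOf Q = k)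
    (hk : k ≠ 0) : Finite (AddSubgroup.zmultiples Q) :=
  Nat.finite_of_card_ne_zero (by rw [Nat.card_zmultiples, h]; exact hk)

/-- An overgroup of index `p` of a cyclic `p`-group is cyclic or is `[p]⁻¹` of the index `p`
subgroup. -/
lemma overGroup_cases {p : ℕ} (hp : p.Prime) (hΔ : W.Δ ≠ 0) {n : ℕ} {Q : GeomPoint W}
    (hQ : addOrderOf Q = p ^ n) {K' : AddSubgroup (GeomPoint W)}
    (hle : AddSubgroup.zmultiples Q ≤ K') (hcard : Nat.card K' = p ^ (n + 1)) :
    (∃ R, addOrderOf R = p ^ (n + 1) ∧ K' = AddSubgroup.zmultiples R) ∨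
      (0 < n ∧ K' = divSub p (p • Q)) := by
  have : Finite K' := Nat.finite_of_card_ne_zero (by rw [hcard]; exact pow_ne_zero _ hp.ne_zero)
  by_cases h : ∃ R ∈ K', addOrderOf R = p ^ (n + 1)
  · obtain ⟨R, hR, hRo⟩ := h
    refine Or.inl ⟨R, hRo, (AddSubgroup.eq_of_le_of_card_ge
      (AddSubgroup.zmultiples_le_of_mem hR) ?_).symm⟩
    rw [hcard, Nat.card_zmultiples, hRo]
  push Not at h
  have hkill : ∀ x ∈ K', p ^ n • x = 0 := by
    intro x hx
    have hdvd : addOrderOf x ∣ p ^ (n + 1) := by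
      have := addOrderOf_dvd_natCard (⟨x, hx⟩ : K')
      rwa [hcard, AddSubgroup.addOrderOf_mk] at this
    obtain ⟨i, hi, hxi⟩ := (Nat.dvd_prime_pow hp).1 hdvd
    have hin : i ≤ n := by
      by_contra hlt
      exact h x hx (by rw [hxi, show i = n + 1 by omega])
    exact addOrderOf_dvd_iff_nsmul_eq_zero.1 (hxi ▸ pow_dvd_pow p hin)
  have hn : 0 < n := by
    by_contra h0
    obtain rfl : n = 0 := by omega
    have hbot : K' = ⊥ := (AddSubgroup.eq_bot_iff_forall _).2 fun x hx => by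
      simpa using hkill x hx
    rw [hbot, AddSubgroup.card_bot] at hcard
    simp at hcard
    exact hp.one_lt.ne hcard
  refine Or.inr ⟨hn, ?_⟩
  have hle' : K' ≤ divSub p (p • Q) := by
    intro x hx
    have hidx : (AddSubgroup.zmultiples Q).relIndex K' = p := by
      have h := AddSubgroup.relIndex_mul_relIndex ⊥ (AddSubgroup.zmultiples Q) K' bot_le hle
      rw [AddSubgroup.relIndex_bot_left, AddSubgroup.relIndex_bot_left, Nat.card_zmultiples, hQ,
        hcard, pow_succ] at h
      exact mul_left_cancel₀ (pow_ne_zero n hp.ne_zero) h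
    have hpx : p • x ∈ AddSubgroup.zmultiples Q := by
      have h := AddSubgroup.nsmul_index_mem ((AddSubgroup.zmultiples Q).addSubgroupOf K') ⟨x, hx⟩
      rw [show ((AddSubgroup.zmultiples Q).addSubgroupOf K').index = p from hidx] at h
      exact h
    obtain ⟨k, hk⟩ := AddSubgroup.mem_zmultiples_iff.1 hpx
    have h0 : ((p : ℤ) ^ (n - 1) * k) • Q = 0 := by
      rw [mul_smul, hk, ← Nat.cast_pow, natCast_zsmul, smul_smul, ← pow_succ,
        show n - 1 + 1 = n by omega]
      exact hkill x hx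
    rw [← addOrderOf_dvd_iff_zsmul_eq_zero, hQ, show n = n - 1 + 1 by omega, pow_succ,
      Nat.cast_mul, Nat.cast_pow, Nat.add_sub_cancel,
      mul_dvd_mul_iff_left (pow_ne_zero _ (by exact_mod_cast hp.ne_zero))] at h0
    obtain ⟨k', rfl⟩ := h0
    rw [mem_divSub, ← hk]
    exact AddSubgroup.mem_zmultiples_iff.2 ⟨k', by rw [← natCast_zsmul, smul_smul, mul_comm]⟩
  have hQ1 : addOrderOf (p • Q) = p ^ (n - 1) := by
    have h1 := Cyclic.addOrderOf_pow_nsmul hp hQ (k := 1) (by omega)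
    rwa [pow_one] at h1
  have hD := natCard_divSub hp hΔ hQ1
  have : Finite (divSub p (p • Q)) := Nat.finite_of_card_ne_zero (by
    rw [hD]; exact mul_ne_zero (pow_ne_zero _ hp.ne_zero) (pow_ne_zero _ hp.ne_zero))
  refine AddSubgroup.eq_of_le_of_card_ge hle' ?_
  rw [hD, hcard, ← pow_add, show n - 1 + 2 = n + 1 by omega]

lemma exists_overGroupsFinset (hΔ : W.Δ ≠ 0) (p : ℕ) [NeZero p] (hp : p.Prime) (Q : AffPt W)
    [Finite (AddSubgroup.zmultiples Q)] :
    ∃ S : Finset (AddSubgroup (AffPt W)),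
      (∀ K', K' ∈ S ↔ AddSubgroup.zmultiples Q ≤ K' ∧
        Nat.card K' = p * Nat.card (AddSubgroup.zmultiples Q)) ∧
      modPolyAt p hp (subJ ((W.map (Int.castRingHom ℚ))⁄Qbar) (AddSubgroup.zmultiples Q)) =
        ∏ K' ∈ S, (X - C (subJ ((W.map (Int.castRingHom ℚ))⁄Qbar) K')) := by
  have := isElliptic_geom hΔ
  obtain ⟨ι⟩ := nonempty_qbar_embedding
  exact ⟨(finite_overGroups _ (AddSubgroup.zmultiples Q) hp).toFinset,
    fun K' => (Set.Finite.mem_toFinset _), modPoly_subJ _ ι _ hp⟩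

lemma subJ_map_point (σ : Qbar ≃ₐ[ℚ] Qbar) (Q : AffPt W) [Finite (AddSubgroup.zmultiples Q)] :
    σ (subJ ((W.map (Int.castRingHom ℚ))⁄Qbar) (AddSubgroup.zmultiples Q)) =
      subJ ((W.map (Int.castRingHom ℚ))⁄Qbar) (AddSubgroup.zmultiples
        (Affine.Point.map (W' := W.map (Int.castRingHom ℚ)) σ.toAlgHom Q)) :=
  ((congrArg (subJ _) (AddMonoidHom.map_zmultiples _ _).symm).trans
    (subJ_map (W' := W.map (Int.castRingHom ℚ)) σ.toAlgHom (AddSubgroup.zmultiples Q))).symm

lemma ellJ_comap_nsmul (hΔ : W.Δ ≠ 0) {p : ℕ} (hp : p.Prime) (Q : AffPt W)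
    [Finite (AddSubgroup.zmultiples Q)] :
    subJ ((W.map (Int.castRingHom ℚ))⁄Qbar) (AddSubgroup.zmultiples Q) =
      subJ ((W.map (Int.castRingHom ℚ))⁄Qbar)
        ((AddSubgroup.zmultiples Q).comap (nsmulAddMonoidHom p)) := by
  have := isElliptic_geom hΔ
  obtain ⟨ι⟩ := nonempty_qbar_embedding
  exact (subJ_comap_nsmul _ ι _ hp.ne_zero).symm

/-- `ellJ` is an `IsEllJ` function. -/
theorem isEllJ_ellJ (hΔ : W.Δ ≠ 0) (p : ℕ) [NeZero p] (hp : p.Prime) :
    IsEllJ W p hp (ellJ W) := by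
  have hE := isElliptic_geom hΔ
  refine ⟨?_, fun σ n Q hQ => ?_, fun n Q hQ => ?_⟩
  · refine (subJ_bot ((W.map (Int.castRingHom ℚ))⁄Qbar)).trans ?_
    rw [WeierstrassCurve.j, Units.val_inv_eq_inv_val, coe_Δ',
      geomCurve_c₄' W, geomCurve_Δ' W, div_eq_inv_mul]
  · exact @subJ_map_point W σ Q (finite_zmultiples_of_order hQ (pow_ne_zero _ hp.ne_zero))
  · let K : AddSubgroup (GeomPoint W) := AddSubgroup.zmultiples Q
    have hK : K = AddSubgroup.zmultiples Q := rfl
    obtain ⟨S, hS, hSpoly⟩ : ∃ S : Finset (AddSubgroup (GeomPoint W)),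
        (∀ K', K' ∈ S ↔ AddSubgroup.zmultiples Q ≤ K' ∧
          Nat.card K' = p * Nat.card (AddSubgroup.zmultiples Q)) ∧
        modPolyAt p hp (ellJ W (AddSubgroup.zmultiples Q)) =
          ∏ K' ∈ S, (X - C (ellJ W K')) :=
      @exists_overGroupsFinset W hΔ p _ hp Q
        (finite_zmultiples_of_order hQ (pow_ne_zero _ hp.ne_zero))
    let f : AddSubgroup (GeomPoint W) → AddSubgroup (GeomPoint W) := fun K' =>
      if 0 < n ∧ K' = divSub p (p • Q) then AddSubgroup.zmultiples (p • Q) else K'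
    have hcardK : Nat.card K = p ^ n := by rw [hK, Nat.card_zmultiples, hQ]
    have hmemO : ∀ K', K' ∈ S ↔ K ≤ K' ∧ Nat.card K' = p ^ (n + 1) := fun K' => by
      refine (hS K').trans ?_
      show (K ≤ K' ∧ Nat.card K' = p * Nat.card K) ↔ _
      rw [hcardK, ← pow_succ']
    have hnot : 0 < n → ¬ (K ≤ AddSubgroup.zmultiples (p • Q)) := fun hn hle => by
      have hQ1 : addOrderOf (p • Q) = p ^ (n - 1) := by
        have h1 := Cyclic.addOrderOf_pow_nsmul hp hQ (k := 1) hn
        rwa [pow_one] at h1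
      have := finite_zmultiples_of_order hQ1 (pow_ne_zero _ hp.ne_zero)
      have h := AddSubgroup.card_le_of_le hle
      rw [hcardK, Nat.card_zmultiples, hQ1] at h
      exact absurd ((Nat.pow_le_pow_iff_right hp.one_lt).1 h) (by omega)
    have hinj : Set.InjOn f S := by
      intro a ha b hb hab
      simp only [f] at hab
      rw [Finset.mem_coe, hmemO] at ha hb
      split_ifs at hab with h1 h2 h2
      · exact h1.2.trans h2.2.symm
      · exact absurd (hab ▸ hb.1) (hnot h1.1)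
      · exact absurd (hab ▸ ha.1) (hnot h2.1)
      · exact hab
    have hback : 0 < n → divSub p (p • Q) ∈ S := by
      intro hn
      have hQ1 : addOrderOf (p • Q) = p ^ (n - 1) := by
        have h1 := Cyclic.addOrderOf_pow_nsmul hp hQ (k := 1) hn
        rwa [pow_one] at h1
      refine (hmemO _).2 ⟨AddSubgroup.zmultiples_le_of_mem ?_, ?_⟩
      · rw [mem_divSub]; exact AddSubgroup.mem_zmultiples _
      · rw [natCard_divSub hp hΔ hQ1, ← pow_add, show n - 1 + 2 = n + 1 by omega]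
    refine ⟨S.image f, fun K' => ?_, ?_⟩
    · rw [Finset.mem_image]
      constructor
      · rintro ⟨a, ha, rfl⟩
        obtain ⟨hle, hc⟩ := (hmemO a).1 ha
        simp only [f]
        split_ifs with h1
        · exact Or.inr ⟨h1.1, rfl⟩
        · rcases overGroup_cases hp hΔ hQ hle hc with ⟨R, hR, rfl⟩ | h2
          · exact Or.inl ⟨R, hR, rfl, hle⟩
          · exact absurd h2 h1
      · rintro (⟨R, hR, rfl, hle⟩ | ⟨hn, rfl⟩)
        · refine ⟨_, (hmemO _).2 ⟨hle, by rw [Nat.card_zmultiples, hR]⟩, ?_⟩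
          refine if_neg fun h => ?_
          obtain ⟨hn, he⟩ := h
          have hR0 : p ^ n • R = 0 := by
            have hm : R ∈ divSub p (p • Q) := he ▸ AddSubgroup.mem_zmultiples R
            obtain ⟨k, hk⟩ := AddSubgroup.mem_zmultiples_iff.1 (mem_divSub.1 hm)
            rw [show n = n - 1 + 1 by omega, pow_succ, mul_smul, ← hk, nsmul_zsmul_comm,
              smul_smul, ← pow_succ, show n - 1 + 1 = n by omega, ← hQ,
              addOrderOf_nsmul_eq_zero, zsmul_zero]
          have h' := addOrderOf_dvd_of_nsmul_eq_zero hR0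
          rw [hR] at h'
          exact absurd ((Nat.pow_dvd_pow_iff_le_right hp.one_lt).1 h') (by omega)
        · exact ⟨_, hback hn, if_pos ⟨hn, rfl⟩⟩
    · have hJ : ∀ K' ∈ S, ellJ W (f K') = ellJ W K' := by
        intro K' _
        simp only [f]
        split_ifs with h1
        · have hQ1 : addOrderOf (p • Q) = p ^ (n - 1) := by
            have h2 := Cyclic.addOrderOf_pow_nsmul hp hQ (k := 1) h1.1
            rwa [pow_one] at h2
          rw [h1.2]
          exact @ellJ_comap_nsmul W hΔ p hp (p • Q)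
            (finite_zmultiples_of_order hQ1 (pow_ne_zero _ hp.ne_zero))
        · rfl
      rw [hSpoly, show (∏ K' ∈ S, (X - C (ellJ W K'))) =
          ((S.val.map (ellJ W)).map fun a => X - C a).prod by
        rw [Multiset.map_map]; rfl, Polynomial.roots_multiset_prod_X_sub_C,
        Finset.image_val_of_injOn hinj, Multiset.map_map]
      exact (Multiset.map_congr rfl fun K' hK' => hJ K' hK').symm
where
  geomCurve_c₄' (W : WeierstrassCurve ℤ) :
      ((W.map (Int.castRingHom ℚ))⁄Qbar).c₄ = (W.c₄ : Qbar) := geomCurve_c₄ W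
  geomCurve_Δ' (W : WeierstrassCurve ℤ) :
      ((W.map (Int.castRingHom ℚ))⁄Qbar).Δ = (W.Δ : Qbar) := geomCurve_Δ W

end FLTA.Mazur
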