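import Fermat.Agent.Mazur.EllJData
import Fermat.Agent.Mazur.EllCyclic
import Fermat.Agent.EllReduction.Api
import Fermat.Agent.Galois.Places

/-!
# Multiplicative places: the `plus` chain is the torsion of the identity component

`IsPlusChain n Q`: along `0 ⊂ ⟨p^(n-1) Q⟩ ⊂ ⋯ ⊂ ⟨Q⟩` the valuation of `J` is raised to the power `p` at
every step. We show `IsPlusChain n Q ↔ Q` has order `p ^ n` and lies in the identity component.
-/

set_option autoImplicit false

open scoped Classical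

open WeierstrassCurve

namespace FLTA.Mazur

open FLTA.EllReduction

local notation "Qbar" => AlgebraicClosure ℚ

variable {W : WeierstrassCurve ℤ} {p : ℕ} [NeZero p] {hp : p.Prime}
  {J : AddSubgroup (GeomPoint W) → Qbar} {A : ValuationSubring Qbar} {ℓ : ℕ}

/-- Elements of the decomposition group respect comparisons of valuations. -/
lemma valuation_le_of_decomposition {σ : Qbar ≃ₐ[ℚ] Qbar} (hσ : σ ∈ A.decompositionSubgroup ℚ)
    {a b : Qbar} (h : A.valuation a ≤ A.valuation b) : A.valuation (σ a) ≤ A.valuation (σ b) := by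
  rcases eq_or_ne b 0 with rfl | hb
  · rw [map_zero] at h
    rw [(Valuation.zero_iff _).1 (le_zero_iff.1 h)]
  have hmem : a / b ∈ A := by
    rw [← A.valuation_le_one_iff, map_div₀]
    exact div_le_one_of_le₀ h zero_le
  have hmem' : σ (a / b) ∈ A := by
    have := (FLTA.Galois.mem_decompositionSubgroup_iff (A := A) (σ := σ)).1 hσ
    exact (this _).2 hmem
  rw [← A.valuation_le_one_iff, map_div₀, map_div₀] at hmem'
  have hb' : 0 < A.valuation (σ b) :=
    A.valuation.pos_iff.2 fun h0 => hb ((map_eq_zero_iff _ σ.injective).1 h0)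
  exact (div_le_one₀ hb').1 hmem'

lemma valuation_eq_of_decomposition {σ : Qbar ≃ₐ[ℚ] Qbar} (hσ : σ ∈ A.decompositionSubgroup ℚ)
    {a b : Qbar} (h : A.valuation a = A.valuation b) : A.valuation (σ a) = A.valuation (σ b) :=
  le_antisymm (valuation_le_of_decomposition hσ h.le) (valuation_le_of_decomposition hσ h.ge)

variable (W J p A) in
/-- Every step of the cyclic chain ending in `Q` is a `plus` step. -/
def IsPlusChain (n : ℕ) (Q : GeomPoint W) : Prop :=
  addOrderOf Q = p ^ n ∧ ∀ k ≤ n,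
    A.valuation (J (AddSubgroup.zmultiples (p ^ (n - k) • Q))) = A.valuation (J ⊥) ^ (p ^ k)

include hp in
lemma IsPlusChain.congr {n : ℕ} {Q Q' : GeomPoint W} (h : IsPlusChain W p J A n Q)
    (he : AddSubgroup.zmultiples Q = AddSubgroup.zmultiples Q') : IsPlusChain W p J A n Q' := by
  refine ⟨(Cyclic.addOrderOf_congr he).symm.trans h.1, fun k hk => ?_⟩
  rw [← Cyclic.zmultiples_nsmul_congr _ he]
  exact h.2 k hk

lemma IsPlusChain.val {n : ℕ} {Q : GeomPoint W} (h : IsPlusChain W p J A n Q) :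
    A.valuation (J (AddSubgroup.zmultiples Q)) = A.valuation (J ⊥) ^ (p ^ n) := by
  simpa using h.2 n le_rfl

include hp in
lemma IsPlusChain.pred {n : ℕ} {Q : GeomPoint W} (h : IsPlusChain W p J A (n + 1) Q) :
    IsPlusChain W p J A n (p • Q) := by
  refine ⟨?_, fun k hk => ?_⟩
  · rw [← pow_one p, Cyclic.addOrderOf_pow_nsmul hp h.1 (by omega), pow_one]; simp
  · rw [smul_smul, ← pow_succ, show n - k + 1 = n + 1 - k by omega]
    exact h.2 k (by omega)

lemma isPlusChain_zero : IsPlusChain W p J A 0 0 := by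
  refine ⟨by simp, fun k hk => ?_⟩
  obtain rfl : k = 0 := by omega
  simp

section Chain

variable (hJ : IsEllJ W p hp J) (hΦ : ModPolyPlus p hp) (hpole : 1 < A.valuation (J ⊥))

include hJ hΦ hpole

lemma one_lt_pow_val (k : ℕ) : 1 < A.valuation (J ⊥) ^ (p ^ k) :=
  one_lt_pow₀ hpole (pow_ne_zero _ hp.ne_zero)

/-- The unique forward `plus` neighbour. -/
lemma IsPlusChain.exists_succ {n : ℕ} {Q : GeomPoint W} (h : IsPlusChain W p J A n Q) :
    ∃ R, addOrderOf R = p ^ (n + 1) ∧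
      AddSubgroup.zmultiples Q ≤ AddSubgroup.zmultiples R ∧
      IsPlusChain W p J A (n + 1) R ∧
      ∀ R', addOrderOf R' = p ^ (n + 1) →
        AddSubgroup.zmultiples Q ≤ AddSubgroup.zmultiples R' →
        A.valuation (J (AddSubgroup.zmultiples R')) =
          A.valuation (J (AddSubgroup.zmultiples Q)) ^ p →
        AddSubgroup.zmultiples R' = AddSubgroup.zmultiples R := by
  obtain ⟨s, hs, hroots⟩ := hJ.roots n Q h.1
  have hx : 1 < A.valuation (J (AddSubgroup.zmultiples Q)) := by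
    rw [h.val]; exact one_lt_pow_val hJ hΦ hpole n
  have hcard := hΦ.unique A _ hx
  rw [hroots, Multiset.filter_map, Multiset.card_map] at hcard
  set t := s.filter fun K => A.valuation (J K) =
    A.valuation (J (AddSubgroup.zmultiples Q)) ^ p with ht
  have hcard' : t.card = 1 := by
    rw [ht, Finset.card_def, Finset.filter_val]; exact hcard
  obtain ⟨K, hK⟩ := Finset.card_eq_one.1 hcard'
  have hKmem : K ∈ t := hK ▸ Finset.mem_singleton_self K
  obtain ⟨hKs, hKv⟩ := Finset.mem_filter.1 hKmem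
  rcases (hs K).1 hKs with ⟨R, hR, rfl, hle⟩ | ⟨hn, rfl⟩
  · refine ⟨R, hR, hle, ⟨hR, fun k hk => ?_⟩, fun R' hR' hle' hv' => ?_⟩
    · rcases Nat.lt_or_ge k (n + 1) with hk' | hk'
      · have e : n + 1 - k = (n - k) + 1 := by omega
        rw [e, pow_succ, mul_smul]
        rw [Cyclic.zmultiples_nsmul_congr _ (Cyclic.zmultiples_nsmul_eq hp h.1 hR hle)]
        exact h.2 k (by omega)
      · obtain rfl : k = n + 1 := by omega
        simp only [Nat.sub_self, pow_zero, one_smul]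
        rw [hKv, h.val, ← pow_mul, pow_succ]
    · have hm : AddSubgroup.zmultiples R' ∈ t :=
        Finset.mem_filter.2 ⟨(hs _).2 (Or.inl ⟨R', hR', rfl, hle'⟩), hv'⟩
      rw [hK, Finset.mem_singleton] at hm
      exact hm
  · exfalso
    obtain ⟨m, rfl⟩ := Nat.exists_eq_succ_of_ne_zero hn.ne'
    rw [(h.pred (hp := hp)).val, h.val, ← pow_mul] at hKv
    have := (pow_right_injective₀ (zero_lt_one.trans hpole) hpole.ne') hKv
    have h2 : p ^ m < p ^ (m + 1) * p := by
      rw [pow_succ, mul_assoc]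
      exact lt_mul_of_one_lt_right (pow_pos hp.pos _) (Nat.one_lt_mul_iff.2
        ⟨hp.pos, hp.pos, Or.inl hp.one_lt⟩)
    simp only [Nat.succ_eq_add_one] at this
    omega

/-- A `plus` step from the `plus` subgroup of level `n` lands on the one of level `n + 1`. -/
lemma IsPlusChain.succ {n : ℕ} {Q R : GeomPoint W} (h : IsPlusChain W p J A n Q)
    (hR : addOrderOf R = p ^ (n + 1))
    (hle : AddSubgroup.zmultiples Q ≤ AddSubgroup.zmultiples R)
    (hv : A.valuation (J (AddSubgroup.zmultiples R)) =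
      A.valuation (J (AddSubgroup.zmultiples Q)) ^ p) :
    IsPlusChain W p J A (n + 1) R := by
  obtain ⟨R₀, -, -, h₀, huniq⟩ := h.exists_succ hJ hΦ hpole
  exact h₀.congr (hp := hp) (huniq R hR hle hv).symm

lemma exists_isPlusChain : ∀ n : ℕ, ∃ Q, IsPlusChain W p J A n Q
  | 0 => ⟨0, isPlusChain_zero⟩
  | n + 1 => by
    obtain ⟨Q, hQ⟩ := exists_isPlusChain n
    obtain ⟨R, -, -, hR, -⟩ := hQ.exists_succ hJ hΦ hpole
    exact ⟨R, hR⟩

lemma IsPlusChain.unique : ∀ {n : ℕ} {Q Q' : GeomPoint W}, IsPlusChain W p J A n Q →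
    IsPlusChain W p J A n Q' → AddSubgroup.zmultiples Q = AddSubgroup.zmultiples Q'
  | 0, Q, Q', h, h' => by
    rw [Cyclic.eq_zero_of_order_zero h.1, Cyclic.eq_zero_of_order_zero h'.1]
  | n + 1, Q, Q', h, h' => by
    have he := IsPlusChain.unique (h.pred (hp := hp)) (h'.pred (hp := hp))
    obtain ⟨R, -, -, -, huniq⟩ := (h.pred (hp := hp)).exists_succ hJ hΦ hpole
    have e := huniq Q h.1 (Cyclic.zmultiples_le_of_nsmul (p := p) rfl)
      (by rw [h.val, (h.pred (hp := hp)).val, ← pow_mul, pow_succ])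
    have e' := huniq Q' h'.1 (he ▸ Cyclic.zmultiples_le_of_nsmul (p := p) rfl)
      (by rw [h'.val, (h.pred (hp := hp)).val, ← pow_mul, pow_succ])
    exact e.trans e'.symm

/-- The `plus` subgroup is stable under the decomposition group. -/
lemma IsPlusChain.smul {n : ℕ} {Q : GeomPoint W} (h : IsPlusChain W p J A n Q) {σ : Qbar ≃ₐ[ℚ] Qbar}
    (hσ : σ ∈ A.decompositionSubgroup ℚ) :
    IsPlusChain W p J A n (σ • Q) ∧
      AddSubgroup.zmultiples (σ • Q) = AddSubgroup.zmultiples Q := by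
  have hord : addOrderOf (σ • Q) = addOrderOf Q :=
    addOrderOf_injective (DistribSMul.toAddMonoidHom _ σ) (MulAction.injective σ) Q
  have hplus : IsPlusChain W p J A n (σ • Q) := by
    refine ⟨hord.trans h.1, fun k hk => ?_⟩
    have hc : p ^ (n - k) • (σ • Q) = σ • (p ^ (n - k) • Q) :=
      (map_nsmul (DistribSMul.toAddMonoidHom (GeomPoint W) σ) _ Q).symm
    have ho : addOrderOf (p ^ (n - k) • Q) = p ^ k := by
      rw [Cyclic.addOrderOf_pow_nsmul hp h.1 (Nat.sub_le n k), Nat.sub_sub_self hk]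
    rw [hc, ← hJ.galois σ k _ ho]
    have hfix : σ (J ⊥) = J ⊥ := by
      rw [hJ.bot, map_div₀, map_pow, map_intCast, map_intCast]
    have := valuation_eq_of_decomposition hσ
      (a := J (AddSubgroup.zmultiples (p ^ (n - k) • Q))) (b := J ⊥ ^ p ^ k)
      (by rw [map_pow]; exact h.2 k hk)
    rw [this, map_pow, hfix, map_pow]
  exact ⟨hplus, hplus.unique hJ hΦ hpole h⟩

variable (hℓ : ℓ.Prime) (hA : A.LiesOverPrime ℓ) (hΔ : W.Δ ≠ 0) (hℓΔ : (ℓ : ℤ) ∣ W.Δ)
  (hc₄ : ¬ (ℓ : ℤ) ∣ W.c₄)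
  (hcomp : ∀ P : GeomPoint W, (∀ σ ∈ A.inertiaSubgroupIn ℚ, σ • P = P) →
    W.Δ.natAbs.factorization ℓ • P ∈ E0Z W A)

include hℓ hA hΔ hℓΔ hc₄ hcomp

/-- The `plus` chain lies in the identity component. -/
theorem IsPlusChain.mem_E0Z {n : ℕ} {Q : GeomPoint W} (h : IsPlusChain W p J A n Q) : Q ∈ E0Z W A := by
  rcases Nat.eq_zero_or_pos n with rfl | hn
  · rw [Cyclic.eq_zero_of_order_zero h.1]; exact zero_mem _
  by_contra hQ
  set v := W.Δ.natAbs.factorization ℓ with hv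
  set M := 2 * n + v with hM
  obtain ⟨Z, hZ⟩ := exists_isPlusChain hJ hΦ hpole M
  have hXplus : ∀ j ≤ M, IsPlusChain W p J A (M - j) (p ^ j • Z) := by
    intro j
    induction j with
    | zero => intro _; simpa using hZ
    | succ j ih =>
      intro hj
      have h1 := ih (by omega)
      rw [show M - j = M - (j + 1) + 1 by omega] at h1
      have h2 := h1.pred (hp := hp)
      rwa [smul_smul, ← pow_succ'] at h2
  have hX : p ^ (M - n) • Z ∉ E0Z W A := fun hmem => by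
    have h1 := hXplus (M - n) (by omega)
    rw [show M - (M - n) = n by omega] at h1
    have he := h.unique hJ hΦ hpole h1
    exact hQ ((AddSubgroup.zmultiples_le_of_mem hmem) (he ▸ AddSubgroup.mem_zmultiples Q))
  have hpM : p ^ M • Z ∈ E0Z W A := by
    rw [← hZ.1, addOrderOf_nsmul_eq_zero]; exact zero_mem _
  have hfix : ∀ σ ∈ A.inertiaSubgroupIn ℚ, σ • (p ^ (n - 1) • Z) = p ^ (n - 1) • Z := by
    intro σ hσ
    have hdec : σ ∈ A.decompositionSubgroup ℚ := by
      obtain ⟨g, -, rfl⟩ := Subgroup.mem_map.mp hσ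
      exact g.2
    obtain ⟨k, hk⟩ := AddSubgroup.mem_zmultiples_iff.1
      ((hZ.smul hJ hΦ hpole hdec).2 ▸ AddSubgroup.mem_zmultiples (σ • Z))
    have hδ : (k - 1) • Z ∈ E0Z W A := by
      rw [sub_smul, one_smul, hk]
      exact smul_sub_mem_E0Z hℓ hA (Or.inr hc₄) hΔ hσ Z
    have hdvd : ((p : ℤ) ^ (M - n + 1)) ∣ k - 1 := by
      by_contra hnd
      have := Cyclic.pow_nsmul_mem hp hpM hδ hnd
      exact hX (by simpa using this)
    obtain ⟨m, hm⟩ := hdvd
    have : (k - 1) • (p ^ (n - 1) • Z) = 0 := by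
      rw [hm, ← natCast_zsmul, smul_smul, mul_right_comm, mul_comm _ m, mul_smul]
      push_cast
      rw [← pow_add, show M - n + 1 + (n - 1) = M by omega, ← Nat.cast_pow, natCast_zsmul,
        ← hZ.1, addOrderOf_nsmul_eq_zero, smul_zero]
    rw [show σ • (p ^ (n - 1) • Z) = p ^ (n - 1) • (σ • Z) from
      map_nsmul (DistribSMul.toAddMonoidHom (GeomPoint W) σ) _ Z, ← hk]
    rw [sub_smul, one_smul, sub_eq_zero] at this
    rw [smul_comm, this]
  have hv0 : v ≠ 0 := by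
    rw [hv]
    exact (hℓ.factorization_pos_of_dvd (Int.natAbs_ne_zero.2 hΔ)
      (Int.natCast_dvd.1 hℓΔ)).ne'
  have hmem := hcomp _ hfix
  rw [smul_smul, ← natCast_zsmul] at hmem
  obtain ⟨a, ha⟩ : ∃ a, ¬ p ^ (a + 1) ∣ v ∧ a < v :=
    ⟨v.factorization p, Nat.pow_succ_factorization_not_dvd hv0 hp, Nat.factorization_lt p hv0⟩
  have hnd : ¬ ((p : ℤ) ^ (n - 1 + (a + 1))) ∣ ((v * p ^ (n - 1) : ℕ) : ℤ) := by
    rw [← Nat.cast_pow, Int.natCast_dvd_natCast, pow_add, mul_comm v]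
    exact fun hd => ha.1 ((mul_dvd_mul_iff_left (pow_ne_zero _ hp.ne_zero)).1 hd)
  have h3 := Cyclic.pow_nsmul_mem hp hpM hmem hnd
  apply hX
  rw [show M - n = (M - n - (n - 1 + a)) + (n - 1 + (a + 1) - 1) by omega, pow_add, mul_smul]
  exact nsmul_mem h3 _

omit hJ hΦ hpole hcomp in
include hp in
/-- Two points of order `p` in the identity component are proportional. -/
lemma mem_zmultiples_of_E0Z (hℓp : ℓ ≠ p) {X Y : GeomPoint W} (hX : X ∈ E0Z W A)
    (hY : Y ∈ E0Z W A) (hpX : p • X = 0) (hpY : p • Y = 0) (hY0 : Y ≠ 0) :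
    X ∈ AddSubgroup.zmultiples Y := by
  have hnd : ¬ ℓ ∣ p := fun h => hℓp ((Nat.prime_dvd_prime_iff_eq hℓ hp).1 h)
  obtain ⟨k, hk⟩ := exists_zsmul_sub_mem_E1Z hℓ hA hΔ hℓΔ hc₄ hp hY hX hpY hpX
    (fun h1 => hY0 (eq_zero_of_mem_E1Z hℓ hA hnd h1 hpY))
  have : X - k • Y = 0 := eq_zero_of_mem_E1Z hℓ hA hnd hk
    (by rw [nsmul_sub, hpX, smul_comm p k Y, hpY, nsmul_zero, sub_zero])
  rw [sub_eq_zero] at this
  rw [this]
  exact AddSubgroup.nsmul_mem _ (AddSubgroup.mem_zmultiples Y) k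

omit hJ hΦ hpole hcomp in
include hp in
/-- The `p ^ n`-torsion of the identity component is cyclic. -/
lemma mem_zmultiples_of_E0Z_pow (hℓp : ℓ ≠ p) : ∀ {n : ℕ} {X Y : GeomPoint W},
    X ∈ E0Z W A → Y ∈ E0Z W A → p ^ n • X = 0 → addOrderOf Y = p ^ n →
      X ∈ AddSubgroup.zmultiples Y :=
  Cyclic.mem_zmultiples_of_rank_one hp fun _ hX _ hY hpX hpY hY0 =>
    mem_zmultiples_of_E0Z (hp := hp) hℓ hA hΔ hℓΔ hc₄ hℓp hX hY hpX hpY hY0

/-- `plus` = order `p ^ n` in the identity component. -/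
theorem isPlusChain_iff_mem_E0Z (hℓp : ℓ ≠ p) {n : ℕ} {Q : GeomPoint W} :
    IsPlusChain W p J A n Q ↔ addOrderOf Q = p ^ n ∧ Q ∈ E0Z W A := by
  refine ⟨fun h => ⟨h.1, h.mem_E0Z hJ hΦ hpole hℓ hA hΔ hℓΔ hc₄ hcomp⟩, fun ⟨ho, hm⟩ => ?_⟩
  obtain ⟨Z, hZ⟩ := exists_isPlusChain hJ hΦ hpole n
  have hle := AddSubgroup.zmultiples_le_of_mem
    (mem_zmultiples_of_E0Z_pow (hp := hp) hℓ hA hΔ hℓΔ hc₄ hℓp hm
      (hZ.mem_E0Z hJ hΦ hpole hℓ hA hΔ hℓΔ hc₄ hcomp)
      (by rw [← ho, addOrderOf_nsmul_eq_zero]) hZ.1)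
  have : Finite (AddSubgroup.zmultiples Z) :=
    Nat.finite_of_card_ne_zero (by rw [Nat.card_zmultiples, hZ.1]; exact pow_ne_zero _ hp.ne_zero)
  refine hZ.congr (hp := hp) (AddSubgroup.eq_of_le_of_card_ge hle ?_).symm
  rw [Nat.card_zmultiples, Nat.card_zmultiples, ho, hZ.1]

end Chain

end FLTA.Mazur
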