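import Fermat.Agent.EllReduction.IntModel
import Mathlib.NumberTheory.Padics.PadicVal.Basic

/-!
# Valuations of rationals at a place and `padicValRat`
-/

set_option autoImplicit false

namespace FLTA.Mazur

local notation "Qbar" => AlgebraicClosure ℚ

variable {ℓ : ℕ} (hℓ : ℓ.Prime) {A : ValuationSubring (AlgebraicClosure ℚ)}
  (hA : A.LiesOverPrime ℓ)

include hℓ hA

lemma valuation_rat_eq {r : ℚ} (hr : r ≠ 0) :
    A.valuation (r : Qbar) = A.valuation (ℓ : Qbar) ^ padicValRat ℓ r := by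
  have hqpos : A.valuation (ℓ : Qbar) ≠ 0 :=
    A.valuation.ne_zero_iff.mpr (Nat.cast_ne_zero.mpr hℓ.ne_zero)
  have e : (r : Qbar) = ((r.num : ℤ) : Qbar) / (((r.den : ℕ) : ℤ) : Qbar) := by
    conv_lhs => rw [← Rat.num_div_den r]
    simp
  rw [e, map_div₀, FLTA.EllReduction.FreyAux.valuation_intCast A hℓ hA (Rat.num_ne_zero.mpr hr),
    FLTA.EllReduction.FreyAux.valuation_intCast A hℓ hA
      (Int.natCast_ne_zero.mpr r.den_ne_zero),
    padicValRat_def, zpow_sub₀ hqpos, zpow_natCast, zpow_natCast, padicValInt.of_nat]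

lemma valuation_prime_lt_one : A.valuation (ℓ : Qbar) < 1 := by
  have : (ℓ : Qbar) ∈ A.nonunits := hA
  exact A.mem_nonunits_iff.1 this

lemma valuation_prime_pos : 0 < A.valuation (ℓ : Qbar) :=
  A.valuation.pos_iff.mpr (Nat.cast_ne_zero.mpr hℓ.ne_zero)

lemma one_lt_valuation_rat_iff {r : ℚ} : 1 < A.valuation (r : Qbar) ↔ padicValRat ℓ r < 0 := by
  rcases eq_or_ne r 0 with rfl | hr
  · simp
  rw [valuation_rat_eq hℓ hA hr, one_lt_zpow_iff_right_of_lt_one₀
    (valuation_prime_pos hℓ hA) (valuation_prime_lt_one hℓ hA)]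

lemma valuation_eq_pow_iff {x y : ℚ} {n : ℕ} (hx : x ≠ 0) (hy : y ≠ 0) :
    A.valuation (x : Qbar) = A.valuation (y : Qbar) ^ n ↔
      (n : ℤ) * padicValRat ℓ y = padicValRat ℓ x := by
  rw [valuation_rat_eq hℓ hA hx, valuation_rat_eq hℓ hA hy, ← zpow_natCast (_ ^ _) n, ← zpow_mul,
    zpow_right_inj₀ (valuation_prime_pos hℓ hA) (valuation_prime_lt_one hℓ hA).ne, mul_comm, eq_comm]

end FLTA.Mazur
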