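import Fermat.Agent.Mazur.Core
import Fermat.Agent.Mazur.EllMult
import Fermat.Agent.Mazur.EllComponent
import Fermat.Agent.Mazur.EllJInst
import Fermat.Agent.Mazur.ValBridge

/-!
# Transport of `plus` from the places over `2` and `3` by the core statement
-/

set_option autoImplicit false

open scoped Classical

open WeierstrassCurve

namespace FLTA.Mazur

open FLTA.EllReduction

local notation "Qbar" => AlgebraicClosure ℚ
local notation "Γℚ" => (AlgebraicClosure ℚ ≃ₐ[ℚ] AlgebraicClosure ℚ)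

variable {W : WeierstrassCurve ℤ} {p : ℕ} [NeZero p]

/-- At a multiplicative place the `j`-invariant has a pole. -/
lemma one_lt_valuation_ellJ_bot (hΔ : W.Δ ≠ 0) (hp : p.Prime) {ℓ : ℕ} (hℓ : ℓ.Prime)
    {A : ValuationSubring Qbar} (hA : A.LiesOverPrime ℓ) (hℓΔ : (ℓ : ℤ) ∣ W.Δ)
    (hc₄ : ¬ (ℓ : ℤ) ∣ W.c₄) : 1 < A.valuation (ellJ W ⊥) := by
  rw [(isEllJ_ellJ hΔ p hp).bot, map_div₀, map_pow,
    valuation_intCast_of_not_dvd hℓ hA hc₄, one_pow, one_div]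
  exact (one_lt_inv₀ (A.valuation.pos_iff.mpr (Int.cast_ne_zero.mpr hΔ))).2
    (valuation_intCast_lt_one hA hℓΔ)

/-- `plus` subgroups are those of the identity component. -/
lemma isPlusChain_iff (hΔ : W.Δ ≠ 0) (hp : p.Prime) {ℓ : ℕ} (hℓ : ℓ.Prime) (hℓp : ℓ ≠ p)
    {A : ValuationSubring Qbar} (hA : A.LiesOverPrime ℓ) (hℓΔ : (ℓ : ℤ) ∣ W.Δ)
    (hc₄ : ¬ (ℓ : ℤ) ∣ W.c₄) {n : ℕ} {Q : GeomPoint W} :
    IsPlusChain W p (ellJ W) A n Q ↔ addOrderOf Q = p ^ n ∧ Q ∈ E0Z W A :=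
  isPlusChain_iff_mem_E0Z (isEllJ_ellJ hΔ p hp) (modPolyPlus p hp)
    (one_lt_valuation_ellJ_bot hΔ hp hℓ hA hℓΔ hc₄) hℓ hA hΔ hℓΔ hc₄
    (fun _ h => nsmul_mem_E0Z_of_inertia_fixed W hℓ hA hΔ hℓΔ hc₄ h) hℓp

/-- The identity component has points of every `p`-power order, stable under decomposition. -/
lemma exists_mem_E0Z_stable (hΔ : W.Δ ≠ 0) (hp : p.Prime) {ℓ : ℕ} (hℓ : ℓ.Prime) (hℓp : ℓ ≠ p)
    {A : ValuationSubring Qbar} (hA : A.LiesOverPrime ℓ) (hℓΔ : (ℓ : ℤ) ∣ W.Δ)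
    (hc₄ : ¬ (ℓ : ℤ) ∣ W.c₄) (n : ℕ) :
    ∃ Y : GeomPoint W, addOrderOf Y = p ^ n ∧ Y ∈ E0Z W A ∧
      ∀ σ ∈ A.decompositionSubgroup ℚ, σ • Y ∈ AddSubgroup.zmultiples Y := by
  have hpole := one_lt_valuation_ellJ_bot hΔ hp hℓ hA hℓΔ hc₄
  obtain ⟨Y, hY⟩ := exists_isPlusChain (isEllJ_ellJ hΔ p hp) (modPolyPlus p hp) hpole n
  obtain ⟨h1, h2⟩ := (isPlusChain_iff hΔ hp hℓ hℓp hA hℓΔ hc₄).1 hY
  refine ⟨Y, h1, h2, fun σ hσ => ?_⟩
  rw [← (hY.smul (isEllJ_ellJ hΔ p hp) (modPolyPlus p hp) hpole hσ).2]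
  exact AddSubgroup.mem_zmultiples _

lemma exists_rat_ellJ (hΔ : W.Δ ≠ 0) (hp : p.Prime) {n : ℕ} {Q : GeomPoint W}
    (hQ : addOrderOf Q = p ^ n) (hst : ∀ σ : Γℚ, σ • Q ∈ AddSubgroup.zmultiples Q) :
    ∃ r : ℚ, (r : Qbar) = ellJ W (AddSubgroup.zmultiples Q) := by
  have hfix : ∀ σ : Γℚ, σ (ellJ W (AddSubgroup.zmultiples Q))
      = ellJ W (AddSubgroup.zmultiples Q) := fun σ => by
    rw [(isEllJ_ellJ hΔ p hp).galois σ n Q hQ]
    congr 1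
    have : Finite (AddSubgroup.zmultiples Q) :=
      finite_zmultiples_of_order hQ (pow_ne_zero _ hp.ne_zero)
    refine AddSubgroup.eq_of_le_of_card_ge (AddSubgroup.zmultiples_le_of_mem (hst σ)) ?_
    rw [Nat.card_zmultiples, Nat.card_zmultiples]
    exact ((addOrderOf_injective (DistribSMul.toAddMonoidHom (GeomPoint W) σ)
      (MulAction.injective σ) Q)).ge
  obtain ⟨r, hr⟩ := (InfiniteGalois.mem_range_algebraMap_iff_fixed
    (ellJ W (AddSubgroup.zmultiples Q))).mpr hfix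
  exact ⟨r, by rw [← hr]; exact (eq_ratCast (algebraMap ℚ Qbar) r).symm⟩

/-- CORE in terms of subgroups: a stable `⟨Q⟩` over a `plus` chain which is `plus` at `2` and `3`
is `plus` at every multiplicative prime away from `p`. -/
theorem mem_E0Z_of_two_three (hΔ : W.Δ ≠ 0) (hlev : IsMazurLevel p) {m : ℕ} {Q : GeomPoint W}
    (hQ : addOrderOf Q = p ^ (m + 1)) (hst : ∀ σ : Γℚ, σ • Q ∈ AddSubgroup.zmultiples Q)
    (hbelow : ∀ ℓ : ℕ, ℓ.Prime → ℓ ≠ p → (ℓ : ℤ) ∣ W.Δ → ¬ (ℓ : ℤ) ∣ W.c₄ →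
      ∀ A : ValuationSubring Qbar, A.LiesOverPrime ℓ → p • Q ∈ E0Z W A)
    (h2Δ : (2 : ℤ) ∣ W.Δ) (h2c₄ : ¬ (2 : ℤ) ∣ W.c₄)
    {A₂ : ValuationSubring Qbar} (hA₂ : A₂.LiesOverPrime 2) (h2 : Q ∈ E0Z W A₂)
    (h3Δ : (3 : ℤ) ∣ W.Δ) (h3c₄ : ¬ (3 : ℤ) ∣ W.c₄)
    {A₃ : ValuationSubring Qbar} (hA₃ : A₃.LiesOverPrime 3) (h3 : Q ∈ E0Z W A₃)
    {ℓ : ℕ} (hℓ : ℓ.Prime) (hℓp : ℓ ≠ p) (hℓΔ : (ℓ : ℤ) ∣ W.Δ) (hc₄ : ¬ (ℓ : ℤ) ∣ W.c₄)
    {A : ValuationSubring Qbar} (hA : A.LiesOverPrime ℓ) : Q ∈ E0Z W A := by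
  have hp := hlev.prime
  have hJ := isEllJ_ellJ hΔ p hp
  have hpQ : addOrderOf (p • Q) = p ^ m := by
    have h1 := Cyclic.addOrderOf_pow_nsmul hp hQ (k := 1) (by omega)
    rwa [pow_one, Nat.add_sub_cancel] at h1
  have hstp : ∀ σ : Γℚ, σ • (p • Q) ∈ AddSubgroup.zmultiples (p • Q) := by
    intro σ
    obtain ⟨k, hk⟩ := AddSubgroup.mem_zmultiples_iff.1 (hst σ)
    rw [smul_nsmul_geom, ← hk, nsmul_zsmul_comm]
    exact AddSubgroup.zsmul_mem _ (AddSubgroup.mem_zmultiples _) k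
  obtain ⟨x, hx⟩ := exists_rat_ellJ hΔ hp hQ hst
  obtain ⟨y, hy⟩ := exists_rat_ellJ hΔ hp hpQ hstp
  -- the modular relation
  obtain ⟨s, hs, hroots⟩ := hJ.roots (m + 1) Q hQ
  have hyroot : (y : Qbar) ∈ (modPolyAt p hp (x : Qbar)).roots := by
    rw [hx, hroots, hy]
    exact Multiset.mem_map_of_mem _ ((hs _).2 (Or.inr ⟨Nat.succ_pos m, rfl⟩))
  have hrel : HasModRel p hp x y := by
    have h := (Polynomial.mem_roots'.1 hyroot).2
    rw [Polynomial.IsRoot.def, modPolyAt] at h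
    have hcomp : (algebraMap ℚ Qbar).comp (Polynomial.aeval (R := ℤ) x).toRingHom
        = (Polynomial.aeval (R := ℤ) (x : Qbar)).toRingHom := by
      refine Polynomial.ringHom_ext' (Subsingleton.elim _ _) ?_
      simp
    have h' : ((Igusa.modPoly p hp).map ((algebraMap ℚ Qbar).comp
        (Polynomial.aeval (R := ℤ) x).toRingHom)).eval (y : Qbar) = 0 := by
      rw [hcomp]; exact h
    rw [← Polynomial.map_map, ← eq_ratCast (algebraMap ℚ Qbar) y,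
      Polynomial.eval_map_apply, map_eq_zero] at h'
    exact h'
  -- valuations at a multiplicative place
  have key : ∀ {l : ℕ}, l.Prime → l ≠ p → (l : ℤ) ∣ W.Δ → ¬ (l : ℤ) ∣ W.c₄ →
      ∀ {B : ValuationSubring Qbar}, B.LiesOverPrime l →
        padicValRat l x < 0 ∧
          (Q ∈ E0Z W B ↔ (p : ℤ) * padicValRat l y = padicValRat l x) := by
    intro l hl hlp hlΔ hlc₄ B hB
    have hpole := one_lt_valuation_ellJ_bot hΔ hp hl hB hlΔ hlc₄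
    have hplus : IsPlusChain W p (ellJ W) B m (p • Q) :=
      (isPlusChain_iff hΔ hp hl hlp hB hlΔ hlc₄).2 ⟨hpQ, hbelow l hl hlp hlΔ hlc₄ B hB⟩
    have hy1 : 1 < B.valuation (y : Qbar) := by
      rw [hy, hplus.val]; exact one_lt_pow₀ hpole (pow_ne_zero _ hp.ne_zero)
    obtain ⟨s', hs', hroots'⟩ := hJ.roots m (p • Q) hpQ
    have hxmem : (x : Qbar) ∈ (modPolyAt p hp (y : Qbar)).roots := by
      rw [hy, hroots', hx]
      refine Multiset.mem_map_of_mem _ ((hs' _).2 (Or.inl ⟨Q, hQ, rfl, ?_⟩))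
      exact AddSubgroup.zmultiples_le_of_mem (AddSubgroup.nsmul_mem _ (AddSubgroup.mem_zmultiples Q) p)
    have hx1 : 1 < B.valuation (x : Qbar) := by
      rcases (modPolyPlus p hp).dichotomy B _ hy1 _ hxmem with h | h
      · rw [h]; exact one_lt_pow₀ hy1 hp.ne_zero
      · by_contra hle
        rw [← h] at hy1
        exact absurd hy1 (not_lt.2 (pow_le_one₀ zero_le (not_lt.1 hle)))
    have hx0 : x ≠ 0 := by rintro rfl; simp at hx1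
    have hy0 : y ≠ 0 := by rintro rfl; simp at hy1
    refine ⟨(one_lt_valuation_rat_iff hl hB).1 hx1, ?_⟩
    rw [← valuation_eq_pow_iff hl hB hx0 hy0]
    constructor
    · intro hQ0
      have hplus' := (isPlusChain_iff hΔ hp hl hlp hB hlΔ hlc₄).2 ⟨hQ, hQ0⟩
      rw [hx, hy, hplus'.val, hplus.val, ← pow_mul, pow_succ]
    · intro hv
      rw [hx, hy] at hv
      exact ((isPlusChain_iff hΔ hp hl hlp hB hlΔ hlc₄).1
        (hplus.succ hJ (modPolyPlus p hp) hpole hQ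
          (AddSubgroup.zmultiples_le_of_mem
            (AddSubgroup.nsmul_mem _ (AddSubgroup.mem_zmultiples Q) p)) hv)).2
  have h2p : (2 : ℕ) ≠ p := fun h => hlev.not_mem (by simp [← h])
  have h3p : (3 : ℕ) ≠ p := fun h => hlev.not_mem (by simp [← h])
  obtain ⟨k2, k2'⟩ := key Nat.prime_two h2p h2Δ h2c₄ hA₂
  obtain ⟨k3, k3'⟩ := key Nat.prime_three h3p h3Δ h3c₄ hA₃
  obtain ⟨kl, kl'⟩ := key hℓ hℓp hℓΔ hc₄ hA
  exact kl'.2 (isMinusAt_of_two_three hlev hrel ⟨k2, k2'.1 h2⟩ ⟨k3, k3'.1 h3⟩ hℓ hℓp kl).2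

end FLTA.Mazur
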