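import Fermat.Agent.Mazur.QuotPlane
import Fermat.Agent.EllTorsion.FiniteLevel
import Fermat.Prelude.Def_ExtCitation_AdmissibleExtension_v2

/-!
# Extending the stable cyclic chain by one step

`V = [p]⁻¹⟨Q⟩ / ⟨Q⟩` is an extension of the cyclotomic character by the trivial one; when it is
admissible, the vanishing of such extensions gives a stable cyclic group of order `p ^ (m + 1)`.
-/

set_option autoImplicit false

open scoped Classical

open WeierstrassCurve

open scoped WeierstrassCurve.Affine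

namespace FLTA.Mazur

open FLTA.EllReduction

local notation "Qbar" => AlgebraicClosure ℚ
local notation "Γℚ" => (AlgebraicClosure ℚ ≃ₐ[ℚ] AlgebraicClosure ℚ)

variable {W : WeierstrassCurve ℤ} {p : ℕ} [Fact p.Prime] {m : ℕ} {Q P₁ : GeomPoint W}

/-- The cyclotomic action on the quotient of the plane by the image of `E[p]`. -/
lemma exists_cyclo_correction (hP₁ : IsCofixedGen W p P₁) (hQ : addOrderOf Q = p ^ m)
    (hst : ∀ σ : Γℚ, σ • Q ∈ AddSubgroup.zmultiples Q)
    (hP₁Q : P₁ ∈ AddSubgroup.zmultiples Q) (σ : Γℚ) {x : GeomPoint W}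
    (hx : p • x ∈ AddSubgroup.zmultiples Q) :
    ∃ z : GeomPoint W, p • z = 0 ∧
      z - (σ • x - ExtCitation.cycloExp p σ • x) ∈ AddSubgroup.zmultiples Q := by
  have hp : p.Prime := Fact.out
  obtain ⟨k, hk⟩ := AddSubgroup.mem_zmultiples_iff.1 hx
  obtain ⟨a, ha⟩ := AddSubgroup.mem_zmultiples_iff.1 (hst σ)
  obtain ⟨j, hj⟩ := AddSubgroup.mem_zmultiples_iff.1 hP₁Q
  set c := ExtCitation.cycloExp p σ
  have hjdvd : ¬ ((p : ℤ) ^ m) ∣ j := fun h => by
    have h0 : j • Q = 0 := by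
      rw [← addOrderOf_dvd_iff_zsmul_eq_zero, hQ]; exact_mod_cast h
    rw [hj] at h0
    have := hP₁.order
    rw [h0, addOrderOf_zero] at this
    exact hp.one_lt.ne this
  obtain ⟨t, ht⟩ : (p : ℤ) ∣ a - c := by
    by_contra hnd
    have h1 : ((a - c) * j) • Q = 0 := by
      have e1 : σ • P₁ = (a * j) • Q := by
        rw [← hj, smul_zsmul_geom, ← ha, smul_smul, mul_comm]
      have e2 : c • P₁ = ((c : ℤ) * j) • Q := by
        rw [← hj, ← natCast_zsmul, smul_smul]
      rw [sub_mul, sub_smul, ← e1, ← e2, sub_eq_zero]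
      exact hP₁.smul_eq σ
    rw [← addOrderOf_dvd_iff_zsmul_eq_zero, hQ, Nat.cast_pow] at h1
    exact hjdvd ((((Nat.prime_iff_prime_int.1 hp).coprime_iff_not_dvd.2 hnd).pow_left
      ).dvd_of_dvd_mul_left h1)
  refine ⟨σ • x - c • x - (k * t) • Q, ?_, AddSubgroup.mem_zmultiples_iff.2 ⟨-(k * t), by simp⟩⟩
  have e1 : p • (σ • x) = (k * a) • Q := by
    rw [← smul_nsmul_geom, ← hk, smul_zsmul_geom, ← ha, smul_smul]
  have e2 : p • (c • x) = ((c : ℤ) * k) • Q := by
    rw [smul_comm p c x, ← hk, ← natCast_zsmul, smul_smul]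
  have e3 : p • ((k * t) • Q) = ((p : ℤ) * (k * t)) • Q := by
    rw [← natCast_zsmul, smul_smul]
  rw [nsmul_sub, nsmul_sub, e1, e2, e3, ← sub_smul, ← sub_smul,
    show k * a - (c : ℤ) * k - (p : ℤ) * (k * t) = 0 by linear_combination k * ht, zero_smul]

/-- A generator of a local stable line is outside the image of `E[p]`. -/
lemma qmk_ne_of_order {y : divSub p Q} (hQ : addOrderOf Q = p ^ m) (hm : 1 ≤ m)
    (hy : addOrderOf (y : GeomPoint W) = p ^ (m + 1)) {x : divSub p Q}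
    (hx : p • (x : GeomPoint W) = 0) : qmk p Q x ≠ qmk p Q y := by
  intro he
  have hp : p.Prime := Fact.out
  rw [qmk_eq_iff] at he
  obtain ⟨k, hk⟩ := AddSubgroup.mem_zmultiples_iff.1 he
  have h1 : p • (y : GeomPoint W) = (-((p : ℤ) * k)) • Q := by
    rw [neg_smul, mul_smul, hk, natCast_zsmul, nsmul_sub, hx, zero_sub, neg_neg]
  have h2 : p ^ (m - 1) • (p • (y : GeomPoint W)) = 0 := by
    rw [h1, ← natCast_zsmul, smul_smul]
    apply addOrderOf_dvd_iff_zsmul_eq_zero.1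
    rw [hQ]
    refine ⟨-k, ?_⟩
    rw [show m = m - 1 + 1 by omega, Nat.add_sub_cancel]; push_cast; ring
  rw [smul_smul, ← pow_succ, show m - 1 + 1 = m by omega] at h2
  have := Cyclic.addOrderOf_pow_nsmul hp hy (Nat.le_succ m)
  rw [h2, addOrderOf_zero, show m + 1 - m = 1 by omega, pow_one] at this
  exact hp.one_lt.ne this

/-- An element outside the image of `E[p]` generates a cyclic group of order `p ^ (m + 1)`. -/
lemma order_of_notMem (hQ : addOrderOf Q = p ^ m) (hm : 1 ≤ m) {r : divSub p Q}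
    (hr : ∀ x : divSub p Q, p • (x : GeomPoint W) = 0 → qmk p Q x ≠ qmk p Q r) :
    addOrderOf (r : GeomPoint W) = p ^ (m + 1) ∧
      AddSubgroup.zmultiples (p • (r : GeomPoint W)) = AddSubgroup.zmultiples Q := by
  have hp : p.Prime := Fact.out
  obtain ⟨k, hk⟩ := AddSubgroup.mem_zmultiples_iff.1 (mem_divSub.1 r.2)
  have hkp : ¬ (p : ℤ) ∣ k := fun ⟨k', hk'⟩ => by
    have hz : p • ((r : GeomPoint W) - k' • Q) = 0 := by
      rw [nsmul_sub, ← hk, hk', ← natCast_zsmul (k' • Q), smul_smul, sub_self]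
    refine hr ⟨_, mem_divSub.2 (by rw [hz]; exact zero_mem _)⟩ hz ?_
    rw [qmk_eq_iff]
    exact AddSubgroup.mem_zmultiples_iff.2 ⟨-k', by simp⟩
  have hm' : p ^ m = p ^ (m - 1) * p := by rw [← pow_succ]; congr 1; omega
  have hord : addOrderOf (r : GeomPoint W) = p ^ (m + 1) := by
    refine addOrderOf_eq_prime_pow ?_ ?_
    · rw [hm', mul_smul, ← hk, ← natCast_zsmul, smul_smul, ← addOrderOf_dvd_iff_zsmul_eq_zero, hQ]
      intro hdvd
      rw [hm'] at hdvd
      push_cast at hdvd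
      exact hkp ((mul_dvd_mul_iff_left (pow_ne_zero _ (by exact_mod_cast hp.ne_zero))).1 hdvd)
    · rw [pow_succ, mul_smul, ← hk, nsmul_zsmul_comm, ← hQ, addOrderOf_nsmul_eq_zero, zsmul_zero]
  refine ⟨hord, ?_⟩
  have : Finite (AddSubgroup.zmultiples Q) :=
    Nat.finite_of_card_ne_zero (by rw [Nat.card_zmultiples, hQ]; exact pow_ne_zero _ hp.ne_zero)
  refine AddSubgroup.eq_of_le_of_card_ge (AddSubgroup.zmultiples_le_of_mem (mem_divSub.1 r.2)) ?_
  have h1 := Cyclic.addOrderOf_pow_nsmul hp hord (k := 1) (by omega)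
  rw [pow_one] at h1
  rw [Nat.card_zmultiples, Nat.card_zmultiples, hQ, h1]
  simp

/-- The elements acting trivially on the plane form an open set. -/
lemma isOpen_fix_quotV (hΔ : W.Δ ≠ 0) (hQ : addOrderOf Q = p ^ m)
    (hst : ∀ σ : Γℚ, σ • Q ∈ AddSubgroup.zmultiples Q) :
    IsOpen {σ : Γℚ | ∀ v : QuotV p Q, quotSmul hst σ v = v} := by
  have hp : p.Prime := Fact.out
  obtain ⟨L, hL, hLfix⟩ := FLTA.EllTorsion.galoisFactorsThroughFiniteLevel_intModel W hΔ
    (pow_ne_zero (m + 1) hp.ne_zero)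
  let _ := quotVAction (p := p) hst
  let S : Subgroup Γℚ :=
    { carrier := {σ | ∀ v : QuotV p Q, σ • v = v}
      one_mem' := fun v => one_smul _ v
      mul_mem' := fun {a b} ha hb v => by rw [mul_smul, hb v, ha v]
      inv_mem' := fun {a} ha v => by rw [inv_smul_eq_iff, ha v] }
  refine Subgroup.isOpen_mono (H₁ := L.fixingSubgroup) (H₂ := S) (fun σ hσ v => ?_)
    (IntermediateField.fixingSubgroup_isOpen L)
  obtain ⟨x, rfl⟩ := qmk_surjective p Q v
  refine quotSmul_qmk_eq_self hst σ x ?_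
  have hx0 : ((p ^ (m + 1) : ℕ) : ℤ) • (x : GeomPoint W) = 0 := by
    obtain ⟨k, hk⟩ := AddSubgroup.mem_zmultiples_iff.1 (mem_divSub.1 x.2)
    rw [natCast_zsmul, pow_succ, mul_smul, ← hk, nsmul_zsmul_comm, ← hQ,
      addOrderOf_nsmul_eq_zero, zsmul_zero]
  have := congrArg Subtype.val (LinearMap.congr_fun
    (hLfix σ ((IntermediateField.mem_fixingSubgroup_iff _ _).1 hσ))
    ⟨(x : GeomPoint W), (Submodule.mem_torsionBy_iff _ _).2 hx0⟩)
  rw [show σ • (x : GeomPoint W) = (x : GeomPoint W) from this, sub_self]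
  exact zero_mem _

theorem exists_stable_next (hΔ : W.Δ ≠ 0) (hExt : ExtCitation.ExtVanishingCts p)
    (hP₁ : IsCofixedGen W p P₁) (hm : 1 ≤ m) (hQ : addOrderOf Q = p ^ m)
    (hst : ∀ σ : Γℚ, σ • Q ∈ AddSubgroup.zmultiples Q)
    (hP₁Q : P₁ ∈ AddSubgroup.zmultiples Q)
    (hunr : ∀ ℓ : ℕ, ℓ.Prime → ℓ ≠ p → ∀ A : ValuationSubring Qbar, A.LiesOverPrime ℓ →
      ∀ σ ∈ A.inertiaSubgroupIn ℚ, ∀ x : GeomPoint W, p • x ∈ AddSubgroup.zmultiples Q →
        σ • x - x ∈ AddSubgroup.zmultiples Q)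
    (hsplit : ∀ A : ValuationSubring Qbar, A.LiesOverPrime p →
      ∃ Y : GeomPoint W, addOrderOf Y = p ^ (m + 1) ∧
        AddSubgroup.zmultiples (p • Y) = AddSubgroup.zmultiples Q ∧
        ∀ σ ∈ A.decompositionSubgroup ℚ, σ • Y ∈ AddSubgroup.zmultiples Y) :
    ∃ R : GeomPoint W, addOrderOf R = p ^ (m + 1) ∧
      AddSubgroup.zmultiples (p • R) = AddSubgroup.zmultiples Q ∧
      ∀ σ : Γℚ, σ • R ∈ AddSubgroup.zmultiples R := by
  have hp : p.Prime := Fact.out
  let _ := quotVAction (p := p) hst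
  have : SMulCommClass Γℚ (ZMod p) (QuotV p Q) :=
    ⟨fun σ c v => ZMod.map_smul (quotSmul hst σ) c v⟩
  have hact : ∀ (σ : Γℚ) (x : divSub p Q), σ • qmk p Q x = qmk p Q (divSmul hst σ x) :=
    fun σ x => rfl
  have hcast : ∀ (c : ℕ) (v : QuotV p Q), ((c : ZMod p)) • v = c • v := fun c v =>
    Nat.cast_smul_eq_nsmul _ c v
  let C : Submodule (ZMod p) (QuotV p Q) := AddSubgroup.toZModSubmodule p
    ((qmk p Q).comp (AddSubgroup.inclusion
      (show (nsmulAddMonoidHom (α := GeomPoint W) p).ker ≤ divSub p Q from fun x hx =>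
        mem_divSub.2 (by rw [show p • x = 0 from hx]; exact zero_mem _)))).range
  have hCmem : ∀ v : QuotV p Q, v ∈ C ↔
      ∃ x : divSub p Q, p • (x : GeomPoint W) = 0 ∧ qmk p Q x = v := by
    intro v
    constructor
    · rintro ⟨⟨x, hx⟩, rfl⟩
      exact ⟨⟨x, mem_divSub.2 (by rw [show p • x = 0 from hx]; exact zero_mem _)⟩, hx, rfl⟩
    · rintro ⟨x, hx, rfl⟩
      exact ⟨⟨x.1, hx⟩, rfl⟩
  have hVcard := natCard_quotV hp hΔ hQ
  have hCcard : Nat.card C = p := natCard_torsImage hp hΔ hQ hm hP₁Q hP₁.order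
  have : Finite (QuotV p Q) :=
    Nat.finite_of_card_ne_zero (by rw [hVcard]; exact pow_ne_zero _ hp.ne_zero)
  have hfix : ∀ σ : Γℚ, ∀ v ∈ C, σ • v = v := by
    intro σ v hv
    obtain ⟨x, hx, rfl⟩ := (hCmem v).1 hv
    exact quotSmul_qmk_eq_self hst σ x
      (AddSubgroup.zmultiples_le_of_mem hP₁Q (hP₁.quot σ _ hx))
  have hcyc : ∀ (σ : Γℚ) (v : QuotV p Q),
      σ • v - (ExtCitation.cycloExp p σ : ZMod p) • v ∈ C := by
    intro σ v
    obtain ⟨x, rfl⟩ := qmk_surjective p Q v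
    obtain ⟨z, hz, hzx⟩ := exists_cyclo_correction hP₁ hQ hst hP₁Q σ x.2
    rw [hcast, hact, ← map_nsmul, ← map_sub]
    refine (hCmem _).2 ⟨⟨z, mem_divSub.2 (by rw [hz]; exact zero_mem _)⟩, hz, ?_⟩
    rw [qmk_eq_iff]
    exact hzx
  have hsplit' : ∀ A : ValuationSubring Qbar, A.LiesOverPrime p →
      ∃ C' : Submodule (ZMod p) (QuotV p Q),
        (∀ σ ∈ A.decompositionSubgroup ℚ, ∀ x ∈ C', σ • x ∈ C') ∧ IsCompl C C' := by
    intro A hA
    obtain ⟨Y, hY, hYQ, hYstab⟩ := hsplit A hA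
    let y : divSub p Q := ⟨Y, by rw [mem_divSub, ← hYQ]; exact AddSubgroup.mem_zmultiples _⟩
    refine ⟨Submodule.span (ZMod p) {qmk p Q y}, fun σ hσ v hv => ?_, ?_⟩
    · obtain ⟨b, rfl⟩ := Submodule.mem_span_singleton.1 hv
      rw [show σ • (b • qmk p Q y) = b • (σ • qmk p Q y) from
        ZMod.map_smul (quotSmul hst σ) b _]
      refine Submodule.smul_mem _ _ ?_
      obtain ⟨a, ha⟩ := AddSubgroup.mem_zmultiples_iff.1 (hYstab σ hσ)
      have : σ • qmk p Q y = a • qmk p Q y := by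
        rw [hact, ← map_zsmul]
        refine congrArg (qmk p Q) (Subtype.ext ?_)
        rw [coe_divSmul, AddSubgroup.coe_zsmul]
        exact ha.symm
      rw [this]
      rw [← Int.cast_smul_eq_zsmul (ZMod p)]
      exact Submodule.smul_mem _ _ (Submodule.mem_span_singleton_self _)
    · refine isCompl_of_card hVcard hCcard fun h => ?_
      obtain ⟨x, hx, he⟩ := (hCmem _).1 h
      exact qmk_ne_of_order (y := y) hQ hm hY hx he
  have hadm : ExtCitation.IsAdmissibleExtensionCts p (QuotV p Q) C :=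
    { stable := fun σ v hv => (hfix σ v hv).symm ▸ hv
      fixed_sub := hfix
      cyclo_quot := hcyc
      card_sub := hCcard
      card_total := hVcard
      unramified_outside := fun ℓ hℓ hℓp A hA σ hσ v => by
        obtain ⟨x, rfl⟩ := qmk_surjective p Q v
        exact quotSmul_qmk_eq_self hst σ x (hunr ℓ hℓ hℓp A hA σ hσ _ x.2)
      locally_split := hsplit'
      open_kernel := isOpen_fix_quotV hΔ hQ hst }
  obtain ⟨C', hC'st, hC'⟩ := hExt (QuotV p Q) C hadm
  have hC'bot : C' ≠ ⊥ := fun h => by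
    have h' : C = ⊤ := by simpa [h] using hC'.sup_eq_top
    have := hCcard
    rw [h', Nat.card_congr Submodule.topEquiv.toEquiv, hVcard] at this
    nlinarith [hp.one_lt]
  obtain ⟨v, hvC', hv0⟩ := Submodule.exists_mem_ne_zero_of_ne_bot hC'bot
  have hvC : v ∉ C := fun h => hv0 (Submodule.disjoint_def.1 hC'.disjoint v h hvC')
  obtain ⟨r, rfl⟩ := qmk_surjective p Q v
  have hspan : C' = Submodule.span (ZMod p) {qmk p Q r} := by
    have hle : Submodule.span (ZMod p) {qmk p Q r} ≤ C' :=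
      (Submodule.span_singleton_le_iff_mem _ _).2 hvC'
    have := isCompl_of_card hVcard hCcard hvC
    exact (eq_of_le_of_inf_le_of_sup_le hle
      (by rw [inf_comm, hC'.disjoint.eq_bot]; exact bot_le)
      (by rw [sup_comm, sup_comm (Submodule.span (ZMod p) {qmk p Q r}), this.sup_eq_top];
          exact le_top)).symm
  obtain ⟨hord, hgen⟩ := order_of_notMem hQ hm (r := r)
    (fun x hx he => hvC ((hCmem _).2 ⟨x, hx, he⟩))
  refine ⟨(r : GeomPoint W), hord, hgen, fun σ => ?_⟩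
  have hmem := hC'st σ _ hvC'
  rw [hspan] at hmem
  obtain ⟨a, ha⟩ := Submodule.mem_span_singleton.1 hmem
  have h1 : qmk p Q (divSmul hst σ r - a.val • r) = 0 := by
    rw [map_sub, map_nsmul, ← hact, ← hcast, ZMod.natCast_zmod_val, ha, sub_self]
  rw [qmk_eq_zero] at h1
  have hsub : AddSubgroup.zmultiples Q ≤ AddSubgroup.zmultiples (r : GeomPoint W) :=
    hgen ▸ AddSubgroup.zmultiples_le_of_mem
      (AddSubgroup.nsmul_mem _ (AddSubgroup.mem_zmultiples _) p)
  have h4 := add_mem (hsub h1)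
    (AddSubgroup.nsmul_mem _ (AddSubgroup.mem_zmultiples (r : GeomPoint W)) a.val)
  simpa using h4

end FLTA.Mazur
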