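import Fermat.Agent.Bridge.Cosets
import Fermat.Agent.Eisenstein.DeltaQuot
import Fermat.Agent.Curves.BasicModular
import Fermat.Prelude.Thm_CongruenceSubgroup_one_mem_strictPeriods_Gamma0

/-!
# The modular unit `Δ(τ) / Δ(Nτ)`

Its `q`-expansion has integral coefficients, it lies in the function field of `X₀(N)` over `ℚ̄`
and it is, with its inverse, integral over `ℚ̄[j]`.
-/

set_option autoImplicit false

noncomputable section

open Polynomial HahnSeries ModularCurve UpperHalfPlane CongruenceSubgroup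
open scoped MatrixGroups

namespace FLTA.Mazur

local notation "Qb" => AlgebraicClosure ℚ

/-! ### The series -/

variable (N : ℕ) [NeZero N]

/-- The power series of `Δ(τ) / Δ(Nτ) · q ^ (N - 1)`. -/
def etaQuotNum : PowerSeries ℤ :=
  dedekindEtaUnit * PowerSeries.expand N (NeZero.ne N) dedekindEtaUnitInv

/-- The power series of `Δ(Nτ) / Δ(τ) · q ^ (1 - N)`. -/
def etaQuotNumInv : PowerSeries ℤ :=
  dedekindEtaUnitInv * PowerSeries.expand N (NeZero.ne N) dedekindEtaUnit

theorem etaQuotNum_mul_inv : etaQuotNum N * etaQuotNumInv N = 1 := by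
  rw [etaQuotNum, etaQuotNumInv, mul_mul_mul_comm, dedekindEtaUnit_mul_inv, ← map_mul,
    mul_comm dedekindEtaUnitInv, dedekindEtaUnit_mul_inv, map_one, one_mul]

/-- The `q`-expansion of `Δ(τ) / Δ(Nτ)`. -/
def etaQuot (R : Type*) [CommRing R] : LaurentSeries R :=
  HahnSeries.single (1 - (N : ℤ)) 1 *
    HahnSeries.ofPowerSeries ℤ R ((etaQuotNum N).map (Int.castRingHom R))

/-- The `q`-expansion of `Δ(Nτ) / Δ(τ)`. -/
def etaQuotInv (R : Type*) [CommRing R] : LaurentSeries R :=
  HahnSeries.single ((N : ℤ) - 1) 1 *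
    HahnSeries.ofPowerSeries ℤ R ((etaQuotNumInv N).map (Int.castRingHom R))

theorem etaQuot_mul_inv (R : Type*) [CommRing R] : etaQuot N R * etaQuotInv N R = 1 := by
  rw [etaQuot, etaQuotInv, mul_mul_mul_comm, HahnSeries.single_mul_single, ← map_mul, ← map_mul,
    etaQuotNum_mul_inv, map_one, map_one, mul_one]
  simp

theorem coeffMap_single_mul_ofPowerSeries {R S : Type*} [CommRing R] [CommRing S] (φ : R →+* S)
    (m : ℤ) (p : PowerSeries ℤ) :
    coeffMap φ (HahnSeries.single m 1 *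
        HahnSeries.ofPowerSeries ℤ R (p.map (Int.castRingHom R))) =
      HahnSeries.single m 1 * HahnSeries.ofPowerSeries ℤ S (p.map (Int.castRingHom S)) := by
  rw [map_mul, coeffMap_single, map_one, coeffMap_ofPowerSeries, ← RingHom.comp_apply
    (PowerSeries.map φ) (PowerSeries.map (Int.castRingHom R)), ← PowerSeries.map_comp,
    RingHom.ext_int (φ.comp (Int.castRingHom R)) (Int.castRingHom S)]

theorem coeffMap_etaQuot {R S : Type*} [CommRing R] [CommRing S] (φ : R →+* S) :
    coeffMap φ (etaQuot N R) = etaQuot N S :=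
  coeffMap_single_mul_ofPowerSeries φ _ _

theorem coeffMap_etaQuotInv {R S : Type*} [CommRing R] [CommRing S] (φ : R →+* S) :
    coeffMap φ (etaQuotInv N R) = etaQuotInv N S :=
  coeffMap_single_mul_ofPowerSeries φ _ _

theorem constantCoeff_etaQuotNum : PowerSeries.constantCoeff (etaQuotNum N) = 1 := by
  rw [etaQuotNum, map_mul, PowerSeries.constantCoeff_expand, constantCoeff_dedekindEtaUnit,
    constantCoeff_dedekindEtaUnitInv, one_mul]

theorem coeff_etaQuot_of_lt (R : Type*) [CommRing R] {m : ℤ} (hm : m < 1 - (N : ℤ)) :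
    (etaQuot N R).coeff m = 0 := by
  rw [etaQuot, HahnSeries.coeff_single_mul, one_mul]
  exact ofPowerSeries_coeff_of_neg _ (by omega)

theorem coeff_etaQuot_lead (R : Type*) [CommRing R] :
    (etaQuot N R).coeff (1 - (N : ℤ)) = 1 := by
  rw [etaQuot, HahnSeries.coeff_single_mul, one_mul, sub_self,
    show (0 : ℤ) = ((0 : ℕ) : ℤ) from rfl, HahnSeries.ofPowerSeries_apply_coeff,
    PowerSeries.coeff_map, PowerSeries.coeff_zero_eq_constantCoeff_apply, constantCoeff_etaQuotNum,
    map_one]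

omit [NeZero N] in
theorem coeff_one_dedekindEtaUnit : PowerSeries.coeff 1 dedekindEtaUnit = -24 := by
  have h1 : PowerSeries.coeff 1 etaProd = -1 := by
    obtain ⟨M, hM⟩ := (FLTA.Bridge.eulerPartial_coeff_eventually 1).exists_forall_of_atTop
    rw [← hM (M + 1) (by omega), FLTA.Bridge.eulerPartial, Finset.prod_range_succ']
    have hrest : ∀ (n : ℕ), (∏ i ∈ Finset.range n, (1 - X ^ (i + 1 + 1) : ℤ[X])).coeff 0 = 1 ∧
        (∏ i ∈ Finset.range n, (1 - X ^ (i + 1 + 1) : ℤ[X])).coeff 1 = 0 := by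
      intro n
      induction n with
      | zero => simp [Polynomial.coeff_one]
      | succ n ih =>
        rw [Finset.prod_range_succ, mul_sub, mul_one]
        constructor <;> rw [Polynomial.coeff_sub, coeff_mul_X_pow'] <;> simp [ih]
    rw [zero_add, pow_one, mul_sub, mul_one, Polynomial.coeff_sub, coeff_mul_X, (hrest M).1, (hrest M).2]
    norm_num
  rw [dedekindEtaUnit, PowerSeries.coeff_one_pow, h1, constantCoeff_etaProd]
  norm_num

theorem coeff_etaQuot_next (R : Type*) [CommRing R] (hN : 2 ≤ N) :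
    (etaQuot N R).coeff (2 - (N : ℤ)) = -24 := by
  rw [etaQuot, HahnSeries.coeff_single_mul, one_mul,
    show 2 - (N : ℤ) - (1 - N) = ((1 : ℕ) : ℤ) by push_cast; ring,
    HahnSeries.ofPowerSeries_apply_coeff, PowerSeries.coeff_map]
  have h : PowerSeries.coeff 1 (etaQuotNum N) = -24 := by
    rw [etaQuotNum, PowerSeries.coeff_one_mul, coeff_one_dedekindEtaUnit,
      PowerSeries.constantCoeff_expand, constantCoeff_dedekindEtaUnitInv,
      constantCoeff_dedekindEtaUnit, PowerSeries.coeff_expand, if_neg]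
    · ring
    · intro h
      have := Nat.le_of_dvd one_pos h
      omega
  rw [h]
  simp

/-! ### The analytic function -/

variable [Fact N.Prime]

local notation "Δ" => ModularForm.discriminant

/-- `Δ(Nτ)` with its weight written as `12 * 1`. -/
def etaDenForm : ModularForm ((Gamma0 N).map (Matrix.SpecialLinearGroup.mapGL ℝ))
    (12 * ((1 : ℕ) : ℤ)) :=
  ModularForm.mcast (by ring) (FLTA.Eisenstein.deltaDen N)

/-- `Δ(τ) ^ N / Δ(Nτ)` with its weight written as `12 * (N - 1)`. -/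
def etaQuotForm : ModularForm ((Gamma0 N).map (Matrix.SpecialLinearGroup.mapGL ℝ))
    (12 * ((N - 1 : ℕ) : ℤ)) :=
  ModularForm.mcast (by rw [Nat.cast_sub (Fact.out : N.Prime).one_le]; push_cast; ring)
    (FLTA.Eisenstein.deltaQuot N)

theorem coe_etaDenForm : ⇑(etaDenForm N) = ⇑(FLTA.Eisenstein.deltaDen N) := rfl

theorem coe_etaQuotForm : ⇑(etaQuotForm N) = ⇑(FLTA.Eisenstein.deltaQuot N) := rfl

/-- `Δ(Nτ) / Δ(τ)`. -/
def etaQuotInvFun : FLTA.Bridge.ModHol N :=
  ⟨fun τ => etaDenForm N τ / Δ τ ^ 1,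
    FLTA.Bridge.div_discriminant_mem_modHol N 1 (etaDenForm N)⟩

/-- `Δ(τ) / Δ(Nτ)`. -/
def etaQuotFun : FLTA.Bridge.ModHol N :=
  ⟨fun τ => etaQuotForm N τ / Δ τ ^ (N - 1),
    FLTA.Bridge.div_discriminant_mem_modHol N (N - 1) (etaQuotForm N)⟩

theorem etaQuotFun_mul_inv : etaQuotFun N * etaQuotInvFun N = 1 := by
  refine Subtype.ext (funext fun τ => ?_)
  simp only [etaQuotFun, etaQuotInvFun, MulMemClass.coe_mul, OneMemClass.coe_one, Pi.mul_apply,
    Pi.one_apply, coe_etaDenForm, coe_etaQuotForm, pow_one, FLTA.Eisenstein.coe_deltaQuot,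
    FLTA.Eisenstein.coe_deltaDen, FLTA.Eisenstein.deltaQuotFun]
  have h0 := ModularForm.discriminant_ne_zero τ
  have h1 := ModularForm.discriminant_ne_zero (FLTA.Eisenstein.scaleGL N • τ)
  obtain ⟨e, he⟩ := Nat.exists_eq_add_of_le (Fact.out : N.Prime).one_le
  rw [show N - 1 = e by omega, show Δ τ ^ N = Δ τ * Δ τ ^ e by rw [he, _root_.pow_add, _root_.pow_one]]
  field_simp

theorem expand_ofPowerSeries {k : ℕ} [NeZero k] (P : PowerSeries ℂ) :
    qExpand ℂ k (HahnSeries.ofPowerSeries ℤ ℂ P) =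
      HahnSeries.ofPowerSeries ℤ ℂ (PowerSeries.expand k (NeZero.ne k) P) :=
  FLTA.Bridge.qExpand_ofPowerSeries fun m => by rw [PowerSeries.coeff_expand]

theorem qexp_etaQuotInvFun : FLTA.Bridge.qexp N (etaQuotInvFun N) = etaQuotInv N ℂ := by
  set V : ℍ → ℂ := (etaQuotInvFun N : ℍ → ℂ) with hV
  have hVmem := FLTA.Bridge.mem_holInfty_one_of_mem_modHol N (etaQuotInvFun N).2
  obtain ⟨n, hn⟩ := hVmem.2.2
  have hden : (⇑(FLTA.Eisenstein.deltaDen N)) ∈ FLTA.Bridge.HolInfty 1 := by
    refine ⟨?_, ?_, 0, ?_⟩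
    · exact (FLTA.Eisenstein.deltaDen N).holo'
    · simpa using SlashInvariantFormClass.periodic_comp_ofComplex (FLTA.Eisenstein.deltaDen N)
        (one_mem_strictPeriods_Gamma0 N)
    · simpa using ModularFormClass.bdd_at_infty (FLTA.Eisenstein.deltaDen N)
  have hΔ : Δ ∈ FLTA.Bridge.HolInfty 1 ∧ IsBoundedAtImInfty Δ := by
    refine ⟨⟨?_, ?_, 0, ?_⟩, ?_⟩
    · exact CuspForm.discriminant.holo'
    · simpa [FLTA.Eisenstein.coe_deltaMF] using SlashInvariantFormClass.periodic_comp_ofComplex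
        FLTA.Eisenstein.deltaMF (h := (1 : ℝ)) one_mem_strictPeriods_SL
    · simpa [FLTA.Eisenstein.coe_deltaMF] using
        ModularFormClass.bdd_at_infty FLTA.Eisenstein.deltaMF
    · exact ModularFormClass.bdd_at_infty FLTA.Eisenstein.deltaMF
  have hqV := FLTA.Bridge.qParam_pow_mul_mem 1 hVmem n
  have hq := FLTA.Bridge.qParam_pow_mem_holInfty 1 n
  have hprod : (fun τ : ℍ => Function.Periodic.qParam 1 (τ : ℂ) ^ n * V τ) * Δ =
      (fun τ : ℍ => Function.Periodic.qParam 1 (τ : ℂ) ^ n) * ⇑(FLTA.Eisenstein.deltaDen N) := by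
    funext τ
    simp only [Pi.mul_apply, hV, etaQuotInvFun, coe_etaDenForm, pow_one]
    field_simp [ModularForm.discriminant_ne_zero]
  have hexp := congrArg (qExpansion ((1 : ℕ) : ℝ)) hprod
  rw [FLTA.Bridge.qExpansion_mul' 1 hqV hn hΔ.1 hΔ.2,
    FLTA.Bridge.qExpansion_mul' 1 hq (FLTA.Bridge.isBoundedAtImInfty_qParam_pow n) hden
      (ModularFormClass.bdd_at_infty (FLTA.Eisenstein.deltaDen N)),
    FLTA.Bridge.qExpansion_qParam_pow 1 n] at hexp
  simp only [Nat.cast_one] at hexp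
  have hden' : qExpansion 1 ⇑(FLTA.Eisenstein.deltaDen N) =
      PowerSeries.expand N (NeZero.ne N) (PowerSeries.X * FLTA.Eisenstein.deltaUnit) := by
    rw [← FLTA.Eisenstein.qExpansion_deltaMF]
    exact FLTA.Eisenstein.qA_scaled FLTA.Eisenstein.deltaMF
  rw [hden', FLTA.Eisenstein.qExpansion_discriminant_eq] at hexp
  show FLTA.Bridge.expansionFun 1 V = _
  rw [FLTA.Bridge.expansionFun_eq 1 hVmem hn]
  simp only [Nat.cast_one, mul_one]
  refine mul_right_cancel₀ (b := HahnSeries.ofPowerSeries ℤ ℂ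
    (PowerSeries.X * FLTA.Eisenstein.deltaUnit)) ?_ ?_
  · intro h0
    have h1 := congrArg (fun s : LaurentSeries ℂ => s.coeff ((1 : ℕ) : ℤ)) h0
    rw [HahnSeries.ofPowerSeries_apply_coeff, HahnSeries.coeff_zero, PowerSeries.coeff_succ_X_mul,
      FLTA.Eisenstein.coeff_zero_deltaUnit] at h1
    exact one_ne_zero h1
  rw [mul_assoc, ← map_mul, hexp, etaQuotInv, map_mul, map_mul, PowerSeries.expand_X,
    map_mul, map_pow, map_pow, HahnSeries.ofPowerSeries_X, HahnSeries.single_pow,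
    HahnSeries.single_pow, one_pow, one_pow, etaQuotNumInv, map_mul, map_mul,
    FLTA.Eisenstein.deltaUnit, ← PowerSeries.map_expand]
  have hEE : HahnSeries.ofPowerSeries ℤ ℂ (dedekindEtaUnitInv.map (Int.castRingHom ℂ)) *
      HahnSeries.ofPowerSeries ℤ ℂ (dedekindEtaUnit.map (Int.castRingHom ℂ)) = 1 := by
    rw [← map_mul, ← map_mul, mul_comm, dedekindEtaUnit_mul_inv, map_one, map_one]
  set E := HahnSeries.ofPowerSeries ℤ ℂ (dedekindEtaUnit.map (Int.castRingHom ℂ))
  set E' := HahnSeries.ofPowerSeries ℤ ℂ (dedekindEtaUnitInv.map (Int.castRingHom ℂ))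
  set EN := HahnSeries.ofPowerSeries ℤ ℂ
    (PowerSeries.map (Int.castRingHom ℂ) (PowerSeries.expand N (NeZero.ne N) dedekindEtaUnit))
  simp only [nsmul_eq_mul, mul_one]
  calc HahnSeries.single (-(n : ℤ)) (1 : ℂ) *
        (HahnSeries.single (n : ℤ) 1 * (HahnSeries.single (N : ℤ) 1 * EN))
      = HahnSeries.single (-(n : ℤ)) (1 : ℂ) * HahnSeries.single (n : ℤ) 1 *
          (HahnSeries.single (N : ℤ) 1 * EN) := by ring
    _ = HahnSeries.single ((N : ℤ) - 1) 1 * HahnSeries.single 1 1 * (E' * E) * EN := by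
      rw [HahnSeries.single_mul_single, HahnSeries.single_mul_single, hEE]
      simp
    _ = _ := by
      simp only [E, E', EN, map_mul, HahnSeries.ofPowerSeries_X]
      ring

theorem qexp_etaQuotFun : FLTA.Bridge.qexp N (etaQuotFun N) = etaQuot N ℂ := by
  have h := congrArg (FLTA.Bridge.qexp N) (etaQuotFun_mul_inv N)
  rw [map_mul, map_one, qexp_etaQuotInvFun] at h
  have h2 : etaQuotInv N ℂ ≠ 0 := fun h0 => by simp [h0] at h
  exact mul_right_cancel₀ h2 (h.trans (etaQuot_mul_inv N ℂ).symm)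

/-! ### Descent of relations to `ℚ̄` -/

section Descent

variable (ι : Qb →+* ℂ)

theorem exists_functional {c : ℂ} (hc : c ≠ 0) :
    ∃ φ : ℂ →+ Qb, (∀ a z, φ (ι a * z) = a * φ z) ∧ φ c = 1 := by
  let _ := ι.toAlgebra
  obtain ⟨g, hg⟩ := (LinearMap.toSpanSingleton Qb ℂ c).exists_leftInverse_of_injective
    (LinearMap.ker_eq_bot.mpr (smul_left_injective Qb hc))
  refine ⟨g.toAddMonoidHom, fun a z => ?_, ?_⟩
  · show g (ι a * z) = a * g z
    rw [← smul_eq_mul a (g z), ← map_smul]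
    rfl
  · have h := LinearMap.congr_fun hg 1
    simpa using h

/-- `φ` applied to the coefficients of a polynomial in two variables. -/
def mapCoeffs (φ : ℂ →+ Qb) (P : Polynomial (Polynomial ℂ)) : Polynomial (Polynomial Qb) :=
  ∑ k ∈ Finset.range (P.natDegree + 1), monomial k
    (∑ i ∈ Finset.range ((P.coeff k).natDegree + 1), monomial i (φ ((P.coeff k).coeff i)))

variable {ι} {φ : ℂ →+ Qb} (hφ : ∀ a z, φ (ι a * z) = a * φ z)

include hφ in
theorem coeff_eval_mapCoeffs (P : Polynomial (Polynomial ℂ)) (u x y : LaurentSeries Qb) (n : ℤ) :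
    (u * (mapCoeffs φ P).eval₂ (aeval x).toRingHom y).coeff n =
      φ ((coeffMap ι u * P.eval₂ (aeval (coeffMap ι x)).toRingHom (coeffMap ι y)).coeff n) := by
  have key : ∀ (c : ℂ) (s : LaurentSeries Qb),
      φ ((algebraMap ℂ (LaurentSeries ℂ) c * coeffMap ι s).coeff n) =
        (algebraMap Qb (LaurentSeries Qb) (φ c) * s).coeff n := fun c s => by
    rw [algebraMap_laurentSeries_eq_single, algebraMap_laurentSeries_eq_single,
      HahnSeries.coeff_single_mul, HahnSeries.coeff_single_mul, sub_zero, coeffMap_coeff,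
      mul_comm, hφ, mul_comm]
  rw [mapCoeffs, eval₂_finsetSum, eval₂_eq_sum_range, Finset.mul_sum, Finset.mul_sum,
    HahnSeries.coeff_sum, HahnSeries.coeff_sum, map_sum]
  refine Finset.sum_congr rfl fun k _ => ?_
  rw [eval₂_monomial, AlgHom.toRingHom_eq_coe, AlgHom.toRingHom_eq_coe, RingHom.coe_coe,
    RingHom.coe_coe, map_sum, aeval_eq_sum_range, Finset.sum_mul, Finset.sum_mul, Finset.mul_sum,
    Finset.mul_sum, HahnSeries.coeff_sum, HahnSeries.coeff_sum, map_sum]
  refine Finset.sum_congr rfl fun i _ => ?_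
  rw [aeval_monomial, Algebra.smul_def, mul_assoc, mul_left_comm u, mul_assoc,
    mul_left_comm (coeffMap ι u), ← map_pow, ← map_pow, ← map_mul, ← map_mul, key]

theorem monic_mapCoeffs {P : Polynomial (Polynomial ℂ)} (hP : P.Monic) (h1 : φ 1 = 1) :
    (mapCoeffs φ P).Monic := by
  refine monic_of_natDegree_le_of_coeff_eq_one P.natDegree ?_ ?_
  · refine natDegree_sum_le_of_forall_le _ _ fun k hk => (natDegree_monomial_le _).trans ?_
    exact Nat.lt_succ_iff.mp (Finset.mem_range.mp hk)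
  · rw [mapCoeffs, finsetSum_coeff, Finset.sum_eq_single P.natDegree]
    · rw [coeff_monomial_same, hP.coeff_natDegree, natDegree_one]
      simp [h1]
    · exact fun k _ hk => coeff_monomial_of_ne _ (Ne.symm hk)
    · simp

end Descent

theorem qexp_evalJ (A : FLTA.Bridge.ModHol N) (P : Polynomial (Polynomial ℂ)) :
    FLTA.Bridge.qexp N (FLTA.Bridge.evalJ N A P) =
      P.eval₂ (aeval (jqModC ℂ)).toRingHom (FLTA.Bridge.qexp N A) := by
  rw [FLTA.Bridge.evalJ, coe_eval₂RingHom, ← AlgHom.coe_toRingHom, hom_eval₂]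
  congr 1
  refine RingHom.ext fun p => ?_
  show FLTA.Bridge.qexp N (aeval _ p) = _
  rw [← aeval_algHom_apply, FLTA.Bridge.qexp_jMod, coeffEmb, ← jqModC_rat, coeffMap_jqModC]
  rfl

theorem qexp_jAt_self : FLTA.Bridge.qexp N (FLTA.Bridge.jAt N N dvd_rfl) = jqNModC ℂ N := by
  rw [FLTA.Bridge.qexp_jAt, FLTA.Curves.coeffEmb_qExpand_jq]
  rfl

/-- A `ℚ̄`-series which is the expansion of a function in `ModHol N` lies in the function field
and satisfies a monic equation over `ℚ̄[j]`. -/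
theorem mem_and_integral_of_qexp {u : LaurentSeries Qb} (ι : Qb →+* ℂ) (A : FLTA.Bridge.ModHol N)
    (hA : FLTA.Bridge.qexp N A = coeffMap ι u) :
    u ∈ laurentBaseChange Qb (modularFunctionFieldFull N) ∧
      ∃ P : Polynomial (Polynomial Qb), P.Monic ∧
        P.eval₂ (aeval (jqModC Qb)).toRingHom u = 0 := by
  constructor
  · obtain ⟨D, hD, hQ⟩ := FLTA.Bridge.exists_mul_eq_evalJ N
    obtain ⟨Q, -, hQ⟩ := hQ A
    have hid := congrArg (FLTA.Bridge.qexp N) hQ
    rw [map_mul, qexp_evalJ, qexp_evalJ, qexp_jAt_self, hA, ← coeffMap_jqModC ι,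
      ← coeffMap_jqNModC ι] at hid
    set dC := D.eval₂ (aeval (coeffMap ι (jqModC Qb))).toRingHom (coeffMap ι (jqNModC Qb N))
      with hdC
    have hdC0 : dC ≠ 0 := by
      intro h0
      refine hD (FLTA.Bridge.qexp_injective N ?_)
      rw [map_zero, qexp_evalJ, qexp_jAt_self, ← coeffMap_jqModC ι, ← coeffMap_jqNModC ι]
      exact h0
    obtain ⟨φ, hφ, hφc⟩ := exists_functional ι
      (c := dC.coeff dC.order) (fun h => hdC0 (HahnSeries.coeff_order_eq_zero.mp h))
    set x := jqModC Qb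
    set y := jqNModC Qb N
    set d := (mapCoeffs φ D).eval₂ (aeval x).toRingHom y with hd
    have hd0 : d ≠ 0 := fun h0 => by
      have h1 := coeff_eval_mapCoeffs hφ D 1 x y dC.order
      rw [← hd, h0, mul_zero, HahnSeries.coeff_zero, map_one, one_mul, ← hdC, hφc] at h1
      exact zero_ne_one h1
    have hmul : u * d = (mapCoeffs φ Q).eval₂ (aeval x).toRingHom y := HahnSeries.ext (funext fun n => by
      have h1 := coeff_eval_mapCoeffs hφ Q 1 x y n
      rw [one_mul, map_one, one_mul] at h1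
      rw [hd, coeff_eval_mapCoeffs hφ D u x y n, h1, ← hdC, hid])
    set F := laurentBaseChange Qb (modularFunctionFieldFull N)
    have hx : x ∈ F := by
      show jqModC Qb ∈ F
      rw [show F = modularFunctionFieldFullC Qb N from FLTA.Curves.laurentBaseChange_full_eq N Qb]
      exact jqModC_mem_full Qb N
    have hy : y ∈ F := by
      show jqNModC Qb N ∈ F
      rw [show F = modularFunctionFieldFullC Qb N from FLTA.Curves.laurentBaseChange_full_eq N Qb]
      exact jqModCd_mem_full Qb N dvd_rfl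
    have hmem : ∀ P : Polynomial (Polynomial Qb), P.eval₂ (aeval x).toRingHom y ∈ F := fun P => by
      rw [eval₂_eq_sum_range]
      refine sum_mem fun k _ => mul_mem ?_ (pow_mem hy k)
      show aeval x (P.coeff k) ∈ F
      rw [aeval_eq_sum_range]
      exact sum_mem fun i _ => IntermediateField.smul_mem _ (pow_mem hx i)
    rw [← mul_inv_cancel_right₀ hd0 u, hmul]
    exact mul_mem (hmem _) (inv_mem (hd ▸ hmem _))
  · obtain ⟨P, hP, -, h0⟩ := FLTA.Bridge.exists_monic_aeval_eq_zero N A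
    have hid := congrArg (FLTA.Bridge.qexp N) h0
    rw [qexp_evalJ, map_zero, hA, ← coeffMap_jqModC ι] at hid
    obtain ⟨φ, hφ, hφ1⟩ := exists_functional ι (c := 1) one_ne_zero
    refine ⟨mapCoeffs φ P, monic_mapCoeffs hP hφ1, HahnSeries.ext (funext fun n => ?_)⟩
    have h1 := coeff_eval_mapCoeffs hφ P 1 (jqModC Qb) u n
    rw [one_mul, map_one, one_mul, hid, HahnSeries.coeff_zero, map_zero] at h1
    rw [h1, HahnSeries.coeff_zero]

theorem etaQuot_mem_and_integral :
    (etaQuot N Qb ∈ laurentBaseChange Qb (modularFunctionFieldFull N) ∧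
      ∃ P : Polynomial (Polynomial Qb), P.Monic ∧
        P.eval₂ (aeval (jqModC Qb)).toRingHom (etaQuot N Qb) = 0) ∧
    (etaQuotInv N Qb ∈ laurentBaseChange Qb (modularFunctionFieldFull N) ∧
      ∃ P : Polynomial (Polynomial Qb), P.Monic ∧
        P.eval₂ (aeval (jqModC Qb)).toRingHom (etaQuotInv N Qb) = 0) :=
  haveI : Algebra.IsAlgebraic ℚ Qb := AlgebraicClosure.isAlgebraic ℚ
  let ι : Qb →+* ℂ := (IsAlgClosed.lift : Qb →ₐ[ℚ] ℂ).toRingHom
  ⟨mem_and_integral_of_qexp N ι (etaQuotFun N)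
      ((qexp_etaQuotFun N).trans (coeffMap_etaQuot N ι).symm),
    mem_and_integral_of_qexp N ι (etaQuotInvFun N)
      ((qexp_etaQuotInvFun N).trans (coeffMap_etaQuotInv N ι).symm)⟩

end FLTA.Mazur

end
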