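import Fermat.Agent.Mazur.MinusPlaces
import Fermat.Agent.Mazur.EtaQuot
import Fermat.Agent.Curves.RRGenus
import Fermat.Agent.Curves.RRInstances
import Fermat.Agent.PlaceRed.GaussModular
import Fermat.Agent.Congruence.AtkinLehner
import Fermat.Agent.Congruence.FrobeniusField
import Fermat.Prelude.Def_AlgebraicCurve_Repartitions

/-!
# The cuspidal class `c = [∞ - 0]`
-/

set_option autoImplicit false

noncomputable section

open AlgebraicCurve ModularCurve Polynomial

namespace FLTA.Mazur

local notation "Qb" => AlgebraicClosure ℚ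

set_option synthInstance.maxHeartbeats 400000
set_option maxHeartbeats 1000000

variable (N : ℕ) [NeZero N]

local notation "FB" => modularFunctionFieldBar N

theorem single_cuspInf_sub_single_cuspZero_mem :
    Finsupp.single (cuspInf N FB) (1 : ℤ) - Finsupp.single (cuspZero N FB) 1 ∈
      Divisor.degZero (K := Qb) (F := FB) := by
  rw [Divisor.mem_degZero, map_sub, Divisor.degree_single, Divisor.degree_single,
    deg_eq_one N, deg_eq_one N, sub_self]

theorem pic0_mk_nsmul {K F : Type*} [Field K] [Field F] [Algebra K F] [HasPrincipalDivisors K F]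
    (n : ℕ) (D : Divisor.degZero (K := K) (F := F)) : Pic0.mk (n • D) = n • Pic0.mk D := rfl

theorem pic0_correspondence_mk_eq_nsmul {K F F' : Type*} [Field K] [Field F] [Field F']
    [Algebra K F] [Algebra K F'] [HasPrincipalDivisors K F'] [HasPrincipalDivisors K F]
    (φ ψ : F →ₐ[K] F') (hφ : φ.toRingHom.IsIntegral) (hψ : ψ.toRingHom.IsIntegral)
    (hFI : FundamentalIdentityAlong K φ hφ) (hfin : FiniteAlong K ψ)
    (hNF : NormFormulaAlong K ψ hfin) (D : Divisor.degZero (K := K) (F := F)) (n : ℕ)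
    (h : Divisor.correspondence φ ψ hφ hψ (D : Divisor K F) = n • (D : Divisor K F)) :
    Pic0.correspondence φ ψ hφ hψ hFI hfin hNF (Pic0.mk D) = n • Pic0.mk D := by
  rw [Pic0.correspondence_mk, ← pic0_mk_nsmul]
  refine congrArg Pic0.mk (Subtype.ext ?_)
  rw [Pic0.coe_degZeroCorrespondence, AddSubgroupClass.coe_nsmul, h]

/-- The class of `∞ - 0`. -/
def cuspClass : JZero N := Pic0.mk ⟨_, single_cuspInf_sub_single_cuspZero_mem N⟩

/-! ### The Fricke involutions -/

/-- The Fricke involution of any level on the base change. -/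
theorem exists_fricke_bar (M : ℕ) [NeZero M] :
    ∃ W : modularFunctionFieldBar M ≃ₐ[Qb] modularFunctionFieldBar M,
      ∀ (a b : ℕ) [NeZero a] [NeZero b], a * b = M → ∀ x : modularFunctionFieldBar M,
        (x : LaurentSeries Qb) = qExpand Qb a (jqModC Qb) →
          (W x : LaurentSeries Qb) = qExpand Qb b (jqModC Qb) := by
  suffices h : ∀ F : IntermediateField Qb (LaurentSeries Qb), F = modularFunctionFieldFullC Qb M →
      ∃ W : F ≃ₐ[Qb] F, ∀ (a b : ℕ) [NeZero a] [NeZero b], a * b = M → ∀ x : F,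
        (x : LaurentSeries Qb) = qExpand Qb a (jqModC Qb) →
          (W x : LaurentSeries Qb) = qExpand Qb b (jqModC Qb) from
    h _ (FLTA.Curves.laurentBaseChange_full_eq M Qb)
  rintro F rfl
  have hM : (M : Qb) ≠ 0 := Nat.cast_ne_zero.mpr (NeZero.ne M)
  obtain ⟨W, hW⟩ := FLTA.Igusa.exists_fricke Qb M hM
  have hW' : ∀ (a b : ℕ) [NeZero a] [NeZero b], a * b = M →
      ∀ x : modularFunctionFieldFullC Qb M, (x : LaurentSeries Qb) = qExpand Qb a (jqModC Qb) →
        (W x : LaurentSeries Qb) = qExpand Qb b (jqModC Qb) := by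
    intro a b _ _ h x hx
    rw [show x = ⟨_, jqModCd_mem_full Qb M (Dvd.intro b h)⟩ from Subtype.ext hx]
    exact hW a b h
  have h1 : W (jEl M (modularFunctionFieldFullC Qb M)) = jNEl M _ :=
    Subtype.ext (hW' 1 M (one_mul M) (jEl M _) (qExpand_one_apply _).symm)
  have h2 : W (jNEl M (modularFunctionFieldFullC Qb M)) = jEl M _ :=
    Subtype.ext ((hW' M 1 (mul_one M) (jNEl M _) rfl).trans (qExpand_one_apply _))
  have hWW : W.comp W = AlgHom.id Qb _ := by
    refine AlgHom.ext fun x => ?_
    have hx : x ∈ IntermediateField.adjoin Qb {jEl M (modularFunctionFieldFullC Qb M),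
        jNEl M (modularFunctionFieldFullC Qb M)} := by
      rw [adjoin_jEl_jNEl_eq_top M _ hM]; exact IntermediateField.mem_top
    induction hx using IntermediateField.adjoin_induction with
    | mem z hz =>
      rcases hz with rfl | rfl <;> simp only [AlgHom.comp_apply, h1, h2, AlgHom.id_apply]
    | algebraMap c => simp
    | add x y _ _ hx hy => rw [map_add, map_add, hx, hy]
    | inv x _ hx => rw [map_inv₀, map_inv₀, hx]
    | mul x y _ _ hx hy => rw [map_mul, map_mul, hx, hy]
  exact ⟨AlgEquiv.ofAlgHom W W hWW hWW, hW'⟩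

/-- The two degeneracy maps have the same degree `r + 1`. -/
theorem finrankAlong_heckeBetaBar {r : ℕ} [NeZero r] (hr : r.Prime) (hrN : ¬ r ∣ N) :
    finrankAlong Qb (heckeBetaBar Qb N r) = r + 1 := by
  have hQ := natCast_ne_zero_qbar (N := N)
  obtain ⟨V, hV⟩ := exists_fricke_bar N
  obtain ⟨W, hW⟩ := exists_fricke_bar (N * r)
  set al := heckeAlphaBar Qb N r
  set be := heckeBetaBar Qb N r
  have hj : al (V (jEl N FB)) = W (be (jEl N FB)) := by
    refine Subtype.ext ?_
    rw [coe_heckeAlphaBar, hV 1 N (one_mul N) _ (qExpand_one_apply _).symm,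
      hW r N (mul_comm r N) _ (coe_heckeBetaBar N r _)]
  have hjN : al (V (jNEl N FB)) = W (be (jNEl N FB)) := by
    refine Subtype.ext ?_
    rw [coe_heckeAlphaBar, hV N 1 (mul_one N) _ rfl, hW (r * N) 1 (by ring) _ ?_]
    rw [coe_heckeBetaBar, coe_jNEl, jqNModC, qExpand_qExpand]
  have hcomp : ∀ x, al (V x) = W (be x) := fun x => by
    have hx : x ∈ IntermediateField.adjoin Qb {jEl N FB, jNEl N FB} := by
      rw [adjoin_jEl_jNEl_eq_top N FB hQ]; exact IntermediateField.mem_top
    induction hx using IntermediateField.adjoin_induction with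
    | mem z hz => rcases hz with rfl | rfl <;> assumption
    | algebraMap c => simp only [AlgEquiv.commutes, AlgHom.commutes]
    | add x y _ _ hx hy => simp only [map_add, hx, hy]
    | inv x _ hx => simp only [map_inv₀, hx]
    | mul x y _ _ hx hy => simp only [map_mul, hx, hy]
  rw [← FLTA.Congruence.finrankAlong_heckeAlphaBar (N := N) (ℓ := r) hr hrN]
  exact @Algebra.finrank_eq_of_equiv_equiv _ _ _ _ (algebraAlong be) _ _ _ _ (algebraAlong al)
    (V : FB ≃+* FB) (W : modularFunctionFieldBar (N * r) ≃+* modularFunctionFieldBar (N * r))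
    (RingHom.ext hcomp)

variable (hN : N.Prime)
include hN

/-! ### Galois invariance -/

theorem galois_smul_cusps (σ : Qb ≃ₐ[ℚ] Qb) :
    arithmeticGalois (modularFunctionFieldFull N) σ • cuspInf N FB = cuspInf N FB ∧
      arithmeticGalois (modularFunctionFieldFull N) σ • cuspZero N FB = cuspZero N FB := by
  have hQ := natCast_ne_zero_qbar (N := N)
  set g := arithmeticGalois (modularFunctionFieldFull N) σ with hg
  have hj : g • jEl N FB = jEl N FB := by
    refine Subtype.ext ?_
    rw [hg, coe_arithmeticGalois_smul, coe_jEl]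
    exact coeffMap_jqModC _
  have hord : ∀ v : Place Qb (modularFunctionFieldBar N), (g • v).ord (jEl N FB) = v.ord (jEl N FB) := fun v => by
    conv_lhs => rw [← hj]
    exact SemilinearAut.ord_smul g v _
  have hN2 := hN.two_le
  constructor
  · refine (eq_cusp_of_ord_jEl_neg N FB hN hQ _ ?_).resolve_right fun h => ?_
    · rw [hord, ord_cuspInf_jEl]; omega
    · have h1 := hord (cuspInf N FB)
      rw [h, ord_cuspZero_jEl N FB hN hQ, ord_cuspInf_jEl] at h1
      omega
  · refine (eq_cusp_of_ord_jEl_neg N FB hN hQ _ ?_).resolve_left fun h => ?_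
    · rw [hord, ord_cuspZero_jEl N FB hN hQ]; omega
    · have h1 := hord (cuspZero N FB)
      rw [h, ord_cuspZero_jEl N FB hN hQ, ord_cuspInf_jEl] at h1
      omega

theorem galois_smul_cuspClass (σ : Qb ≃ₐ[ℚ] Qb) : σ • cuspClass N = cuspClass N := by
  rw [galois_smul_pic0_def, cuspClass, SemilinearAut.pic0_smul_mk]
  refine congrArg Pic0.mk (Subtype.ext ?_)
  obtain ⟨h1, h2⟩ := galois_smul_cusps N hN σ
  show arithmeticGalois (modularFunctionFieldFull N) σ •
    (Finsupp.single (cuspInf N FB) (1 : ℤ) - Finsupp.single (cuspZero N FB) 1) = _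
  rw [smul_sub, SemilinearAut.smul_single, SemilinearAut.smul_single, h1, h2]

/-! ### The divisor of `Δ(τ) / Δ(Nτ)` -/

theorem exists_etaQuot_divisor :
    ∃ u : FB, (u : LaurentSeries Qb) = etaQuot N Qb ∧ u ≠ 0 ∧ ∀ v : Place Qb FB,
      ((Finsupp.single (cuspInf N FB) (1 - (N : ℤ)) +
        Finsupp.single (cuspZero N FB) ((N : ℤ) - 1) : Divisor Qb FB)) v = v.ord u := by
  classical
  haveI : Fact N.Prime := ⟨hN⟩
  have hQ := natCast_ne_zero_qbar (N := N)
  obtain ⟨⟨hu, P, hP, hP0⟩, hu', P', hP', hP'0⟩ := etaQuot_mem_and_integral N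
  set u : FB := ⟨_, hu⟩
  set u' : FB := ⟨_, hu'⟩
  have hmul : u * u' = 1 := Subtype.ext (etaQuot_mul_inv N Qb)
  have hu0 : u ≠ 0 := left_ne_zero_of_mul_eq_one hmul
  have hinv : u⁻¹ = u' := inv_eq_of_mul_eq_one_right hmul
  have hnn : ∀ (v : Place Qb FB), 0 ≤ v.ord (jEl N FB) → ∀ (z : FB) (Q : Qb[X][X]), Q.Monic →
      Q.eval₂ (aeval (jqModC Qb)).toRingHom (z : LaurentSeries Qb) = 0 → 0 ≤ v.ord z := by
    intro v hv z Q hQm hQ0
    have hj0 : jEl N FB ≠ 0 := fun h => jEl_ne_algebraMap N FB 0 (by rw [h, map_zero])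
    set j' : v.toValuationSubring := ⟨jEl N FB, (FLTA.Curves.mem_iff_ord_nonneg v hj0).mpr hv⟩
    refine FLTA.Curves.ord_nonneg_of_mem v ?_
    have hint : IsIntegral v.toValuationSubring z := by
      refine ⟨Q.map (aeval j').toRingHom, hQm.map _, (algebraMap FB (LaurentSeries Qb)).injective ?_⟩
      rw [eval₂_map, map_zero, hom_eval₂]
      refine Eq.trans ?_ hQ0
      congr 1
      refine ringHom_ext' (RingHom.ext fun c => ?_) ?_
      · simp only [RingHom.comp_apply, AlgHom.toRingHom_eq_coe, RingHom.coe_coe, aeval_C]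
        rfl
      · simp only [RingHom.comp_apply, AlgHom.toRingHom_eq_coe, RingHom.coe_coe, aeval_X]
        rfl
    obtain ⟨y, hy⟩ := IsIntegrallyClosed.isIntegral_iff.mp hint
    exact hy ▸ y.2
  haveI := hasPrincipalDivisors_bar (N := N)
  obtain ⟨D, hD, hdeg⟩ := HasPrincipalDivisors.exists_divisor (K := Qb) u hu0
  have hinf : D (cuspInf N FB) = 1 - (N : ℤ) := by
    rw [hD, ord_cuspInf]
    show (etaQuot N Qb).order = _
    exact order_eq_of_coeff (by rw [coeff_etaQuot_lead]; exact one_ne_zero)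
      fun m hm => coeff_etaQuot_of_lt N Qb hm
  have hoff : ∀ v, v ≠ cuspInf N FB → v ≠ cuspZero N FB → D v = 0 := fun v h1 h2 => by
    have hv : 0 ≤ v.ord (jEl N FB) := by
      by_contra h
      rcases eq_cusp_of_ord_jEl_neg N FB hN hQ v (not_le.mp h) with h' | h'
      exacts [h1 h', h2 h']
    have e1 := hnn v hv u P hP hP0
    have e2 := hnn v hv u' P' hP' hP'0
    rw [← hinv, v.ord_inv] at e2
    rw [hD]
    omega
  have hne := cuspInf_ne_cuspZero N FB hN hQ
  have hDeq : D = Finsupp.single (cuspInf N FB) (1 - (N : ℤ)) +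
      Finsupp.single (cuspZero N FB) (D (cuspZero N FB)) := by
    ext v
    rw [Finsupp.add_apply]
    rcases eq_or_ne v (cuspInf N FB) with rfl | h1
    · rw [Finsupp.single_eq_same, Finsupp.single_eq_of_ne hne, add_zero, hinf]
    rcases eq_or_ne v (cuspZero N FB) with rfl | h2
    · rw [Finsupp.single_eq_same, Finsupp.single_eq_of_ne h1, zero_add]
    · rw [Finsupp.single_eq_of_ne h1, Finsupp.single_eq_of_ne h2, add_zero, hoff v h1 h2]
  have hzero : D (cuspZero N FB) = (N : ℤ) - 1 := by
    rw [hDeq, map_add, Divisor.degree_single, Divisor.degree_single, deg_eq_one N,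
      deg_eq_one N] at hdeg
    push_cast at hdeg
    omega
  rw [hzero] at hDeq
  exact ⟨u, rfl, hu0, fun v => by rw [← hDeq, hD]⟩

theorem sub_one_nsmul_cuspClass : (N - 1) • cuspClass N = 0 := by
  obtain ⟨u, -, hu, hD⟩ := exists_etaQuot_divisor N hN
  rw [cuspClass]
  show Pic0.mk ((N - 1) • _) = 0
  refine (QuotientAddGroup.eq_zero_iff _).mpr ?_
  rw [AddSubgroup.mem_addSubgroupOf, AddSubgroupClass.coe_nsmul, ← neg_mem_iff]
  refine ⟨u, hu, fun v => ?_⟩
  have h1 := hD v
  simp only [Finsupp.neg_apply, Finsupp.smul_apply, Finsupp.sub_apply, nsmul_eq_mul,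
    Nat.cast_sub hN.one_le, Nat.cast_one, Finsupp.add_apply] at h1 ⊢
  classical
  simp only [Finsupp.single_apply] at h1 ⊢
  rw [← h1]
  split_ifs <;> ring

/-! ### The Hecke operators -/

theorem correspondence_single_cusp {r : ℕ} [NeZero r] (hr : r.Prime) (hrN : r ≠ N)
    {hα : HeckeAlphaBarIntegral Qb N r} {hβ : HeckeBetaBarIntegral Qb N r}
    [HasPrincipalDivisors Qb (laurentBaseChange Qb (modularFunctionFieldFull (N * r)))]
    (hFI : FundamentalIdentityAlong Qb (heckeBetaBar Qb N r) hβ) :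
    Divisor.correspondence (heckeBetaBar Qb N r) (heckeAlphaBar Qb N r) hβ hα
        (Finsupp.single (cuspInf N FB) 1) = Finsupp.single (cuspInf N FB) ((r : ℤ) + 1) ∧
      Divisor.correspondence (heckeBetaBar Qb N r) (heckeAlphaBar Qb N r) hβ hα
        (Finsupp.single (cuspZero N FB) 1) = Finsupp.single (cuspZero N FB) ((r : ℤ) + 1) := by
  classical
  have hdiv : ¬ r ∣ N := fun h => hrN ((Nat.prime_dvd_prime_iff_eq hr hN).mp h)
  have key : ∀ C : Place Qb FB, (∀ W : Place Qb (laurentBaseChange Qb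
      (modularFunctionFieldFull (N * r))), W.restrictAlong _ hβ = C → W.restrictAlong _ hα = C) →
      Divisor.correspondence (heckeBetaBar Qb N r) (heckeAlphaBar Qb N r) hβ hα
        (Finsupp.single C 1) = Finsupp.single C ((r : ℤ) + 1) := by
    intro C hC
    set D := Divisor.correspondence (heckeBetaBar Qb N r) (heckeAlphaBar Qb N r) hβ hα
      (Finsupp.single C 1) with hD
    have hsupp : D.support ⊆ {C} := fun v hv => by
      obtain ⟨W, hW, hWv⟩ := exists_mem_support_of_pushforwardAlong (heckeAlphaBar Qb N r) hα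
        (D := Divisor.pullbackAlong (heckeBetaBar Qb N r) hβ (Finsupp.single C 1)) hv
      subst hWv
      have h1 := Finset.mem_singleton.mp
        (Finsupp.support_single_subset (restrictAlong_mem_support _ _ hW))
      exact Finset.mem_singleton.mpr (hC W h1)
    have hDeq : D = Finsupp.single C (D C) := Finsupp.support_subset_singleton.mp hsupp
    have hdeg := Divisor.degree_correspondence (heckeBetaBar Qb N r) (heckeAlphaBar Qb N r) hβ hα
      hFI (Finsupp.single C 1)
    rw [← hD, hDeq, Divisor.degree_single, Divisor.degree_single,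
      finrankAlong_heckeBetaBar N hr hdiv, deg_eq_one N] at hdeg
    push_cast at hdeg
    rw [hDeq]
    congr 1
    linarith
  exact ⟨key _ fun W => (restrictAlong_cusp (hα := hα) hN hr hrN W).2,
    key _ fun W => (restrictAlong_cusp (hα := hα) hN hr hrN W).1⟩

theorem heckeOperatorBar_cuspClass {r : Nat.Primes} (hr : (r : ℕ) ≠ N) :
    heckeOperatorBar N r (cuspClass N) = (1 + (r : ℕ)) • cuspClass N := by
  haveI : NeZero (r : ℕ) := ⟨r.2.ne_zero⟩
  obtain ⟨hα, hβ, hPD, hfin, hFI, hNF⟩ := FLTA.Curves.heckeInputsAlong N Qb (r : ℕ)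
  haveI := hPD
  obtain ⟨h1, h2⟩ := correspondence_single_cusp N hN r.2 hr (hα := hα) hFI
  have hD : Divisor.correspondence (heckeBetaBar Qb N (r : ℕ)) (heckeAlphaBar Qb N (r : ℕ)) hβ hα
      (Finsupp.single (cuspInf N FB) (1 : ℤ) - Finsupp.single (cuspZero N FB) 1) =
      (1 + (r : ℕ)) • (Finsupp.single (cuspInf N FB) (1 : ℤ) -
        Finsupp.single (cuspZero N FB) 1) := by
    rw [map_sub, h1, h2, smul_sub, Finsupp.smul_single, Finsupp.smul_single, nsmul_eq_mul,
      mul_one]
    push_cast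
    rw [add_comm]
  rw [heckeOperatorBar_apply, heckeOperatorAlong_eq hα hβ hFI hfin hNF]
  exact pic0_correspondence_mk_eq_nsmul _ _ hβ hα hFI hfin hNF
    ⟨_, single_cuspInf_sub_single_cuspZero_mem N⟩ _ hD

/-! ### Non-triviality -/

theorem cuspClass_ne_zero (hg : 0 < genusFF Qb FB) : cuspClass N ≠ 0 := by
  classical
  intro h
  have hQ := natCast_ne_zero_qbar (N := N)
  haveI := hasPrincipalDivisors_bar (N := N)
  obtain ⟨f, hf, hfD⟩ := (QuotientAddGroup.eq_zero_iff _).mp h
  have hne := cuspInf_ne_cuspZero N FB hN hQ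
  have htr : Transcendental Qb f := fun halg => by
    have h1 := hfD (cuspInf N FB)
    rw [FLTA.Curves.ord_eq_zero_of_isAlgebraic halg] at h1
    simp [Finsupp.single_eq_of_ne hne] at h1
  obtain ⟨c, hc⟩ := FLTA.Curves.exists_forall_finrank_H1_eq_zero (K := Qb) (F := FB)
  set n := c.toNat
  set B : Divisor Qb FB := Finsupp.single (cuspZero N FB) (n : ℤ)
  have hdeg : Divisor.degree B = n := by
    rw [Divisor.degree_single, deg_eq_one N, Nat.cast_one, mul_one]
  have hrr := FLTA.Curves.riemannRoch B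
  rw [hc B (by omega), hdeg] at hrr
  have hmem : ∀ i : Fin (n + 1), f ^ (i : ℕ) ∈ riemannRochSpace B := fun i => by
    rw [mem_riemannRochSpace_iff]
    intro v
    right
    rw [FLTA.Curves.ord_pow, ← hfD v]
    have hi : ((i : ℕ) : ℤ) ≤ n := by exact_mod_cast Nat.lt_succ_iff.mp i.2
    simp only [B, AddSubgroup.coe_subtype, Finsupp.sub_apply]
    rcases eq_or_ne v (cuspInf N FB) with rfl | h1
    · rw [Finsupp.single_eq_same, Finsupp.single_eq_of_ne hne, Finsupp.single_eq_of_ne hne]
      simp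
    rcases eq_or_ne v (cuspZero N FB) with rfl | h2
    · rw [Finsupp.single_eq_same, Finsupp.single_eq_same, Finsupp.single_eq_of_ne h1]
      linarith
    · rw [Finsupp.single_eq_of_ne h2, Finsupp.single_eq_of_ne h1, Finsupp.single_eq_of_ne h2]
      simp
  have hli : LinearIndependent Qb (fun i : Fin (n + 1) => (⟨_, hmem i⟩ : riemannRochSpace B)) := by
    rw [Fintype.linearIndependent_iff]
    intro g hg i
    have h0 : aeval f (∑ j : Fin (n + 1), monomial (j : ℕ) (g j)) = 0 := by
      rw [map_sum]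
      simpa [aeval_monomial, Algebra.smul_def] using congrArg Subtype.val hg
    have hp : (∑ j : Fin (n + 1), monomial (j : ℕ) (g j)) = 0 := by
      by_contra hp
      exact htr ⟨_, hp, h0⟩
    have h1 := congrArg (fun p : Qb[X] => p.coeff (i : ℕ)) hp
    simpa [finsetSum_coeff, coeff_monomial, Fin.val_inj] using h1
  haveI : FiniteDimensional Qb (riemannRochSpace B) :=
    (FLTA.Curves.finiteDimensional_and_finrank_le (n + 1) B (by push_cast; omega)).1
  have hle := hli.fintype_card_le_finrank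
  rw [Fintype.card_fin] at hle
  change n + 1 ≤ FLTA.Curves.ell B at hle
  omega

/-- The multiples of order `p` of the cuspidal class survive reduction modulo `p`. -/
theorem reductionModL_nsmul_cuspClass_ne_zero {p : ℕ} (hp : p.Prime) (hp5 : 5 ≤ p) (hpN : p ≠ N)
    {A : ValuationSubring Qb} (hA : A.LiesOverPrime p) (h : ReductionInputsModL A N) {m : ℕ}
    (ho : addOrderOf (m • cuspClass N) = p) : reductionModL A N (m • cuspClass N) ≠ 0 := by
  classical
  intro hred
  haveI := FLTA.Galois.charP_residueField hp hA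
  haveI : Fact p.Prime := ⟨hp⟩
  haveI : NeZero p := ⟨hp.ne_zero⟩
  haveI := FLTA.Galois.isAlgClosed_residueField A
  have hk : (N : IsLocalRing.ResidueField A) ≠ 0 := by
    rw [Ne, CharP.cast_eq_zero_iff (IsLocalRing.ResidueField A) p]
    exact fun hd => hpN ((Nat.prime_dvd_prime_iff_eq hp hN).mp hd)
  have hr := isPlaceReductionModL_placeReductionModL h
  obtain ⟨h0, hi⟩ := placeReduction_cusps hr hN hk
  have hN1 := sub_one_nsmul_cuspClass N hN
  -- reduce to a divisor `d` of `N - 1`
  set d := Nat.gcd m (N - 1) with hd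
  have hdc : reductionModL A N (d • cuspClass N) = 0 := by
    have hb := Nat.gcd_eq_gcd_ab m (N - 1)
    rw [← natCast_zsmul (cuspClass N) d, hd, hb, add_zsmul, mul_zsmul', mul_zsmul', natCast_zsmul,
      natCast_zsmul, hN1, zsmul_zero, add_zero, map_zsmul, hred, zsmul_zero]
  obtain ⟨k', hk'⟩ := Nat.gcd_dvd_right m (N - 1)
  obtain ⟨m', hm'⟩ := Nat.gcd_dvd_left m (N - 1)
  have hpk : p ∣ k' := by
    have h1 : addOrderOf (d • cuspClass N) ∣ k' := addOrderOf_dvd_of_nsmul_eq_zero (by
      rw [← mul_nsmul, hd, ← hk', hN1])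
    refine dvd_trans ?_ h1
    rw [← ho]
    refine addOrderOf_dvd_of_mem_zmultiples (y := m • cuspClass N) ?_
    exact ⟨(m' : ℤ), by rw [hd]; simp only [natCast_zsmul]; rw [← mul_nsmul, ← hm']⟩
  -- a function with divisor `d (∞ - 0)` in characteristic `p`
  rw [cuspClass] at hdc
  change reductionModL A N (Pic0.mk (d • _)) = 0 at hdc
  rw [reductionModL_mk h] at hdc
  obtain ⟨f, hf, hfD⟩ := (QuotientAddGroup.eq_zero_iff _).mp hdc
  have hfD' : ∀ Q, (d : ℤ) * ((Finsupp.single (cuspInf N (modularFunctionFieldFullC (IsLocalRing.ResidueField A) N)) (1 : ℤ) -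
      Finsupp.single (cuspZero N (modularFunctionFieldFullC (IsLocalRing.ResidueField A) N)) 1 : Divisor _ (modularFunctionFieldFullC (IsLocalRing.ResidueField A) N)) Q) = Q.ord f := fun Q => by
    rw [← hfD Q, AddSubgroup.coe_subtype, coe_reductionDegZeroAlong, AddSubgroupClass.coe_nsmul,
      ← Finsupp.mapDomain.addMonoidHom_apply, map_nsmul, Finsupp.mapDomain.addMonoidHom_apply,
      Finsupp.mapDomain_sub, Finsupp.mapDomain_single, Finsupp.mapDomain_single]
    change _ = ((d • (Finsupp.single (placeReductionModL h (cuspInf N FB)) (1 : ℤ) -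
      Finsupp.single (placeReductionModL h (cuspZero N FB)) 1) : Divisor (IsLocalRing.ResidueField A) (modularFunctionFieldFullC (IsLocalRing.ResidueField A) N))) Q
    rw [h0, hi, Finsupp.smul_apply, nsmul_eq_mul]
  -- the reduced unit
  obtain ⟨u, hu, hu0, huD⟩ := exists_etaQuot_divisor N hN
  have hyu : coeffMap A.subtype (etaQuot N A) = (u : LaurentSeries Qb) := by
    rw [coeffMap_etaQuot, hu]
  have hy : coeffMap A.subtype (etaQuot N A) ∈ FB := hyu ▸ u.2
  have hub : etaQuot N (IsLocalRing.ResidueField A) ∈ (modularFunctionFieldFullC (IsLocalRing.ResidueField A) N) := by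
    rw [← coeffMap_etaQuot N (IsLocalRing.residue A), ← FLTA.PlaceRed.gaussRed_coeffMap N
      IsLocalRing.residue_surjective hk (etaQuot N A) hy]
    exact Subtype.coe_prop _
  set ub : (modularFunctionFieldFullC (IsLocalRing.ResidueField A) N) := ⟨_, hub⟩
  have hub0 : ub ≠ 0 := fun e => one_ne_zero (α := IsLocalRing.ResidueField A) (by
    rw [← coeff_etaQuot_lead N (IsLocalRing.ResidueField A),
      show etaQuot N (IsLocalRing.ResidueField A) = (ub : LaurentSeries _) from rfl, e]
    simp)
  have hubD := mapDomain_eq_ord hr (etaQuot N A) hyu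
    (g := ub) (coeffMap_etaQuot N (IsLocalRing.residue A)) hub0 huD
  rw [Finsupp.mapDomain_add, Finsupp.mapDomain_single, Finsupp.mapDomain_single] at hubD
  -- `ub * f ^ k'` is constant
  set g := ub * f ^ k' with hg
  have hg0 : g ≠ 0 := mul_ne_zero hub0 (pow_ne_zero _ hf)
  have hNk : (N : ℤ) - 1 = (d : ℤ) * k' := by
    have h1 : ((N - 1 : ℕ) : ℤ) = ((d * k' : ℕ) : ℤ) := congrArg Nat.cast hk'
    rwa [Nat.cast_sub hN.one_le, Nat.cast_mul, Nat.cast_one] at h1
  have hgord : ∀ Q : Place (IsLocalRing.ResidueField A) (modularFunctionFieldFullC (IsLocalRing.ResidueField A) N), 0 ≤ Q.ord g := fun Q => by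
    rw [hg, Q.ord_mul hub0 (pow_ne_zero _ hf), FLTA.Curves.ord_pow, ← hfD', ← hubD, h0, hi,
      Finsupp.add_apply, Finsupp.sub_apply]
    refine le_of_eq ?_
    have hne' := cuspInf_ne_cuspZero N (modularFunctionFieldFullC (IsLocalRing.ResidueField A) N) hN hk
    rcases eq_or_ne Q (cuspInf N (modularFunctionFieldFullC (IsLocalRing.ResidueField A) N)) with rfl | h1
    · simp only [Finsupp.single_eq_same, Finsupp.single_eq_of_ne hne']
      linear_combination hNk
    rcases eq_or_ne Q (cuspZero N (modularFunctionFieldFullC (IsLocalRing.ResidueField A) N)) with rfl | h2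
    · simp only [Finsupp.single_eq_same, Finsupp.single_eq_of_ne h1]
      linear_combination -hNk
    · simp only [Finsupp.single_eq_of_ne h1, Finsupp.single_eq_of_ne h2]
      ring
  haveI := isSepFunctionField_levelField N (modularFunctionFieldFullC (IsLocalRing.ResidueField A) N)
  obtain ⟨a, ha⟩ := FLTA.Curves.mem_range_algebraMap_of_forall_ord_nonneg hgord
  -- so `ub` is a `p`-th power up to a constant, but its coefficient at `2 - N` is `-24`
  obtain ⟨e, he⟩ := hpk
  have hser : (ub : LaurentSeries (IsLocalRing.ResidueField A)) =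
      HahnSeries.single 0 a * ((f : LaurentSeries (IsLocalRing.ResidueField A))⁻¹ ^ e) ^ p := by
    have h1 : ub = algebraMap _ (modularFunctionFieldFullC (IsLocalRing.ResidueField A) N) a * ((f⁻¹) ^ e) ^ p := by
      rw [ha, hg, ← pow_mul, mul_comm e, ← he, inv_pow, mul_assoc,
        mul_inv_cancel₀ (pow_ne_zero _ hf), mul_one]
    rw [← algebraMap_laurentSeries_eq_single]
    exact (congrArg (Subtype.val) h1).trans (by push_cast; rfl)
  have hndvd : ¬ (p : ℤ) ∣ 2 - (N : ℤ) := by
    intro hdvd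
    have h1 : (p : ℤ) ∣ (N : ℤ) - 1 := by
      rw [hNk, he]
      exact ⟨(d : ℤ) * e, by push_cast; ring⟩
    have h2 := dvd_add hdvd h1
    rw [show (2 - (N : ℤ)) + ((N : ℤ) - 1) = 1 by ring] at h2
    exact hp.not_dvd_one (by exact_mod_cast h2)
  have hco := congrArg (fun s : LaurentSeries _ => s.coeff (2 - (N : ℤ))) hser
  rw [HahnSeries.coeff_single_mul, sub_zero, ← FLTA.Congruence.qExpand_coeffMap_frobenius p,
    qExpand_coeff_of_not_dvd p _ hndvd, mul_zero,
    show (ub : LaurentSeries _) = etaQuot N (IsLocalRing.ResidueField A) from rfl,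
    coeff_etaQuot_next N _ hN.two_le, neg_eq_zero] at hco
  have h24 : p ∣ 24 := (CharP.cast_eq_zero_iff (IsLocalRing.ResidueField A) p 24).mp (by
    exact_mod_cast hco)
  have h2 : p ∣ 2 ^ 3 * 3 := by norm_num; exact h24
  rcases hp.dvd_mul.mp h2 with h3 | h3
  · have := (Nat.prime_dvd_prime_iff_eq hp Nat.prime_two).mp (hp.dvd_of_dvd_pow h3); omega
  · have := (Nat.prime_dvd_prime_iff_eq hp Nat.prime_three).mp h3; omega

end FLTA.Mazur

end
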