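import Fermat.Agent.Curves.RRMult
import Fermat.Prelude.Def_AlgebraicCurve_BaseChangeGalois
import Mathlib.FieldTheory.IsAlgClosed.Basic
import Mathlib.Tactic

/-!
# Classes fixed by Frobenius form a finite set

Two ingredients: a bijective Frobenius-semilinear endomorphism of a finite dimensional space over
an algebraically closed field has a nonzero fixed vector (Lang), hence a class fixed by Frobenius
contains an effective divisor fixed by Frobenius; there are finitely many of those.
-/

set_option autoImplicit false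

open AlgebraicCurve Polynomial

namespace FLTA.Mazur.FrobFixed

section Lang

variable {K V : Type*} [Field K] [IsAlgClosed K] [AddCommGroup V] [Module K V]
  [FiniteDimensional K V]

/-- Lang's fixed vector: a `x ↦ x ^ q`-semilinear injective endomorphism has a nonzero fixed
vector. -/
theorem exists_fixed_vector {q : ℕ} (hq : 2 ≤ q) (φ : V →+ V)
    (hsmul : ∀ (c : K) (v : V), φ (c • v) = c ^ q • φ v) (hinj : Function.Injective φ)
    {v : V} (hv : v ≠ 0) : ∃ x : V, x ≠ 0 ∧ φ x = x := by
  classical
  set w : ℕ → V := fun i => φ^[i] v with hw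
  have hw0 : ∀ i, w i ≠ 0 := fun i h => hv <| (hinj.iterate i) (by
    show φ^[i] v = φ^[i] 0
    rw [iterate_map_zero]; exact h)
  have hex : ∃ n, w n ∈ Submodule.span K (w '' Set.Iio n) := by
    by_contra! hall
    have hli : ∀ n, LinearIndependent K (fun i : Fin n => w i) := by
      intro n
      induction n with
      | zero => exact linearIndependent_empty_type
      | succ n ih =>
        rw [linearIndependent_finSucc']
        refine ⟨ih, fun hmem => hall n (Submodule.span_mono ?_ hmem)⟩
        rintro _ ⟨i, rfl⟩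
        exact ⟨i, i.2, rfl⟩
    have := (hli (Module.finrank K V + 1)).fintype_card_le_finrank
    simp at this
  set n := Nat.find hex with hn
  have hn1 : 0 < n := by
    rcases Nat.eq_zero_or_pos n with h0 | h0
    · exfalso
      have := Nat.find_spec hex
      rw [← hn, h0] at this
      simp at this
      exact hw0 0 this
    · exact h0
  obtain ⟨m, hm⟩ : ∃ m, n = m + 1 := ⟨n - 1, by omega⟩
  have hli : LinearIndependent K (fun i : Fin n => w i) := by
    have : ∀ k ≤ n, LinearIndependent K (fun i : Fin k => w i) := by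
      intro k
      induction k with
      | zero => exact fun _ => linearIndependent_empty_type
      | succ k ih =>
        intro hk
        rw [linearIndependent_finSucc']
        refine ⟨ih (by omega), fun hmem => Nat.find_min hex (show k < n by omega)
          (Submodule.span_mono ?_ hmem)⟩
        rintro _ ⟨i, rfl⟩
        exact ⟨i, i.2, rfl⟩
    exact this n le_rfl
  obtain ⟨a, ha⟩ : ∃ a : Fin n → K, ∑ i, a i • w i = w n := by
    rw [← Submodule.mem_span_range_iff_exists_fun]
    refine Submodule.span_mono ?_ (Nat.find_spec hex)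
    rintro _ ⟨i, hi, rfl⟩
    exact ⟨⟨i, hi⟩, rfl⟩
  let a' : ℕ → K := fun i => if h : i < n then a ⟨i, h⟩ else 0
  -- the recursion for the coefficients of a fixed vector
  let P : ℕ → K[X] := fun i => Nat.rec (C (a' 0) * X ^ q) (fun j Pj => Pj ^ q + C (a' (j + 1)) * X ^ q) i
  have hP0 : P 0 = C (a' 0) * X ^ q := rfl
  have hPs : ∀ j, P (j + 1) = P j ^ q + C (a' (j + 1)) * X ^ q := fun j => rfl
  have hdiv : ∀ j, X ^ q ∣ P j := by
    intro j
    induction j with
    | zero => exact hP0 ▸ dvd_mul_left _ _
    | succ j ih =>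
      rw [hPs]
      exact dvd_add (ih.trans (dvd_pow_self _ (by omega))) (dvd_mul_left _ _)
  have hzero : ∀ j, P j = 0 → ∀ i ≤ j, a' i = 0 := by
    intro j
    induction j with
    | zero =>
      intro h i hi
      obtain rfl : i = 0 := by omega
      rw [hP0] at h
      simpa using h
    | succ j ih =>
      intro h
      rw [hPs] at h
      have hj : P j = 0 := by
        by_contra hne
        obtain ⟨R, hR⟩ := hdiv j
        have hdeg : q ≤ (P j).natDegree := by
          have := natDegree_le_of_dvd (hdiv j) hne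
          simpa using this
        have h1 : (P j ^ q).natDegree = q * (P j).natDegree := natDegree_pow _ _
        have h2 : (C (a' (j + 1)) * X ^ q).natDegree ≤ q := natDegree_C_mul_X_pow_le _ _
        have h3 : (P j ^ q).natDegree = (C (a' (j + 1)) * X ^ q).natDegree := by
          rw [eq_neg_of_add_eq_zero_left h, natDegree_neg]
        have h4 : q < q * (P j).natDegree := by
          calc q < q * q := lt_mul_of_one_lt_left (by omega) (by omega)
            _ ≤ _ := Nat.mul_le_mul_left q hdeg
        omega
      intro i hi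
      rcases hi.lt_or_eq with hlt | rfl
      · exact ih hj i (by omega)
      · rw [hj, zero_pow (by omega), zero_add] at h
        simpa using h
  have hPm : P m ≠ 0 := by
    intro h
    have hz := hzero m h
    refine hw0 n ?_
    rw [← ha]
    refine Finset.sum_eq_zero fun i _ => ?_
    have : a' i = 0 := hz i (by omega)
    simp only [a', i.2, dite_true] at this
    rw [this, zero_smul]
  obtain ⟨R, hR⟩ := hdiv m
  -- a nonzero root of `P m - X`
  obtain ⟨t, ht0, ht⟩ : ∃ t : K, t ≠ 0 ∧ (P m).eval t = t := by
    have hq1 : q = (q - 1) + 1 := by omega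
    set S : K[X] := X ^ (q - 1) * R - 1 with hS
    have hR0 : R ≠ 0 := fun h0 => hPm (by rw [hR, h0, mul_zero])
    have hdegS : S.degree ≠ 0 := by
      intro hd
      have h1 : S.natDegree = 0 := natDegree_eq_of_degree_eq_some hd
      rw [hS, ← C_1, natDegree_sub_C, natDegree_mul (pow_ne_zero _ X_ne_zero) hR0,
        natDegree_pow, natDegree_X, mul_one] at h1
      omega
    obtain ⟨t, ht⟩ := IsAlgClosed.exists_root S hdegS
    simp only [hS, IsRoot, eval_sub, eval_mul, eval_pow, eval_X, eval_one] at ht
    refine ⟨t, ?_, ?_⟩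
    · rintro rfl
      simp [show q - 1 ≠ 0 by omega] at ht
    · rw [hR, eval_mul, eval_pow, eval_X]
      conv_lhs => rw [hq1, pow_succ]
      linear_combination t * ht
  let b : ℕ → K := fun i => (P i).eval t
  have hb0 : b 0 = t ^ q * a' 0 := by
    show (P 0).eval t = _
    rw [hP0, eval_mul, eval_C, eval_pow, eval_X, mul_comm]
  have hbs : ∀ j, b (j + 1) = b j ^ q + t ^ q * a' (j + 1) := fun j => by
    show (P (j + 1)).eval t = (P j).eval t ^ q + _
    rw [hPs, eval_add, eval_pow, eval_mul, eval_C, eval_pow, eval_X, mul_comm (a' _)]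
  have hbm : b m = t := ht
  refine ⟨∑ i : Fin n, b i • w i, fun h0 => ?_, ?_⟩
  · have := Fintype.linearIndependent_iff.mp hli _ h0 ⟨m, by omega⟩
    exact ht0 (hbm.symm.trans this)
  · rw [map_sum]
    simp_rw [hsmul]
    have hφw : ∀ i, φ (w i) = w (i + 1) := fun i => by
      show φ (φ^[i] v) = φ^[i + 1] v
      rw [Function.iterate_succ_apply']
    simp_rw [hφw]
    rw [Fin.sum_univ_eq_sum_range (fun i => b i ^ q • w (i + 1)) n,
      Fin.sum_univ_eq_sum_range (fun i => b i • w i) n]
    have ha' : ∑ i ∈ Finset.range n, a' i • w i = w n := by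
      rw [← Fin.sum_univ_eq_sum_range (fun i => a' i • w i) n, ← ha]
      exact Finset.sum_congr rfl fun i _ => by simp [a']
    rw [hm] at ha' ⊢
    rw [Finset.sum_range_succ, hbm, ← ha', Finset.smul_sum,
      Finset.sum_range_succ' (fun i => t ^ q • a' i • w i), ← add_assoc,
      ← Finset.sum_add_distrib, Finset.sum_range_succ' (fun i => b i • w i), hb0, smul_smul]
    congr 1
    refine Finset.sum_congr rfl fun i _ => ?_
    rw [hbs, add_smul, smul_smul]

end Lang

variable {K F : Type*} [Field K] [Field F] [Algebra K F] [IsAlgClosed K] [IsCurveOver K F]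
  [FLTA.Curves.IsFunctionField K F]

open SemilinearAut in
/-- A fixed class contains a fixed effective divisor, after adding a fixed multiple of a fixed
place. -/
theorem exists_fixed_effective {q : ℕ} (hq : 2 ≤ q) (g : SemilinearAut K F)
    (hg : ∀ a : K, baseAut g a = a ^ q) {E : Divisor K F} (hE : ∀ P, 0 ≤ E P)
    (hgE : g • E - E ∈ Divisor.principal (K := K) (F := F)) :
    ∃ E' : Divisor K F, (∀ P, 0 ≤ E' P) ∧ g • E' = E' ∧
      E' - E ∈ Divisor.principal (K := K) (F := F) := by
  obtain ⟨h, hh0, hh⟩ := hgE
  haveI : FiniteDimensional K (riemannRochSpace E) := inferInstance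
  have hmem : ∀ x ∈ riemannRochSpace E, (g • x) * h ∈ riemannRochSpace E := by
    intro x hx
    rw [mem_riemannRochSpace_iff] at hx ⊢
    intro Q
    rcases eq_or_ne x 0 with rfl | hx0
    · left; simp
    have hgx : g • x ≠ 0 := (smul_ne_zero_iff_ne g).mpr hx0
    refine Or.inr ?_
    rw [Place.ord_mul _ hgx hh0, ← hh Q, Finsupp.sub_apply, divisor_smul_apply]
    have h1 := ord_smul g (g⁻¹ • Q) x
    rw [smul_inv_smul] at h1
    have h2 := (hx (g⁻¹ • Q)).resolve_left hx0
    omega
  let φ : riemannRochSpace E →+ riemannRochSpace E :=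
    AddMonoidHom.mk' (fun x => ⟨(g • (x : F)) * h, hmem x x.2⟩)
      fun x y => Subtype.ext (by simp [smul_add, add_mul])
  have hone : (1 : F) ∈ riemannRochSpace E := by
    rw [mem_riemannRochSpace_iff]
    exact fun Q => Or.inr (by simpa using hE Q)
  obtain ⟨x, hx0, hx⟩ := exists_fixed_vector (K := K) hq φ (fun c x => Subtype.ext (by
      show (g • (c • (x : F))) * h = c ^ q • ((g • (x : F)) * h)
      rw [Algebra.smul_def, Algebra.smul_def, smul_mul', SemilinearAut.smul_algebraMap, hg, map_pow, mul_assoc]))
    (fun x y he => by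
      have he' : (g • (x : F)) * h = (g • (y : F)) * h := congrArg Subtype.val he
      exact Subtype.ext (smul_left_cancel g (mul_right_cancel₀ hh0 he')))
    (v := ⟨1, hone⟩) (by simp [Subtype.ext_iff])
  have hx0' : (x : F) ≠ 0 := fun h0 => hx0 (Subtype.ext h0)
  have hfix : (g • (x : F)) * h = x := congrArg Subtype.val hx
  refine ⟨E + FLTA.Curves.divFn (x : F), fun P => ?_, ?_, ?_⟩
  · have := (mem_riemannRochSpace_iff.mp x.2 P).resolve_left hx0'
    rw [Finsupp.add_apply, FLTA.Curves.divFn_apply]
    omega
  · ext Q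
    rw [divisor_smul_apply, Finsupp.add_apply, Finsupp.add_apply, FLTA.Curves.divFn_apply,
      FLTA.Curves.divFn_apply]
    have h1 := ord_smul g (g⁻¹ • Q) (x : F)
    rw [smul_inv_smul] at h1
    have h2 : Q.ord (x : F) = Q.ord (g • (x : F)) + Q.ord h := by
      conv_lhs => rw [← hfix]
      exact Place.ord_mul _ ((smul_ne_zero_iff_ne g).mpr hx0') hh0
    have h3 := hh Q
    rw [Finsupp.sub_apply, divisor_smul_apply] at h3
    omega
  · refine ⟨(x : F), hx0', fun Q => ?_⟩
    rw [add_sub_cancel_left, FLTA.Curves.divFn_apply]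

/-- The divisor classes fixed by a Frobenius-semilinear automorphism form a finite set. -/
theorem finite_fixed_pic0 {q : ℕ} (hq : 2 ≤ q) (g : SemilinearAut K F)
    (hg : ∀ a : K, SemilinearAut.baseAut g a = a ^ q) {P₀ : Place K F} (hP₀ : g • P₀ = P₀)
    (hfin : ∀ i : ℕ, 0 < i → {P : Place K F | g ^ i • P = P}.Finite) :
    {z : Pic0 K F | g • z = z}.Finite := by
  classical
  have hdeg : ∀ P : Place K F, P.deg = 1 := fun P => IsCurveOver.deg_eq_one_of_isAlgClosed P
  set m : ℕ := genusFF K F + 1 with hm
  let T : Set (Place K F) := ⋃ i ∈ Finset.Icc 1 m, {P | g ^ i • P = P}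
  have hT : T.Finite :=
    Set.Finite.biUnion (Finset.finite_toSet _) fun i hi => hfin i (Finset.mem_Icc.mp hi).1
  let S : Set (Divisor K F) :=
    {E | (∀ P, 0 ≤ E P) ∧ Divisor.degree E = m ∧ g • E = E}
  have hsum : ∀ E ∈ S, E.sum (fun _ n => n) = (m : ℤ) := fun E hE => by
    rw [← FLTA.Curves.degree_eq_sum, hE.2.1]
  have hle : ∀ E ∈ S, ∀ P, E P ≤ m := by
    intro E hE P
    by_cases hP : P ∈ E.support
    · rw [← hsum E hE]
      exact Finset.single_le_sum (fun Q _ => hE.1 Q) hP
    · rw [Finsupp.notMem_support_iff.mp hP]; positivity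
  have hcard : ∀ E ∈ S, E.support.card ≤ m := by
    intro E hE
    have : (E.support.card : ℤ) ≤ (m : ℤ) := by
      rw [← hsum E hE]
      calc (E.support.card : ℤ) = ∑ _Q ∈ E.support, (1 : ℤ) := by simp
        _ ≤ _ := Finset.sum_le_sum fun Q hQ => by
          have h1 := hE.1 Q
          have h2 := Finsupp.mem_support_iff.mp hQ
          show (1 : ℤ) ≤ E Q
          omega
    exact_mod_cast this
  have hsupp : ∀ E ∈ S, ∀ P, E P ≠ 0 → P ∈ T := by
    intro E hE P hP
    have horb : ∀ i : ℕ, E (g ^ i • P) = E P := by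
      intro i
      induction i with
      | zero => simp
      | succ i ih =>
        conv_lhs => rw [← hE.2.2, pow_succ', mul_smul, SemilinearAut.divisor_smul_apply_smul]
        exact ih
    obtain ⟨a, ha, b, hb, hab, he⟩ := Finset.exists_ne_map_eq_of_card_lt_of_maps_to
      (s := Finset.range (m + 1)) (t := E.support) (f := fun i => g ^ i • P)
      (by rw [Finset.card_range]; have := hcard E hE; omega)
      (fun i _ => Finsupp.mem_support_iff.mpr (by rw [horb]; exact hP))
    have key : ∀ a b : ℕ, a < b → b ≤ m → g ^ a • P = g ^ b • P → P ∈ T := by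
      intro a b hlt hb he
      refine Set.mem_biUnion (x := b - a) (Finset.mem_Icc.mpr ⟨by omega, by omega⟩) ?_
      show g ^ (b - a) • P = P
      apply smul_left_cancel (g ^ a)
      rw [← mul_smul, ← pow_add, Nat.add_sub_cancel' hlt.le, ← he]
    have ha' := Finset.mem_range.mp ha
    have hb' := Finset.mem_range.mp hb
    rcases lt_or_gt_of_ne hab with h | h
    · exact key a b h (by omega) he
    · exact key b a h (by omega) he.symm
  have hS : S.Finite := by
    haveI := hT.fintype
    refine Set.Finite.of_finite_image (f := fun E (t : T) => (⟨min (E t.1).toNat m, by omega⟩ : Fin (m + 1)))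
      (Set.toFinite _) fun E hE E' hE' he => ?_
    ext P
    by_cases hP : P ∈ T
    · have := congrArg Fin.val (congrFun he ⟨P, hP⟩)
      simp only at this
      have h1 := hE.1 P
      have h2 := hE'.1 P
      have h3 := hle E hE P
      have h4 := hle E' hE' P
      omega
    · rw [not_imp_comm.mp (hsupp E hE P) hP, not_imp_comm.mp (hsupp E' hE' P) hP]
  let cls : Divisor K F → Pic0 K F := fun E =>
    if h : E - Finsupp.single P₀ (m : ℤ) ∈ Divisor.degZero (K := K) (F := F) then
      Pic0.mk ⟨_, h⟩ else 0
  refine (hS.image cls).subset fun z hz => ?_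
  obtain ⟨⟨D, hD⟩, rfl⟩ := Pic0.mk_surjective z
  have hz' : g • D - D ∈ Divisor.principal (K := K) (F := F) := by
    have := hz
    rw [Set.mem_setOf_eq, SemilinearAut.pic0_smul_mk] at this
    have := (QuotientAddGroup.eq_iff_sub_mem).mp this
    simpa [AddSubgroup.mem_addSubgroupOf] using this
  have hD0 : Divisor.degree D = 0 := Divisor.mem_degZero.mp hD
  have hRR := FLTA.Curves.riemann_inequality (K := K) (F := F) (D + Finsupp.single P₀ (m : ℤ))
  rw [map_add, hD0, Divisor.degree_single, hdeg, zero_add, Nat.cast_one, mul_one] at hRR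
  obtain ⟨f, hf, hf0⟩ := Submodule.exists_mem_ne_zero_of_ne_bot
    (p := riemannRochSpace (D + Finsupp.single P₀ (m : ℤ))) (fun hbot => by
      unfold FLTA.Curves.ell at hRR
      rw [hbot, finrank_bot] at hRR
      omega)
  set E := D + Finsupp.single P₀ (m : ℤ) + FLTA.Curves.divFn f with hEdef
  have hEpos : ∀ P, 0 ≤ E P := fun P => by
    have := (mem_riemannRochSpace_iff.mp hf P).resolve_left hf0
    rw [hEdef, Finsupp.add_apply, FLTA.Curves.divFn_apply]
    omega
  have hdiv : FLTA.Curves.divFn f ∈ Divisor.principal (K := K) (F := F) :=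
    ⟨f, hf0, fun P => FLTA.Curves.divFn_apply f P⟩
  have hgE : g • E - E ∈ Divisor.principal (K := K) (F := F) := by
    have h1 : g • E - E = (g • D - D) + (g • FLTA.Curves.divFn f - FLTA.Curves.divFn f) := by
      rw [hEdef, smul_add, smul_add, SemilinearAut.smul_single, hP₀]
      abel
    rw [h1]
    exact add_mem hz' (sub_mem (SemilinearAut.smul_mem_principal g hdiv) hdiv)
  obtain ⟨E', hE'0, hE'g, hE'E⟩ := exists_fixed_effective hq g hg hEpos hgE
  have hprin0 : ∀ {G : Divisor K F}, G ∈ Divisor.principal (K := K) (F := F) →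
      Divisor.degree G = 0 := by
    rintro G ⟨u, hu, hG⟩
    have : G = FLTA.Curves.divFn u := Finsupp.ext fun P => by
      rw [FLTA.Curves.divFn_apply]; exact hG P
    rw [this, FLTA.Curves.degree_divFn]
  have hE'D : E' - Finsupp.single P₀ (m : ℤ) - D ∈ Divisor.principal (K := K) (F := F) := by
    have : E' - Finsupp.single P₀ (m : ℤ) - D = (E' - E) + FLTA.Curves.divFn f := by
      rw [hEdef]; abel
    rw [this]
    exact add_mem hE'E hdiv
  have hdeg' : E' - Finsupp.single P₀ (m : ℤ) ∈ Divisor.degZero (K := K) (F := F) := by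
    rw [Divisor.mem_degZero]
    have := hprin0 hE'D
    rw [map_sub, hD0, sub_zero] at this
    exact this
  refine ⟨E', ⟨hE'0, ?_, hE'g⟩, ?_⟩
  · have := Divisor.mem_degZero.mp hdeg'
    rw [map_sub, Divisor.degree_single, hdeg, Nat.cast_one, mul_one, sub_eq_zero] at this
    exact this
  · show cls E' = _
    simp only [cls, dif_pos hdeg']
    refine (QuotientAddGroup.eq_iff_sub_mem).mpr ?_
    rw [AddSubgroup.mem_addSubgroupOf]
    simpa using hE'D

end FLTA.Mazur.FrobFixed
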