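import Fermat.Agent.Mazur.Cusps
import Fermat.Agent.Congruence.GaloisCompat
import Fermat.Agent.Galois.Places
import Fermat.Agent.Congruence.Frobenius
import Fermat.Agent.Mazur.FrobeniusFixed

/-!
# Reductions of rational classes are torsion
-/

set_option autoImplicit false

noncomputable section

open AlgebraicCurve ModularCurve

namespace FLTA.Mazur

local notation "Qb" => AlgebraicClosure ℚ

set_option synthInstance.maxHeartbeats 400000
set_option maxHeartbeats 1000000

section FrobeniusFixedPlaces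

variable {k : Type} [Field k] {ℓ : ℕ} [Fact ℓ.Prime] [CharP k ℓ] [PerfectRing k ℓ]
  (N : ℕ) [NeZero N]

open FLTA.Congruence

theorem baseAut_frobSemilinear_pow (i : ℕ) (a : k) :
    SemilinearAut.baseAut (frobSemilinear k ℓ N ^ i) a = a ^ ℓ ^ i := by
  induction i generalizing a with
  | zero => simp
  | succ i ih =>
    rw [pow_succ, SemilinearAut.baseAut_mul]
    show SemilinearAut.baseAut (frobSemilinear k ℓ N ^ i)
      (SemilinearAut.baseAut (frobSemilinear k ℓ N) a) = _
    rw [ih, pow_succ', pow_mul]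
    rfl

theorem frobSemilinear_pow_smul_jEl (i : ℕ) :
    frobSemilinear k ℓ N ^ i • jEl N (modularFunctionFieldFullC k N) = jEl N _ := by
  induction i with
  | zero => rw [pow_zero, one_smul]
  | succ i ih =>
    have h1 : frobSemilinear k ℓ N • jEl N (modularFunctionFieldFullC k N) = jEl N _ :=
      Subtype.ext (by rw [coe_frobSemilinear_smul, coe_jEl, coeffMap_jqModC])
    rw [pow_succ, mul_smul, h1, ih]

theorem frobSemilinear_smul_cuspInf :
    frobSemilinear k ℓ N • cuspInf N (modularFunctionFieldFullC k N) = cuspInf N _ := by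
  refine FLTA.Curves.place_ext_ord fun f => ?_
  have h := SemilinearAut.ord_smul (frobSemilinear k ℓ N) (cuspInf N _)
    ((frobSemilinear k ℓ N)⁻¹ • f)
  rw [smul_inv_smul] at h
  rw [h, ord_cuspInf, ord_cuspInf]
  set x := (frobSemilinear k ℓ N)⁻¹ • f with hx
  rw [← smul_inv_smul (frobSemilinear k ℓ N) f, ← hx, coe_frobSemilinear_smul]
  rcases eq_or_ne (x : LaurentSeries k) 0 with h0 | h0
  · rw [h0, map_zero]
  · refine (order_eq_of_coeff ?_ fun m hm => ?_).symm
    · rw [coeffMap_coeff]
      simpa [HahnSeries.coeff_order_eq_zero] using h0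
    · rw [coeffMap_coeff, HahnSeries.coeff_eq_zero_of_lt_order hm, map_zero]

theorem finite_fixed_places [IsAlgClosed k] (hN : N.Prime) (hN0 : (N : k) ≠ 0) {i : ℕ}
    (hi : 0 < i) :
    {P : Place k (modularFunctionFieldFullC k N) |
      frobSemilinear k ℓ N ^ i • P = P}.Finite := by
  classical
  haveI := isSepFunctionField_levelField (K := k) N (modularFunctionFieldFullC k N)
  have hq : 1 < ℓ ^ i := Nat.one_lt_pow hi.ne' (Fact.out : ℓ.Prime).one_lt
  have hne : (Polynomial.X ^ ℓ ^ i - Polynomial.X : Polynomial k) ≠ 0 :=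
    FiniteField.X_pow_card_pow_sub_X_ne_zero k hi.ne' (Fact.out : ℓ.Prime).one_lt
  set j := jEl N (modularFunctionFieldFullC k N) with hj
  refine Set.Finite.subset ((Set.toFinite {cuspInf N _, cuspZero N _}).union
    (Set.Finite.biUnion (Polynomial.finite_setOf_isRoot hne) fun a _ =>
      (FLTA.Curves.divFn (K := k) (j - algebraMap k _ a)).support.finite_toSet)) fun P hP => ?_
  rcases lt_or_ge (P.ord j) 0 with h | h
  · exact Or.inl (eq_cusp_of_ord_jEl_neg N _ hN hN0 P h)
  · obtain ⟨a, ha⟩ := exists_ord_sub_algebraMap_pos P h (jEl_ne_algebraMap N _)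
    refine Or.inr (Set.mem_biUnion (x := a) ?_ ?_)
    · have h1 := SemilinearAut.ord_smul (frobSemilinear k ℓ N ^ i) P (j - algebraMap k _ a)
      rw [hP, smul_sub, SemilinearAut.smul_algebraMap, baseAut_frobSemilinear_pow,
        frobSemilinear_pow_smul_jEl] at h1
      have h2 := ord_sub_algebraMap_unique P (h1 ▸ ha) ha
      simp [Polynomial.IsRoot, h2]
    · rw [Finset.mem_coe, Finsupp.mem_support_iff, FLTA.Curves.divFn_apply]
      exact ha.ne'

end FrobeniusFixedPlaces

theorem exists_pos_nsmul_reductionModL_eq_zero {N : ℕ} [NeZero N] (hN : N.Prime) {ℓ : ℕ}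
    (hℓ : ℓ.Prime) (hℓN : ℓ ≠ N) {A : ValuationSubring Qb} (hA : A.LiesOverPrime ℓ)
    (h : ReductionInputsModL A N) :
    ∃ D : ℕ, 0 < D ∧ ∀ x : JZero N, (∀ σ : Qb ≃ₐ[ℚ] Qb, σ • x = x) →
      D • reductionModL A N x = 0 := by
  haveI : Fact ℓ.Prime := ⟨hℓ⟩
  haveI := FLTA.Galois.charP_residueField hℓ hA
  haveI := FLTA.Galois.isAlgClosed_residueField A
  haveI := FLTA.Congruence.perfectRing_residueField hℓ hA
  set k := IsLocalRing.ResidueField A
  have hN0 : (N : k) ≠ 0 := fun h0 =>
    hℓN ((Nat.prime_dvd_prime_iff_eq hℓ hN).mp ((CharP.cast_eq_zero_iff k ℓ N).mp h0))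
  haveI := isSepFunctionField_levelField (K := k) N (modularFunctionFieldFullC k N)
  let g := FLTA.Congruence.frobSemilinear k ℓ N
  have hfin : {z : JZeroC k N | g • z = z}.Finite :=
    FrobFixed.finite_fixed_pic0 hℓ.two_le g (fun _ => rfl) (frobSemilinear_smul_cuspInf N)
      fun i hi => finite_fixed_places N hN hN0 hi
  let S : AddSubgroup (JZeroC k N) :=
    { carrier := {z | g • z = z}
      zero_mem' := smul_zero g
      add_mem' := fun {x y} hx hy => by
        show g • (x + y) = x + y
        rw [smul_add, hx, hy]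
      neg_mem' := fun {x} hx => by
        show g • (-x) = -x
        rw [smul_neg, hx] }
  haveI : Finite S := hfin.to_subtype
  refine ⟨Nat.card S, Nat.card_pos, fun x hx => ?_⟩
  obtain ⟨σ, hσ⟩ := FLTA.Galois.exists_isFrobeniusAt hℓ hA
  have hmem : reductionModL A N x ∈ S := by
    show g • reductionModL A N x = reductionModL A N x
    rw [← FLTA.Congruence.reductionModL_frobenius h hσ, hx σ]
  exact congrArg Subtype.val (card_nsmul_eq_zero' (x := (⟨_, hmem⟩ : S)))

end FLTA.Mazur

end
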