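import Fermat.Agent.Mazur.ModPolyVal
import Fermat.Agent.Igusa.Degree
import Fermat.Agent.Curves.BasicModular
import Fermat.Agent.Curves.BasicOrdExtra
import Fermat.Agent.Curves.RRInstances

/-!
# Cusps and affine points of `X₀(N)`, `N` prime

Over an algebraically closed field in which the prime `N` is invertible: the two cusps, and the
places over a pair `(a, b)` of values of `(j, j_N)`.
-/

set_option autoImplicit false

noncomputable section

open AlgebraicCurve ModularCurve Polynomial FLTA.Curves

namespace FLTA.Mazur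

set_option synthInstance.maxHeartbeats 400000
set_option maxHeartbeats 1000000

/-! ### Evaluation of the modular polynomial -/

/-- Evaluation of `Φ_N` commutes with ring maps. -/
theorem map_eval₂_modPoly {R S : Type*} [CommRing R] [CommRing S] (N : ℕ) [NeZero N]
    (hN : N.Prime) (f : R →+* S) (x y : R) :
    f ((FLTA.Igusa.modPoly N hN).eval₂ (aeval (R := ℤ) x).toRingHom y) =
      (FLTA.Igusa.modPoly N hN).eval₂ (aeval (R := ℤ) (f x)).toRingHom (f y) := by
  rw [hom_eval₂]
  congr 1
  refine ringHom_ext' (Subsingleton.elim _ _) ?_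
  simp

theorem eval_modPolyAt {L : Type*} [Field L] (N : ℕ) [NeZero N] (hN : N.Prime) (x y : L) :
    (modPolyAt N hN x).eval y =
      (FLTA.Igusa.modPoly N hN).eval₂ (aeval (R := ℤ) x).toRingHom y :=
  eval_map _ _

theorem map_eval_modPolyAt {L L' : Type*} [Field L] [Field L'] (N : ℕ) [NeZero N] (hN : N.Prime)
    (f : L →+* L') (x y : L) :
    f ((modPolyAt N hN x).eval y) = (modPolyAt N hN (f x)).eval (f y) := by
  rw [eval_modPolyAt, eval_modPolyAt, map_eval₂_modPoly]

theorem map_modPolyAt {L L' : Type*} [Field L] [Field L'] (N : ℕ) [NeZero N] (hN : N.Prime)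
    (f : L →+* L') (x : L) : (modPolyAt N hN x).map f = modPolyAt N hN (f x) := by
  rw [modPolyAt, modPolyAt, Polynomial.map_map]
  congr 1
  refine ringHom_ext' (Subsingleton.elim _ _) ?_
  simp

section Residue

variable {K F : Type*} [Field K] [Field F] [Algebra K F]

/-- A relation at a place passes to the values. -/
theorem isRoot_of_ord_sub_pos (N : ℕ) [NeZero N] (hN : N.Prime) (v : Place K F) {x y : F} {a b : K}
    (hx : 0 < v.ord (x - algebraMap K F a)) (hy : 0 < v.ord (y - algebraMap K F b))
    (h : (modPolyAt N hN x).IsRoot y) : (modPolyAt N hN a).IsRoot b := by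
  have hmem : ∀ {z : F} {c : K}, 0 < v.ord (z - algebraMap K F c) → z ∈ v.toValuationSubring :=
    fun {z c} hz => by
      have h1 : z - algebraMap K F c ∈ v.toValuationSubring := by
        rcases eq_or_ne (z - algebraMap K F c) 0 with h0 | h0
        · rw [h0]; exact zero_mem _
        · exact (mem_iff_ord_nonneg v h0).mpr hz.le
      simpa using add_mem h1 (v.algebraMap_mem' c)
  set x' : v.toValuationSubring := ⟨x, hmem hx⟩
  set y' : v.toValuationSubring := ⟨y, hmem hy⟩
  have hres : ∀ {z : v.toValuationSubring} {c : K}, 0 < v.ord ((z : F) - algebraMap K F c) →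
      residueMap v z = algebraMap K v.ResidueField c := fun {z c} hz => by
    show residueMap v z = residueMap v (algebraMap K v.toValuationSubring c)
    rw [← sub_eq_zero, ← map_sub, residueMap_eq_zero_iff]
    exact Or.inr (by simpa using hz)
  have h0 : (FLTA.Igusa.modPoly N hN).eval₂ (aeval (R := ℤ) x').toRingHom y' = 0 := by
    apply Subtype.coe_injective
    show v.toValuationSubring.subtype _ = v.toValuationSubring.subtype 0
    rw [map_eval₂_modPoly, map_zero]
    exact (eval_modPolyAt N hN x y).symm.trans h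
  have h1 := congrArg (residueMap v) h0
  rw [map_eval₂_modPoly, map_zero, hres (z := x') hx, hres (z := y') hy, ← map_eval₂_modPoly,
    map_eq_zero, ← eval_modPolyAt] at h1
  exact h1

theorem ord_sub_algebraMap_of_neg (v : Place K F) {f : F} (h : v.ord f < 0) (c : K) :
    v.ord (f - algebraMap K F c) = v.ord f := by
  rcases eq_or_ne c 0 with rfl | hc
  · simp
  have hf : f ≠ 0 := fun h0 => by simp [h0] at h
  have hc' : -algebraMap K F c ≠ 0 := by simpa using hc
  rw [sub_eq_add_neg, ord_add_eq_of_lt v hf hc' (by rw [ord_neg, ord_algebraMap]; exact h)]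

theorem ord_sub_algebraMap_unique (v : Place K F) {f : F} {c c' : K}
    (h : 0 < v.ord (f - algebraMap K F c)) (h' : 0 < v.ord (f - algebraMap K F c')) : c = c' := by
  by_contra hne
  have heq : f - algebraMap K F c + -(f - algebraMap K F c') = algebraMap K F (c' - c) := by
    rw [map_sub]; ring
  have h1 := min_ord_le_ord_add v (f := f - algebraMap K F c) (g := -(f - algebraMap K F c'))
    (by rw [heq]; simpa [sub_eq_zero] using Ne.symm hne)
  rw [heq, ord_algebraMap, ord_neg] at h1
  omega

/-- The order of a polynomial in `f` at a place where `f` has value `a`. -/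
theorem ord_aeval_eq (v : Place K F) {f : F} {a : K} (h : 0 < v.ord (f - algebraMap K F a))
    {p : K[X]} (hp : p ≠ 0) :
    aeval f p ≠ 0 ∧ v.ord (aeval f p) = p.rootMultiplicity a * v.ord (f - algebraMap K F a) := by
  set t := f - algebraMap K F a with ht
  have ht0 : t ≠ 0 := fun h0 => by simp [h0] at h
  have hf : f ∈ v.toValuationSubring := by
    simpa [ht] using add_mem ((mem_iff_ord_nonneg v ht0).mpr h.le) (v.algebraMap_mem' a)
  obtain ⟨q, hq, hnd⟩ := exists_eq_pow_rootMultiplicity_mul_and_not_dvd p hp a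
  obtain ⟨q', hq'⟩ := X_sub_C_dvd_sub_C_eval (a := a) (p := q)
  have hqa : q.eval a ≠ 0 := fun h0 => hnd (dvd_iff_isRoot.mpr h0)
  have hc : algebraMap K F (q.eval a) ≠ 0 := by simpa using hqa
  have hq'0 : 0 ≤ v.ord (aeval f q') := by
    refine ord_nonneg_of_mem v ?_
    have : aeval f q' = ((aeval (⟨f, hf⟩ : v.toValuationSubring) q' : v.toValuationSubring) : F) :=
      (aeval_algebraMap_apply F (⟨f, hf⟩ : v.toValuationSubring) q')
    rw [this]
    exact Subtype.coe_prop _
  have hdecomp : aeval f q = algebraMap K F (q.eval a) + t * aeval f q' := by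
    have := congrArg (aeval f) hq'
    simp only [map_sub, map_mul, aeval_C, aeval_X] at this
    rw [← this]; ring
  have hq0 : aeval f q ≠ 0 ∧ v.ord (aeval f q) = 0 := by
    rcases eq_or_ne (t * aeval f q') 0 with h0 | h0
    · rw [hdecomp, h0, add_zero]
      exact ⟨hc, ord_algebraMap v _⟩
    · have hlt : v.ord (algebraMap K F (q.eval a)) < v.ord (t * aeval f q') := by
        rw [ord_algebraMap, v.ord_mul ht0 (right_ne_zero_of_mul h0)]
        omega
      refine ⟨fun h1 => ?_, ?_⟩
      · rw [hdecomp, add_eq_zero_iff_eq_neg] at h1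
        rw [h1, ord_neg] at hlt
        exact lt_irrefl _ hlt
      · rw [hdecomp, ord_add_eq_of_lt v hc h0 hlt, ord_algebraMap]
  have hval : aeval f p = t ^ p.rootMultiplicity a * aeval f q := by
    conv_lhs => rw [hq]
    simp [ht]
  rw [hval]
  exact ⟨mul_ne_zero (pow_ne_zero _ ht0) hq0.1, by
    rw [v.ord_mul (pow_ne_zero _ ht0) hq0.1, ord_pow, hq0.2, add_zero]⟩

theorem exists_ord_sub_algebraMap_pos [IsAlgClosed K] [IsCurveOver K F] (v : Place K F) {f : F}
    (hf : 0 ≤ v.ord f) (hne : ∀ c : K, f ≠ algebraMap K F c) :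
    ∃ c : K, 0 < v.ord (f - algebraMap K F c) := by
  obtain ⟨c, hc⟩ := exists_adicValuation_sub_algebraMap_lt v
    (h := f) (v.adicValuation_le_one_iff.mpr (Or.inr hf))
  refine ⟨c, ?_⟩
  rw [v.adicValuation_eq_exp_neg_ord (sub_ne_zero.mpr (hne c)), ← WithZero.exp_zero,
    WithZero.exp_lt_exp] at hc
  omega

end Residue

theorem order_eq_of_coeff {R : Type*} [Zero R] {x : LaurentSeries R} {n : ℤ} (h : x.coeff n ≠ 0)
    (h' : ∀ m < n, x.coeff m = 0) : x.order = n := by
  refine le_antisymm (HahnSeries.order_le_of_coeff_ne_zero h) (not_lt.mp fun hlt => ?_)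
  have := h' _ hlt
  rw [HahnSeries.coeff_order_eq_zero] at this
  exact h (by simp [this])

theorem order_jqModC (K : Type*) [Field K] : (jqModC K).order = -1 :=
  order_eq_of_coeff (by rw [coeff_jqModC_neg_one]; exact one_ne_zero)
    fun _ hm => coeff_jqModC_of_lt K hm

theorem order_jqNModC (K : Type*) [Field K] (N : ℕ) [NeZero N] :
    (jqNModC K N).order = -(N : ℤ) := by
  refine order_eq_of_coeff ?_ fun m hm => ?_
  · rw [jqNModC, show -(N : ℤ) = (N : ℤ) * (-1) by ring, qExpand_coeff_mul, coeff_jqModC_neg_one]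
    exact one_ne_zero
  · by_cases hd : (N : ℤ) ∣ m
    · obtain ⟨i, rfl⟩ := hd
      rw [jqNModC, qExpand_coeff_mul]
      exact coeff_jqModC_of_lt K (by nlinarith [Int.natCast_nonneg N])
    · exact qExpand_coeff_of_not_dvd N _ hd

/-- `F` is the level-`N` modular function field over `K`. -/
class IsLevelField (K : Type) [Field K] (N : ℕ) (F : IntermediateField K (LaurentSeries K)) :
    Prop where
  eq_fullC : F = modularFunctionFieldFullC K N

instance isLevelField_fullC (K : Type) [Field K] (N : ℕ) :
    IsLevelField K N (modularFunctionFieldFullC K N) := ⟨rfl⟩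

instance isLevelField_laurentBaseChange (L : Type) [Field L] [Algebra ℚ L] (N : ℕ) :
    IsLevelField L N (laurentBaseChange L (modularFunctionFieldFull N)) :=
  ⟨FLTA.Curves.laurentBaseChange_full_eq N L⟩

variable {K : Type} [Field K] (N : ℕ) [NeZero N]
variable (F : IntermediateField K (LaurentSeries K)) [IsLevelField K N F]

omit [NeZero N] in
theorem levelField_eq : F = modularFunctionFieldFullC K N := IsLevelField.eq_fullC

/-- `j` in the level-`N` field. -/
def jEl : F := ⟨jqModC K, (levelField_eq N F).symm ▸ jqModC_mem_full K N⟩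

/-- `j_N` in the level-`N` field. -/
def jNEl : F := ⟨jqNModC K N, (levelField_eq N F).symm ▸ jqModCd_mem_full K N dvd_rfl⟩

@[simp] theorem coe_jEl : (jEl N F : LaurentSeries K) = jqModC K := rfl

@[simp] theorem coe_jNEl : (jNEl N F : LaurentSeries K) = jqNModC K N := rfl

variable (K) in
open Classical in
/-- The valuation `exp (-order)` on Laurent series. -/
def orderVal : Valuation (LaurentSeries K) (WithZero (Multiplicative ℤ)) where
  toFun x := if x = 0 then 0 else WithZero.exp (-x.order)
  map_zero' := if_pos rfl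
  map_one' := by simp
  map_mul' x y := by
    rcases eq_or_ne x 0 with rfl | hx
    · simp
    rcases eq_or_ne y 0 with rfl | hy
    · simp
    rw [if_neg hx, if_neg hy, if_neg (mul_ne_zero hx hy), HahnSeries.order_mul hx hy,
      ← WithZero.exp_add]
    congr 1
    ring
  map_add_le_max' x y := by
    rcases eq_or_ne x 0 with rfl | hx
    · simp
    rcases eq_or_ne y 0 with rfl | hy
    · simp
    rcases eq_or_ne (x + y) 0 with hxy | hxy
    · simp [hxy]
    rw [if_neg hx, if_neg hy, if_neg hxy, le_max_iff, WithZero.exp_le_exp, WithZero.exp_le_exp]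
    have := HahnSeries.min_order_le_order_add hxy
    omega

theorem exists_place_order : ∃ v : Place K F,
    (∀ f : F, v.ord f = (f : LaurentSeries K).order) ∧ v.ord (jEl N F) = -1 := by
  classical
  set u := (orderVal K).comap (algebraMap F (LaurentSeries K)) with hu
  have happ : ∀ f : F, u f =
      if (f : LaurentSeries K) = 0 then 0 else WithZero.exp (-(f : LaurentSeries K).order) :=
    fun _ => rfl
  have hK : ∀ c : K, u (algebraMap K F c) ≤ 1 := fun c => by
    rw [happ]
    split_ifs with h
    · exact zero_le'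
    · rw [← WithZero.exp_zero, WithZero.exp_le_exp]
      rw [show ((algebraMap K F c : F) : LaurentSeries K) = HahnSeries.single 0 c from
        algebraMap_laurentSeries_eq_single K c] at h ⊢
      rw [HahnSeries.order_single fun hc => h (by simp [hc])]
      simp
  have hj : (jqModC K : LaurentSeries K) ≠ 0 := jqModC_ne_zero_of_nontrivial K
  have hπ : ∃ π : F, u π = WithZero.exp (-1 : ℤ) := ⟨(jEl N F)⁻¹, by
    rw [map_inv₀, happ, coe_jEl, if_neg hj, order_jqModC, ← WithZero.exp_neg]
    simp⟩
  refine ⟨ofValuation u hK hπ, fun f => ?_, ?_⟩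
  · rw [ord_ofValuation, happ]
    split_ifs with h
    · simp [h]
    · simp
  · rw [ord_ofValuation, happ, coe_jEl, if_neg hj, order_jqModC]
    simp

/-- The cusp `∞`: the order of the `q`-expansion. -/
def cuspInf : Place K F := (exists_place_order N F).choose

open Classical in
/-- The cusp `0`: the pole of `j` of order `N`. -/
def cuspZero : Place K F :=
  if h : ∃ v : Place K F, v.ord (jEl N F) < -1 then h.choose else cuspInf N F

variable {F} in
/-- The place `v` lies over the affine point `(a, b)` of the plane model. -/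
structure IsPoint (v : Place K F) (a b : K) : Prop where
  fst : 0 < v.ord (jEl N F - algebraMap K F a)
  snd : 0 < v.ord (jNEl N F - algebraMap K F b)

theorem ord_cuspInf (f : F) : (cuspInf N F).ord f = (f : LaurentSeries K).order :=
  (exists_place_order N F).choose_spec.1 f

theorem ord_cuspInf_jEl : (cuspInf N F).ord (jEl N F) = -1 :=
  (exists_place_order N F).choose_spec.2

theorem ord_cuspInf_jNEl : (cuspInf N F).ord (jNEl N F) = -(N : ℤ) := by
  rw [ord_cuspInf, coe_jNEl, order_jqNModC]

include N in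
theorem isSepFunctionField_levelField [PerfectField K] : IsSepFunctionField K F := by
  obtain rfl := levelField_eq N F
  infer_instance

omit [NeZero N] in
theorem dedekindPsi_of_prime (hN : N.Prime) : dedekindPsi N = N + 1 := by
  rw [dedekindPsi, hN.divisors, Finset.filter_true_of_mem, Finset.sum_pair hN.one_lt.ne,
    Nat.div_one, Nat.div_self hN.pos]
  intro d hd
  rcases Finset.mem_insert.mp hd with rfl | hd
  · exact squarefree_one
  · rw [Finset.mem_singleton.mp hd]
    exact hN.squarefree

/-- `K(j)` inside the level field is `K(j)` inside Laurent series. -/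
def adjoinJEquiv : IntermediateField.adjoin K {jEl N F} ≃+* FLTA.Igusa.jField K :=
  (IntermediateField.liftAlgEquiv (IntermediateField.adjoin K {jEl N F})).toRingEquiv.trans
    (IntermediateField.equivOfEq (IntermediateField.lift_adjoin_simple K F (jEl N F))).toRingEquiv

/-- The level field as an extension of `K(j)`. -/
def fullOverEquiv : F ≃+* FLTA.Igusa.fullOver K N where
  toFun x := ⟨x, (FLTA.Igusa.mem_fullOver_iff K N).mpr ((levelField_eq N F).le x.2)⟩
  invFun x := ⟨x, (levelField_eq N F).ge ((FLTA.Igusa.mem_fullOver_iff K N).mp x.2)⟩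
  left_inv _ := rfl
  right_inv _ := rfl
  map_mul' _ _ := rfl
  map_add' _ _ := rfl

theorem fullOverEquiv_comp :
    (algebraMap (FLTA.Igusa.jField K) (FLTA.Igusa.fullOver K N)).comp
        (adjoinJEquiv N F).toRingHom =
      (fullOverEquiv N F).toRingHom.comp
        (algebraMap (IntermediateField.adjoin K {jEl N F}) F) :=
  RingHom.ext fun _ => rfl

theorem finrank_adjoin_jEl (hN : N.Prime) (hN0 : (N : K) ≠ 0) :
    Module.finrank (IntermediateField.adjoin K {jEl N F}) F = N + 1 := by
  rw [Algebra.finrank_eq_of_equiv_equiv _ _ (fullOverEquiv_comp N F),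
    FLTA.Igusa.finrank_fullOver K N hN0, dedekindPsi_of_prime N hN]

theorem isSeparable_adjoin_jEl (hN0 : (N : K) ≠ 0) :
    Algebra.IsSeparable (IntermediateField.adjoin K {jEl N F}) F := by
  haveI := FLTA.Igusa.isSeparable_fullOver K N hN0
  exact Algebra.IsSeparable.of_equiv_equiv (adjoinJEquiv N F).symm (fullOverEquiv N F).symm
    (RingHom.ext fun _ => rfl)

theorem adjoin_jEl_jNEl_eq_top (hN0 : (N : K) ≠ 0) :
    IntermediateField.adjoin K {jEl N F, jNEl N F} = (⊤ : IntermediateField K F) := by
  apply IntermediateField.lift_injective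
  rw [IntermediateField.lift_top, IntermediateField.lift_adjoin, Set.image_pair]
  exact ((levelField_eq N F).trans (FLTA.Igusa.modularFunctionFieldC_eq_full K N hN0).symm).symm

theorem isRoot_jEl_jNEl (hN : N.Prime) : (modPolyAt N hN (jEl N F)).IsRoot (jNEl N F) := by
  apply (algebraMap F (LaurentSeries K)).injective
  rw [map_eval_modPolyAt, map_zero, eval_modPolyAt]
  refine Eq.trans ?_ (FLTA.Igusa.modPoly_eval_jp K N hN)
  congr 1
  exact ringHom_ext' (Subsingleton.elim _ _) (by simp)

theorem isRoot_jNEl_jEl (hN : N.Prime) : (modPolyAt N hN (jNEl N F)).IsRoot (jEl N F) := by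
  apply (algebraMap F (LaurentSeries K)).injective
  rw [map_eval_modPolyAt, map_zero, eval_modPolyAt]
  refine Eq.trans ?_ (FLTA.Igusa.modPoly_eval_jp_swap K N hN)
  congr 1
  exact ringHom_ext' (Subsingleton.elim _ _) (by simp)

theorem finrank_adjoin_adjoin_jNEl (hN : N.Prime) (hN0 : (N : K) ≠ 0) :
    Module.finrank (IntermediateField.adjoin K {jEl N F})
      (IntermediateField.adjoin (IntermediateField.adjoin K {jEl N F}) {jNEl N F}) = N + 1 := by
  have htop : IntermediateField.adjoin (IntermediateField.adjoin K {jEl N F}) {jNEl N F} = ⊤ := by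
    apply IntermediateField.restrictScalars_injective K
    rw [IntermediateField.adjoin_simple_adjoin_simple, adjoin_jEl_jNEl_eq_top N F hN0,
      IntermediateField.restrictScalars_top]
  rw [htop, IntermediateField.finrank_top', finrank_adjoin_jEl N F hN hN0]

theorem minpoly_jNEl (hN : N.Prime) (hN0 : (N : K) ≠ 0) :
    minpoly (IntermediateField.adjoin K {jEl N F}) (jNEl N F) =
      modPolyAt N hN (IntermediateField.AdjoinSimple.gen K (jEl N F)) := by
  set P := modPolyAt N hN (IntermediateField.AdjoinSimple.gen K (jEl N F)) with hP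
  have hroot : aeval (jNEl N F) P = 0 := by
    rw [aeval_def, ← eval_map, hP, map_modPolyAt]
    exact isRoot_jEl_jNEl N F hN
  have hint : IsIntegral (IntermediateField.adjoin K {jEl N F}) (jNEl N F) :=
    ⟨P, modPolyAt_monic N hN _, hroot⟩
  refine (eq_of_monic_of_dvd_of_natDegree_le (minpoly.monic hint) (modPolyAt_monic N hN _)
    (minpoly.dvd _ _ hroot) ?_).symm
  rw [natDegree_modPolyAt, ← IntermediateField.adjoin.finrank hint,
    finrank_adjoin_adjoin_jNEl N F hN hN0]

/-- The norm of `j_N - c` down to `K(j)` is `± Φ_N(j, c)`. -/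
theorem norm_jNEl_sub (hN : N.Prime) (hN0 : (N : K) ≠ 0) (c : K) :
    Algebra.norm (IntermediateField.adjoin K {jEl N F}) (jNEl N F - algebraMap K F c) =
      (-1) ^ (N + 1) * (modPolyAt N hN (IntermediateField.AdjoinSimple.gen K (jEl N F))).eval
        (algebraMap K (IntermediateField.adjoin K {jEl N F}) c) := by
  set E := IntermediateField.adjoin K {jEl N F}
  set x := jNEl N F - algebraMap K F c
  have hmin : minpoly E x =
      (modPolyAt N hN (IntermediateField.AdjoinSimple.gen K (jEl N F))).comp
        (X + C (algebraMap K E c)) := by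
    rw [show x = jNEl N F - algebraMap E F (algebraMap K E c) by
      rw [← IsScalarTower.algebraMap_apply], minpoly.sub_algebraMap, minpoly_jNEl N F hN hN0]
  haveI : Module.Finite E F := Module.finite_of_finrank_pos (by
    rw [finrank_adjoin_jEl N F hN hN0]; omega)
  have hint : IsIntegral E x := IsIntegral.of_finite E x
  have hdeg : (minpoly E x).natDegree = N + 1 := by
    rw [hmin, natDegree_comp, natDegree_modPolyAt, natDegree_X_add_C, mul_one]
  have hone : Module.finrank (IntermediateField.adjoin E {x}) F = 1 := by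
    have h := Module.finrank_mul_finrank E (IntermediateField.adjoin E {x}) F
    rw [IntermediateField.adjoin.finrank hint, hdeg, finrank_adjoin_jEl N F hN hN0] at h
    exact Nat.eq_of_mul_eq_mul_left (Nat.succ_pos N) (h.trans (mul_one _).symm)
  rw [Algebra.norm_eq_norm_adjoin E x, hone, pow_one,
    ← IntermediateField.adjoin.powerBasis_gen hint,
    Algebra.PowerBasis.norm_gen_eq_coeff_zero_minpoly,
    IntermediateField.adjoin.powerBasis_gen hint, IntermediateField.minpoly_gen,
    IntermediateField.adjoin.powerBasis_dim hint, hdeg, hmin, coeff_zero_eq_eval_zero, eval_comp]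
  simp
  rfl

theorem jEl_ne_algebraMap (c : K) : jEl N F ≠ algebraMap K F c := fun h => by
  have h1 := ord_cuspInf_jEl N F
  rw [h, FLTA.Curves.ord_algebraMap] at h1
  omega

theorem jNEl_ne_algebraMap (c : K) : jNEl N F ≠ algebraMap K F c := fun h => by
  have h1 := ord_cuspInf_jNEl N F
  rw [h, FLTA.Curves.ord_algebraMap] at h1
  have := NeZero.pos N
  omega

theorem transcendental_jEl : Transcendental K (jEl N F) :=
  transcendental_coe (transcendental_jqModC K)

include N in
theorem deg_eq_one [IsAlgClosed K] (v : Place K F) : v.deg = 1 := by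
  haveI := isSepFunctionField_levelField N F
  exact IsCurveOver.deg_eq_one_of_isAlgClosed v

/-- The Fricke involution. -/
theorem exists_swap (hN0 : (N : K) ≠ 0) :
    ∃ W : F ≃ₐ[K] F, W (jEl N F) = jNEl N F ∧ W (jNEl N F) = jEl N F := by
  obtain rfl := levelField_eq N F
  obtain ⟨W, hW⟩ := FLTA.Igusa.exists_fricke K N hN0
  have h1 : W (jEl N _) = jNEl N _ := by
    refine Subtype.ext (Eq.trans ?_ (hW 1 N (one_mul N)))
    congr 2
    exact Subtype.ext (qExpand_one_apply _).symm
  have h2 : W (jNEl N _) = jEl N _ := by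
    refine Subtype.ext (Eq.trans (hW N 1 (mul_one N)) ?_)
    exact qExpand_one_apply _
  have hWW : W.comp W = AlgHom.id K _ := by
    refine AlgHom.ext fun x => ?_
    have hx : x ∈ IntermediateField.adjoin K
        {jEl N (modularFunctionFieldFullC K N), jNEl N (modularFunctionFieldFullC K N)} := by
      rw [adjoin_jEl_jNEl_eq_top N _ hN0]; exact IntermediateField.mem_top
    induction hx using IntermediateField.adjoin_induction with
    | mem z hz =>
      rcases hz with rfl | rfl
      · simp only [AlgHom.comp_apply, h1, h2, AlgHom.id_apply]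
      · simp only [AlgHom.comp_apply, h1, h2, AlgHom.id_apply]
    | algebraMap c => simp
    | add x y _ _ hx hy => rw [map_add, map_add, hx, hy]
    | inv x _ hx => rw [map_inv₀, map_inv₀, hx]
    | mul x y _ _ hx hy => rw [map_mul, map_mul, hx, hy]
  exact ⟨AlgEquiv.ofAlgHom W W hWW hWW, h1, h2⟩

variable [IsAlgClosed K] (hN : N.Prime) (hN0 : (N : K) ≠ 0)

include hN hN0

theorem exists_other_cusp :
    ∃ v₀ : Place K F, v₀.ord (jEl N F) = -(N : ℤ) ∧ v₀.ord (jNEl N F) = -1 ∧
      ∀ v : Place K F, v.ord (jEl N F) < 0 → v = cuspInf N F ∨ v = v₀ := by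
  classical
  haveI := isSepFunctionField_levelField N F
  haveI := hasPrincipalDivisors_of_isSepFunctionField K F
  haveI := isSeparable_adjoin_jEl N F hN0
  obtain ⟨W, hW1, hW2⟩ := exists_swap N F hN0
  have h0 : (W • cuspInf N F).ord (jEl N F) = -(N : ℤ) := by
    rw [← hW2, Place.ord_smul, ord_cuspInf_jNEl]
  have h0N : (W • cuspInf N F).ord (jNEl N F) = -1 := by
    rw [← hW1, Place.ord_smul, ord_cuspInf_jEl]
  refine ⟨_, h0, h0N, fun v hv => ?_⟩
  by_contra hcon
  push Not at hcon
  have hne : cuspInf N F ≠ W • cuspInf N F := fun h => by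
    rw [← h, ord_cuspInf_jEl] at h0
    have := hN.two_le
    omega
  have hj0 : jEl N F ≠ 0 := fun h => by simp [h] at hv
  obtain ⟨P, hP, -⟩ := HasPrincipalDivisors.exists_divisor (K := K) (jEl N F) hj0
  set D : Divisor K F := P.mapRange (fun n => max (-n) 0) (by simp) with hDdef
  have hD : ∀ w, D w = max (-w.ord (jEl N F)) 0 := fun w => by simp [hDdef, hP]
  have hdeg := degree_polarDivisor (transcendental_jEl N F) hD
  rw [finrank_adjoin_jEl N F hN hN0, FLTA.Curves.degree_eq_sum, Finsupp.sum] at hdeg
  have hsub : ({cuspInf N F, W • cuspInf N F, v} : Finset (Place K F)) ⊆ D.support := by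
    intro w hw
    simp only [Finset.mem_insert, Finset.mem_singleton] at hw
    rw [Finsupp.mem_support_iff, hD]
    rcases hw with rfl | rfl | rfl
    · rw [ord_cuspInf_jEl]; simp
    · rw [h0]; have := hN.two_le; omega
    · omega
  have hle := Finset.sum_le_sum_of_subset_of_nonneg (f := fun w => D w) hsub
    (fun w _ _ => by rw [hD]; exact le_max_right _ _)
  rw [Finset.sum_insert (by simp [hne, Ne.symm hcon.1]), Finset.sum_pair (Ne.symm hcon.2),
    hdeg, hD, hD, hD, ord_cuspInf_jEl, h0] at hle
  have := hN.two_le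
  push_cast at hle
  omega

theorem cuspZero_spec :
    (cuspZero N F).ord (jEl N F) = -(N : ℤ) ∧ (cuspZero N F).ord (jNEl N F) = -1 ∧
      ∀ v : Place K F, v.ord (jEl N F) < 0 → v = cuspInf N F ∨ v = cuspZero N F := by
  obtain ⟨v₀, h0, h0N, hcl⟩ := exists_other_cusp N F hN hN0
  have hex : ∃ v : Place K F, v.ord (jEl N F) < -1 :=
    ⟨v₀, by rw [h0]; have := hN.two_le; omega⟩
  have hspec := hex.choose_spec
  have heq : cuspZero N F = v₀ := by
    rw [cuspZero, dif_pos hex]
    refine (hcl _ (by omega)).resolve_left fun h => ?_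
    rw [h, ord_cuspInf_jEl] at hspec
    omega
  rw [heq]
  exact ⟨h0, h0N, hcl⟩

theorem ord_cuspZero_jEl : (cuspZero N F).ord (jEl N F) = -(N : ℤ) :=
  (cuspZero_spec N F hN hN0).1

theorem ord_cuspZero_jNEl : (cuspZero N F).ord (jNEl N F) = -1 :=
  (cuspZero_spec N F hN hN0).2.1

theorem cuspInf_ne_cuspZero : cuspInf N F ≠ cuspZero N F := fun h => by
  have h1 := ord_cuspZero_jEl N F hN hN0
  rw [← h, ord_cuspInf_jEl] at h1
  have := hN.two_le
  omega

theorem eq_cusp_of_ord_jEl_neg (v : Place K F) (h : v.ord (jEl N F) < 0) :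
    v = cuspInf N F ∨ v = cuspZero N F :=
  (cuspZero_spec N F hN hN0).2.2 v h

theorem eq_cusp_of_ord_jNEl_neg (v : Place K F) (h : v.ord (jNEl N F) < 0) :
    v = cuspInf N F ∨ v = cuspZero N F := by
  refine eq_cusp_of_ord_jEl_neg N F hN hN0 v (not_le.mp fun hj => ?_)
  have h1 := val_le_one_of_root N hN v.adicValuation
    (v.adicValuation_le_one_iff.mpr (Or.inr hj)) (isRoot_jEl_jNEl N F hN)
  rcases v.adicValuation_le_one_iff.mp h1 with h2 | h2
  · simp [h2] at h
  · omega

theorem cusp_or_exists_isPoint (v : Place K F) :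
    v = cuspInf N F ∨ v = cuspZero N F ∨ ∃ a b : K, IsPoint N v a b := by
  haveI := isSepFunctionField_levelField N F
  rcases lt_or_ge (v.ord (jEl N F)) 0 with h | h
  · exact (eq_cusp_of_ord_jEl_neg N F hN hN0 v h).imp_right Or.inl
  rcases lt_or_ge (v.ord (jNEl N F)) 0 with h' | h'
  · exact (eq_cusp_of_ord_jNEl_neg N F hN hN0 v h').imp_right Or.inl
  obtain ⟨a, ha⟩ := exists_ord_sub_algebraMap_pos v h (jEl_ne_algebraMap N F)
  obtain ⟨b, hb⟩ := exists_ord_sub_algebraMap_pos v h' (jNEl_ne_algebraMap N F)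
  exact Or.inr (Or.inr ⟨a, b, ha, hb⟩)

omit hN0

variable {F}

omit [IsAlgClosed K] hN in
theorem IsPoint.unique {v : Place K F} {a b a' b' : K} (h : IsPoint N v a b)
    (h' : IsPoint N v a' b') : a = a' ∧ b = b' :=
  ⟨ord_sub_algebraMap_unique v h.fst h'.fst, ord_sub_algebraMap_unique v h.snd h'.snd⟩

omit [IsAlgClosed K] in
theorem IsPoint.isRoot {v : Place K F} {a b : K} (h : IsPoint N v a b) :
    (modPolyAt N hN a).IsRoot b :=
  isRoot_of_ord_sub_pos N hN v h.fst h.snd (isRoot_jEl_jNEl N F hN)

omit [IsAlgClosed K] in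
theorem IsPoint.isRoot_swap {v : Place K F} {a b : K} (h : IsPoint N v a b) :
    (modPolyAt N hN b).IsRoot a :=
  isRoot_of_ord_sub_pos N hN v h.snd h.fst (isRoot_jNEl_jEl N F hN)

omit [IsAlgClosed K] hN in
theorem IsPoint.ne_cuspInf {v : Place K F} {a b : K} (h : IsPoint N v a b) :
    v ≠ cuspInf N F := by
  rintro rfl
  have h1 := h.fst
  rw [ord_sub_algebraMap_of_neg _ (by rw [ord_cuspInf_jEl]; omega), ord_cuspInf_jEl] at h1
  omega

include hN0

theorem IsPoint.ne_cuspZero {v : Place K F} {a b : K} (h : IsPoint N v a b) :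
    v ≠ cuspZero N F := by
  rintro rfl
  have h1 := h.snd
  rw [ord_sub_algebraMap_of_neg _ (by rw [ord_cuspZero_jNEl N F hN hN0]; omega),
    ord_cuspZero_jNEl N F hN hN0] at h1
  omega

omit hN0

/-- `Φ_N(X, b)` as a polynomial in `X`. -/
def colPoly (b : K) : K[X] :=
  ((FLTA.Igusa.modPoly N hN).map (mapRingHom (Int.castRingHom K))).eval (C b)

omit [IsAlgClosed K] in
theorem map_eval_colPoly {R : Type*} [CommRing R] [Algebra K R] (x : R) (c : K) :
    aeval x (colPoly N hN c) =
      (FLTA.Igusa.modPoly N hN).eval₂ (aeval (R := ℤ) x).toRingHom (algebraMap K R c) := by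
  rw [colPoly, eval_map, ← AlgHom.coe_toRingHom, hom_eval₂, AlgHom.coe_toRingHom, aeval_C]
  congr 1
  refine ringHom_ext' (Subsingleton.elim _ _) ?_
  simp

include hN0

/-- `Φ_N` is symmetric up to a nonzero constant. -/
theorem exists_colPoly_eq :
    ∃ u : K, u ≠ 0 ∧ ∀ b : K, colPoly N hN b = C u * modPolyAt N hN b := by
  classical
  obtain ⟨F, hF⟩ : ∃ F : IntermediateField K (LaurentSeries K), IsLevelField K N F :=
    ⟨_, isLevelField_fullC K N⟩
  set ΦK := (FLTA.Igusa.modPoly N hN).map (mapRingHom (Int.castRingHom K)) with hΦK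
  set S := ΦK.eval₂ (mapRingHom C) (C (X : K[X])) with hS
  obtain ⟨hd0, hu0⟩ := modPoly_coeff_zero N hN
  set u : K := ((((FLTA.Igusa.modPoly N hN).coeff 0).leadingCoeff : ℤ) : K) with hu
  have hu' : u ≠ 0 := by
    rcases Int.isUnit_iff.mp hu0 with h | h <;> simp [hu, h]
  have hdegk : ∀ k, ((FLTA.Igusa.modPoly N hN).coeff k).natDegree ≤ N + 1 ∧
      (1 ≤ k → ((FLTA.Igusa.modPoly N hN).coeff k).coeff (N + 1) = 0) := fun k => by
    rcases Nat.lt_trichotomy k N with hk | rfl | hk
    · rcases Nat.eq_zero_or_pos k with rfl | hk0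
      · exact ⟨hd0.le, by omega⟩
      · have h := natDegree_modPoly_coeff_le N hN hk0 hk
        exact ⟨by omega, fun _ => coeff_eq_zero_of_natDegree_lt (by omega)⟩
    · have h := (modPoly_coeff_top k hN).1
      exact ⟨by omega, fun _ => coeff_eq_zero_of_natDegree_lt (by omega)⟩
    · rcases Nat.eq_or_lt_of_le (show N + 1 ≤ k from hk) with rfl | hk'
      · have hone : (FLTA.Igusa.modPoly N hN).coeff (N + 1) = 1 := by
          have h := (FLTA.Igusa.modPoly_monic N hN).coeff_natDegree
          rwa [FLTA.Igusa.modPoly_natDegree] at h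
        rw [hone]
        simp [coeff_one]
      · rw [coeff_eq_zero_of_natDegree_lt (p := FLTA.Igusa.modPoly N hN)
          (by rw [FLTA.Igusa.modPoly_natDegree]; omega)]
        simp
  have hcoeffS : ∀ n, S.coeff n = ∑ k ∈ Finset.range (N + 2),
      C ((((FLTA.Igusa.modPoly N hN).coeff k).coeff n : ℤ) : K) * X ^ k := fun n => by
    rw [hS, eval₂_eq_sum_range' _ (n := N + 2) (by
      rw [hΦK, (FLTA.Igusa.modPoly_monic N hN).natDegree_map, FLTA.Igusa.modPoly_natDegree]
      omega), finsetSum_coeff]
    refine Finset.sum_congr rfl fun k _ => ?_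
    rw [← C_pow, coeff_mul_C, coe_mapRingHom, coeff_map, hΦK, coeff_map, coe_mapRingHom, coeff_map]
    rfl
  set G := S - C (C u) * ΦK with hG
  have hGdeg : G.natDegree ≤ N := by
    refine natDegree_le_iff_coeff_eq_zero.mpr fun n hn => ?_
    rw [hG, coeff_sub, coeff_C_mul, hcoeffS]
    rcases Nat.eq_or_lt_of_le (show N + 1 ≤ n from hn) with rfl | hn'
    · rw [Finset.sum_eq_single 0 (fun k _ hk0 => by
        rw [(hdegk k).2 (by omega), Int.cast_zero, map_zero, zero_mul]) (by simp), pow_zero,
        mul_one, hΦK, coeff_map, ← FLTA.Igusa.modPoly_natDegree N hN,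
        (FLTA.Igusa.modPoly_monic N hN).coeff_natDegree, map_one, mul_one, sub_eq_zero,
        FLTA.Igusa.modPoly_natDegree N hN, hu, leadingCoeff, hd0]
    · rw [Finset.sum_eq_zero (fun k _ => by
        rw [coeff_eq_zero_of_natDegree_lt ((hdegk k).1.trans_lt hn'), Int.cast_zero, map_zero,
          zero_mul]), hΦK, coeff_map, coeff_eq_zero_of_natDegree_lt
          (by rw [FLTA.Igusa.modPoly_natDegree]; omega), map_zero, mul_zero, sub_zero]
  set E := IntermediateField.adjoin K {jEl N F}
  set φ : K[X] →+* E := (aeval (IntermediateField.AdjoinSimple.gen K (jEl N F))).toRingHom with hφ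
  set ψ : K[X] →+* F := (aeval (jEl N F)).toRingHom with hψ
  have hcomp : (algebraMap E F).comp φ = ψ := by
    refine ringHom_ext' (RingHom.ext fun c => ?_) ?_ <;> simp [φ, ψ]
  have hG0 : (G.map φ).eval₂ (algebraMap E F) (jNEl N F) = 0 := by
    rw [eval₂_map, hcomp, hG, eval₂_sub, eval₂_mul, hS]
    have h1 : ΦK.eval₂ ψ (jNEl N F) = 0 := by
      rw [hΦK, eval₂_map]
      refine Eq.trans ?_ ((eval_modPolyAt N hN _ _).symm.trans (isRoot_jEl_jNEl N F hN))
      congr 1
      refine ringHom_ext' (Subsingleton.elim _ _) ?_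
      simp [ψ]
    have h2 : eval₂ ψ (jNEl N F) (ΦK.eval₂ (mapRingHom C) (C X)) = 0 := by
      rw [← coe_eval₂RingHom, hom_eval₂, hΦK, eval₂_map]
      refine Eq.trans ?_ ((eval_modPolyAt N hN _ _).symm.trans (isRoot_jNEl_jEl N F hN))
      congr 1
      · refine ringHom_ext' (Subsingleton.elim _ _) ?_
        simp
      · simp [ψ]
    rw [h1, h2, mul_zero, sub_zero]
  have hGzero : G = 0 := by
    have hinj : Function.Injective φ := fun p q hpq => by
      have h := congrArg (algebraMap E F) hpq
      rw [← RingHom.comp_apply, ← RingHom.comp_apply, hcomp] at h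
      exact transcendental_iff_injective.mp (transcendental_jEl N F) h
    by_contra hne
    have h1 := natDegree_le_of_dvd (minpoly.dvd E (jNEl N F) hG0)
      ((Polynomial.map_ne_zero_iff hinj).mpr hne)
    rw [minpoly_jNEl N F hN hN0, natDegree_modPolyAt, natDegree_map_eq_of_injective hinj] at h1
    omega
  refine ⟨u, hu', fun b => ?_⟩
  have h := congrArg (Polynomial.map (evalRingHom b)) (sub_eq_zero.mp (hG ▸ hGzero))
  rw [Polynomial.map_mul, map_C, hS, ← coe_mapRingHom, hom_eval₂, coe_mapRingHom, map_C] at h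
  have hid : (mapRingHom (evalRingHom b)).comp (mapRingHom (C : K →+* K[X])) = RingHom.id K[X] := by
    refine ringHom_ext' (RingHom.ext fun c => ?_) ?_ <;> simp
  rw [hid, coe_evalRingHom, eval_X, eval_C] at h
  rw [colPoly, ← hΦK, eval, h, hΦK, Polynomial.map_map, modPolyAt]
  congr 2
  refine ringHom_ext' (Subsingleton.elim _ _) ?_
  simp

/-- `Φ_N` is symmetric. -/
theorem isRoot_modPolyAt_comm
    {a b : K} : (modPolyAt N hN a).IsRoot b ↔ (modPolyAt N hN b).IsRoot a := by
  obtain ⟨u, hu, hcol⟩ := exists_colPoly_eq N hN hN0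
  have h := map_eval_colPoly (R := K) N hN a b
  rw [← eval_modPolyAt, coe_aeval_eq_eval, hcol, eval_mul, eval_C] at h
  simp only [Algebra.algebraMap_self, RingHom.id_apply] at h
  rw [IsRoot, IsRoot, ← h, mul_eq_zero]
  simp [hu]

variable (F)

theorem ord_norm_jNEl_sub (v : Place K (IntermediateField.adjoin K {jEl N F})) {a : K}
    (h : 0 < v.ord (IntermediateField.AdjoinSimple.gen K (jEl N F) - algebraMap K _ a)) (b : K) :
    v.ord (Algebra.norm (IntermediateField.adjoin K {jEl N F})
        (jNEl N F - algebraMap K F b)) =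
      (modPolyAt N hN b).rootMultiplicity a *
        v.ord (IntermediateField.AdjoinSimple.gen K (jEl N F) - algebraMap K _ a) := by
  obtain ⟨u, hu, hcol⟩ := exists_colPoly_eq N hN hN0
  have hne : C u * modPolyAt N hN b ≠ 0 :=
    mul_ne_zero (C_ne_zero.mpr hu) (modPolyAt_monic N hN b).ne_zero
  obtain ⟨hne', hord⟩ := ord_aeval_eq v h hne
  rw [norm_jNEl_sub N F hN hN0, eval_modPolyAt, ← map_eval_colPoly, hcol]
  have hmult : (C u * modPolyAt N hN b).rootMultiplicity a =
      (modPolyAt N hN b).rootMultiplicity a := by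
    rw [rootMultiplicity_mul hne, rootMultiplicity_C, zero_add]
  rw [v.ord_mul (pow_ne_zero _ (by simp)) hne', ord_pow, ord_neg, v.ord_one, mul_zero, zero_add,
    hord, hmult]

omit hN hN0 [IsAlgClosed K] in
theorem ord_gen_sub_eq_one (v : Place K (IntermediateField.adjoin K {jEl N F})) {a : K}
    (h : 0 < v.ord (IntermediateField.AdjoinSimple.gen K (jEl N F) - algebraMap K _ a)) :
    v.ord (IntermediateField.AdjoinSimple.gen K (jEl N F) - algebraMap K _ a) = 1 ∧
      ∀ v' : Place K (IntermediateField.adjoin K {jEl N F}),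
        0 < v'.ord (IntermediateField.AdjoinSimple.gen K (jEl N F) - algebraMap K _ a) → v' = v := by
  classical
  set g := IntermediateField.AdjoinSimple.gen K (jEl N F) with hg
  have hfrac : ∀ x, ∃ p q : K[X], x = aeval g p / aeval g q := fun x => by
    obtain ⟨p, q, hpq⟩ := (IntermediateField.mem_adjoin_simple_iff K _).mp x.2
    refine ⟨p, q, (algebraMap (IntermediateField.adjoin K {jEl N F}) F).injective ?_⟩
    rw [map_div₀, ← aeval_algebraMap_apply, ← aeval_algebraMap_apply]
    exact hpq
  have hord : ∀ (w : Place K (IntermediateField.adjoin K {jEl N F})),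
      0 < w.ord (g - algebraMap K _ a) → ∀ p q : K[X],
      w.ord (aeval g p / aeval g q) =
        (if p = 0 ∨ q = 0 then 0 else (p.rootMultiplicity a : ℤ) - q.rootMultiplicity a) *
          w.ord (g - algebraMap K _ a) := fun w hw p q => by
    by_cases hpq : p = 0 ∨ q = 0
    · rw [if_pos hpq]
      rcases hpq with rfl | rfl <;> simp
    rw [if_neg hpq]
    push Not at hpq
    obtain ⟨hp0, hp1⟩ := ord_aeval_eq w hw hpq.1
    obtain ⟨hq0, hq1⟩ := ord_aeval_eq w hw hpq.2
    rw [div_eq_mul_inv, w.ord_mul hp0 (inv_ne_zero hq0), w.ord_inv, hp1, hq1]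
    ring
  have hone : ∀ w : Place K (IntermediateField.adjoin K {jEl N F}), 0 < w.ord (g - algebraMap K _ a) → w.ord (g - algebraMap K _ a) = 1 :=
    fun w hw => by
    obtain ⟨π, -, hπ⟩ := exists_ord_eq_one w
    obtain ⟨p, q, hpq⟩ := hfrac π
    rw [hpq, hord w hw] at hπ
    exact Int.eq_one_of_mul_eq_one_left hw.le hπ
  refine ⟨hone v h, fun v' hv' => place_ext_ord fun x => ?_⟩
  obtain ⟨p, q, rfl⟩ := hfrac x
  rw [hord v' hv', hord v h, hone v' hv', hone v h]

/-- The multiplicities of the places over `(a, b)`. -/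
theorem exists_fiber_finset {a b : K} :
    ∃ (s : Finset (Place K F)) (m : Place K F → ℤ), (∀ w, IsPoint N w a b → w ∈ s) ∧
      (∀ w ∈ s, 0 ≤ m w) ∧ (∀ w ∈ s, 0 < m w → IsPoint N w a b) ∧
      (∀ w ∈ s, IsPoint N w a b → 0 < m w) ∧
      ∑ w ∈ s, m w = (modPolyAt N hN b).rootMultiplicity a := by
  classical
  haveI := isSepFunctionField_levelField N F
  haveI := hasPrincipalDivisors_of_isSepFunctionField K F
  haveI := isSeparable_adjoin_jEl N F hN0
  haveI := finite_adjoin_of_transcendental (transcendental_jEl N F)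
  set E := IntermediateField.adjoin K {jEl N F}
  set g : E := IntermediateField.AdjoinSimple.gen K (jEl N F) with hg
  have halg : algebraMap E F (g - algebraMap K E a) = jEl N F - algebraMap K F a := by
    rw [map_sub, ← IsScalarTower.algebraMap_apply, hg, IntermediateField.AdjoinSimple.algebraMap_gen]
  obtain ⟨w₀, hw₀⟩ := exists_ord_pos_of_transcendental (K := K) (f := jEl N F - algebraMap K F a)
    fun halg' => by
      have h1 := ord_eq_zero_of_isAlgebraic halg' (cuspInf N F)
      rw [ord_sub_algebraMap_of_neg _ (by rw [ord_cuspInf_jEl]; omega), ord_cuspInf_jEl] at h1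
      omega
  have hpos : ∀ w : Place K F, 0 < w.ord (jEl N F - algebraMap K F a) ↔
      0 < (w.restrict E).ord (g - algebraMap K E a) := fun w => by
    rw [← halg, w.ord_restrict (F := E)]
    have := w.ramificationIndex_pos (F := E)
    constructor <;> intro h <;> nlinarith
  obtain ⟨-, huniq⟩ := ord_gen_sub_eq_one N F _ ((hpos w₀).mp hw₀)
  set v := w₀.restrict E with hv
  set f := jNEl N F - algebraMap K F b with hf
  have hf0 : f ≠ 0 := sub_ne_zero.mpr (jNEl_ne_algebraMap N F b)
  obtain ⟨D, hD, -⟩ := HasPrincipalDivisors.exists_divisor (K := K) f hf0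
  have hnorm := pushforwardNormFormula f hf0 D hD v
  rw [Divisor.pushforward_apply, ← Finset.sum_filter, hf,
    ord_norm_jNEl_sub N F hN hN0 v ((hpos w₀).mp hw₀),
    (ord_gen_sub_eq_one N F _ ((hpos w₀).mp hw₀)).1, mul_one] at hnorm
  refine ⟨D.support.filter (fun w => w.restrict E = v), fun w => D w * (w.inertiaDeg E : ℤ),
    fun w hw => ?_, fun w hw => ?_, fun w hw hm => ?_, fun w hw hpt => ?_, hnorm⟩
  · rw [Finset.mem_filter, Finsupp.mem_support_iff, hD]
    exact ⟨hw.snd.ne', huniq _ ((hpos w).mp hw.fst)⟩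
  · obtain ⟨-, hwv⟩ := Finset.mem_filter.mp hw
    refine mul_nonneg ?_ (Int.natCast_nonneg _)
    rw [hD]
    have hw1 : 0 < w.ord (jEl N F - algebraMap K F a) :=
      (hpos w).mpr (hwv ▸ (hpos w₀).mp hw₀)
    by_contra hneg
    push Not at hneg
    have hjN : w.ord (jNEl N F) < 0 := by
      by_contra hge
      push Not at hge
      rcases eq_or_ne b 0 with rfl | hb
      · simp [hf] at hneg
        omega
      · have := min_ord_le_ord_add w (f := jNEl N F) (g := -algebraMap K F b)
          (by rw [← sub_eq_add_neg]; exact hf0)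
        rw [← sub_eq_add_neg, ord_neg, FLTA.Curves.ord_algebraMap, ← hf] at this
        omega
    rcases eq_cusp_of_ord_jNEl_neg N F hN hN0 w hjN with rfl | rfl
    · rw [ord_sub_algebraMap_of_neg _ (by rw [ord_cuspInf_jEl]; omega), ord_cuspInf_jEl] at hw1
      omega
    · have h2 := ord_cuspZero_jEl N F hN hN0
      rw [ord_sub_algebraMap_of_neg _ (by rw [h2]; have := hN.two_le; omega), h2] at hw1
      omega
  · obtain ⟨-, hwv⟩ := Finset.mem_filter.mp hw
    refine ⟨(hpos w).mpr (hwv ▸ (hpos w₀).mp hw₀), ?_⟩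
    simp only [hD] at hm
    exact pos_of_mul_pos_left hm (Int.natCast_nonneg _)
  · simp only [hD]
    have := inertiaDeg_pos (F := E) w
    exact mul_pos hpt.snd (by exact_mod_cast this)

theorem exists_isPoint {a b : K} (h : (modPolyAt N hN a).IsRoot b) :
    ∃ v : Place K F, IsPoint N v a b := by
  obtain ⟨s, m, -, h0, h1, -, hsum⟩ := exists_fiber_finset N F hN hN0 (a := a) (b := b)
  have hroot := (isRoot_modPolyAt_comm N hN hN0).mp h
  have hpos := (rootMultiplicity_pos (modPolyAt_monic N hN b).ne_zero).mpr hroot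
  by_contra hcon
  push Not at hcon
  have hz : ∑ w ∈ s, m w = 0 :=
    Finset.sum_eq_zero fun w hw => le_antisymm (not_lt.mp fun h' => hcon w (h1 w hw h')) (h0 w hw)
  omega

/-- A simple root has exactly one place above it. -/
theorem existsUnique_isPoint {a b : K} (h : (modPolyAt N hN b).IsRoot a)
    (h' : (modPolyAt N hN b).derivative.eval a ≠ 0) : ∃! v : Place K F, IsPoint N v a b := by
  classical
  obtain ⟨v, hv⟩ := exists_isPoint N F hN hN0 ((isRoot_modPolyAt_comm N hN hN0).mpr h)
  refine ⟨v, hv, fun w hw => ?_⟩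
  by_contra hne
  obtain ⟨s, m, hs, h0, -, h2, hsum⟩ := exists_fiber_finset N F hN hN0 (a := a) (b := b)
  have hle : (modPolyAt N hN b).rootMultiplicity a ≤ 1 := by
    by_contra hlt
    exact h' ((one_lt_rootMultiplicity_iff_isRoot (modPolyAt_monic N hN b).ne_zero).mp
      (not_le.mp hlt)).2
  have h3 := Finset.sum_le_sum_of_subset_of_nonneg (f := m)
    (s := {w, v}) (t := s) (Finset.insert_subset (hs w hw) (by simpa using hs v hv))
    (fun x hx _ => h0 x hx)
  rw [Finset.sum_pair hne, hsum] at h3
  have := h2 w (hs w hw) hw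
  have := h2 v (hs v hv) hv
  omega

end FLTA.Mazur

end
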