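import Fermat.Agent.Mazur.Defs
import Fermat.Agent.Mazur.Cusps
import Fermat.Agent.Curves.GenusModular

/-!
# `X₀(N)` has positive genus at a Mazur level
-/

set_option autoImplicit false

noncomputable section

open AlgebraicCurve ModularCurve

namespace FLTA.Mazur

theorem card_monic_quadratic_le_two {F : Type*} [Field F] [Finite F] (b c : F) :
    Nat.card {x : F // x ^ 2 + b * x + c = 0} ≤ 2 := by
  rcases Classical.em (∃ x₀ : F, x₀ ^ 2 + b * x₀ + c = 0) with ⟨x₀, h₀⟩ | h
  · have hsub : {x : F | x ^ 2 + b * x + c = 0} ⊆ {x₀, -b - x₀} := fun x hx => by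
      have : (x - x₀) * (x - (-b - x₀)) = 0 := by
        have hx' : x ^ 2 + b * x + c = 0 := hx
        linear_combination hx' - h₀
      rcases mul_eq_zero.mp this with h1 | h1
      · exact Or.inl (sub_eq_zero.mp h1)
      · exact Or.inr (sub_eq_zero.mp h1)
    show Set.ncard {x : F | x ^ 2 + b * x + c = 0} ≤ 2
    refine (Set.ncard_le_ncard hsub (Set.toFinite _)).trans ((Set.ncard_insert_le _ _).trans ?_)
    rw [Set.ncard_singleton]
  · haveI : IsEmpty {x : F // x ^ 2 + b * x + c = 0} := ⟨fun x => h ⟨x.1, x.2⟩⟩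
    simp

theorem nuTwo_le_two {N : ℕ} (hN : N.Prime) : nuTwo N ≤ 2 := by
  haveI := Fact.mk hN
  simpa [nuTwo] using card_monic_quadratic_le_two (0 : ZMod N) 1

theorem nuThree_le_two {N : ℕ} (hN : N.Prime) : nuThree N ≤ 2 := by
  haveI := Fact.mk hN
  simpa [nuThree] using card_monic_quadratic_le_two (1 : ZMod N) 1

theorem cuspCount_of_prime {N : ℕ} (hN : N.Prime) : cuspCount N = 2 := by
  rw [cuspCount, hN.divisors, Finset.sum_pair hN.one_lt.ne]
  simp [Nat.div_self hN.pos]

theorem genusFormula_pos {N : ℕ} (hN : IsMazurLevel N) : 0 < genusFormula N := by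
  rw [genusFormula, dedekindPsi_of_prime N hN.prime, cuspCount_of_prime hN.prime]
  push_cast
  rcases le_or_gt 14 N with h | h
  · have h1 : (nuTwo N : ℚ) ≤ 2 := by exact_mod_cast nuTwo_le_two hN.prime
    have h2 : (nuThree N : ℚ) ≤ 2 := by exact_mod_cast nuThree_le_two hN.prime
    have h3 : (14 : ℚ) ≤ N := by exact_mod_cast h
    linarith
  · have h11 : N = 11 := by
      have hp := hN.prime
      have hm := hN.not_mem
      interval_cases N <;> first | rfl | (norm_num at hp; done) | (simp at hm; done)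
    subst h11
    have h1 : nuTwo 11 = 0 := by rw [nuTwo, Nat.card_eq_fintype_card]; decide
    have h2 : nuThree 11 = 0 := by rw [nuThree, Nat.card_eq_fintype_card]; decide
    rw [h1, h2]
    norm_num

theorem genusFF_pos_of_isMazurLevel {N : ℕ} [NeZero N] (hN : IsMazurLevel N) :
    0 < genusFF (AlgebraicClosure ℚ) (modularFunctionFieldBar N) := by
  have h := genusFormula_pos hN
  rw [← FLTA.Curves.genusFF_modularFunctionFieldBar N] at h
  exact_mod_cast h

end FLTA.Mazur

end
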