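import Fermat.Agent.Mazur.Points
import Fermat.Agent.Mazur.CuspClass
import Fermat.Agent.Mazur.FiniteRed
import Fermat.Agent.Mazur.GenusPos
import Fermat.Agent.PlaceRed.Interface

/-!
# The two rational classes of Mazur's argument
-/

set_option autoImplicit false
set_option linter.style.haveILetI false

noncomputable section

open AlgebraicCurve ModularCurve

namespace FLTA.Mazur

local notation "Qb" => AlgebraicClosure ℚ

set_option synthInstance.maxHeartbeats 400000

section Aux

variable (N : ℕ) [NeZero N] (hN : N.Prime)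

include hN in
/-- The cusp `0` is rational. -/
theorem galois_smul_cuspZero_bar (σ : Qb ≃ₐ[ℚ] Qb) :
    arithmeticGalois (modularFunctionFieldFull N) σ • cuspZero N (modularFunctionFieldBar N) =
      cuspZero N (modularFunctionFieldBar N) := by
  have hQ := natCast_ne_zero_qbar (N := N)
  set G := arithmeticGalois (modularFunctionFieldFull N) σ with hG
  have hj : G • jEl N (modularFunctionFieldBar N) = jEl N (modularFunctionFieldBar N) := by
    refine Subtype.ext ?_
    rw [hG, coe_arithmeticGalois_smul, coe_jEl]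
    exact coeffMap_jqModC _
  have hord : (G • cuspZero N (modularFunctionFieldBar N)).ord
      (jEl N (modularFunctionFieldBar N)) = -(N : ℤ) := by
    conv_lhs => rw [← hj]
    rw [SemilinearAut.ord_smul]
    exact ord_cuspZero_jEl N _ hN hQ
  refine (eq_cusp_of_ord_jEl_neg N _ hN hQ _ ?_).resolve_left fun h => ?_
  · rw [hord]
    exact neg_neg_of_pos (Int.natCast_pos.mpr hN.pos)
  · rw [h, ord_cuspInf_jEl] at hord
    have := hN.two_le
    omega

theorem single_sub_single_mem_degZero (v w : Place Qb (modularFunctionFieldBar N)) :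
    Finsupp.single v (1 : ℤ) - Finsupp.single w 1 ∈
      Divisor.degZero (K := Qb) (F := modularFunctionFieldBar N) := by
  haveI := hasPrincipalDivisors_bar (N := N)
  rw [Divisor.mem_degZero, map_sub, Divisor.degree_single, Divisor.degree_single,
    deg_eq_one N _ v, deg_eq_one N _ w, sub_self]

theorem mk_single_sub_single_mem {P : Place Qb (modularFunctionFieldBar N) → Prop}
    {v w : Place Qb (modularFunctionFieldBar N)} (hv : P v) (hw : P w) :
    Pic0.mk ⟨_, single_sub_single_mem_degZero N v w⟩ ∈ supportedClasses N P := by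
  classical
  refine ⟨⟨_, single_sub_single_mem_degZero N v w⟩, fun u hu => ?_, rfl⟩
  rcases Finset.mem_union.mp (Finsupp.support_sub hu) with h | h <;>
    rw [Finset.mem_singleton.mp (Finsupp.support_single_subset h)]
  exacts [hv, hw]

end Aux

/-- `y = [x - 0]` for the point `x` over `(j, j')` and `c = [∞ - 0]`. -/
theorem exists_classes {N : ℕ} [NeZero N] (hN : IsMazurLevel N) {j j' : ℚ}
    (hrel : HasModRel N hN.prime j j') (h2 : IsMinusAt N 2 j j') :
    ∃ y c : JZero N,
      (∀ σ : Qb ≃ₐ[ℚ] Qb, σ • y = y) ∧ (∀ σ : Qb ≃ₐ[ℚ] Qb, σ • c = c) ∧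
      c ≠ 0 ∧ (N - 1) • c = 0 ∧
      (∀ r : Nat.Primes, (r : ℕ) ≠ N → heckeOperatorBar N r c = (1 + (r : ℕ)) • c) ∧
      (∀ t ∈ awayHecke N, ∀ ℓ : ℕ, ℓ.Prime → ℓ ≠ N → ∀ A : ValuationSubring Qb,
        A.LiesOverPrime ℓ → IsMinusAt N ℓ j j' → reductionModL A N (t y) = 0) ∧
      (∀ t ∈ awayHecke N, ∀ ℓ : ℕ, ℓ.Prime → ℓ ≠ N → ∀ A : ValuationSubring Qb,
        A.LiesOverPrime ℓ → IsPlusAt N ℓ j j' → reductionModL A N (t (y - c)) = 0) ∧
      (∀ p : ℕ, p.Prime → 5 ≤ p → p ≠ N → ∀ A : ValuationSubring Qb, A.LiesOverPrime p →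
        ∀ m : ℕ, addOrderOf (m • c) = p → reductionModL A N (m • c) ≠ 0) := by
  obtain ⟨x, hx, hxfix⟩ := exists_rational_place hN.prime hrel Nat.prime_two h2
  have hk : ∀ ℓ : ℕ, ℓ.Prime → ℓ ≠ N → ∀ A : ValuationSubring Qb, A.LiesOverPrime ℓ →
      (N : IsLocalRing.ResidueField A) ≠ 0 := fun ℓ hℓ hne A hA => by
    haveI := Fact.mk hℓ
    exact FLTA.PlaceRed.natCast_residue_ne_zero N
      (fun h => hne ((Nat.prime_dvd_prime_iff_eq hℓ hN.prime).mp h)) A hA
  refine ⟨Pic0.mk ⟨_, single_sub_single_mem_degZero N x (cuspZero N (modularFunctionFieldBar N))⟩,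
    cuspClass N, fun σ => ?_, galois_smul_cuspClass N hN.prime,
    cuspClass_ne_zero N hN.prime (genusFF_pos_of_isMazurLevel hN),
    sub_one_nsmul_cuspClass N hN.prime, fun r hr => heckeOperatorBar_cuspClass N hN.prime hr,
    fun t ht ℓ hℓ hne A hA h => ?_, fun t ht ℓ hℓ hne A hA h => ?_,
    fun p hp hp5 hpN A hA m ho => ?_⟩
  · rw [galois_smul_pic0_def, SemilinearAut.pic0_smul_mk]
    refine congrArg Pic0.mk (Subtype.ext ?_)
    rw [SemilinearAut.coe_degZeroSMulHom]
    show _ • (Finsupp.single x (1 : ℤ) - _) = _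
    rw [smul_sub, SemilinearAut.smul_single, SemilinearAut.smul_single, hxfix,
      galois_smul_cuspZero_bar N hN.prime]
  · exact reductionModL_eq_zero_of_mem_minusClasses N A hN.prime (hk ℓ hℓ hne A hA)
      (awayHecke_mem_minusClasses N A hN.prime ht
        (mk_single_sub_single_mem N (isMinus_of_isMinusAt hx hℓ hA h) (Or.inl rfl)))
  · refine reductionModL_eq_zero_of_mem_plusClasses N A hN.prime (hk ℓ hℓ hne A hA)
      (awayHecke_mem_plusClasses N A hN.prime ht ?_)
    have heq : Pic0.mk ⟨_, single_sub_single_mem_degZero N x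
          (cuspZero N (modularFunctionFieldBar N))⟩ - cuspClass N =
        Pic0.mk ⟨_, single_sub_single_mem_degZero N x (cuspInf N (modularFunctionFieldBar N))⟩ := by
      rw [cuspClass, sub_eq_iff_eq_add, ← Pic0.mk_add]
      refine congrArg Pic0.mk (Subtype.ext ?_)
      exact (sub_add_sub_cancel (Finsupp.single x (1 : ℤ))
        (Finsupp.single (cuspInf N (modularFunctionFieldBar N)) 1)
        (Finsupp.single (cuspZero N (modularFunctionFieldBar N)) 1)).symm
    rw [heq]
    exact mk_single_sub_single_mem N (isPlus_of_isPlusAt hx hℓ hA h) (Or.inl rfl)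
  · haveI := Fact.mk hp
    exact reductionModL_nsmul_cuspClass_ne_zero N hN.prime hp hp5 hpN hA
      (FLTA.PlaceRed.reductionInputsModL N
        (fun h => hpN ((Nat.prime_dvd_prime_iff_eq hp hN.prime).mp h)) A hA) ho

end FLTA.Mazur

end
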