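import Fermat.Agent.EllReduction.Api
import Fermat.Agent.EllTorsion.GaloisDet
import Fermat.Agent.EllReducible.Line
import Fermat.Prelude.Def_ExtCitation_AdmissibleExtension

/-!
# A cofixed line at the level of points
-/

set_option autoImplicit false

open scoped Classical

open WeierstrassCurve WeierstrassCurve.Affine.Point

open scoped WeierstrassCurve.Affine

namespace FLTA.Mazur

open FLTA.EllReduction FLTA.EllReducible

local notation "Qbar" => AlgebraicClosure ℚ

/-- `Q` spans a line on which Galois acts by the mod `p` cyclotomic character, with trivial action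
on the quotient of the `p`-torsion. -/
structure IsCofixedGen (W : WeierstrassCurve ℤ) (p : ℕ) [Fact p.Prime] (Q : GeomPoint W) :
    Prop where
  order : addOrderOf Q = p
  smul_eq : ∀ σ : Qbar ≃ₐ[ℚ] Qbar, σ • Q = ExtCitation.cycloExp p σ • Q
  quot : ∀ σ : Qbar ≃ₐ[ℚ] Qbar, ∀ x : GeomPoint W, p • x = 0 →
    σ • x - x ∈ AddSubgroup.zmultiples Q

/-- On a line with trivial quotient, an endomorphism of a finite dimensional space is
multiplication by its determinant. -/
lemma apply_eq_det_smul {p : ℕ} [Fact p.Prime] {V : Type*} [AddCommGroup V] [Module (ZMod p) V]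
    [Module.Finite (ZMod p) V] (f : Module.End (ZMod p) V) {e : V} (he : e ≠ 0)
    (hf : f e ∈ Submodule.span (ZMod p) {e})
    (hquot : ∀ v, f v - v ∈ Submodule.span (ZMod p) {e}) :
    f e = LinearMap.det f • e := by
  set L := Submodule.span (ZMod p) {e} with hL
  obtain ⟨a, ha⟩ := Submodule.mem_span_singleton.1 hf
  have hle : L ≤ L.comap f := (Submodule.span_singleton_le_iff_mem _ _).2 hf
  have hres : f.restrict (p := L) (q := L) hle = a • LinearMap.id := by
    refine LinearMap.ext fun x => Subtype.ext ?_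
    obtain ⟨b, hb⟩ := Submodule.mem_span_singleton.1 x.2
    show f (x : V) = a • (x : V)
    rw [← hb, map_smul, ← ha, smul_comm]
  have hq : L.mapQ L f hle = LinearMap.id := by
    refine LinearMap.ext fun x => ?_
    induction x using Submodule.Quotient.induction_on with
    | _ v => exact (Submodule.Quotient.eq L).2 (hquot v)
  rw [LinearMap.det_eq_det_mul_det L f hle, hres, hq, LinearMap.det_smul, LinearMap.det_id,
    finrank_span_singleton he]
  simp [ha]

theorem exists_isCofixedGen (W : WeierstrassCurve ℤ) (hΔ : W.Δ ≠ 0) {p : ℕ} [Fact p.Prime]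
    (h : HasGaloisStableCofixedLine (K := Qbar) ℚ (W.map (Int.castRingHom ℚ)) p) :
    ∃ N : Submodule (ZMod p) (Tors (W.map (Int.castRingHom ℚ)) p),
      IsStableLine (W.map (Int.castRingHom ℚ)) p N ∧ ∃ Q : GeomPoint W, IsCofixedGen W p Q := by
  obtain ⟨N, hst, hbot, htop, hquot⟩ := h
  refine ⟨N, ⟨hst, hbot, htop⟩, ?_⟩
  have hp : p.Prime := Fact.out
  let E := W.map (Int.castRingHom ℚ)
  have hEΔ : E.Δ ≠ 0 := by simpa [E, WeierstrassCurve.map_Δ] using hΔ
  have : E.IsElliptic := ⟨isUnit_iff_ne_zero.2 hEΔ⟩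
  have : (E⁄Qbar).IsElliptic := FLTA.Elliptic.Weil.isElliptic_baseChange E
  have : NeZero p := ⟨hp.ne_zero⟩
  have hV := finrank_tors E hEΔ (p := p)
  have : Module.Finite (ZMod p) (Tors E p) := Module.finite_of_finrank_eq_succ hV
  obtain ⟨e, heN, he⟩ := Submodule.exists_mem_ne_zero_of_ne_bot hbot
  have hspan := span_singleton_eq hV htop heN he
  have hep : p • e.1 = 0 := by
    have := (Submodule.mem_torsionBy_iff _ _).1 e.2
    rwa [natCast_zsmul] at this
  refine ⟨e.1, ?_, fun σ => ?_, fun σ x hx => ?_⟩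
  · exact addOrderOf_eq_prime hep fun h => he (Subtype.ext h)
  · have h1 := apply_eq_det_smul (galoisRepModuleEnd ℚ E p σ) he
      (by rw [hspan]; exact hst σ e heN) (fun v => by rw [hspan]; exact hquot σ v)
    rw [galoisRepModuleEnd_apply, FLTA.Elliptic.Weil.det_galoisRepModuleEnd_of_card (S := ℚ) E p
      (ExtCitation.card_rootsOfUnity_eq_self p) (natCard_tors E hEΔ hp) σ,
      ← ZMod.natCast_zmod_val
        (((modularCyclotomicCharacter Qbar (ExtCitation.card_rootsOfUnity_eq_self p)
          (σ : Qbar ≃+* Qbar) : (ZMod p)ˣ) : ZMod p)), Nat.cast_smul_eq_nsmul] at h1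
    have := congrArg Subtype.val h1
    exact this
  · let v : Tors E p := ⟨x, (Submodule.mem_torsionBy_iff _ _).2 ((natCast_zsmul x p).trans hx)⟩
    have h1 : σ • v - v ∈ Submodule.span (ZMod p) {e} := hspan ▸ hquot σ v
    obtain ⟨c, hc⟩ := Submodule.mem_span_singleton.1 h1
    rw [← ZMod.natCast_zmod_val c, Nat.cast_smul_eq_nsmul] at hc
    refine AddSubgroup.mem_zmultiples_iff.2 ⟨(c.val : ℤ), ?_⟩
    rw [natCast_zsmul]
    exact congrArg Subtype.val hc

end FLTA.Mazur
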