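import Fermat.Agent.Mazur.Kummer
import Mathlib.RingTheory.RootsOfUnity.Lemmas
import Mathlib.FieldTheory.Normal.Basic

/-!
# The Galois differences of integral elements of `ℚ(m^(1/p))` when `p ∤ v_p(m)`
-/

set_option autoImplicit false

noncomputable section

namespace FLTA.Mazur

open FLTA.EllReduction Polynomial
open scoped IntermediateField

local notation "Qbar" => AlgebraicClosure ℚ
local notation "Γ" => AlgebraicClosure ℚ ≃ₐ[ℚ] AlgebraicClosure ℚ

variable {A : ValuationSubring Qbar} {p : ℕ}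

theorem valuation_natCast_lt_one (hA : A.LiesOverPrime p) : A.valuation (p : Qbar) < 1 :=
  (ValuationSubring.mem_nonunits_iff A).mp hA

/-- The valuation of a nonzero rational is an integral power of `|p|`. -/
theorem exists_zpow_valuation_ratCast (hp : p.Prime) (hA : A.LiesOverPrime p) {r : ℚ} (hr : r ≠ 0) :
    ∃ j : ℤ, A.valuation (r : Qbar) = A.valuation (p : Qbar) ^ j := by
  refine ⟨(padicValInt p r.num : ℤ) - padicValInt p r.den, ?_⟩
  have hpv : A.valuation (p : Qbar) ≠ 0 :=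
    A.valuation.ne_zero_iff.mpr (Nat.cast_ne_zero.mpr hp.ne_zero)
  rw [Rat.cast_def, map_div₀, show ((r.den : ℕ) : Qbar) = (((r.den : ℕ) : ℤ) : Qbar) by norm_cast,
    FreyAux.valuation_intCast A hp hA (Rat.num_ne_zero.mpr hr),
    FreyAux.valuation_intCast A hp hA (Int.natCast_ne_zero.mpr r.den_ne_zero),
    zpow_sub₀ hpv, zpow_natCast, zpow_natCast]

theorem zpow_valuation_natCast_inj (hp : p.Prime) (hA : A.LiesOverPrime p) {i j : ℤ}
    (h : A.valuation (p : Qbar) ^ i = A.valuation (p : Qbar) ^ j) : i = j :=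
  zpow_right_injective₀ (A.valuation.pos_iff.mpr (Nat.cast_ne_zero.mpr hp.ne_zero))
    (valuation_natCast_lt_one hA).ne h

/-- `|ζ - 1|^(p-1) ≤ |p|`, in the form of the reverse estimate used below. -/
theorem valuation_sub_one_pow_le (hp : p.Prime) {ζ : Qbar} (hζ : IsPrimitiveRoot ζ p) :
    A.valuation (ζ - 1) ^ (p - 1) ≤ A.valuation (p : Qbar) := by
  have : NeZero p := ⟨hp.ne_zero⟩
  obtain ⟨n, rfl⟩ : ∃ n, p = n + 1 := ⟨p - 1, by have := hp.pos; omega⟩
  have hprod := hζ.prod_one_sub_pow_eq_order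
  rw [Nat.add_sub_cancel, Nat.cast_succ, ← hprod, map_prod]
  refine le_of_eq_of_le (by rw [Finset.prod_const, Finset.card_range]) (Finset.prod_le_prod' fun k hk => ?_)
  have hk' : (k + 1).Coprime (n + 1) :=
    (hp.coprime_iff_not_dvd.mpr ?_).symm
  · obtain ⟨i, -, hi⟩ := (hζ.pow_of_coprime _ hk').eq_pow_of_pow_eq_one hζ.pow_eq_one
    have hmem : ∑ j ∈ Finset.range i, (ζ ^ (k + 1)) ^ j ∈ A :=
      sum_mem fun j _ => pow_mem (pow_mem (FLTA.Galois.mem_of_isIntegral
        (hζ.isIntegral (Nat.succ_pos n))) _) _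
    have he : ζ - 1 = (∑ j ∈ Finset.range i, (ζ ^ (k + 1)) ^ j) * (ζ ^ (k + 1) - 1) := by
      rw [geom_sum_mul, hi]
    rw [← A.valuation.map_neg (1 - _), neg_sub, he, map_mul]
    exact mul_le_of_le_one_left' ((A.valuation_le_one_iff _).mpr hmem)
  · exact fun h => absurd (Nat.le_of_dvd (Nat.succ_pos k) h) (by
      have := Finset.mem_range.mp hk
      omega)

/-- If `α ^ p = m` with `p ∤ v_p(m)`, an element of `ℚ(α) ∩ A` moves by less than `|ζ - 1|` under
every automorphism multiplying `α` by a power of `ζ`. -/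
theorem valuation_smul_sub_lt (hp : p.Prime) (hA : A.LiesOverPrime p) {ζ : Qbar}
    (hζ : IsPrimitiveRoot ζ p) {m : ℤ} (hm : m ≠ 0) {α : Qbar} (hα : α ^ p = (m : Qbar))
    (hv : ¬ p ∣ padicValInt p m) {x : Qbar} (hxα : ∀ σ : Γ, σ α = α → σ x = x) (hxA : x ∈ A)
    {g : Γ} {i : ℕ} (hg : g α = ζ ^ i * α) :
    A.valuation (g x - x) < A.valuation (ζ - 1) := by
  classical
  have hα0 : α ≠ 0 := by
    rintro rfl
    rw [zero_pow hp.ne_zero, eq_comm, Int.cast_eq_zero] at hα
    exact hm hα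
  have hint : IsIntegral ℚ α := Algebra.IsIntegral.isIntegral α
  have hxmem : x ∈ ℚ⟮α⟯ := by
    rw [← InfiniteGalois.fixedField_fixingSubgroup ℚ⟮α⟯]
    rintro ⟨σ, hσ⟩
    exact hxα σ ((IntermediateField.mem_fixingSubgroup_iff _ _).mp hσ α
      (IntermediateField.mem_adjoin_simple_self ℚ α))
  rw [← IntermediateField.mem_toSubalgebra,
    IntermediateField.adjoin_simple_toSubalgebra_of_isAlgebraic hint.isAlgebraic,
    Algebra.adjoin_singleton_eq_range_aeval] at hxmem
  obtain ⟨Q₀, hQ₀⟩ := hxmem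
  have hq : (X ^ p - C (m : ℚ)).Monic := monic_X_pow_sub_C _ hp.ne_zero
  set Q := Q₀ %ₘ (X ^ p - C (m : ℚ)) with hQdef
  have hQx : aeval α Q = x := by
    rw [hQdef, aeval_modByMonic_eq_self_of_root (p := Q₀) (q := X ^ p - C (m : ℚ))
      (by simp [hα])]
    exact hQ₀
  have hdeg : Q.natDegree < p := by
    have h := natDegree_modByMonic_lt Q₀ hq (fun h => by
      have := congrArg natDegree h
      rw [natDegree_X_pow_sub_C, natDegree_one] at this
      exact hp.ne_zero this)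
    rwa [natDegree_X_pow_sub_C] at h
  let t : ℕ → Qbar := fun j => (Q.coeff j : Qbar) * α ^ j
  have hsum : x = ∑ j ∈ Q.support, t j := by
    rw [← hQx, aeval_def, eval₂_eq_sum]
    refine Finset.sum_congr rfl fun j _ => ?_
    simp [t]
  set P := A.valuation (p : Qbar) with hP
  have hvp : A.valuation α ^ p = P ^ (padicValInt p m : ℤ) := by
    rw [← map_pow, hα, FreyAux.valuation_intCast A hp hA hm, zpow_natCast]
  have hval : ∀ j ∈ Q.support, ∃ e : ℤ,
      A.valuation (t j) ^ p = P ^ ((p : ℤ) * e + (j : ℤ) * padicValInt p m) := by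
    intro j hj
    obtain ⟨e, he⟩ := exists_zpow_valuation_ratCast hp hA (mem_support_iff.mp hj)
    refine ⟨e, ?_⟩
    simp only [t]
    rw [map_mul, map_pow, mul_pow, he, ← pow_mul, mul_comm j p, pow_mul, hvp,
      zpow_add₀ (A.valuation.ne_zero_iff.mpr (Nat.cast_ne_zero.mpr hp.ne_zero)), ← zpow_natCast,
      ← zpow_natCast, ← zpow_mul, ← zpow_mul, mul_comm e, mul_comm (padicValInt p m : ℤ)]
  have hmodp : ∀ j k : ℕ, j < p → k < p → ∀ e f : ℤ,
      (p : ℤ) * e + (j : ℤ) * padicValInt p m = (p : ℤ) * f + (k : ℤ) * padicValInt p m →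
      j = k := by
    intro j k hj hk e f h
    have hd : (p : ℤ) ∣ ((j : ℤ) - k) * padicValInt p m := ⟨f - e, by linear_combination h⟩
    rcases (Nat.prime_iff_prime_int.mp hp).dvd_mul.mp hd with h' | h'
    · have := Int.eq_zero_of_dvd_of_natAbs_lt_natAbs h' (by omega)
      omega
    · exact absurd (Int.natCast_dvd_natCast.mp h') hv
  have hdeg' : ∀ j ∈ Q.support, j < p := fun j hj =>
    lt_of_le_of_lt (le_natDegree_of_mem_supp j hj) hdeg
  have hdist : ∀ j ∈ Q.support, ∀ k ∈ Q.support,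
      A.valuation (t j) = A.valuation (t k) → j = k := by
    intro j hj k hk h
    obtain ⟨e, he⟩ := hval j hj
    obtain ⟨f, hf⟩ := hval k hk
    rw [h, hf] at he
    exact (hmodp k j (hdeg' k hk) (hdeg' j hj) f e (zpow_valuation_natCast_inj hp hA he)).symm ▸ rfl
  have hle : ∀ j ∈ Q.support, A.valuation (t j) ≤ A.valuation x := by
    intro j hj
    obtain ⟨j₀, hj₀, hmax⟩ := Q.support.exists_max_image (fun k => A.valuation (t k)) ⟨j, hj⟩
    rw [hsum, A.valuation.map_sum_eq_of_lt hj₀ fun k hk => ?_]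
    · exact hmax j hj
    · obtain ⟨hk, hne⟩ := Finset.mem_sdiff.mp hk
      exact lt_of_le_of_ne (hmax k hk) fun h =>
        hne (Finset.mem_singleton.mpr (hdist k hk j₀ hj₀ h))
  have hζA : ζ ∈ A := FLTA.Galois.mem_of_isIntegral (hζ.isIntegral hp.pos)
  have hζ0 : 0 < A.valuation (ζ - 1) :=
    A.valuation.pos_iff.mpr (sub_ne_zero.mpr (hζ.ne_one hp.one_lt))
  have hdiff : g x - x = ∑ j ∈ Q.support, t j * ((ζ ^ i) ^ j - 1) := by
    rw [hsum, map_sum, ← Finset.sum_sub_distrib]
    refine Finset.sum_congr rfl fun j _ => ?_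
    simp only [t]
    rw [map_mul, map_pow, map_ratCast, hg, mul_pow]
    ring
  rw [hdiff]
  refine A.valuation.map_sum_lt hζ0.ne' fun j hj => ?_
  rw [map_mul]
  rcases Nat.eq_zero_or_pos j with rfl | hj0
  · simpa using hζ0
  have h1 : A.valuation (t j) < 1 := by
    refine lt_of_le_of_ne ((hle j hj).trans ((A.valuation_le_one_iff _).mpr hxA)) fun h => ?_
    obtain ⟨e, he⟩ := hval j hj
    rw [h, one_pow, eq_comm, ← zpow_zero P] at he
    have h0 := zpow_valuation_natCast_inj hp hA he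
    have hd : (p : ℤ) ∣ (j : ℤ) * padicValInt p m := ⟨-e, by linear_combination h0⟩
    rcases (Nat.prime_iff_prime_int.mp hp).dvd_mul.mp hd with h' | h'
    · exact absurd (Nat.le_of_dvd hj0 (Int.natCast_dvd_natCast.mp h')) (not_le.mpr (hdeg' j hj))
    · exact hv (Int.natCast_dvd_natCast.mp h')
  have h2 : A.valuation ((ζ ^ i) ^ j - 1) ≤ A.valuation (ζ - 1) := by
    rw [← pow_mul, ← mul_geom_sum, map_mul]
    exact mul_le_of_le_one_right'
      ((A.valuation_le_one_iff _).mpr (sum_mem fun k _ => pow_mem hζA k))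
  calc A.valuation (t j) * A.valuation ((ζ ^ i) ^ j - 1)
      ≤ A.valuation (t j) * A.valuation (ζ - 1) := mul_le_mul_right h2 _
    _ < 1 * A.valuation (ζ - 1) := mul_lt_mul_of_pos_right h1 hζ0
    _ = A.valuation (ζ - 1) := one_mul _

end FLTA.Mazur

end
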