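import Fermat.Agent.HeckeDatum.FlatModel
import Fermat.Agent.Galois.Places

/-!
# Congruences between points of a flat model

Points of a model `M` congruent modulo a place `A` over `p`: translation invariance, inertia moves
points inside the kernel of reduction, and a nonzero point of order `p` in the kernel is not closer
to zero than `|p|^(1/(p-1))`.
-/

set_option autoImplicit false

noncomputable section

namespace FLTA.Mazur

open FLTA.HeckeDatum FLTA.HeckeDatum.Flat

local notation "Qbar" => AlgebraicClosure ℚ

variable {p : ℕ} {P : Type} [AddCommGroup P] {act : GalQ →* AddMonoid.End P}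

/-- `ℤ₍p₎` is contained in every valuation ring over `p`. -/
theorem ratLocalizedAt_mem {A : ValuationSubring Qbar} (hp : p.Prime) (hA : A.LiesOverPrime p)
    (r : Rp p) : algebraMap (Rp p) Qbar r ∈ A := by
  have hd : ((r : ℚ).den : Qbar) ∉ A.nonunits := by
    rw [FLTA.Galois.natCast_mem_nonunits_iff hp hA]
    exact fun hdvd => hp.not_dvd_one ((r.2 : (r : ℚ).den.Coprime p) ▸ Nat.dvd_gcd hdvd dvd_rfl)
  have he : algebraMap (Rp p) Qbar r = ((r : ℚ).num : Qbar) * ((r : ℚ).den : Qbar)⁻¹ := by
    rw [← div_eq_mul_inv, ← Rat.cast_def (K := Qbar)]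
    exact (map_ratCast (algebraMap ℚ Qbar) (r : ℚ))
  rw [he]
  exact A.toSubring.mul_mem (intCast_mem A _) (FLTA.Galois.inv_mem_of_not_mem_nonunits hd)

/-- Values of a model lie in every valuation ring over `p`. -/
theorem apply_mem_valuationSubring {A : ValuationSubring Qbar} (hp : p.Prime)
    (hA : A.LiesOverPrime p) (M : FlatModel p P act) {f : P → Qbar} (hf : f ∈ M.O) (x : P) :
    f x ∈ A := by
  obtain ⟨q, hq, hqx⟩ := isIntegral_apply M hf x
  have hq' : IsIntegral A.toSubring (f x) := by
    let φ : Rp p →+* A.toSubring :=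
      (algebraMap (Rp p) Qbar).codRestrict A.toSubring (ratLocalizedAt_mem hp hA)
    refine ⟨q.map φ, hq.map φ, ?_⟩
    rw [Polynomial.eval₂_map]
    exact hqx
  have hq'' : IsIntegral A (f x) := hq'
  obtain ⟨y, hy⟩ := IsIntegrallyClosed.isIntegral_iff.mp hq''
  exact hy ▸ y.2

theorem valuation_apply_le_one {A : ValuationSubring Qbar} (hp : p.Prime)
    (hA : A.LiesOverPrime p) (M : FlatModel p P act) {f : P → Qbar} (hf : f ∈ M.O) (x : P) :
    A.valuation (f x) ≤ 1 :=
  (A.valuation_le_one_iff _).mpr (apply_mem_valuationSubring hp hA M hf x)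

/-- Strict congruence bounds are translation invariant. -/
theorem valuation_sub_translate_lt {A : ValuationSubring Qbar} (hp : p.Prime)
    (hA : A.LiesOverPrime p) (M : FlatModel p P act) {x y : P} {c : A.ValueGroup} (hc : 0 < c)
    (h : ∀ f ∈ M.O, A.valuation (f x - f y) < c) (b : P) {f : P → Qbar} (hf : f ∈ M.O) :
    A.valuation (f (x + b) - f (y + b)) < c := by
  suffices h' : ∀ g ∈ Submodule.span (Rp p)
      {g : P × P → Qbar | ∃ a ∈ M.O, ∃ a' ∈ M.O, g = fun xy => a xy.1 * a' xy.2},
      A.valuation (g (x, b) - g (y, b)) < c from h' _ (M.comul f hf)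
  intro g hg
  induction hg using Submodule.span_induction with
  | mem g hg =>
    obtain ⟨a, ha, a', ha', rfl⟩ := hg
    rw [← sub_mul, map_mul]
    exact lt_of_le_of_lt (mul_le_of_le_one_right' (valuation_apply_le_one hp hA M ha' b)) (h a ha)
  | zero => simpa using hc
  | add u v _ _ hu hv =>
    rw [Pi.add_apply, Pi.add_apply, add_sub_add_comm]
    exact A.valuation.map_add_lt hu hv
  | smul r u _ hu =>
    rw [Pi.smul_apply, Pi.smul_apply, ← smul_sub, Algebra.smul_def, map_mul]
    exact lt_of_le_of_lt
      (mul_le_of_le_one_left' ((A.valuation_le_one_iff _).mpr (ratLocalizedAt_mem hp hA r))) hu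

/-- The kernel of reduction of a model at `A`. -/
def InRedKernel (A : ValuationSubring Qbar) (M : FlatModel p P act) (x : P) : Prop :=
  ∀ f ∈ M.O, A.valuation (f x - f 0) < 1

theorem inRedKernel_zero (A : ValuationSubring Qbar) (M : FlatModel p P act) :
    InRedKernel A M 0 := fun f _ => by simp

theorem InRedKernel.add {A : ValuationSubring Qbar} (hp : p.Prime) (hA : A.LiesOverPrime p)
    {M : FlatModel p P act} {x y : P} (hx : InRedKernel A M x) (hy : InRedKernel A M y) :
    InRedKernel A M (x + y) := fun f hf => by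
  have h1 := valuation_sub_translate_lt hp hA M zero_lt_one hx y hf
  rw [zero_add] at h1
  simpa using A.valuation.map_add_lt h1 (hy f hf)

theorem InRedKernel.nsmul {A : ValuationSubring Qbar} (hp : p.Prime) (hA : A.LiesOverPrime p)
    {M : FlatModel p P act} {x : P} (hx : InRedKernel A M x) :
    ∀ k : ℕ, InRedKernel A M (k • x)
  | 0 => by simpa using inRedKernel_zero A M
  | k + 1 => by rw [succ_nsmul]; exact (hx.nsmul hp hA k).add hp hA hx

/-- Inertia moves points inside the kernel of reduction. -/
theorem inRedKernel_act_sub {A : ValuationSubring Qbar} (hp : p.Prime) (hA : A.LiesOverPrime p)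
    (M : FlatModel p P act) {σ : GalQ} (hσ : σ ∈ A.inertiaSubgroupIn ℚ) (x : P) :
    InRedKernel A M (act σ x - x) := by
  intro f hf
  have key : ∀ g ∈ M.O, A.valuation (g (act σ x) - g x) < 1 := by
    intro g hg
    rw [M.equivariant g hg, ← ValuationSubring.mem_nonunits_iff]
    exact ((FLTA.Galois.mem_inertiaSubgroupIn_iff).mp hσ).2 _ (apply_mem_valuationSubring hp hA M hg x)
  have h1 := valuation_sub_translate_lt hp hA M zero_lt_one key (-x) hf
  rwa [← sub_eq_add_neg, add_neg_cancel] at h1

/-- A nonzero point killed by `p` in the kernel of reduction has a multiple `k • x` and a function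
`f` with `|p| ≤ |f (k • x) - f 0| ^ (p - 1)`. -/
theorem exists_large_difference {A : ValuationSubring Qbar} (hp : p.Prime) (hA : A.LiesOverPrime p)
    (M : FlatModel p P act) {x : P} (hx : InRedKernel A M x) (hx0 : x ≠ 0) (hpx : p • x = 0) :
    ∃ k : ℕ, ∃ f ∈ M.O, A.valuation (f (k • x) - f 0) < 1 ∧
      A.valuation (p : Qbar) ≤ A.valuation (f (k • x) - f 0) ^ (p - 1) := by
  classical
  haveI := M.finite_O
  obtain ⟨s, hs⟩ := Module.Finite.fg_top (R := Rp p) (M := M.O)
  let val : M.O × ℕ → A.ValueGroup := fun q =>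
    A.valuation ((q.1 : P → Qbar) (q.2 • x) - (q.1 : P → Qbar) 0)
  have hspan : ∀ (k : ℕ) (c : A.ValueGroup), (∀ g ∈ s, val (g, k) ≤ c) →
      ∀ f : M.O, val (f, k) ≤ c := by
    intro k c hc f
    have hf : f ∈ Submodule.span (Rp p) (s : Set M.O) := hs ▸ Submodule.mem_top
    induction hf using Submodule.span_induction with
    | mem g hg => exact hc g hg
    | zero => simp [val]
    | add u v _ _ hu hv =>
      simp only [val, AddMemClass.coe_add, Pi.add_apply, add_sub_add_comm]
      exact A.valuation.map_add_le hu hv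
    | smul r u _ hu =>
      show A.valuation ((r • (u : P → Qbar)) (k • x) - (r • (u : P → Qbar)) 0) ≤ c
      rw [Pi.smul_apply, Pi.smul_apply, ← smul_sub, Algebra.smul_def, map_mul]
      exact le_trans
        (mul_le_of_le_one_left' ((A.valuation_le_one_iff _).mpr (ratLocalizedAt_mem hp hA r))) hu
  obtain ⟨⟨g₀, k₀⟩, hmem, hmax⟩ := Finset.exists_max_image
    ((insert (1 : M.O) s) ×ˢ Finset.range p) val
    ⟨(1, 0), by simp [hp.pos]⟩
  set m := val (g₀, k₀) with hm
  have hle : ∀ (f : M.O) (k : ℕ), val (f, k) ≤ m := by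
    intro f k
    have hk : k • x = (k % p) • x := by
      conv_lhs => rw [← Nat.mod_add_div k p]
      rw [add_nsmul, mul_comm p (k / p), ← smul_smul, hpx, nsmul_zero, add_zero]
    have h' := hspan (k % p) m (fun g hg => hmax (g, k % p) (by
      simp [hg, Nat.mod_lt k hp.pos])) f
    simpa [val, hk] using h'
  have hm1 : m < 1 := (hx.nsmul hp hA k₀) _ g₀.2
  refine ⟨k₀, _, g₀.2, hm1, ?_⟩
  change _ ≤ m ^ (p - 1)
  set a := k₀ • x with ha
  have hia : ∀ f ∈ M.O, A.valuation (f a - f 0) ≤ m := fun f hf => hle ⟨f, hf⟩ k₀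
  -- the iterated differences along `a`
  let D : (P → Qbar) →ₗ[Rp p] (P → Qbar) :=
    { toFun := fun F z => F (z + a) - F z
      map_add' := fun F G => funext fun z => by simp only [Pi.add_apply]; ring
      map_smul' := fun r F => funext fun z => by simp [smul_sub] }
  have hD : ∀ r : ℕ, ∀ f ∈ M.O, A.valuation ((D ^ (r + 1)) f 0) ≤ m ^ (r + 1) := by
    intro r
    induction r with
    | zero =>
      intro f hf
      simpa [D] using hia f hf
    | succ r IH =>
      intro f hf
      rw [pow_succ (M := Module.End (Rp p) (P → Qbar)), Module.End.mul_apply]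
      suffices h' : ∀ g ∈ Submodule.span (Rp p)
          {g : P × P → Qbar | ∃ u ∈ M.O, ∃ v ∈ M.O, g = fun xy => u xy.1 * v xy.2},
          A.valuation ((D ^ (r + 1)) (fun z => g (z, a) - g (z, 0)) 0) ≤ m ^ (r + 1 + 1) by
        have h2 := h' _ (M.comul f hf)
        simpa [D] using h2
      intro g hg
      induction hg using Submodule.span_induction with
      | mem g hg =>
        obtain ⟨u, hu, v, hv, rfl⟩ := hg
        have he : (fun z => u z * v a - u z * v 0) = (v a - v 0) • u := by
          funext z; simp [mul_comm, mul_sub]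
        rw [show (fun z => (fun xy : P × P => u xy.1 * v xy.2) (z, a) -
            (fun xy : P × P => u xy.1 * v xy.2) (z, 0)) = (v a - v 0) • u from he]
        have hlin : ∀ (c : Qbar) (n : ℕ) (F : P → Qbar) (z : P),
            (D ^ n) (c • F) z = c * (D ^ n) F z := by
          intro c n
          induction n with
          | zero => intro F z; simp
          | succ n ihn =>
            intro F z
            rw [pow_succ (M := Module.End (Rp p) (P → Qbar)), Module.End.mul_apply,
              Module.End.mul_apply, ← ihn,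
              show D (c • F) = c • D F from funext fun w => by simp [D, mul_sub]]
        rw [hlin, map_mul, pow_succ' m]
        exact mul_le_mul' (hia v hv) (IH u hu)
      | zero => simp [show (fun _ : P => (0 : Qbar)) = 0 from rfl]
      | add u v _ _ hu hv =>
        rw [show (fun z => (u + v) (z, a) - (u + v) (z, 0)) =
            (fun z => u (z, a) - u (z, 0)) + (fun z => v (z, a) - v (z, 0)) from by
          funext z; simp only [Pi.add_apply]; ring, map_add, Pi.add_apply]
        exact A.valuation.map_add_le hu hv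
      | smul c u _ hu =>
        rw [show (fun z => (c • u) (z, a) - (c • u) (z, 0)) =
            c • (fun z => u (z, a) - u (z, 0)) from by
          funext z; simp [smul_sub], map_smul, Pi.smul_apply, Algebra.smul_def, map_mul]
        exact le_trans
          (mul_le_of_le_one_left' ((A.valuation_le_one_iff _).mpr (ratLocalizedAt_mem hp hA c))) hu
  have hbin : ∀ (n : ℕ) (F : P → Qbar) (z : P),
      F (z + n • a) = ∑ i ∈ Finset.range (n + 1), (n.choose i : Qbar) * (D ^ i) F z := by
    have hsh : ∀ (n : ℕ) (F : P → Qbar) (z : P), F (z + n • a) = ((D + 1) ^ n) F z := by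
      intro n
      induction n with
      | zero => intro F z; simp
      | succ n ihn =>
        intro F z
        rw [pow_succ, Module.End.mul_apply, ← ihn ((D + 1) F) z]
        simp [D, succ_nsmul, add_assoc]
    intro n F z
    rw [hsh n F z, (Commute.one_right D).add_pow, LinearMap.sum_apply, Finset.sum_apply]
    refine Finset.sum_congr rfl fun i _ => ?_
    rw [one_pow, mul_one, Module.End.mul_apply, Module.End.natCast_apply, map_nsmul, Pi.smul_apply,
      nsmul_eq_mul]
  have hm0 : m ≠ 0 := by
    intro h0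
    obtain ⟨f, hf, hne⟩ := M.separates x 0 hx0
    have := hle ⟨f, hf⟩ 1
    rw [h0, le_zero_iff] at this
    simp only [val, one_nsmul] at this
    exact hne (sub_eq_zero.mp (A.valuation.zero_iff.mp this))
  have h0 : (0 : Qbar) = ∑ i ∈ Finset.Ico 1 (p + 1),
      (p.choose i : Qbar) * (D ^ i) (g₀ : P → Qbar) 0 := by
    have h1 := hbin p (g₀ : P → Qbar) 0
    rw [show p • a = 0 by rw [ha, smul_comm, hpx, nsmul_zero], add_zero,
      Finset.sum_range_eq_add_Ico _ (Nat.succ_pos p)] at h1
    simpa [eq_comm] using h1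
  rw [Finset.sum_eq_sum_Ico_succ_bot (by have := hp.pos; omega : 1 < p + 1), Nat.choose_one_right, pow_one] at h0
  have hfirst : (D (g₀ : P → Qbar)) 0 = (g₀ : P → Qbar) a - (g₀ : P → Qbar) 0 := by simp [D]
  have h2 : A.valuation (p : Qbar) * m ≤ max (A.valuation (p : Qbar) * m ^ 2) (m ^ p) := by
    have he := (neg_eq_of_add_eq_zero_left h0.symm).symm
    calc A.valuation (p : Qbar) * m = A.valuation ((p : Qbar) * D (g₀ : P → Qbar) 0) := by
          rw [map_mul, hfirst]
      _ = A.valuation (∑ i ∈ Finset.Ico 2 (p + 1), (p.choose i : Qbar) * (D ^ i) (g₀ : P → Qbar) 0) := by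
          rw [he, A.valuation.map_neg]
      _ ≤ _ := A.valuation.map_sum_le fun i hi => by
          obtain ⟨hi2, hip⟩ := Finset.mem_Ico.mp hi
          obtain ⟨j, rfl⟩ : ∃ j, i = j + 1 := ⟨i - 1, by omega⟩
          rw [map_mul]
          rcases (Nat.lt_succ_iff.mp hip).lt_or_eq with hlt | heq
          · refine le_max_of_le_left (mul_le_mul' ?_ ((hD j _ g₀.2).trans ?_))
            · obtain ⟨c, hc⟩ := hp.dvd_choose_self (by omega : j + 1 ≠ 0) hlt
              rw [hc, Nat.cast_mul, map_mul]
              exact mul_le_of_le_one_right' ((A.valuation_le_one_iff _).mpr (natCast_mem A c))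
            · exact pow_le_pow_right_of_le_one' hm1.le hi2
          · rw [show p.choose (j + 1) = 1 by rw [heq, Nat.choose_self], Nat.cast_one, map_one,
              one_mul]
            exact le_max_of_le_right ((hD j _ g₀.2).trans (le_of_eq (congrArg (m ^ ·) heq)))
  have hpv : 0 < A.valuation (p : Qbar) := by
    rw [A.valuation.pos_iff]
    exact Nat.cast_ne_zero.mpr hp.ne_zero
  have hlt : A.valuation (p : Qbar) * m ^ 2 < A.valuation (p : Qbar) * m := by
    refine mul_lt_mul_of_pos_left ?_ hpv
    rw [sq]
    exact mul_lt_of_lt_one_left (lt_of_le_of_ne zero_le (Ne.symm hm0)) hm1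
  have h3 : A.valuation (p : Qbar) * m ≤ m ^ p :=
    (le_max_iff.mp h2).resolve_left (not_le.mpr hlt)
  rw [← pow_sub_one_mul hp.ne_zero m] at h3
  exact le_of_mul_le_mul_right h3 (lt_of_le_of_ne zero_le (Ne.symm hm0))

end FLTA.Mazur

end
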