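import Fermat.Agent.Mazur.SelmerDefs
import Fermat.Agent.Mazur.RedKernel
import Fermat.Agent.Mazur.RadicalBound
import Fermat.Prelude.Def_ExtCitation_AdmissibleExtension
import Fermat.Prelude.Def_GaloisRep_ComplexConjugation

/-!
# Selmer triples of a constituent of order `p`
-/

set_option autoImplicit false
set_option synthInstance.maxHeartbeats 400000

noncomputable section

namespace FLTA.Mazur

open FLTA.HeckeDatum
open scoped Pointwise

local notation "Qbar" => AlgebraicClosure ℚ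

variable {p : ℕ} [hp : Fact p.Prime]

/-- `σ ζ = ζ ^ cycloExp p σ` on `p`-th roots of unity. -/
theorem cycloExp_apply (σ : GalQ) {ζ : Qbar} (hζ : ζ ^ p = 1) :
    σ ζ = ζ ^ ExtCitation.cycloExp p σ := by
  have : NeZero p := ⟨hp.out.ne_zero⟩
  have hu : IsUnit ζ := IsUnit.of_pow_eq_one hζ hp.out.ne_zero
  have hmem : hu.unit ∈ rootsOfUnity p Qbar := by
    rw [mem_rootsOfUnity]
    exact Units.ext (by simpa using hζ)
  exact modularCyclotomicCharacter.spec Qbar (ExtCitation.card_rootsOfUnity_eq_self p)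
    (σ : Qbar ≃+* Qbar) hmem

variable {n : ℕ} {N : ℕ} {W : Type} [AddCommGroup W] [Module (ZMod n) W] [Finite W]
  {act : GalQ →* AddMonoid.End W}

omit hp [Finite W] in
theorem nsmul_eq_zero_of_card (hW : Nat.card W = p) (x : W) : p • x = 0 := by
  rw [← hW]
  exact card_nsmul_eq_zero'

omit hp [Finite W] in
theorem act_twist_sub {ξ : GalQ → W} (hξ : IsCocycle act ξ) (σ : GalQ) (z : W) (k : ZMod n) :
    twistAct n act hξ σ (z, k) - (z, k) = (act σ z - z + k • ξ σ, 0) := by
  rw [twistAct_apply, Prod.mk_sub_mk, sub_self]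
  congr 1
  abel

/-- A constituent with trivial action, odd `p`: Selmer cocycles vanish. -/
theorem cocycle_eq_zero_of_trivial (hp2 : p ≠ 2) (hN : N.Prime)
    {AN : ValuationSubring Qbar} (hAN : AN.LiesOverPrime N) (hW : Nat.card W = p)
    (htriv : ∀ σ x, act σ x = x) {ξ : GalQ → W} (hξ : SelCond n p N act ξ) {b : W}
    (hb : ∀ σ ∈ AN.inertiaSubgroupIn ℚ, ξ σ = act σ b - b) :
    ξ = 0 := by
  obtain ⟨L, hL, hsm⟩ := hξ.cocycle.smooth
  let ρ : GalQ →* Multiplicative W :=
    { toFun := fun σ => Multiplicative.ofAdd (ξ σ)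
      map_one' := by rw [hξ.cocycle.map_one]; rfl
      map_mul' := fun σ τ => by rw [hξ.cocycle.mul, htriv]; rfl }
  have hzeroN : ∀ A : ValuationSubring Qbar, A.LiesOverPrime N →
      ∀ σ ∈ A.inertiaSubgroupIn ℚ, ξ σ = 0 := by
    intro A hA σ hσ
    obtain ⟨g, rfl⟩ := FLTA.Galois.exists_smul_eq hN hAN hA
    rw [FLTA.Galois.inertiaSubgroupIn_smul_iff] at hσ
    have h := hb _ hσ
    rw [htriv, sub_self, hξ.cocycle.mul, hξ.cocycle.mul, htriv, htriv] at h
    have h1 := hξ.cocycle.mul g⁻¹ g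
    rw [inv_mul_cancel, hξ.cocycle.map_one, htriv] at h1
    rw [← h, add_comm (ξ g⁻¹) (ξ σ), add_assoc, ← h1, add_zero]
  obtain ⟨M⟩ := hξ.flat
  refine funext fun σ => ofAdd_eq_one.mp (FLTA.Galois.hom_eq_one_of_unramified ρ ⟨L, hL, fun σ hσ => ?_⟩
    (fun ℓ hℓ A hA σ hσ => ?_) σ)
  · exact ofAdd_eq_one.mpr (hsm σ hσ)
  refine ofAdd_eq_one.mpr ?_
  by_cases hℓp : ℓ = p
  swap
  · by_cases hℓN : ℓ = N
    · exact hzeroN A (hℓN ▸ hA) σ hσ
    · exact hξ.unramified ℓ hℓ hℓp hℓN A hA σ hσ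
  subst hℓp
  by_contra hne
  have hker := inRedKernel_act_sub hℓ hA M hσ ((0 : W), (1 : ZMod n))
  rw [act_twist_sub, map_zero, sub_zero, zero_add, one_smul] at hker
  obtain ⟨k, f, hf, hlt, hle⟩ := exists_large_difference hℓ hA M hker
    (fun h => hne (congrArg Prod.fst h))
    (Prod.ext (by simpa using nsmul_eq_zero_of_card hW (ξ σ)) (by simp))
  have hfix : ∀ z : W × ZMod n, z.2 = 0 → ∀ τ : GalQ, τ (f z) = f z := by
    rintro ⟨z, z'⟩ rfl τ
    rw [← M.equivariant f hf, twistAct_apply, htriv, zero_smul, add_zero]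
  obtain ⟨r, hr⟩ := exists_rat_of_fixed (x := f (k • ((ξ σ, 0) : W × ZMod n)) - f 0) fun τ => by
    rw [map_sub, hfix _ (by simp) τ, hfix _ rfl τ]
  rw [← hr] at hlt hle
  have hpv : A.valuation (ℓ : Qbar) < 1 := valuation_natCast_lt_one hA
  have hp0 : 0 < A.valuation (ℓ : Qbar) :=
    A.valuation.pos_iff.mpr (Nat.cast_ne_zero.mpr hℓ.ne_zero)
  rcases eq_or_ne r 0 with rfl | hr0
  · rw [Rat.cast_zero, map_zero, zero_pow (by have := hℓ.two_le; omega)] at hle
    exact absurd (lt_of_lt_of_le hp0 hle) (lt_irrefl _)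
  obtain ⟨j, hj⟩ := exists_zpow_valuation_ratCast hℓ hA hr0
  rw [hj] at hlt hle
  have hj0 : 1 ≤ j := by
    by_contra hcon
    exact absurd hlt (not_lt.mpr (one_le_zpow_of_nonpos₀ hp0 hpv.le (by omega)))
  rw [← zpow_natCast, ← zpow_mul] at hle
  have h2 : (1 : ℤ) < j * ((ℓ - 1 : ℕ) : ℤ) := by
    have : (2 : ℤ) ≤ ((ℓ - 1 : ℕ) : ℤ) := by have := hℓ.two_le; omega
    nlinarith
  exact absurd hle (not_le.mpr (by
    conv_rhs => rw [← zpow_one (A.valuation (ℓ : Qbar))]
    exact zpow_lt_zpow_right_of_lt_one₀ hp0 hpv h2))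

omit [Finite W] in
/-- A character with values in `μ_p`, compatible with the cyclotomic action. -/
theorem exists_muHom (hW : Nat.card W = p)
    (hω : ∀ σ x, act σ x = ExtCitation.cycloExp p σ • x) {ζ : Qbar} (hζ : IsPrimitiveRoot ζ p) :
    ∃ ψ : W → Qbar, (∀ x y, ψ (x + y) = ψ x * ψ y) ∧ Function.Injective ψ ∧
      (∀ σ x, σ (ψ x) = ψ (act σ x)) ∧ (∀ x, ∃ i : ℕ, ψ x = ζ ^ i) := by
  have hcyc : IsAddCyclic W := isAddCyclic_of_prime_card hW
  let e : W ≃+ ZMod p := ((zmodAddCyclicAddEquiv hcyc).symm.trans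
    (ZMod.ringEquivCongr hW).toAddEquiv)
  have hmul : ∀ x y, ζ ^ (e (x + y)).val = ζ ^ (e x).val * ζ ^ (e y).val := by
    intro x y
    rw [map_add, ZMod.val_add, ← pow_add, ← pow_eq_pow_mod _ hζ.pow_eq_one]
  have hsmul : ∀ (k : ℕ) x, ζ ^ (e (k • x)).val = (ζ ^ (e x).val) ^ k := by
    intro k x
    induction k with
    | zero => simp
    | succ k ih => rw [succ_nsmul, hmul, ih, pow_succ]
  refine ⟨fun x => ζ ^ (e x).val, hmul, fun x y h => e.injective (ZMod.val_injective p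
    (hζ.pow_inj (ZMod.val_lt _) (ZMod.val_lt _) h)), fun σ x => ?_, fun x => ⟨_, rfl⟩⟩
  show σ (ζ ^ (e x).val) = ζ ^ (e (act σ x)).val
  rw [hω, hsmul, map_pow, cycloExp_apply σ hζ.pow_eq_one, ← pow_mul, ← pow_mul, mul_comm]

/-- A cyclotomic constituent (or any constituent when `p = 2`): Selmer cocycles are coboundaries. -/
theorem exists_eq_coboundary (hN : N.Prime) (hpN : p ≠ N)
    {AN : ValuationSubring Qbar} (hAN : AN.LiesOverPrime N) (hW : Nat.card W = p)
    (hω : ∀ σ x, act σ x = ExtCitation.cycloExp p σ • x) {ξ : GalQ → W}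
    (hξ : SelCond n p N act ξ) {b₁ b₂ : W}
    (h₁ : ∀ σ ∈ AN.inertiaSubgroupIn ℚ, ξ σ = act σ b₁ - b₁)
    (h₂ : ξ complexConjugation = act complexConjugation b₂ - b₂) :
    ∃ b : W, ∀ σ, ξ σ = act σ b - b := by
  have : NeZero p := ⟨hp.out.ne_zero⟩
  obtain ⟨ζ, hζ⟩ := qbar_exists_primitiveRoot p hp.out
  obtain ⟨ψ, hψ, hψi, hψσ, hψp⟩ := exists_muHom hW hω hζ
  have hψ1 : ψ 0 = 1 := by
    obtain ⟨i, hi⟩ := hψp 0
    have h0 : ψ 0 ≠ 0 := hi ▸ pow_ne_zero _ (hζ.ne_zero hp.out.ne_zero)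
    exact mul_left_cancel₀ h0 ((hψ 0 0).symm.trans (by rw [add_zero, mul_one]))
  have hψpow : ∀ x, ψ x ^ p = 1 := by
    intro x
    obtain ⟨i, hi⟩ := hψp x
    rw [hi, ← pow_mul, mul_comm, pow_mul, hζ.pow_eq_one, one_pow]
  -- Kummer
  obtain ⟨L, hL, hsm⟩ := hξ.cocycle.smooth
  obtain ⟨α, m, hm, hαm, hgal⟩ := exists_radical hp.out hζ (fun σ => ψ (ξ σ))
    (fun σ τ => by rw [hξ.cocycle.mul, hψ, hψσ]) (fun σ => hψpow _)
    ⟨L, hL, fun σ hσ => by rw [hsm σ hσ, hψ1]⟩
  have hα0 : α ≠ 0 := by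
    rintro rfl
    rw [zero_pow hp.out.ne_zero, eq_comm, Int.cast_eq_zero] at hαm
    exact hm hαm
  have hfixiff : ∀ σ : GalQ, σ α = α → ξ σ = 0 := fun σ hσ => hψi (by
    rw [hψ1]
    exact (mul_eq_right₀ hα0).mp ((hgal σ).symm.trans hσ))
  -- inertia at `N` kills `ξ`
  have hinN : ∀ A : ValuationSubring Qbar, A.LiesOverPrime N →
      ∀ σ ∈ A.inertiaSubgroupIn ℚ, ξ σ = 0 := by
    have hactN : ∀ A : ValuationSubring Qbar, A.LiesOverPrime N →
        ∀ σ ∈ A.inertiaSubgroupIn ℚ, ∀ x, act σ x = x := fun A hA σ hσ x => by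
      have h1 := congrArg ZMod.val (FLTA.Galois.cycloExp_inertia p hN hpN.symm hA hσ)
      have : Fact (1 < p) := ⟨hp.out.one_lt⟩
      rw [ZMod.val_natCast, Nat.mod_eq_of_lt (show ExtCitation.cycloExp p σ < p from ZMod.val_lt _),
        ZMod.val_one] at h1
      rw [hω, h1, one_smul]
    intro A hA σ hσ
    have hσ' := hσ
    obtain ⟨g, rfl⟩ := FLTA.Galois.exists_smul_eq hN hAN hA
    rw [FLTA.Galois.inertiaSubgroupIn_smul_iff] at hσ
    have h := h₁ _ hσ
    rw [hactN AN hAN _ hσ, sub_self, hξ.cocycle.mul, hξ.cocycle.mul] at h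
    have h1 := hξ.cocycle.mul g⁻¹ g
    rw [inv_mul_cancel, hξ.cocycle.map_one] at h1
    have h2 : act (g⁻¹ * σ) (ξ g) = act g⁻¹ (ξ g) := by
      rw [map_mul]
      exact congrArg (act g⁻¹) (hactN _ hA σ hσ' (ξ g))
    have h3 : act g⁻¹ (ξ σ) = 0 := by
      rw [h2, add_right_comm, ← h1, zero_add] at h
      exact h
    have h4 := congrArg (act g) h3
    have h5 : act g (act g⁻¹ (ξ σ)) = act (g * g⁻¹) (ξ σ) := by rw [map_mul]; rfl
    rwa [map_zero, h5, mul_inv_cancel, map_one] at h4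
  -- valuations away from `p`
  have hdvd : ∀ ℓ : ℕ, ℓ.Prime → p ∣ padicValInt ℓ m := by
    intro ℓ hℓ
    by_cases hℓp : ℓ = p
    swap
    · refine dvd_padicValInt_of_fixed hp.out hℓ (Or.inl hℓp) hm hαm fun A hA σ hσ => ?_
      have h0 : ξ σ = 0 := by
        by_cases hℓN : ℓ = N
        · exact hinN A (hℓN ▸ hA) σ hσ
        · exact hξ.unramified ℓ hℓ hℓp hℓN A hA σ hσ
      rw [hgal, h0, hψ1, one_mul]
    subst hℓp
    by_contra hv
    obtain ⟨A, hA⟩ := FLTA.Galois.exists_liesOverPrime hℓ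
    obtain ⟨M⟩ := hξ.flat
    -- some nonzero point over `0` in the kernel of reduction
    obtain ⟨B, hB, w, hw, hker⟩ : ∃ B : ValuationSubring Qbar, B.LiesOverPrime ℓ ∧
        ∃ w : W, w ≠ 0 ∧ InRedKernel B M (w, 0) := by
      by_cases h2 : ℓ = 2
      · by_contra hcon
        push Not at hcon
        refine hv (dvd_padicValInt_of_fixed hp.out hℓ (Or.inr h2) hm hαm fun B hB σ hσ => ?_)
        have h0 : ξ σ = 0 := by
          by_contra hne
          refine hcon B hB _ hne ?_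
          have h := inRedKernel_act_sub hℓ hB M hσ ((0 : W), (1 : ZMod n))
          rwa [act_twist_sub, map_zero, sub_zero, zero_add, one_smul] at h
        rw [hgal, h0, hψ1, one_mul]
      · obtain ⟨σ, hσ, hcy⟩ := FLTA.Galois.exists_inertia_cycloExp ℓ hA (-1 : (ZMod ℓ)ˣ)
        obtain ⟨w, hw⟩ : ∃ w : W, w ≠ 0 := by
          have : Nontrivial W := Finite.one_lt_card_iff_nontrivial.mp (hW ▸ hℓ.one_lt)
          exact exists_ne 0
        refine ⟨A, hA, act σ w - w, ?_, ?_⟩
        · have hc : ExtCitation.cycloExp ℓ σ + 1 = ℓ := by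
            have h' : (ExtCitation.cycloExp ℓ σ : ZMod ℓ) = -1 := by simpa using hcy
            have hlt : ExtCitation.cycloExp ℓ σ < ℓ := ZMod.val_lt _
            have hd : ℓ ∣ ExtCitation.cycloExp ℓ σ + 1 := by
              rw [← ZMod.natCast_eq_zero_iff, Nat.cast_add, h', Nat.cast_one, neg_add_cancel]
            exact le_antisymm hlt (Nat.le_of_dvd (Nat.succ_pos _) hd)
          rw [hω]
          intro h
          have h5 : (ExtCitation.cycloExp ℓ σ + 1) • w = 2 • w := by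
            rw [succ_nsmul, sub_eq_zero.mp h, two_nsmul]
          rw [hc, nsmul_eq_zero_of_card hW, eq_comm, ← addOrderOf_dvd_iff_nsmul_eq_zero] at h5
          have h6 : addOrderOf w ∣ ℓ := addOrderOf_dvd_iff_nsmul_eq_zero.mpr
            (nsmul_eq_zero_of_card hW w)
          rcases (Nat.dvd_prime hℓ).mp h6 with h7 | h7
          · exact hw (AddMonoid.addOrderOf_eq_one_iff.mp h7)
          · exact h2 ((Nat.prime_dvd_prime_iff_eq hℓ Nat.prime_two).mp (h7 ▸ h5))
        · have h := inRedKernel_act_sub hℓ hA M hσ ((w, 0) : W × ZMod n)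
          rwa [act_twist_sub, zero_smul, add_zero] at h
    obtain ⟨k, f, hf, hlt, hle⟩ := exists_large_difference hℓ hB M hker
      (fun h => hw (congrArg Prod.fst h))
      (Prod.ext (by simpa using nsmul_eq_zero_of_card hW w) (by simp))
    -- a Galois element moving `(0, 1)` by `k • w`
    obtain ⟨i, hi⟩ := hψp (k • w)
    have hirr : Irreducible (Polynomial.X ^ ℓ - Polynomial.C (m : ℚ)) := by
      refine X_pow_sub_C_irreducible_of_prime hℓ fun r hr => hv ?_
      have hr0 : r ≠ 0 := by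
        rintro rfl
        rw [zero_pow hℓ.ne_zero, eq_comm, Int.cast_eq_zero] at hr
        exact hm hr
      obtain ⟨j, hj⟩ := exists_zpow_valuation_ratCast hℓ hA hr0
      have h1 := congrArg (fun q : ℚ => A.valuation (q : Qbar)) hr
      simp only [Rat.cast_pow, Rat.cast_intCast, map_pow] at h1
      rw [hj, FLTA.EllReduction.FreyAux.valuation_intCast A hℓ hA hm, ← zpow_natCast,
        ← zpow_natCast, ← zpow_mul] at h1
      exact Int.natCast_dvd_natCast.mp ⟨j, by rw [← zpow_valuation_natCast_inj hℓ hA h1]; ring⟩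
    have hroot : ∀ β : Qbar, β ^ ℓ = (m : Qbar) →
        minpoly ℚ β = Polynomial.X ^ ℓ - Polynomial.C (m : ℚ) := fun β hβ =>
      (minpoly.eq_of_irreducible_of_monic hirr (by simp [hβ])
        (Polynomial.monic_X_pow_sub_C _ hℓ.ne_zero)).symm
    obtain ⟨g, hg⟩ := (Normal.minpoly_eq_iff_mem_orbit Qbar).mp
      ((hroot (ψ (k • w) * α) (by rw [mul_pow, hψpow, one_mul, hαm])).trans (hroot α hαm).symm)
    have hg' : g α = ψ (k • w) * α := hg
    have hξg : ξ g = k • w := hψi ((mul_left_inj' hα0).mp ((hgal g).symm.trans hg'))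
    -- the bound
    have hsmall : ∀ F ∈ M.O, B.valuation
        (F (twistAct n act hξ.cocycle g ((0 : W), (1 : ZMod n))) - F (0, 1)) < B.valuation (ζ - 1) := by
      intro F hF
      rw [M.equivariant F hF]
      refine valuation_smul_sub_lt hℓ hB hζ hm hαm hv (fun σ hσ => ?_)
        (apply_mem_valuationSubring hℓ hB M hF _) (hg'.trans (by rw [hi]))
      rw [← M.equivariant F hF, twistAct_apply, map_zero, hfixiff σ hσ, smul_zero, add_zero]
    have hζpos : 0 < B.valuation (ζ - 1) :=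
      B.valuation.pos_iff.mpr (sub_ne_zero.mpr (hζ.ne_one hℓ.one_lt))
    have h := valuation_sub_translate_lt hℓ hB M hζpos hsmall (-((0 : W), (1 : ZMod n))) hf
    rw [← sub_eq_add_neg, act_twist_sub, map_zero, sub_zero, zero_add, one_smul, hξg,
      add_neg_cancel] at h
    have hkw : k • ((w, 0) : W × ZMod n) = (k • w, 0) := Prod.ext rfl (by simp)
    rw [hkw] at hlt hle
    have h1 := pow_lt_pow_left₀ h zero_le (n := ℓ - 1) (by have := hℓ.two_le; omega)
    exact absurd (lt_of_le_of_lt hle h1) (not_lt.mpr (valuation_sub_one_pow_le hℓ hζ))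
  -- `m` is a `p`-th power up to sign
  obtain ⟨r, hr⟩ : ∃ r : ℤ, m.natAbs = r.natAbs ^ p := by
    refine ⟨((∏ q ∈ m.natAbs.factorization.support, q ^ (m.natAbs.factorization q / p) : ℕ) : ℤ), ?_⟩
    rw [Int.natAbs_natCast, ← Finset.prod_pow]
    conv_lhs => rw [← Nat.prod_factorization_pow_eq_self (Int.natAbs_ne_zero.mpr hm)]
    refine Finset.prod_congr rfl fun q hq => ?_
    have hqp : q.Prime := Nat.prime_of_mem_primeFactors (Nat.support_factorization _ ▸ hq)
    rw [← pow_mul, Nat.div_mul_cancel]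
    rw [Nat.factorization_def _ hqp]
    exact hdvd q hqp
  by_cases hp2 : p = 2
  · subst hp2
    have hc : act complexConjugation b₂ = b₂ := by
      rw [hω]
      have h1 : ExtCitation.cycloExp 2 complexConjugation = 1 := by
        have h2 := cycloExp_apply (p := 2) complexConjugation hζ.pow_eq_one
        have hlt : ExtCitation.cycloExp 2 complexConjugation < 2 := ZMod.val_lt _
        by_contra hne
        rw [hζ.eq_neg_one_of_two_right, map_neg, map_one,
          show ExtCitation.cycloExp 2 complexConjugation = 0 by omega, pow_zero] at h2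
        norm_num at h2
      rw [h1, one_smul]
    rw [hc, sub_self] at h₂
    have hreal : complexConjugation α = α := by rw [hgal, h₂, hψ1, one_mul]
    have hpos : 0 < m := by
      refine lt_of_le_of_ne ?_ (Ne.symm hm)
      have h1 : starRingEnd ℂ (complexEmbedding α) = complexEmbedding α := by
        rw [← complexEmbedding_complexConjugation, hreal]
      obtain ⟨x, hx⟩ := Complex.conj_eq_iff_real.mp h1
      have h2 := congrArg complexEmbedding hαm
      rw [map_pow, map_intCast, hx, ← Complex.ofReal_pow, ← Complex.ofReal_intCast,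
        Complex.ofReal_inj] at h2
      exact_mod_cast h2 ▸ sq_nonneg x
    refine ⟨0, fun σ => ?_⟩
    rw [map_zero, sub_zero]
    refine hfixiff σ ?_
    have hm2 : m = r ^ 2 := by
      have h3 := congrArg (Nat.cast : ℕ → ℤ) hr
      rw [Nat.cast_pow, Int.natCast_natAbs, Int.natCast_natAbs, abs_of_pos hpos, sq_abs] at h3
      exact h3
    rcases sq_eq_sq_iff_eq_or_eq_neg.mp
      (hαm.trans (by rw [hm2, Int.cast_pow]) : α ^ 2 = (r : Qbar) ^ 2) with h | h <;>
      simp [h]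
  obtain ⟨r', hr'⟩ : ∃ r' : ℤ, m = r' ^ p := by
    rcases Int.natAbs_eq m with h | h
    · exact ⟨(r.natAbs : ℤ), h.trans (by rw [hr, Nat.cast_pow])⟩
    · refine ⟨-(r.natAbs : ℤ), h.trans ?_⟩
      rw [Odd.neg_pow (hp.out.odd_of_ne_two hp2), hr, Nat.cast_pow]
  have hr0 : r' ≠ 0 := by rintro rfl; exact hm (by rw [hr', zero_pow hp.out.ne_zero])
  obtain ⟨i, hip, hi⟩ := hζ.eq_pow_of_pow_eq_one (ξ := α / (r' : Qbar))
    (by rw [div_pow, hαm, hr', Int.cast_pow, div_self (pow_ne_zero _ (Int.cast_ne_zero.mpr hr0))])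
  obtain ⟨b, hb⟩ : ∃ b : W, ψ b = ζ ^ i := by
    have : Nontrivial W := Finite.one_lt_card_iff_nontrivial.mp (hW ▸ hp.out.one_lt)
    obtain ⟨w, hw⟩ := exists_ne (0 : W)
    obtain ⟨j, hj⟩ := hψp w
    have hj1 : ψ w ≠ 1 := fun h => hw (hψi (h.trans hψ1.symm))
    have hjc : j.Coprime p := (hp.out.coprime_iff_not_dvd.mpr fun h => hj1 (by
      obtain ⟨c, rfl⟩ := h
      rw [hj, pow_mul, hζ.pow_eq_one, one_pow])).symm
    obtain ⟨l, -, hl⟩ := (hζ.pow_of_coprime j hjc).eq_pow_of_pow_eq_one (ξ := ζ ^ i)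
      (by rw [← pow_mul, mul_comm, pow_mul, hζ.pow_eq_one, one_pow])
    refine ⟨l • w, ?_⟩
    rw [← hl, ← hj]
    clear hl
    induction l with
    | zero => simpa using hψ1
    | succ l ih => rw [succ_nsmul, hψ, ih, pow_succ]
  have hαb : α = ψ b * (r' : Qbar) := by
    rw [hb, hi, div_mul_cancel₀ _ (Int.cast_ne_zero.mpr hr0)]
  refine ⟨b, fun σ => eq_sub_of_add_eq (hψi ?_)⟩
  rw [hψ, ← hψσ]
  have h := hgal σ
  rw [hαb, map_mul, map_intCast, ← mul_assoc] at h
  exact ((mul_left_inj' (Int.cast_ne_zero.mpr hr0)).mp h).symm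

/-- The Selmer bound for a constituent of order `p`. -/
theorem selBound_of_card_prime (hN : N.Prime) (hpN : p ≠ N)
    {AN : ValuationSubring Qbar} (hAN : AN.LiesOverPrime N) (hW : Nat.card W = p)
    (h : (∀ σ x, act σ x = x) ∨ ∀ σ x, act σ x = ExtCitation.cycloExp p σ • x) :
    SelBound n p N (AN.inertiaSubgroupIn ℚ : Set GalQ) {complexConjugation} act := by
  set S := selTriples n p N (AN.inertiaSubgroupIn ℚ : Set GalQ) {complexConjugation} act
  suffices hinj : Set.InjOn (fun t : (GalQ → W) × W × W => (t.2.1, t.2.2)) S by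
    have hfin : S.Finite := Set.Finite.of_finite_image (Set.toFinite _) hinj
    refine ⟨hfin, ?_⟩
    rw [← Nat.card_image_of_injOn hinj]
    calc Nat.card ((fun t : (GalQ → W) × W × W => (t.2.1, t.2.2)) '' S)
        ≤ Nat.card (W × W) := Nat.card_le_card_of_injective _ Subtype.val_injective
      _ = Nat.card W ^ 2 := by rw [Nat.card_prod, sq]
  rintro ⟨ξ, b₁, b₂⟩ ⟨hξ, h₁, h₂⟩ ⟨η, c₁, c₂⟩ ⟨hη, k₁, k₂⟩ heq
  obtain ⟨rfl, rfl⟩ := Prod.mk.inj heq
  suffices hkey : ∀ (ξ : GalQ → W), SelCond n p N act ξ →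
      (∀ σ ∈ AN.inertiaSubgroupIn ℚ, ξ σ = act σ b₁ - b₁) →
      (ξ complexConjugation = act complexConjugation b₂ - b₂) →
      ∀ σ, ξ σ = act σ b₂ - b₂ by
    refine Prod.ext (funext fun σ => ?_) rfl
    dsimp only at *
    rw [hkey ξ hξ h₁ (h₂ _ rfl) σ, hkey η hη k₁ (k₂ _ rfl) σ]
  intro ξ hξ h₁ h₂ σ
  by_cases htriv : ∀ σ x, act σ x = x
  · rw [htriv, sub_self]
    by_cases hp2 : p = 2
    · subst hp2
      obtain ⟨b, hb⟩ := exists_eq_coboundary hN hpN hAN hW (fun σ x => by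
        rw [htriv]
        have h1 : ExtCitation.cycloExp 2 σ = 1 := by
          have hlt : ExtCitation.cycloExp 2 σ < 2 := ZMod.val_lt _
          obtain ⟨ζ, hζ⟩ := qbar_exists_primitiveRoot 2 Nat.prime_two
          have h2 := cycloExp_apply (p := 2) σ hζ.pow_eq_one
          by_contra hne
          rw [hζ.eq_neg_one_of_two_right, map_neg, map_one,
            show ExtCitation.cycloExp 2 σ = 0 by omega, pow_zero] at h2
          norm_num at h2
        rw [h1, one_smul]) hξ h₁ h₂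
      rw [hb, htriv, sub_self]
    · exact congrFun (cocycle_eq_zero_of_trivial hp2 hN hAN hW htriv hξ h₁) σ
  have hω := h.resolve_left htriv
  obtain ⟨b, hb⟩ := exists_eq_coboundary hN hpN hAN hW hω hξ h₁ h₂
  suffices hbb : b = b₂ by rw [hb, hbb]
  have hp2 : p ≠ 2 := by
    rintro rfl
    refine htriv fun σ x => ?_
    have h1 : ExtCitation.cycloExp 2 σ = 1 := by
      have hlt : ExtCitation.cycloExp 2 σ < 2 := ZMod.val_lt _
      obtain ⟨ζ, hζ⟩ := qbar_exists_primitiveRoot 2 Nat.prime_two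
      have h2 := cycloExp_apply (p := 2) σ hζ.pow_eq_one
      by_contra hne
      rw [hζ.eq_neg_one_of_two_right, map_neg, map_one,
        show ExtCitation.cycloExp 2 σ = 0 by omega, pow_zero] at h2
      norm_num at h2
    rw [hω, h1, one_smul]
  set c := complexConjugation
  have hcc : act c (act c (b - b₂)) = b - b₂ := by
    have h5 : act c (act c (b - b₂)) = act (c * c) (b - b₂) := by rw [map_mul]; rfl
    rw [h5, complexConjugation_mul_self, map_one]; rfl
  have hfix : act c (b - b₂) = b - b₂ := by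
    rw [map_sub]
    have h3 := (hb c).symm.trans h₂
    exact sub_eq_sub_iff_sub_eq_sub.mp h3
  have hdouble : 2 • (b - b₂) = 0 := by
    have hneg : act c (b - b₂) = -(b - b₂) := by
      obtain ⟨ζ, hζ⟩ := qbar_exists_primitiveRoot p hp.out
      have h4 := cycloExp_apply c hζ.pow_eq_one
      have hd : p ∣ ExtCitation.cycloExp p c + 1 := by
        refine (hζ.pow_eq_one_iff_dvd _).mp ?_
        rw [pow_succ, ← h4]
        have h5 : complexEmbedding (c ζ) = starRingEnd ℂ (complexEmbedding ζ) :=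
          complexEmbedding_complexConjugation ζ
        apply complexEmbedding.injective
        show complexEmbedding (c ζ * ζ) = complexEmbedding 1
        rw [map_mul, h5, ← Complex.normSq_eq_conj_mul_self, map_one]
        have h6 : ‖complexEmbedding ζ‖ = 1 :=
          (hζ.map_of_injective complexEmbedding.injective).norm'_eq_one hp.out.ne_zero
        rw [Complex.normSq_eq_norm_sq, h6]
        norm_num
      rw [hω, eq_neg_iff_add_eq_zero, ← succ_nsmul]
      obtain ⟨d, hd⟩ := hd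
      rw [hd, mul_nsmul, nsmul_eq_zero_of_card hW, nsmul_zero]
    rw [two_nsmul]
    nth_rw 1 [← hfix]
    rw [hneg, neg_add_cancel]
  by_contra hne
  have h6 : addOrderOf (b - b₂) = p := addOrderOf_eq_prime (nsmul_eq_zero_of_card hW _)
    (sub_ne_zero.mpr hne)
  exact hp2 ((Nat.prime_dvd_prime_iff_eq hp.out Nat.prime_two).mp
    (h6 ▸ addOrderOf_dvd_iff_nsmul_eq_zero.mpr hdouble))

end FLTA.Mazur

end
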