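import Fermat.Agent.Mazur.EisModule
import Fermat.Agent.RT.HeckeLocalIdem
import Fermat.Agent.Density.Frobenius
import Fermat.Agent.Galois.Cyclotomic
import Fermat.Agent.EllTate.Det

/-!
# The Eisenstein idempotent of the Tate module

`e` is the idempotent of the residual system `T_r ↦ 1 + r` in the algebra generated by the away
Hecke matrices.  Filtering the `e`-part modulo `p ^ k` by the powers of the Eisenstein ideal, the
Frobenius relation and density give `(σ - 1) (σ - χ σ) = 0` on the graded pieces.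
-/

set_option autoImplicit false
set_option synthInstance.maxHeartbeats 400000
set_option linter.style.haveILetI false
set_option linter.unusedSectionVars false

noncomputable section

open ModularCurve IsLocalRing
open scoped Matrix

namespace FLTA.Mazur

open FLTA.GaloisReps FLTA.RT

variable {N : ℕ} [NeZero N] {p : ℕ} [Fact p.Prime] (D : TateData N p) (hN : N.Prime)

namespace EisConstr

/-- The relation `(M - 1) (M - c) = 0` on graded pieces is inherited by powers. -/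
theorem pow_rel {R ι : Type*} [CommRing R] [Fintype ι] [DecidableEq ι] (M : Matrix ι ι R) (c n : ℕ)
    {V W : Submodule R (ι → R)} (hW : ∀ x ∈ W, M *ᵥ x ∈ W)
    (hrel : ∀ x ∈ V, (M - 1) *ᵥ ((M - (c : Matrix ι ι R)) *ᵥ x) ∈ W) {x : ι → R} (hx : x ∈ V) :
    (M ^ n - 1) *ᵥ ((M ^ n - ((c ^ n : ℕ) : Matrix ι ι R)) *ᵥ x) ∈ W := by
  have hpow : ∀ m, ∀ x ∈ W, M ^ m *ᵥ x ∈ W := by
    intro m
    induction m with
    | zero => intro x hx; rwa [pow_zero, Matrix.one_mulVec]
    | succ m ih =>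
      intro x hx
      rw [pow_succ, ← Matrix.mulVec_mulVec]
      exact ih _ (hW x hx)
  have hG : ∀ G : Polynomial R, ∀ x ∈ W, Polynomial.aeval M G *ᵥ x ∈ W := by
    intro G
    induction G using Polynomial.induction_on' with
    | add f g hf hg =>
      intro x hx
      rw [map_add, Matrix.add_mulVec]
      exact add_mem (hf x hx) (hg x hx)
    | monomial m b =>
      intro x hx
      rw [Polynomial.aeval_monomial, ← Algebra.smul_def, Matrix.smul_mulVec]
      exact Submodule.smul_mem _ _ (hpow m x hx)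
  obtain ⟨G₁, hG₁⟩ : (Polynomial.X - 1 : Polynomial R) ∣ Polynomial.X ^ n - 1 :=
    sub_one_dvd_pow_sub_one _ n
  obtain ⟨G₂, hG₂⟩ : (Polynomial.X - (c : Polynomial R)) ∣
      Polynomial.X ^ n - (c : Polynomial R) ^ n :=
    sub_dvd_pow_sub_pow _ _ n
  have h := congrArg (Polynomial.aeval M)
    (show (G₁ * G₂) * ((Polynomial.X - 1) * (Polynomial.X - (c : Polynomial R))) =
      (Polynomial.X ^ n - 1) * (Polynomial.X ^ n - ((c ^ n : ℕ) : Polynomial R)) by
        rw [Nat.cast_pow, hG₁, hG₂]; ring)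
  simp only [map_mul, map_sub, map_pow, map_one, map_natCast, Polynomial.aeval_X] at h
  rw [Matrix.mulVec_mulVec, ← h, ← map_mul, ← Matrix.mulVec_mulVec, ← Matrix.mulVec_mulVec]
  exact hG _ _ (hrel x hx)

/-- The primes different from `N`. -/
abbrev AwayPrime (N : ℕ) : Type := {r : Nat.Primes // (r : ℕ) ≠ N}

include hN in
theorem not_dvd_of_away (r : AwayPrime N) : ¬ (r.1 : ℕ) ∣ N := fun h =>
  r.2 ((Nat.prime_dvd_prime_iff_eq r.1.2 hN).mp h)

/-- The away Hecke matrices. -/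
def opMat (r : AwayPrime N) : Matrix (Fin D.r) (Fin D.r) ℤ_[p] :=
  (D.hecke (CuspForm.heckeAlgebra.T r.1.2 (not_dvd_of_away hN r)
    (Set.notMem_empty (r.1 : ℕ)))).map (Int.cast : ℤ → ℤ_[p])

theorem opMat_commute (r s : AwayPrime N) : Commute (opMat D hN r) (opMat D hN s) := by
  have h := (Commute.all (CuspForm.heckeAlgebra.T r.1.2 (not_dvd_of_away hN r)
    (Set.notMem_empty (r.1 : ℕ)) : FullHecke N) (CuspForm.heckeAlgebra.T s.1.2
      (not_dvd_of_away hN s) (Set.notMem_empty (s.1 : ℕ)))).map D.hecke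
  exact h.map (Int.castRingHom ℤ_[p]).mapMatrix

/-- The Eisenstein system. -/
def eisVal (r : AwayPrime N) : ℤ_[p] := 1 + ((r.1 : ℕ) : ℤ_[p])

theorem eisVal_def (r : AwayPrime N) : eisVal (p := p) r = 1 + ((r.1 : ℕ) : ℤ_[p]) := rfl

/-- Reduction of matrices modulo `p ^ k`. -/
def redMat (k : ℕ) :
    Matrix (Fin D.r) (Fin D.r) ℤ_[p] →+* Matrix (Fin D.r) (Fin D.r) (ZMod (p ^ k)) :=
  (PadicInt.toZModPow k).mapMatrix

theorem redMat_algebraMap (k : ℕ) (c : ℤ_[p]) :
    redMat D k (algebraMap ℤ_[p] _ c) = algebraMap (ZMod (p ^ k)) _ (PadicInt.toZModPow k c) := by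
  ext i j
  simp only [redMat, RingHom.mapMatrix_apply, Matrix.map_apply, Matrix.algebraMap_matrix_apply]
  split_ifs <;> simp

theorem redMat_algebraMap_mulVec (k : ℕ) (c : ℤ_[p]) (v : Fin D.r → ZMod (p ^ k)) :
    redMat D k (algebraMap ℤ_[p] _ c) *ᵥ v = PadicInt.toZModPow k c • v := by
  rw [redMat_algebraMap, Algebra.algebraMap_eq_smul_one, Matrix.smul_mulVec, Matrix.one_mulVec]

theorem redMat_opMat (k : ℕ) (r : AwayPrime N) :
    redMat D k (opMat D hN r) = (D.hecke (CuspForm.heckeAlgebra.T r.1.2 (not_dvd_of_away hN r)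
      (Set.notMem_empty (r.1 : ℕ)))).map (Int.cast : ℤ → ZMod (p ^ k)) := by
  ext i j
  simp [redMat, opMat]

set_option maxHeartbeats 1000000 in
/-- Elements of the algebra act through away Hecke operators. -/
theorem exists_away_of_mem (hH : HeckeCompat D hN) (k : ℕ) {z : Matrix (Fin D.r) (Fin D.r) ℤ_[p]}
    (hz : z ∈ opAlg ℤ_[p] (opMat D hN)) :
    ∃ t ∈ awayHecke N, ∀ v : Fin D.r → ZMod (p ^ k),
      t (D.torsionEquiv k v : JZero N) = (D.torsionEquiv k (redMat D k z *ᵥ v) : JZero N) := by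
  induction hz using Algebra.adjoin_induction with
  | mem x hx =>
    obtain ⟨r, rfl⟩ := hx
    refine ⟨heckeOperatorBar N r.1, Subring.subset_closure ⟨r.1, r.2, rfl⟩, fun v => ?_⟩
    rw [redMat_opMat]
    exact hH r.1 r.2 k v
  | algebraMap c =>
    haveI : NeZero (p ^ k) := ⟨pow_ne_zero _ (Fact.out : p.Prime).ne_zero⟩
    refine ⟨((PadicInt.toZModPow k c).val : Module.End ℤ (JZero N)), natCast_mem _ _, fun v => ?_⟩
    rw [redMat_algebraMap_mulVec]
    have h : PadicInt.toZModPow k c • v = (PadicInt.toZModPow k c).val • v := by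
      conv_lhs => rw [← ZMod.natCast_zmod_val (PadicInt.toZModPow k c)]
      rw [Nat.cast_smul_eq_nsmul]
    rw [h, map_nsmul, Module.End.natCast_apply]
    rfl
  | add x y _ _ hx hy =>
    obtain ⟨t, ht, et⟩ := hx
    obtain ⟨u, hu, eu⟩ := hy
    refine ⟨t + u, add_mem ht hu, fun v => ?_⟩
    rw [LinearMap.add_apply, et, eu, map_add, Matrix.add_mulVec, map_add, Submodule.coe_add]
  | mul x y _ _ hx hy =>
    obtain ⟨t, ht, et⟩ := hx
    obtain ⟨u, hu, eu⟩ := hy
    refine ⟨t * u, mul_mem ht hu, fun v => ?_⟩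
    rw [Module.End.mul_apply, eu, et, map_mul, Matrix.mulVec_mulVec]

theorem opMat_def (r : AwayPrime N) :
    opMat D hN r = (D.hecke (CuspForm.heckeAlgebra.T r.1.2 (not_dvd_of_away hN r)
      (Set.notMem_empty (r.1 : ℕ)))).map (Int.cast : ℤ → ℤ_[p]) := rfl

theorem rho_commute (τ : GalQ) : ∀ y ∈ opAlg ℤ_[p] (opMat D hN), Commute (D.rho τ) y := fun _ hy =>
  Algebra.commute_of_mem_adjoin_of_forall_mem_commute hy fun b hb => by
    obtain ⟨r, rfl⟩ := hb
    exact D.commute τ _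

theorem opMat_mem_heckeSpan (r : AwayPrime N) : opMat D hN r ∈ heckeSpan D :=
  Algebra.subset_adjoin ⟨_, rfl⟩

theorem torsionEquiv_coe_nsmul (k n : ℕ) (v : Fin D.r → ZMod (p ^ k)) :
    (D.torsionEquiv k (n • v) : JZero N) = n • (D.torsionEquiv k v : JZero N) :=
  map_nsmul ((Submodule.torsionBy ℤ (JZero N) ((p : ℤ) ^ k)).subtype.toAddMonoidHom.comp
    (D.torsionEquiv k).toAddMonoidHom) n v

attribute [local irreducible] opMat eisVal

theorem eisIdem_fix {k : ℕ} {v : Fin D.r → ZMod (p ^ k)}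
    (hpv : (p : ZMod (p ^ k)) • v = 0)
    (hT : ∀ r, redMat D k (opMat D hN r) *ᵥ v = PadicInt.toZModPow k (eisVal (p := p) r) • v) :
    redMat D k (localIdem (opMat D hN) (eisVal (p := p))) *ᵥ v = v := by
  set T := opMat D hN
  set a : AwayPrime N → ℤ_[p] := eisVal
  have hcomm : ∀ s t, Commute (T s) (T t) := opMat_commute D hN
  letI := opAlgCommRing (R := ℤ_[p]) hcomm
  have hkill : ∀ y ∈ eigIdeal T a, redMat D k (y : Matrix (Fin D.r) (Fin D.r) ℤ_[p]) *ᵥ v = 0 := by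
    intro y hy
    induction hy using Submodule.span_induction with
    | mem y hy =>
      rcases hy with ⟨r, rfl⟩ | ⟨c, hc, rfl⟩
      · rw [AddSubgroupClass.coe_sub, opGen_coe, Subalgebra.coe_algebraMap, map_sub,
          Matrix.sub_mulVec, hT, redMat_algebraMap_mulVec, sub_self]
      · rw [Subalgebra.coe_algebraMap, redMat_algebraMap_mulVec]
        rw [PadicInt.maximalIdeal_eq_span_p] at hc
        obtain ⟨d, rfl⟩ := Ideal.mem_span_singleton.mp hc
        rw [map_mul, map_natCast, mul_comm, mul_smul, hpv, smul_zero]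
    | zero => simp
    | add x y _ _ hx hy => rw [Subalgebra.coe_add, map_add, Matrix.add_mulVec, hx, hy, add_zero]
    | smul c x _ hx =>
      rw [smul_eq_mul, Subalgebra.coe_mul, map_mul, ← Matrix.mulVec_mulVec, hx, Matrix.mulVec_zero]
  have hid := isLocalIdem_localIdem hcomm a
  by_cases htop : eigIdeal T a = ⊤
  · have h1 := hkill 1 (by rw [htop]; exact Submodule.mem_top)
    rw [Subalgebra.coe_one, map_one, Matrix.one_mulVec] at h1
    rw [h1, Matrix.mulVec_zero]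
  obtain ⟨P, hP, hle⟩ := Ideal.exists_le_maximal _ htop
  obtain ⟨c, hc⟩ := exists_sub_mem_eigIdeal hcomm a (⟨_, hid.mem⟩ : opAlg ℤ_[p] T)
  have hev : redMat D k (localIdem T a) *ᵥ v = PadicInt.toZModPow k c • v := by
    have h := hkill _ hc
    rwa [AddSubgroupClass.coe_sub, Subalgebra.coe_algebraMap, map_sub, Matrix.sub_mulVec,
      redMat_algebraMap_mulVec, sub_eq_zero] at h
  have hcu : IsUnit c := by
    by_contra hnu
    refine (fun h => (hid.mem_iff P hP).mp h hle) ?_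
    have h := add_mem (hle hc) (hle (algebraMap_mem_eigIdeal T a
      ((IsLocalRing.mem_maximalIdeal c).mpr hnu)))
    rwa [sub_add_cancel] at h
  have hsq : PadicInt.toZModPow k c • (PadicInt.toZModPow k c • v) = PadicInt.toZModPow k c • v := by
    rw [← hev]
    nth_rw 2 [← hid.idem.eq]
    rw [map_mul, ← Matrix.mulVec_mulVec, hev, Matrix.mulVec_smul, hev]
  rw [hev]
  obtain ⟨d, hd⟩ := (hcu.map (PadicInt.toZModPow k)).exists_left_inv
  have h := congrArg (d • ·) hsq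
  simpa [smul_smul, ← mul_assoc, hd] using h

/-- The stable filtration of the Eisenstein part modulo `p ^ k`. -/
def eisFil (k i : ℕ) : Submodule (ZMod (p ^ k)) (Fin D.r → ZMod (p ^ k)) :=
  letI := opAlgCommRing (R := ℤ_[p]) (opMat_commute D hN)
  LinearMap.ker ((1 - redMat D k (localIdem (opMat D hN) (eisVal (p := p)))).mulVecLin) ⊓
    ⨅ y : ↥((eigIdeal (opMat D hN) (eisVal (p := p))) ^ i),
      LinearMap.ker (redMat D k ((y : opAlg ℤ_[p] (opMat D hN)) :
        Matrix (Fin D.r) (Fin D.r) ℤ_[p])).mulVecLin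

theorem mem_eisFil {k i : ℕ} {v : Fin D.r → ZMod (p ^ k)} :
    letI := opAlgCommRing (R := ℤ_[p]) (opMat_commute D hN)
    v ∈ eisFil D hN k i ↔
      redMat D k (localIdem (opMat D hN) (eisVal (p := p))) *ᵥ v = v ∧
        ∀ y ∈ (eigIdeal (opMat D hN) (eisVal (p := p))) ^ i,
          redMat D k ((y : opAlg ℤ_[p] (opMat D hN)) : Matrix (Fin D.r) (Fin D.r) ℤ_[p]) *ᵥ v = 0 := by
  letI := opAlgCommRing (R := ℤ_[p]) (opMat_commute D hN)
  simp [eisFil, sub_eq_zero, eq_comm (a := v)]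

/-- Matrices commuting with the algebra preserve the filtration. -/
theorem mulVec_mem_eisFil {k i : ℕ} {M : Matrix (Fin D.r) (Fin D.r) ℤ_[p]}
    (hM : ∀ y ∈ opAlg ℤ_[p] (opMat D hN), Commute M y) {v : Fin D.r → ZMod (p ^ k)}
    (hv : v ∈ eisFil D hN k i) : redMat D k M *ᵥ v ∈ eisFil D hN k i := by
  letI := opAlgCommRing (R := ℤ_[p]) (opMat_commute D hN)
  obtain ⟨h1, h2⟩ := (mem_eisFil D hN).mp hv
  refine (mem_eisFil D hN).mpr ⟨?_, fun y hy => ?_⟩
  · rw [Matrix.mulVec_mulVec, ← map_mul,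
      ← (hM _ (localIdem_mem (opMat_commute D hN) _)).eq, map_mul, ← Matrix.mulVec_mulVec, h1]
  · rw [Matrix.mulVec_mulVec, ← map_mul, ← (hM _ y.2).eq, map_mul, ← Matrix.mulVec_mulVec,
      h2 y hy, Matrix.mulVec_zero]

/-- Elements of the Eisenstein ideal lower the filtration. -/
theorem eig_mulVec_mem_eisFil {k i : ℕ} {z : opAlg ℤ_[p] (opMat D hN)}
    (hz : z ∈ eigIdeal (opMat D hN) (eisVal (p := p))) {v : Fin D.r → ZMod (p ^ k)}
    (hv : v ∈ eisFil D hN k (i + 1)) :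
    redMat D k (z : Matrix (Fin D.r) (Fin D.r) ℤ_[p]) *ᵥ v ∈ eisFil D hN k i := by
  letI := opAlgCommRing (R := ℤ_[p]) (opMat_commute D hN)
  obtain ⟨h1, h2⟩ := (mem_eisFil D hN).mp hv
  refine (mem_eisFil D hN).mpr ⟨?_, fun y hy => ?_⟩
  · rw [Matrix.mulVec_mulVec, ← map_mul]
    have e : localIdem (opMat D hN) (eisVal (p := p)) * (z : Matrix (Fin D.r) (Fin D.r) ℤ_[p]) =
        z * localIdem (opMat D hN) (eisVal (p := p)) :=
      congrArg Subtype.val (mul_comm (⟨_, localIdem_mem (opMat_commute D hN) _⟩ :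
        opAlg ℤ_[p] (opMat D hN)) z)
    rw [e, map_mul, ← Matrix.mulVec_mulVec, h1]
  · rw [Matrix.mulVec_mulVec, ← map_mul, ← Subalgebra.coe_mul]
    exact h2 _ (by rw [pow_succ]; exact Ideal.mul_mem_mul hy hz)

/-- The filtration exhausts the Eisenstein part. -/
theorem exists_eisFil_top (k : ℕ) :
    ∃ m : ℕ, ∀ v : Fin D.r → ZMod (p ^ k),
      redMat D k (localIdem (opMat D hN) (eisVal (p := p))) *ᵥ v = v → v ∈ eisFil D hN k m := by
  set T := opMat D hN
  set a : AwayPrime N → ℤ_[p] := eisVal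
  have hcomm : ∀ s t, Commute (T s) (T t) := opMat_commute D hN
  letI := opAlgCommRing (R := ℤ_[p]) hcomm
  have hid := isLocalIdem_localIdem hcomm a
  set e : opAlg ℤ_[p] T := ⟨localIdem T a, hid.mem⟩ with he
  let f : opAlg ℤ_[p] T →+* Matrix (Fin D.r) (Fin D.r) (ZMod (p ^ k)) :=
    (redMat D k).comp (opAlg ℤ_[p] T).val.toRingHom
  haveI : NeZero (p ^ k) := ⟨pow_ne_zero _ (Fact.out : p.Prime).ne_zero⟩
  haveI : Finite (opAlg ℤ_[p] T ⧸ RingHom.ker f) :=
    Finite.of_injective _ (RingHom.kerLift_injective f)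
  obtain ⟨n, hn⟩ := IsNoetherianRing.isNilpotent_nilradical (opAlg ℤ_[p] T ⧸ RingHom.ker f)
  refine ⟨n + 1, fun v hv => (mem_eisFil D hN).mpr ⟨hv, fun y hy => ?_⟩⟩
  have hJ : (Ideal.span {e} * eigIdeal T a).map (Ideal.Quotient.mk (RingHom.ker f)) ≤
      nilradical (opAlg ℤ_[p] T ⧸ RingHom.ker f) := by
    rw [nilradical_eq_sInf]
    refine le_sInf fun Q hQ => Ideal.map_le_iff_le_comap.mpr ?_
    haveI : Q.IsPrime := hQ
    haveI : Q.IsMaximal := inferInstance
    have hmax : (Q.comap (Ideal.Quotient.mk (RingHom.ker f))).IsMaximal :=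
      Ideal.comap_isMaximal_of_surjective _ Ideal.Quotient.mk_surjective
    by_cases h : eigIdeal T a ≤ Q.comap (Ideal.Quotient.mk (RingHom.ker f))
    · exact Ideal.mul_le_right.trans h
    · exact Ideal.mul_le_left.trans ((Ideal.span_singleton_le_iff_mem _).mpr
        ((hid.mem_iff _ hmax).mpr h))
  have hey : e ^ (n + 1) * y ∈ (Ideal.span {e} * eigIdeal T a) ^ (n + 1) := by
    rw [mul_pow]
    exact Ideal.mul_mem_mul (Ideal.pow_mem_pow (Ideal.mem_span_singleton_self e) _) hy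
  have hzero : e ^ (n + 1) * y ∈ RingHom.ker f := by
    have h := Ideal.mem_map_of_mem (Ideal.Quotient.mk (RingHom.ker f)) hey
    rw [Ideal.map_pow] at h
    have h' := Ideal.pow_le_pow_right (Nat.le_succ n) (Ideal.pow_right_mono hJ (n + 1) h)
    rw [hn] at h'
    exact Ideal.Quotient.eq_zero_iff_mem.mp h'
  have hpow : ∀ j, redMat D k ((e ^ j : opAlg ℤ_[p] T) : Matrix (Fin D.r) (Fin D.r) ℤ_[p]) *ᵥ v = v := by
    intro j
    induction j with
    | zero => rw [pow_zero, Subalgebra.coe_one, map_one, Matrix.one_mulVec]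
    | succ j ih => rw [pow_succ, Subalgebra.coe_mul, map_mul, ← Matrix.mulVec_mulVec, hv, ih]
  rw [← hpow (n + 1), Matrix.mulVec_mulVec, ← map_mul, ← Subalgebra.coe_mul, mul_comm]
  show f (e ^ (n + 1) * y) *ᵥ v = 0
  rw [RingHom.mem_ker.mp hzero, Matrix.zero_mulVec]

theorem smul_mem_eisFil {c : ℤ_[p]} (hc : c ∈ maximalIdeal ℤ_[p]) {k j : ℕ}
    {x : Fin D.r → ZMod (p ^ k)} (hx : x ∈ eisFil D hN k (j + 1)) :
    PadicInt.toZModPow k c • x ∈ eisFil D hN k j := by
  letI := opAlgCommRing (R := ℤ_[p]) (opMat_commute D hN)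
  have h := eig_mulVec_mem_eisFil D hN
    (algebraMap_mem_eigIdeal (opMat D hN) (eisVal (p := p)) hc) hx
  rwa [Subalgebra.coe_algebraMap, redMat_algebraMap_mulVec] at h

theorem nsmul_sub_mem_eisFil {c d : ℕ} (h : (c : ZMod p) = d) {k j : ℕ}
    {x : Fin D.r → ZMod (p ^ k)} (hx : x ∈ eisFil D hN k (j + 1)) :
    c • x - d • x ∈ eisFil D hN k j := by
  have hmem : ((c : ℤ_[p]) - d) ∈ maximalIdeal ℤ_[p] := by
    rw [← PadicInt.ker_toZMod, RingHom.mem_ker, map_sub, map_natCast, map_natCast, h, sub_self]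
  have h1 := smul_mem_eisFil D hN hmem hx
  rwa [map_sub, map_natCast, map_natCast, sub_smul, Nat.cast_smul_eq_nsmul,
    Nat.cast_smul_eq_nsmul] at h1

theorem heckeT_sub_mem_eisFil (r : AwayPrime N) {k j : ℕ} {x : Fin D.r → ZMod (p ^ k)}
    (hx : x ∈ eisFil D hN k (j + 1)) :
    redMat D k (opMat D hN r) *ᵥ x - (1 + (r.1 : ℕ)) • x ∈ eisFil D hN k j := by
  letI := opAlgCommRing (R := ℤ_[p]) (opMat_commute D hN)
  have h := eig_mulVec_mem_eisFil D hN (opGen_sub_mem (opMat D hN) (eisVal (p := p)) r) hx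
  rw [AddSubgroupClass.coe_sub, opGen_coe, Subalgebra.coe_algebraMap, map_sub,
    Matrix.sub_mulVec, redMat_algebraMap_mulVec, eisVal_def, map_add, map_one, map_natCast] at h
  rwa [← Nat.cast_smul_eq_nsmul (ZMod (p ^ k)), Nat.cast_add, Nat.cast_one]

/-- `(M - 1) (M - u)` lowers the filtration. -/
def EisRel (k : ℕ) (M : Matrix (Fin D.r) (Fin D.r) (ZMod (p ^ k))) (u : ZMod p) : Prop :=
  (∀ j, ∀ x ∈ eisFil D hN k j, M *ᵥ x ∈ eisFil D hN k j) ∧
    ∀ c : ℕ, (c : ZMod p) = u → ∀ j, ∀ x ∈ eisFil D hN k (j + 1),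
      (M - 1) *ᵥ ((M - (c : Matrix (Fin D.r) (Fin D.r) (ZMod (p ^ k)))) *ᵥ x) ∈ eisFil D hN k j

theorem eisRel_pow {k : ℕ} {M : Matrix (Fin D.r) (Fin D.r) (ZMod (p ^ k))} {u : ZMod p}
    (h : EisRel D hN k M u) (n : ℕ) : EisRel D hN k (M ^ n) (u ^ n) := by
  haveI : NeZero p := ⟨(Fact.out : p.Prime).ne_zero⟩
  obtain ⟨hM, hrel⟩ := h
  have hpowM : ∀ m, ∀ j, ∀ x ∈ eisFil D hN k j, M ^ m *ᵥ x ∈ eisFil D hN k j := by
    intro m
    induction m with
    | zero => intro j x hx; rwa [pow_zero, Matrix.one_mulVec]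
    | succ m ih =>
      intro j x hx
      rw [pow_succ, ← Matrix.mulVec_mulVec]
      exact ih j _ (hM j x hx)
  refine ⟨hpowM n, fun c hc j x hx => ?_⟩
  have hu : ((u.val : ℕ) : ZMod p) = u := ZMod.natCast_zmod_val u
  have h1 := pow_rel M u.val n (hM j) (hrel u.val hu j) hx
  have h2 : (c : ZMod p) = ((u.val ^ n : ℕ) : ZMod p) := by
    rw [Nat.cast_pow, hu]
    exact hc
  have h3 := nsmul_sub_mem_eisFil D hN h2 hx
  rw [← sub_add_cancel ((M ^ n - (c : Matrix (Fin D.r) (Fin D.r) (ZMod (p ^ k)))) *ᵥ x)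
    ((M ^ n - ((u.val ^ n : ℕ) : Matrix (Fin D.r) (Fin D.r) (ZMod (p ^ k)))) *ᵥ x),
    Matrix.mulVec_add]
  refine add_mem ?_ h1
  have e : (M ^ n - (c : Matrix (Fin D.r) (Fin D.r) (ZMod (p ^ k)))) *ᵥ x -
      (M ^ n - ((u.val ^ n : ℕ) : Matrix (Fin D.r) (Fin D.r) (ZMod (p ^ k)))) *ᵥ x =
      -(c • x - (u.val ^ n) • x) := by
    rw [← Matrix.sub_mulVec, sub_sub_sub_cancel_left, Matrix.sub_mulVec, Matrix.natCast_mulVec,
      Matrix.natCast_mulVec, Nat.cast_smul_eq_nsmul, Nat.cast_smul_eq_nsmul, neg_sub]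
  rw [e, Matrix.mulVec_neg, Matrix.sub_mulVec, Matrix.one_mulVec]
  exact neg_mem (sub_mem (hpowM n j _ h3) h3)

theorem eisRel_frobenius {l : ℕ} (hl : l.Prime) (hlN : l ≠ N) (hlp : l ≠ p)
    (A : ValuationSubring (AlgebraicClosure ℚ)) (hA : A.LiesOverPrime l) (τ : GalQ)
    (hτ : A.IsFrobeniusAt τ l) (k : ℕ) :
    EisRel D hN k (redMat D k (D.rho τ)) (EllTate.cyclo p τ) := by
  haveI : NeZero p := ⟨(Fact.out : p.Prime).ne_zero⟩
  refine ⟨fun j x hx => mulVec_mem_eisFil D hN (rho_commute D hN τ) hx, fun c hc j x hx => ?_⟩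
  have hcl : (c : ZMod p) = (l : ZMod p) := by
    refine hc.trans ?_
    exact EllTate.cyclo_eq fun μ hμ =>
      Galois.frobenius_apply_rootOfUnity hl hA hτ
        (fun h => hlp ((Nat.prime_dvd_prime_iff_eq hl Fact.out).mp h)) hμ
  have hdvd : ¬ l ∣ N := fun h => hlN ((Nat.prime_dvd_prime_iff_eq hl hN).mp h)
  have hfrob := congrArg (redMat D k) (D.frobenius l hl hdvd hlp A hA τ hτ)
  rw [map_add, map_sub, map_mul, map_mul, map_natCast, map_zero, ← opMat_def D hN ⟨⟨l, hl⟩, hlN⟩]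
    at hfrob
  have hfx := congrArg (· *ᵥ x) hfrob
  simp only [Matrix.add_mulVec, Matrix.sub_mulVec, Matrix.zero_mulVec, Matrix.natCast_mulVec,
    Nat.cast_smul_eq_nsmul, ← Matrix.mulVec_mulVec] at hfx
  have hRx : redMat D k (D.rho τ) *ᵥ x ∈ eisFil D hN k (j + 1) :=
    mulVec_mem_eisFil D hN (rho_commute D hN τ) hx
  have hT := heckeT_sub_mem_eisFil D hN ⟨⟨l, hl⟩, hlN⟩ hRx
  generalize redMat D k (D.rho τ) = R at hfx hRx hT ⊢
  generalize redMat D k (opMat D hN ⟨⟨l, hl⟩, hlN⟩) = Tl at hfx hT ⊢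
  have e : (R - 1) *ᵥ ((R - (c : Matrix (Fin D.r) (Fin D.r) (ZMod (p ^ k)))) *ᵥ x) =
      (Tl *ᵥ (R *ᵥ x) - (1 + l) • (R *ᵥ x)) +
        ((l • (R *ᵥ x) - c • (R *ᵥ x)) + (c • x - l • x)) := by
    have hfx' : R *ᵥ (R *ᵥ x) = Tl *ᵥ (R *ᵥ x) - l • x := by
      linear_combination (norm := abel) hfx
    simp only [Matrix.sub_mulVec, Matrix.natCast_mulVec, Nat.cast_smul_eq_nsmul,
      Matrix.mulVec_sub, Matrix.one_mulVec, Matrix.mulVec_smul, hfx', add_smul, one_smul, smul_sub]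
    abel
  rw [e]
  exact add_mem hT
    (add_mem (nsmul_sub_mem_eisFil D hN hcl.symm hRx) (nsmul_sub_mem_eisFil D hN hcl hx))

/-- The Frobenius relation propagates to all of the Galois group. -/
theorem rho_relation (k i : ℕ) (σ : GalQ) {v : Fin D.r → ZMod (p ^ k)}
    (hv : v ∈ eisFil D hN k (i + 1)) :
    p • v ∈ eisFil D hN k i ∧
      redMat D k (D.rho σ) *ᵥ (redMat D k (D.rho σ) *ᵥ v)
        - (1 + ExtCitation.cycloExp p σ) • (redMat D k (D.rho σ) *ᵥ v)
        + ExtCitation.cycloExp p σ • v ∈ eisFil D hN k i := by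
  classical
  haveI : NeZero p := ⟨(Fact.out : p.Prime).ne_zero⟩
  have hp : (p : ℤ_[p]) ∈ maximalIdeal ℤ_[p] := by
    rw [PadicInt.maximalIdeal_eq_span_p]
    exact Ideal.mem_span_singleton_self _
  refine ⟨?_, ?_⟩
  · have h := smul_mem_eisFil D hN hp hv
    rwa [map_natCast, Nat.cast_smul_eq_nsmul] at h
  let matHom : GalQ →* Matrix (Fin D.r) (Fin D.r) (ZMod (p ^ k)) :=
    (redMat D k).toMonoidHom.comp D.rho
  have hfin : GaloisFactorsThroughFiniteLevel (matHom.prod (EllTate.cyclo p)) :=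
    Density.galoisFactorsThroughFiniteLevel_prod (D.isContinuous k) (EllTate.cyclo_finiteLevel p)
  have key : EisRel D hN k (redMat D k (D.rho σ)) (EllTate.cyclo p σ) := by
    refine Density.forall_of_frobenius (matHom.prod (EllTate.cyclo p)) hfin {p, N}
      (fun w => EisRel D hN k w.1 w.2) (fun w n hw => ?_) (fun l hl hlS A hA τ hτ => ?_) σ
    · rw [Prod.pow_fst, Prod.pow_snd]
      exact eisRel_pow D hN hw n
    · simp only [Finset.mem_insert, Finset.mem_singleton, not_or] at hlS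
      exact eisRel_frobenius D hN hl hlS.2 hlS.1 A hA τ hτ k
  have hσ : (ExtCitation.cycloExp p σ : ZMod p) = EllTate.cyclo p σ :=
    (EllTate.cyclo_eq fun μ hμ => cycloExp_apply σ hμ).symm
  have h := key.2 (ExtCitation.cycloExp p σ) hσ i v hv
  generalize redMat D k (D.rho σ) = R at h ⊢
  simp only [Matrix.sub_mulVec, Matrix.natCast_mulVec, Nat.cast_smul_eq_nsmul, Matrix.mulVec_sub,
    Matrix.one_mulVec, Matrix.mulVec_smul, smul_sub] at h
  convert h using 1
  rw [add_smul, one_smul]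
  abel

end EisConstr

open EisConstr in
theorem nonempty_eisIdem (hpN : p ≠ N) (hH : HeckeCompat D hN) : Nonempty (EisIdem D) := by
  classical
  let T := opMat D hN
  let a : AwayPrime N → ℤ_[p] := eisVal
  let e := localIdem T a
  have hcomm : ∀ s t, Commute (T s) (T t) := opMat_commute D hN
  have hmem : e ∈ heckeSpan D :=
    Algebra.adjoin_le (by rintro _ ⟨r, rfl⟩; exact opMat_mem_heckeSpan D hN r) (localIdem_mem hcomm a)
  refine ⟨⟨e, isIdempotentElem_localIdem hcomm a, hmem, fun k => ?_, fun k => ?_⟩⟩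
  · rcases Nat.eq_zero_or_pos k with rfl | hk
    · haveI : Subsingleton (ZMod (p ^ 0)) :=
        subsingleton_of_zero_eq_one (by rw [← Nat.cast_one, eq_comm, ZMod.natCast_eq_zero_iff]; simp)
      exact ⟨1, one_mem _, fun x _ _ => rfl, fun v => by
        rw [Subsingleton.elim ((e.map (PadicInt.toZModPow 0)) *ᵥ v) v]; rfl⟩
    obtain ⟨t, ht, et⟩ := exists_away_of_mem D hN hH k (localIdem_mem hcomm a)
    refine ⟨t, ht, fun x hx hT => ?_, et⟩
    have hx' : ((p : ℤ) ^ k) • x = 0 := by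
      rw [show ((p : ℤ) ^ k) = (p : ℤ) ^ (k - 1) * (p : ℤ) by rw [← pow_succ, Nat.sub_add_cancel hk],
        mul_smul, natCast_zsmul, hx, smul_zero]
    obtain ⟨v, hv⟩ := (D.torsionEquiv k).surjective ⟨x, hx'⟩
    have hxv : x = (D.torsionEquiv k v : JZero N) := congrArg Subtype.val hv.symm
    have hpv : (p : ZMod (p ^ k)) • v = 0 := by
      refine (D.torsionEquiv k).injective (Subtype.ext ?_)
      rw [Nat.cast_smul_eq_nsmul, torsionEquiv_coe_nsmul, map_zero, ← hxv, hx]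
      rfl
    have hfix : redMat D k e *ᵥ v = v := by
      refine eisIdem_fix D hN hpv fun r => (D.torsionEquiv k).injective (Subtype.ext ?_)
      rw [redMat_opMat, ← hH r.1 r.2 k v, ← hxv, hT r.1 r.2]
      have hcast : PadicInt.toZModPow k (eisVal (p := p) r) = ((1 + (r.1 : ℕ) : ℕ) : ZMod (p ^ k)) := by
        simp [eisVal_def]
      rw [hcast, Nat.cast_smul_eq_nsmul, torsionEquiv_coe_nsmul, ← hxv]
    exact (congrArg t hxv).trans ((et v).trans
      ((congrArg (fun w => (D.torsionEquiv k w : JZero N)) hfix).trans hxv.symm))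
  · obtain ⟨m, hm⟩ := exists_eisFil_top D hN k
    have hfixed : ∀ x : eisMod D e k, redMat D k e *ᵥ x.1 = x.1 := fun x => (mem_eisMod D).mp x.2
    let U : ℕ → AddSubgroup (eisMod D e k) := fun i =>
      (eisFil D hN k i).toAddSubgroup.comap (eisMod D e k).subtype.toAddMonoidHom
    have hU : ∀ i (x : eisMod D e k), x ∈ U i ↔ x.1 ∈ eisFil D hN k i := fun i x => Iff.rfl
    refine ⟨m, U, ?_, ?_, ?_, fun i σ x hx => ?_, fun i σ x hx => ?_⟩
    · letI := opAlgCommRing (R := ℤ_[p]) hcomm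
      refine eq_bot_iff.mpr fun x hx => ?_
      have h := ((mem_eisFil D hN).mp ((hU 0 x).mp hx)).2 1 (by rw [pow_zero, Ideal.one_eq_top]; trivial)
      rw [Subalgebra.coe_one, map_one, Matrix.one_mulVec] at h
      exact AddSubgroup.mem_bot.mpr (Subtype.ext h)
    · exact eq_top_iff.mpr fun x _ => (hU m x).mpr (hm _ (hfixed x))
    · letI := opAlgCommRing (R := ℤ_[p]) hcomm
      intro i j hij x hx
      obtain ⟨h1, h2⟩ := (mem_eisFil D hN).mp ((hU i x).mp hx)
      exact (hU j x).mpr ((mem_eisFil D hN).mpr ⟨h1, fun y hy => h2 y (Ideal.pow_le_pow_right hij hy)⟩)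
    · refine (hU i _).mpr ?_
      rw [coe_eisAct]
      exact mulVec_mem_eisFil D hN (rho_commute D hN σ) ((hU i x).mp hx)
    · have hrel := rho_relation D hN k i σ (v := (x : Fin D.r → ZMod (p ^ k))) hx
      obtain ⟨h1, h2⟩ := hrel
      refine ⟨(hU i _).mpr ?_, (hU i _).mpr ?_⟩
      · simp only [AddSubmonoidClass.coe_nsmul]
        exact h1
      · simp only [AddSubgroupClass.coe_sub, Submodule.coe_add, coe_eisAct,
          AddSubmonoidClass.coe_nsmul]
        exact h2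

end FLTA.Mazur

end
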