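import Fermat.Agent.GaloisReps.Plane
import Fermat.Agent.GaloisReps.DetTrick
import Fermat.Agent.RepTheory.DVRExtension
import Fermat.Agent.Petersson.Reduced

/-!
# Eigen decomposition of the Tate module under a reduced Hecke algebra; the determinant on a plane
-/

set_option autoImplicit false

noncomputable section

open scoped Matrix TensorProduct
open IsLocalRing

namespace FLTA.Mazur

open FLTA.GaloisReps

section Decomp

set_option maxHeartbeats 1000000 in
/-- A reduced commutative ring of integer matrices splits `K^r` into common eigenspaces. -/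
theorem exists_eigen_decomposition (K : Type) [Field K] [IsAlgClosed K] [CharZero K] {T : Type}
    [CommRing T] [IsReduced T] {r : ℕ} (h : T →+* Matrix (Fin r) (Fin r) ℤ)
    (hinj : Function.Injective h) :
    ∃ (ι : Type) (_ : Fintype ι) (χ : ι → (T →+* K)),
      iSupIndep (fun i => matEigenspace (fun t => h t) (fun t => χ i t)) ∧
      (⨆ i, matEigenspace (fun t => h t) (fun t => χ i t)) = ⊤ := by
  classical
  have : Module.Finite ℤ T := Module.Finite.of_injective h.toAddMonoidHom.toIntLinearMap hinj
  have : IsAddTorsionFree (Matrix (Fin r) (Fin r) ℤ) :=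
    inferInstanceAs (IsAddTorsionFree (Fin r → Fin r → ℤ))
  have : IsAddTorsionFree T :=
    Function.Injective.isAddTorsionFree h.toAddMonoidHom hinj
  have : IsReduced (K ⊗[ℤ] T) := FLTA.Petersson.isReduced_tensor (H := T) K
  have : IsArtinianRing (K ⊗[ℤ] T) := IsArtinianRing.of_finite K (K ⊗[ℤ] T)
  let cast : Matrix (Fin r) (Fin r) ℤ →+* Matrix (Fin r) (Fin r) K := (Int.castRingHom K).mapMatrix
  let φ : K ⊗[ℤ] T →ₐ[K] Matrix (Fin r) (Fin r) K :=
    Algebra.TensorProduct.lift (Algebra.ofId K _) (cast.comp h).toIntAlgHom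
      fun a t => Algebra.commutes a _
  have hφ : ∀ t : T, φ (1 ⊗ₜ t) = (h t).map (Int.cast : ℤ → K) := fun t => by
    refine (Algebra.TensorProduct.lift_tmul _ _ _ _ _).trans ?_
    rw [map_one, one_mul]
    rfl
  let ι := MaximalSpectrum (K ⊗[ℤ] T)
  have hbij : ∀ I : ι, Function.Bijective (algebraMap K ((K ⊗[ℤ] T) ⧸ I.asIdeal)) := fun I =>
    IsAlgClosed.algebraMap_bijective_of_isIntegral
  obtain ⟨π, hπ⟩ : ∃ π : ι → (K ⊗[ℤ] T →ₐ[K] K), ∀ I x,
      algebraMap K ((K ⊗[ℤ] T) ⧸ I.asIdeal) (π I x) = Ideal.Quotient.mk I.asIdeal x :=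
    ⟨fun I => (AlgEquiv.ofBijective (Algebra.ofId K _) (hbij I)).symm.toAlgHom.comp
        (Ideal.Quotient.mkₐ K I.asIdeal),
      fun I x => (AlgEquiv.ofBijective (Algebra.ofId K _) (hbij I)).apply_symm_apply _⟩
  let eq := IsArtinianRing.equivPi (K ⊗[ℤ] T)
  let e : ι → K ⊗[ℤ] T := fun I => eq.symm (Pi.single I 1)
  have he : ∀ I J, Ideal.Quotient.mk J.asIdeal (e I) =
      (Pi.single I 1 : ∀ J : ι, (K ⊗[ℤ] T) ⧸ J.asIdeal) J := by
    intro I J
    have := congrFun (eq.apply_symm_apply (Pi.single I 1)) J
    rwa [IsArtinianRing.equivPi_apply] at this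
  have hsum : ∀ [Fintype ι], ∑ I, e I = 1 := by
    intro _
    apply eq.injective
    funext J
    rw [IsArtinianRing.equivPi_apply, map_sum, map_one, Pi.one_apply, Finset.sum_eq_single J]
    · rw [he, Pi.single_eq_same]
    · intro I _ hIJ; rw [he, Pi.single_eq_of_ne (Ne.symm hIJ)]
    · simp
  have hmul : ∀ I x, x * e I = π I x • e I := by
    intro I x
    apply eq.injective
    funext J
    rw [IsArtinianRing.equivPi_apply, IsArtinianRing.equivPi_apply, map_mul, he]
    show _ = Ideal.Quotient.mkₐ K J.asIdeal (π I x • e I)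
    rw [map_smul, Algebra.smul_def, Ideal.Quotient.mkₐ_eq_mk, he]
    rcases eq_or_ne J I with rfl | hJI
    · rw [Pi.single_eq_same, mul_one, mul_one, hπ]
    · rw [Pi.single_eq_of_ne hJI, mul_zero, mul_zero]
  have hπe : ∀ I J, π J (e I) = if I = J then 1 else 0 := by
    intro I J
    apply (hbij J).1
    rw [hπ, he]
    split_ifs with hIJ
    · subst hIJ; rw [Pi.single_eq_same, map_one]
    · rw [Pi.single_eq_of_ne (Ne.symm hIJ), map_zero]
  let χ : ι → (T →+* K) := fun I =>
    (π I).toRingHom.comp Algebra.TensorProduct.includeRight.toRingHom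
  have hact : ∀ I, ∀ v ∈ matEigenspace (fun t => h t) (fun t => χ I t),
      ∀ x, φ x *ᵥ v = π I x • v := by
    intro I v hv x
    induction x using TensorProduct.induction_on with
    | zero => simp
    | tmul a t =>
      have hat : (a ⊗ₜ t : K ⊗[ℤ] T) = algebraMap K (K ⊗[ℤ] T) a * (1 ⊗ₜ t) := by
        rw [Algebra.TensorProduct.algebraMap_apply, Algebra.TensorProduct.tmul_mul_tmul, mul_one,
          one_mul, Algebra.algebraMap_self, RingHom.id_apply]
      rw [hat, map_mul φ, φ.commutes, map_mul (π I), (π I).commutes, hφ, ← Algebra.smul_def,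
        Matrix.smul_mulVec, hv t, Algebra.algebraMap_self, RingHom.id_apply, smul_smul]
      rfl
    | add x y hx hy =>
      have hxy : φ (x + y) = φ x + φ y := φ.toLinearMap.map_add x y
      rw [hxy, Matrix.add_mulVec, hx, hy, ← add_smul]
      exact congrArg (· • v) ((π I).toLinearMap.map_add x y).symm
  refine ⟨ι, Fintype.ofFinite ι, χ, ?_, ?_⟩
  · rw [iSupIndep_iff_finset_sum_eq_zero_imp_eq_zero]
    intro s v hv hz J hJ
    have := congrArg (fun w => φ (e J) *ᵥ w) hz
    simp only [Matrix.mulVec_sum, Matrix.mulVec_zero] at this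
    rw [Finset.sum_eq_single J] at this
    · rwa [hact J (v J) (hv J hJ), hπe, if_pos rfl, one_smul] at this
    · intro I hI hIJ
      rw [hact I (v I) (hv I hI), hπe, if_neg (Ne.symm hIJ), zero_smul]
    · intro h'; exact absurd hJ h'
  · refine eq_top_iff.mpr fun v _ => ?_
    let _ : Fintype ι := Fintype.ofFinite ι
    have hv : v = ∑ I, φ (e I) *ᵥ v := by
      rw [← Matrix.sum_mulVec, ← map_sum, hsum, map_one, Matrix.one_mulVec]
    rw [hv]
    refine Submodule.sum_mem _ fun I _ => Submodule.mem_iSup_of_mem I fun t => ?_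
    rw [Matrix.mulVec_mulVec, ← hφ, ← map_mul, hmul, map_smul, Matrix.smul_mulVec]
    rfl

end Decomp

section PlaneDet

variable {N : ℕ} [NeZero N] {p : ℕ} [Fact p.Prime]

/-- The algebraic closure of `ℚ_p`, as the field of the eigen decomposition. -/
abbrev QpBar (p : ℕ) [Fact p.Prime] : Type := AlgebraicClosure (FractionRing ℤ_[p])

theorem charZero_qpBar : CharZero (QpBar p) :=
  charZero_of_injective_algebraMap (R := ℤ_[p])
    (FLTA.RepTheory.algebraMap_algClosure_injective ℤ_[p])

/-- Galois acts on the Tate module over `QpBar`. -/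
def galMat (D : TateData N p) (σ : GalQ) : Matrix (Fin D.r) (Fin D.r) (QpBar p) :=
  (D.rho σ).map (algebraMap ℤ_[p] (QpBar p))

theorem galMat_commute (D : TateData N p) (σ : GalQ) (t : FullHecke N) :
    galMat D σ * (D.hecke t).map (Int.cast : ℤ → QpBar p) =
      (D.hecke t).map (Int.cast : ℤ → QpBar p) * galMat D σ := by
  have h := congrArg (fun M => M.map (algebraMap ℤ_[p] (QpBar p))) (D.commute σ t).eq
  simp only [Matrix.map_mul, map_intCast_map] at h
  exact h

theorem galMat_mem (D : TateData N p) (χ : FullHecke N →+* QpBar p) (σ : GalQ) :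
    ∀ v ∈ matEigenspace (fun t => D.hecke t) (fun t => χ t),
      (galMat D σ).mulVecLin v ∈ matEigenspace (fun t => D.hecke t) (fun t => χ t) := by
  intro v hv t
  rw [Matrix.mulVecLin_apply, Matrix.mulVec_mulVec, ← galMat_commute, ← Matrix.mulVec_mulVec, hv t,
    Matrix.mulVec_smul]

/-- A minor shows that two independent vectors stay independent. -/
theorem linearIndependent_pair_map {O K : Type*} [CommRing O] [IsDomain O] [Field K]
    (f : O →+* K) (hf : Function.Injective f) {n : Type*} {x y : n → O}
    (h : LinearIndependent O ![x, y]) : LinearIndependent K ![f ∘ x, f ∘ y] := by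
  rw [LinearIndependent.pair_iff] at h ⊢
  intro s t hst
  have hminor : ∃ i j, x i * y j - x j * y i ≠ 0 := by
    by_contra! hall
    have hy : ∀ j, y j = 0 ∧ x j = 0 := fun j => by
      have h0 := h (y j) (-(x j)) (funext fun i => by
        simp only [Pi.add_apply, Pi.smul_apply, smul_eq_mul, Pi.zero_apply]
        linear_combination hall i j)
      exact ⟨h0.1, neg_eq_zero.mp h0.2⟩
    exact one_ne_zero (h 1 0 (funext fun i => by simp [(hy i).2])).1
  obtain ⟨i, j, hij⟩ := hminor
  have hi := congrFun hst i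
  have hj := congrFun hst j
  simp only [Pi.add_apply, Pi.smul_apply, Function.comp_apply, smul_eq_mul, Pi.zero_apply] at hi hj
  have hij' : f (x i) * f (y j) - f (x j) * f (y i) ≠ 0 := by
    rw [← map_mul, ← map_mul, ← map_sub]
    exact fun h0 => hij (hf (h0.trans (map_zero f).symm))
  constructor
  · have : s * (f (x i) * f (y j) - f (x j) * f (y i)) = 0 := by
      linear_combination f (y j) * hi - f (y i) * hj
    exact (mul_eq_zero.mp this).resolve_right hij'
  · have : t * (f (x i) * f (y j) - f (x j) * f (y i)) = 0 := by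
      linear_combination f (x i) * hj - f (x j) * hi
    exact (mul_eq_zero.mp this).resolve_right hij'

/-- On a Hecke plane the determinant of Galois is the cyclotomic character. -/
theorem det_plane (D : TateData N p) (χ : FullHecke N →+* QpBar p) (σ : GalQ) :
    LinearMap.det ((galMat D σ).mulVecLin.restrict (galMat_mem D χ σ)) =
      algebraMap ℤ_[p] (QpBar p) (cycloPadic p σ) := by
  classical
  have := charZero_qpBar (p := p)
  have : Module.Finite ℤ (FullHecke N) :=
    Module.Finite.of_injective D.hecke.toAddMonoidHom.toIntLinearMap D.hecke_injective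
  obtain ⟨s0, hs0⟩ := Module.Finite.fg_top (R := ℤ) (M := FullHecke N)
  obtain ⟨E, ι, hι, hE⟩ := FLTA.RepTheory.exists_finiteDVRExt_subset ℤ_[p] (χ '' s0)
    (s0.finite_toSet.image _) (by
      rintro _ ⟨t, -, rfl⟩
      obtain ⟨q, hq, hq0⟩ := Algebra.IsIntegral.isIntegral (R := ℤ) t
      refine ⟨q.map (algebraMap ℤ ℤ_[p]), hq.map _, ?_⟩
      have := congrArg χ hq0
      rw [Polynomial.hom_eval₂, map_zero] at this
      rw [Polynomial.eval₂_map]
      rwa [RingHom.ext_int
        ((algebraMap ℤ_[p] (AlgebraicClosure (FractionRing ℤ_[p]))).comp (algebraMap ℤ ℤ_[p]))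
        (χ.comp (algebraMap ℤ (FullHecke N)))])
  have hrange : ∀ t, χ t ∈ ι.range := by
    intro t
    have ht : t ∈ Submodule.span ℤ (s0 : Set (FullHecke N)) := by rw [hs0]; trivial
    induction ht using Submodule.span_induction with
    | mem x hx => exact hE _ ⟨x, hx, rfl⟩
    | zero => rw [map_zero]; exact zero_mem _
    | add x y _ _ hx hy => rw [map_add]; exact add_mem hx hy
    | smul z x _ hx => rw [map_zsmul]; exact zsmul_mem hx z
  let χO : FullHecke N →+* E.R :=
    ((AlgEquiv.ofInjective ι hι).symm.toAlgHom.toRingHom).comp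
      (χ.codRestrict ι.range fun t => hrange t)
  have hχO : ∀ t, ι (χO t) = χ t := fun t =>
    congrArg Subtype.val ((AlgEquiv.ofInjective ι hι).apply_symm_apply ⟨χ t, hrange t⟩)
  have hpO : (p : E.R) ∈ maximalIdeal E.R := by
    rw [← map_natCast (algebraMap ℤ_[p] E.R), IsLocalRing.mem_maximalIdeal, mem_nonunits_iff,
      isUnit_map_iff]
    exact PadicInt.p_nonunit
  set W : Submodule E.R (Fin D.r → E.R) :=
    matEigenspace (fun t => D.hecke t) (fun t => χO t) with hWdef
  have hcomm : ∀ (g : GalQ) (t : FullHecke N),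
      ((D.hecke t).map (Int.cast : ℤ → E.R)) * (D.rho g).map (algebraMap ℤ_[p] E.R) =
        (D.rho g).map (algebraMap ℤ_[p] E.R) * ((D.hecke t).map (Int.cast : ℤ → E.R)) :=
    fun g t => by
      have h := congrArg (fun M => M.map (algebraMap ℤ_[p] E.R)) (D.commute g t).eq
      simp only [Matrix.map_mul, map_intCast_map] at h
      exact h.symm
  have hW : ∀ g, ∀ x ∈ W, matrixRep E.R D.rho g x ∈ W := by
    intro g x hx t
    rw [matrixRep_apply, Matrix.mulVec_mulVec, hcomm g t, ← Matrix.mulVec_mulVec, hx t,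
      Matrix.mulVec_smul]
  have hrank : Module.finrank E.R W = 2 := by
    rw [hWdef, finrank_matEigenspace (fun t => D.hecke t) (FractionRing E.R)]
    exact D.plane (FractionRing E.R) ((algebraMap E.R (FractionRing E.R)).comp χO)
  -- the plane over `QpBar`
  have : Module.Free E.R W := Module.free_of_finite_type_torsion_free'
  let b := Module.finBasisOfFinrankEq E.R W hrank
  let u : Fin 2 → matEigenspace (fun t => D.hecke t) (fun t => χ t) := fun i =>
    ⟨ι ∘ (b i : Fin D.r → E.R), fun t => by
      funext a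
      have h := congrFun ((b i).2 t) a
      have h' := congrArg ι h
      rw [Pi.smul_apply, smul_eq_mul, map_mul, hχO] at h'
      rw [Pi.smul_apply, smul_eq_mul, Function.comp_apply, ← h']
      have hm := RingHom.map_mulVec ι.toRingHom ((D.hecke t).map (Int.cast : ℤ → E.R))
        (b i : Fin D.r → E.R) a
      rw [map_intCast_map] at hm
      exact hm.symm⟩
  have hrankK : Module.finrank (QpBar p) (matEigenspace (fun t => D.hecke t) (fun t => χ t)) = 2 :=
    D.plane (QpBar p) χ
  have hli : LinearIndependent (QpBar p) u := by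
    apply LinearIndependent.of_comp (matEigenspace (fun t => D.hecke t) (fun t => χ t)).subtype
    have hb0 := b.linearIndependent.map' W.subtype W.ker_subtype
    have heq : W.subtype ∘ ⇑b = ![(b 0 : Fin D.r → E.R), (b 1 : Fin D.r → E.R)] := by
      funext i; fin_cases i <;> rfl
    rw [heq] at hb0
    have h2 := linearIndependent_pair_map ι.toRingHom hι hb0
    have heq2 : (matEigenspace (fun t => D.hecke t) (fun t => χ t)).subtype ∘ u =
        ![ι.toRingHom ∘ (b 0 : Fin D.r → E.R), ι.toRingHom ∘ (b 1 : Fin D.r → E.R)] := by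
      funext i; fin_cases i <;> rfl
    rw [heq2]
    exact h2
  let bK := basisOfLinearIndependentOfCardEqFinrank hli (by simp [hrankK])
  have hbK : ∀ i, bK i = u i := fun i => by simp [bK]
  -- determinant trick on `W`
  let P := FLTA.RepTheory.galoisRepAdicOfSubmodule (matrixRep E.R D.rho)
    (matrixRep_isAdicContinuous E.R hpO D.rho D.isContinuous) W hW hrank
  let a : ℕ → E.R := fun ℓ =>
    if h : ℓ.Prime ∧ ¬ ℓ ∣ N then χO (CuspForm.heckeAlgebra.T h.1 h.2 (Set.notMem_empty ℓ)) else 0
  let S : Finset ℕ := insert p N.primeFactors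
  obtain ⟨hdet, -⟩ := det_eq_cyclo_and_charpoly (p := p) hpO P S (Finset.mem_insert_self _ _) a
    (fun ℓ hℓ hℓS A hA g hg v => by
      have h1 : ¬ ℓ ∣ N := fun hd => hℓS (Finset.mem_insert_of_mem
        (Nat.mem_primeFactors.mpr ⟨hℓ, hd, NeZero.ne N⟩))
      have h2 : ℓ ≠ p := fun he => hℓS (he ▸ Finset.mem_insert_self _ _)
      rw [show a ℓ = χO (CuspForm.heckeAlgebra.T hℓ h1 (Set.notMem_empty ℓ)) from
        dif_pos ⟨hℓ, h1⟩]
      change ↥W at v
      refine Subtype.ext ?_
      have h := congrArg (fun M => (M.map (algebraMap ℤ_[p] E.R)) *ᵥ (v : Fin D.r → E.R))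
        (D.frobenius ℓ hℓ h1 h2 A hA g hg)
      simp only [Matrix.map_add _ (map_add _), Matrix.map_sub _ (map_sub _), Matrix.map_mul,
        map_intCast_map, Matrix.map_natCast (map_zero (algebraMap ℤ_[p] E.R)), map_natCast,
        Matrix.map_zero _ (map_zero _), Matrix.add_mulVec, Matrix.sub_mulVec,
        ← Matrix.mulVec_mulVec, Matrix.zero_mulVec] at h
      have hT := hW g _ v.2 (CuspForm.heckeAlgebra.T hℓ h1 (Set.notMem_empty ℓ))
      rw [matrixRep_apply] at hT
      rw [hT, Matrix.diagonal_const_mulVec] at h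
      exact h)
    ⟨complexConjugation, fun c hc => by
      obtain ⟨w, hw, hne⟩ := D.conj_not_scalar (QpBar p) χ (ι c)
      refine hne ?_
      have hw' : (⟨w, hw⟩ : matEigenspace (fun t => D.hecke t) (fun t => χ t)) ∈
          Submodule.span (QpBar p) (Set.range bK) := by rw [bK.span_eq]; trivial
      obtain ⟨co, hco⟩ := (Submodule.mem_span_range_iff_exists_fun _).mp hw'
      have hw2 : w = ∑ i, co i • (ι ∘ (b i : Fin D.r → E.R)) := by
        have := congrArg Subtype.val hco
        simp only [Submodule.coe_sum, Submodule.coe_smul, hbK] at this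
        exact this.symm
      have hb' : ∀ i, (D.conjMat.map (Int.cast : ℤ → QpBar p)) *ᵥ (ι ∘ (b i : Fin D.r → E.R)) =
          ι c • (ι ∘ (b i : Fin D.r → E.R)) := by
        intro i
        have h := congrArg Subtype.val (LinearMap.congr_fun hc (b i))
        change matrixRep E.R D.rho complexConjugation (b i : Fin D.r → E.R) =
          c • (b i : Fin D.r → E.R) at h
        rw [matrixRep_apply, D.conj_spec, map_intCast_map] at h
        funext x
        have hx := congrArg ι (congrFun h x)
        rw [Pi.smul_apply, smul_eq_mul, map_mul] at hx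
        have hm := RingHom.map_mulVec ι.toRingHom (D.conjMat.map (Int.cast : ℤ → E.R))
          (b i : Fin D.r → E.R) x
        rw [map_intCast_map] at hm
        exact hm.symm.trans hx
      simp only [hw2, Matrix.mulVec_sum, Matrix.mulVec_smul, hb', Finset.smul_sum, smul_comm (ι c)]⟩
  -- transport
  let f : Module.End E.R W := FLTA.RepTheory.subAction (matrixRep E.R D.rho) W hW σ
  have hmat : LinearMap.toMatrix bK bK ((galMat D σ).mulVecLin.restrict (galMat_mem D χ σ)) =
      (LinearMap.toMatrix b b f).map ι := by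
    have key : ∀ i, ((galMat D σ).mulVecLin.restrict (galMat_mem D χ σ)) (bK i) =
        ∑ j, ι (b.repr (f (b i)) j) • bK j := by
      intro i
      refine Subtype.ext ?_
      simp only [Submodule.coe_sum, Submodule.coe_smul, hbK]
      rw [LinearMap.restrict_coe_apply, Matrix.mulVecLin_apply]
      funext x
      have h := congrArg Subtype.val (b.sum_repr (f (b i)))
      simp only [Submodule.coe_sum, Submodule.coe_smul] at h
      have hx := congrArg ι (congrFun h x)
      simp only [Finset.sum_apply, Pi.smul_apply, smul_eq_mul, map_sum, map_mul] at hx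
      simp only [Finset.sum_apply, Pi.smul_apply, smul_eq_mul, u, Function.comp_apply]
      refine (Eq.trans ?_ hx.symm)
      have hm := RingHom.map_mulVec ι.toRingHom ((D.rho σ).map (algebraMap ℤ_[p] E.R))
        (b i : Fin D.r → E.R) x
      rw [Matrix.map_map] at hm
      refine Eq.trans ?_ hm.symm
      congr 2
      ext z w
      exact (ι.commutes _).symm
    ext i j
    rw [LinearMap.toMatrix_apply, key, map_sum, Finsupp.coe_finset_sum, Finset.sum_apply]
    simp only [Matrix.map_apply, LinearMap.toMatrix_apply]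
    simp [Finsupp.single_apply]
  rw [← LinearMap.det_toMatrix bK, hmat]
  have hd : ι (LinearMap.det f) = ι (algebraMap ℤ_[p] E.R (cycloPadic p σ)) :=
    congrArg ι (hdet σ)
  rw [← LinearMap.det_toMatrix b] at hd
  rw [ι.commutes] at hd
  rw [← hd]
  exact (RingHom.map_det ι.toRingHom _).symm

end PlaneDet

end FLTA.Mazur

end
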