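import Fermat.Agent.Mazur.EisModule
import Fermat.Agent.Mazur.EigenDecomp
import Fermat.Agent.Galois.Cyclotomic

/-!
# The local inequality at `N` on the Eisenstein part

Summing `plane_kernel_bound` over the Hecke planes inside the Eisenstein part and reducing modulo
`p ^ m` gives `#{(F - N) x = (τ - 1) y} * #ker (1 + c) ≤ p ^ C * #M_m * #ker (τ - 1)`.
-/

set_option autoImplicit false

noncomputable section

open scoped Matrix

namespace FLTA.Mazur

open FLTA.GaloisReps

section Blocks

variable {r : ℕ} {R : Type*} [CommRing R]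

/-- The matrix of `(x, y) ↦ (F x - n y, e x, e y)`. -/
def blockG (F n e : Matrix (Fin r) (Fin r) R) :
    Matrix ((Fin r ⊕ Fin r) ⊕ Fin r) (Fin r ⊕ Fin r) R :=
  Matrix.fromRows (Matrix.fromRows (Matrix.fromCols F (-n)) (Matrix.fromCols e 0))
    (Matrix.fromCols 0 e)

/-- The matrix of `x ↦ (a x, e x)`. -/
def blockA (a e : Matrix (Fin r) (Fin r) R) : Matrix (Fin r ⊕ Fin r) (Fin r) R :=
  Matrix.fromRows a e

theorem blockG_mulVec_eq_zero (F n e : Matrix (Fin r) (Fin r) R) (z : Fin r ⊕ Fin r → R) :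
    blockG F n e *ᵥ z = 0 ↔ F *ᵥ (z ∘ Sum.inl) - n *ᵥ (z ∘ Sum.inr) = 0 ∧
      e *ᵥ (z ∘ Sum.inl) = 0 ∧ e *ᵥ (z ∘ Sum.inr) = 0 := by
  conv_lhs => rw [blockG, Matrix.fromRows_mulVec, Matrix.fromRows_mulVec,
    ← Sum.elim_comp_inl_inr z, Matrix.fromCols_mulVec_sumElim, Matrix.fromCols_mulVec_sumElim,
    Matrix.fromCols_mulVec_sumElim, Matrix.neg_mulVec, Matrix.zero_mulVec, Matrix.zero_mulVec,
    add_zero, zero_add, ← sub_eq_add_neg]
  constructor
  · intro h
    exact ⟨funext fun i => congrFun h (Sum.inl (Sum.inl i)),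
      funext fun i => congrFun h (Sum.inl (Sum.inr i)), funext fun i => congrFun h (Sum.inr i)⟩
  · rintro ⟨h1, h2, h3⟩
    funext i
    rcases i with (i | i) | i
    · exact congrFun h1 i
    · exact congrFun h2 i
    · exact congrFun h3 i

theorem blockA_mulVec_eq_zero (a e : Matrix (Fin r) (Fin r) R) (x : Fin r → R) :
    blockA a e *ᵥ x = 0 ↔ a *ᵥ x = 0 ∧ e *ᵥ x = 0 := by
  rw [blockA, Matrix.fromRows_mulVec]
  constructor
  · intro h
    exact ⟨funext fun i => congrFun h (Sum.inl i), funext fun i => congrFun h (Sum.inr i)⟩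
  · rintro ⟨h1, h2⟩
    funext i
    rcases i with i | i
    · exact congrFun h1 i
    · exact congrFun h2 i

theorem blockG_map {S : Type*} [CommRing S] (f : R →+* S) (F n e : Matrix (Fin r) (Fin r) R) :
    (blockG F n e).map f = blockG (F.map f) (n.map f) (e.map f) := by
  ext i j
  rcases i with (i | i) | i <;> rcases j with j | j <;> simp [blockG]

theorem blockA_map {S : Type*} [CommRing S] (f : R →+* S) (a e : Matrix (Fin r) (Fin r) R) :
    (blockA a e).map f = blockA (a.map f) (e.map f) := by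
  ext i j
  rcases i with i | i <;> simp [blockA]

end Blocks

section Field

variable {r : ℕ} {K : Type*} [Field K] [CharZero K] {ι : Type*} [Finite ι]

/-- Summing the inequality over an independent spanning family of planes. -/
theorem sum_plane_bound (N : ℕ) (hN : 2 ≤ N) {S : ι → Submodule K (Fin r → K)}
    (hind : iSupIndep S) (htop : ⨆ i, S i = ⊤) (F n c e : Matrix (Fin r) (Fin r) K)
    (hF : ∀ i, ∀ v ∈ S i, F.mulVecLin v ∈ S i) (hn : ∀ i, ∀ v ∈ S i, n.mulVecLin v ∈ S i)
    (hc : ∀ i, ∀ v ∈ S i, c.mulVecLin v ∈ S i)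
    (he : ∀ i, ∃ μ : K, ∀ v ∈ S i, e.mulVecLin v = μ • v)
    (hrank : ∀ i, Module.finrank K (S i) = 2)
    (hdet : ∀ i, LinearMap.det (F.mulVecLin.restrict (hF i)) = (N : K))
    (hnn : n * n = 0) (hFn : F * n = (N : K) • (n * F))
    (hcne : ∀ i, ∃ v ∈ S i, c *ᵥ v ≠ -v) :
    Module.finrank K (LinearMap.ker (blockG (F - (N : K) • 1) n e).mulVecLin) +
        Module.finrank K (LinearMap.ker (blockA (c + 1) e).mulVecLin) ≤
      Module.finrank K (LinearMap.ker e.mulVecLin) +
        Module.finrank K (LinearMap.ker (blockA n e).mulVecLin) := by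
  classical
  cases nonempty_fintype ι
  choose μ hμ using he
  let J := {i : ι // μ i = 0}
  let P : J → Submodule K (Fin r → K) := fun i => S i.1
  let P2 : J → Submodule K ((Fin r → K) × (Fin r → K)) := fun i => (S i.1).prod (S i.1)
  have hP : iSupIndep P := hind.comp Subtype.val_injective
  -- `ker e` is the sum of the planes killed by `e`
  have hker : LinearMap.ker e.mulVecLin = ⨆ i, P i := by
    refine le_antisymm (fun v hv => ?_) (iSup_le fun i v hv => ?_)
    · obtain ⟨z, rfl⟩ := (Submodule.mem_iSup_iff_exists_dfinsupp' _ _).mp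
        (htop.symm ▸ Submodule.mem_top : v ∈ ⨆ i, S i)
      have hsum : (z.sum fun _ w => (w : Fin r → K)) = ∑ i, (z i : Fin r → K) :=
        Finset.sum_subset (Finset.subset_univ _) (fun i _ hi => by simp_all)
      rw [hsum] at hv ⊢
      rw [LinearMap.mem_ker, map_sum] at hv
      have hz := (iSupIndep_iff_finsetSum_eq_zero_imp_eq_zero S).mp hind Finset.univ
        (fun i => e.mulVecLin (z i)) (fun i _ => by
          rw [hμ i _ (z i).2]; exact Submodule.smul_mem _ _ (z i).2) hv
      refine Submodule.sum_mem _ fun i _ => ?_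
      by_cases hi : μ i = 0
      · exact Submodule.mem_iSup_of_mem (⟨i, hi⟩ : J) (z i).2
      · have h := hz i (Finset.mem_univ i)
        simp only [hμ i _ (z i).2, smul_eq_zero] at h
        rw [h.resolve_left hi]
        exact zero_mem _
    · rw [LinearMap.mem_ker, hμ i.1 v hv, i.2, zero_smul]
  have hP2 : iSupIndep P2 := by
    rw [iSupIndep_iff_finsetSum_eq_zero_imp_eq_zero]
    intro s v hv hz i hi
    have h1 := (iSupIndep_iff_finsetSum_eq_zero_imp_eq_zero P).mp hP s (fun i => (v i).1)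
      (fun i hi => (hv i hi).1) (by simpa [Prod.fst_sum] using congrArg Prod.fst hz) i hi
    have h2 := (iSupIndep_iff_finsetSum_eq_zero_imp_eq_zero P).mp hP s (fun i => (v i).2)
      (fun i hi => (hv i hi).2) (by simpa [Prod.snd_sum] using congrArg Prod.snd hz) i hi
    exact Prod.ext h1 h2
  have hker2 : (LinearMap.ker e.mulVecLin).prod (LinearMap.ker e.mulVecLin) = ⨆ i, P2 i := by
    refine le_antisymm (fun z hz => ?_) (iSup_le fun i z hz => ?_)
    · obtain ⟨h1, h2⟩ := Submodule.mem_prod.mp hz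
      rw [hker] at h1 h2
      have e1 : ∀ x ∈ ⨆ i, P i, ((x, 0) : (Fin r → K) × (Fin r → K)) ∈ ⨆ i, P2 i := by
        intro x hx
        induction hx using Submodule.iSup_induction' with
        | mem i x hx => exact Submodule.mem_iSup_of_mem i ⟨hx, zero_mem _⟩
        | zero => exact zero_mem _
        | add x y _ _ hx hy =>
          simpa using (add_mem hx hy :
            ((x, 0) : (Fin r → K) × (Fin r → K)) + (y, 0) ∈ ⨆ i, P2 i)
      have e2 : ∀ x ∈ ⨆ i, P i, ((0, x) : (Fin r → K) × (Fin r → K)) ∈ ⨆ i, P2 i := by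
        intro x hx
        induction hx using Submodule.iSup_induction' with
        | mem i x hx => exact Submodule.mem_iSup_of_mem i ⟨zero_mem _, hx⟩
        | zero => exact zero_mem _
        | add x y _ _ hx hy =>
          simpa using (add_mem hx hy :
            ((0, x) : (Fin r → K) × (Fin r → K)) + (0, y) ∈ ⨆ i, P2 i)
      simpa using add_mem (e1 _ h1) (e2 _ h2)
    · obtain ⟨h1, h2⟩ := Submodule.mem_prod.mp hz
      rw [hker]
      exact Submodule.mem_prod.mpr ⟨Submodule.mem_iSup_of_mem i h1, Submodule.mem_iSup_of_mem i h2⟩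
  let g : (Fin r → K) × (Fin r → K) →ₗ[K] (Fin r → K) :=
    (F - (N : K) • 1).mulVecLin.coprod (-n.mulVecLin)
  have hg_apply : ∀ x y, g (x, y) = F *ᵥ x - (N : K) • x - n *ᵥ y := fun x y => by
    simp [g, sub_eq_add_neg]
  have hg : ∀ i : J, ∀ z ∈ P2 i, g z ∈ P i := by
    rintro i ⟨x, y⟩ ⟨hx, hy⟩
    rw [hg_apply]
    exact sub_mem (sub_mem (hF _ _ hx) (Submodule.smul_mem _ _ hx)) (hn _ _ hy)
  have hc' : ∀ i : J, ∀ x ∈ P i, (c + 1).mulVecLin x ∈ P i := fun i x hx => by
    rw [Matrix.mulVecLin_apply, Matrix.add_mulVec, Matrix.one_mulVec]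
    exact add_mem (hc _ _ hx) hx
  -- the four dimensions
  have d1 : Module.finrank K (LinearMap.ker (blockG (F - (N : K) • 1) n e).mulVecLin) =
      ∑ i : J, Module.finrank K (LinearMap.ker g ⊓ P2 i : Submodule K _) := by
    rw [← finrank_inf_iSup_eq_sum hP2 hP g hg, ← hker2]
    refine ((LinearEquiv.sumArrowLequivProdArrow (Fin r) (Fin r) K K).ofSubmodules _ _
      (Submodule.ext fun z => ?_)).finrank_eq
    obtain ⟨w, rfl⟩ := (LinearEquiv.sumArrowLequivProdArrow (Fin r) (Fin r) K K).surjective z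
    rw [Submodule.mem_map_equiv, LinearEquiv.symm_apply_apply, LinearMap.mem_ker,
      Matrix.mulVecLin_apply, blockG_mulVec_eq_zero, Submodule.mem_inf, LinearMap.mem_ker,
      Submodule.mem_prod, LinearMap.mem_ker, LinearMap.mem_ker,
      show (LinearEquiv.sumArrowLequivProdArrow (Fin r) (Fin r) K K) w =
        (w ∘ Sum.inl, w ∘ Sum.inr) from rfl, hg_apply, Matrix.sub_mulVec, Matrix.smul_mulVec,
      Matrix.one_mulVec]
    rfl
  have d2 : Module.finrank K (LinearMap.ker (blockA (c + 1) e).mulVecLin) =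
      ∑ i : J, Module.finrank K (LinearMap.ker (c + 1).mulVecLin ⊓ P i : Submodule K _) := by
    rw [← finrank_inf_iSup_eq_sum hP hP _ hc', ← hker,
      show LinearMap.ker (blockA (c + 1) e).mulVecLin =
          LinearMap.ker (c + 1).mulVecLin ⊓ LinearMap.ker e.mulVecLin from
        Submodule.ext fun x => by simp [blockA_mulVec_eq_zero, Matrix.add_mulVec]]
  have d3 : Module.finrank K (LinearMap.ker (blockA n e).mulVecLin) =
      ∑ i : J, Module.finrank K (LinearMap.ker n.mulVecLin ⊓ P i : Submodule K _) := by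
    rw [← finrank_inf_iSup_eq_sum hP hP n.mulVecLin (fun i => hn i.1), ← hker,
      show LinearMap.ker (blockA n e).mulVecLin =
          LinearMap.ker n.mulVecLin ⊓ LinearMap.ker e.mulVecLin from
        Submodule.ext fun x => by simp [blockA_mulVec_eq_zero]]
  have d4 : Module.finrank K (LinearMap.ker e.mulVecLin) =
      ∑ i : J, Module.finrank K (P i) := by
    rw [hker, Submodule.iSup_eq_range_dfinsupp_lsum,
      LinearMap.finrank_range_of_inj hP.dfinsupp_lsum_injective]
    exact Module.finrank_directSum K fun i => P i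
  rw [d1, d2, d3, d4, ← Finset.sum_add_distrib, ← Finset.sum_add_distrib]
  refine Finset.sum_le_sum fun i _ => ?_
  -- one plane
  let f' : Module.End K (S i.1) := F.mulVecLin.restrict (hF i.1)
  let n' : Module.End K (S i.1) := n.mulVecLin.restrict (hn i.1)
  let c' : Module.End K (S i.1) := c.mulVecLin.restrict (hc i.1)
  have key := plane_kernel_bound (hrank i.1) N hN f' n' c' (hdet i.1)
    (LinearMap.ext fun x => Subtype.ext (by
      show n *ᵥ (n *ᵥ (x : Fin r → K)) = 0
      rw [Matrix.mulVec_mulVec, hnn, Matrix.zero_mulVec]))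
    (LinearMap.ext fun x => Subtype.ext (by
      show F *ᵥ (n *ᵥ (x : Fin r → K)) = (N : K) • n *ᵥ (F *ᵥ (x : Fin r → K))
      rw [Matrix.mulVec_mulVec, Matrix.mulVec_mulVec, hFn, Matrix.smul_mulVec]))
    (fun h => by
      obtain ⟨v, hv, hne⟩ := hcne i.1
      exact hne (congrArg Subtype.val (LinearMap.congr_fun h ⟨v, hv⟩)))
  refine le_of_eq_of_le (congrArg₂ (· + ·) ?_ ?_) (key.trans (le_of_eq (congrArg₂ (· + ·) rfl ?_)))
  · -- `g`
    symm
    refine ((Submodule.equivMapOfInjective ((S i.1).subtype.prodMap (S i.1).subtype)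
      (Prod.map_injective.mpr ⟨Subtype.val_injective, Subtype.val_injective⟩) _).trans
        (LinearEquiv.ofEq _ _ (Submodule.ext fun z => ?_))).finrank_eq
    constructor
    · rintro ⟨⟨a, b⟩, hab, rfl⟩
      refine ⟨?_, a.2, b.2⟩
      rw [SetLike.mem_coe, LinearMap.mem_ker, tameMap_apply] at hab
      show g ((a : Fin r → K), (b : Fin r → K)) = 0
      rw [hg_apply]
      exact congrArg Subtype.val hab
    · rintro ⟨hz, h1, h2⟩
      refine ⟨(⟨z.1, h1⟩, ⟨z.2, h2⟩), ?_, rfl⟩
      rw [SetLike.mem_coe, LinearMap.mem_ker, tameMap_apply]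
      refine Subtype.ext ?_
      rw [SetLike.mem_coe, LinearMap.mem_ker, ← Prod.mk.eta (p := z), hg_apply] at hz
      exact hz
  · -- `1 + c`
    symm
    refine ((Submodule.equivMapOfInjective (S i.1).subtype Subtype.val_injective _).trans
      (LinearEquiv.ofEq _ _ (Submodule.ext fun z => ?_))).finrank_eq
    constructor
    · rintro ⟨a, ha, rfl⟩
      refine ⟨?_, a.2⟩
      have h := congrArg Subtype.val ha
      show (c + 1) *ᵥ (a : Fin r → K) = 0
      rw [Matrix.add_mulVec, Matrix.one_mulVec, add_comm]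
      exact h
    · rintro ⟨hz, h1⟩
      refine ⟨⟨z, h1⟩, Subtype.ext ?_, rfl⟩
      have h : (c + 1) *ᵥ z = 0 := hz
      rw [Matrix.add_mulVec, Matrix.one_mulVec, add_comm] at h
      exact h
  · -- `n`
    refine ((Submodule.equivMapOfInjective (S i.1).subtype Subtype.val_injective _).trans
      (LinearEquiv.ofEq _ _ (Submodule.ext fun z => ?_))).finrank_eq
    constructor
    · rintro ⟨a, ha, rfl⟩
      exact ⟨congrArg Subtype.val ha, a.2⟩
    · rintro ⟨hz, h1⟩
      exact ⟨⟨z, h1⟩, Subtype.ext hz, rfl⟩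

end Field

section Count

variable {N : ℕ} [NeZero N] {p : ℕ} [Fact p.Prime] {D : TateData N p}

theorem pow_one_add_of_sq_zero {R : Type*} [Ring R] (n : R) (hn : n * n = 0) :
    ∀ k : ℕ, (1 + n) ^ k = 1 + k • n
  | 0 => by simp
  | k + 1 => by
    rw [pow_succ, pow_one_add_of_sq_zero n hn k, add_mul, one_mul, smul_mul_assoc, mul_add, mul_one,
      hn, add_zero, succ_nsmul]
    abel

/-- **The local count.** -/
theorem exists_card_bound (hT : IsReduced (FullHecke N)) (hN : N.Prime) (hpN : p ≠ N)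
    {E : Matrix (Fin D.r) (Fin D.r) ℤ_[p]} (hE : E ∈ heckeSpan D) {A : ValuationSubring (AlgebraicClosure ℚ)} (hA : A.LiesOverPrime N)
    {τ F : GalQ} (hF : A.IsFrobeniusAt F N) (hn : (D.rho τ - 1) * (D.rho τ - 1) = 0)
    (hFτ : D.rho F * D.rho τ = D.rho τ ^ N * D.rho F) :
    ∃ C : ℕ, ∀ m : ℕ,
      Nat.card (kerMod (blockG (D.rho F - (N : ℤ_[p]) • 1) (D.rho τ - 1) (1 - E)) m) *
          Nat.card (kerMod (blockA (D.rho complexConjugation + 1) (1 - E)) m) ≤
        p ^ C * (Nat.card (kerMod (1 - E) m) *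
          Nat.card (kerMod (blockA (D.rho τ - 1) (1 - E)) m)) := by
  classical
  have := charZero_qpBar (p := p)
  have : Module.IsTorsionFree ℤ_[p] (QpBar p) :=
    Module.isTorsionFree_iff_algebraMap_injective.mpr
      (FLTA.RepTheory.algebraMap_algClosure_injective ℤ_[p])
  obtain ⟨Cg, hCg⟩ :=
    exists_card_kerMod_le (blockG (D.rho F - (N : ℤ_[p]) • 1) (D.rho τ - 1) (1 - E))
  obtain ⟨Cc, hCc⟩ :=
    exists_card_kerMod_le (blockA (D.rho complexConjugation + 1) (1 - E))
  refine ⟨Cg + Cc, fun m => ?_⟩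
  -- over `QpBar`
  obtain ⟨ι, hι, χ, hind, htop⟩ := exists_eigen_decomposition (QpBar p) D.hecke D.hecke_injective
  let φ : Matrix (Fin D.r) (Fin D.r) ℤ_[p] →+* Matrix (Fin D.r) (Fin D.r) (QpBar p) :=
    (algebraMap ℤ_[p] (QpBar p)).mapMatrix
  have hn' : (D.rho τ) = 1 + (D.rho τ - 1) := by abel
  have hNn : D.rho F * (D.rho τ - 1) = (N : ℤ_[p]) • ((D.rho τ - 1) * D.rho F) := by
    have h := hFτ
    rw [hn', pow_one_add_of_sq_zero _ hn, mul_add, mul_one, add_mul, one_mul, smul_mul_assoc,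
      add_right_inj] at h
    rw [h, ← Nat.cast_smul_eq_nsmul ℤ_[p]]
  have hgal : ∀ σ i, ∀ v ∈ matEigenspace (fun t => D.hecke t) (fun t => χ i t),
      (φ (D.rho σ)).mulVecLin v ∈ matEigenspace (fun t => D.hecke t) (fun t => χ i t) :=
    fun σ i v hv => galMat_mem D (χ i) σ v hv
  have hone : ∀ i, ∀ v ∈ matEigenspace (fun t => D.hecke t) (fun t => χ i t),
      (φ (D.rho τ - 1)).mulVecLin v ∈ matEigenspace (fun t => D.hecke t) (fun t => χ i t) := by
    intro i v hv
    rw [map_sub, map_one, Matrix.mulVecLin_apply, Matrix.sub_mulVec, Matrix.one_mulVec]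
    exact sub_mem (hgal τ i v hv) hv
  have he : ∀ i, ∃ μ : QpBar p, ∀ v ∈ matEigenspace (fun t => D.hecke t) (fun t => χ i t),
      (φ (1 - E)).mulVecLin v = μ • v := by
    intro i
    suffices h : ∃ μ : QpBar p, ∀ v ∈ matEigenspace (fun t => D.hecke t) (fun t => χ i t),
        φ E *ᵥ v = μ • v by
      obtain ⟨μ, hμ⟩ := h
      refine ⟨1 - μ, fun v hv => ?_⟩
      rw [Matrix.mulVecLin_apply, map_sub, map_one, Matrix.sub_mulVec, Matrix.one_mulVec, hμ v hv,
        sub_smul, one_smul]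
    suffices h : ∀ X ∈ Algebra.adjoin ℤ_[p] (Set.range fun t : FullHecke N =>
        (D.hecke t).map (Int.cast : ℤ → ℤ_[p])), ∃ μ : QpBar p,
          ∀ v ∈ matEigenspace (fun t => D.hecke t) (fun t => χ i t), φ X *ᵥ v = μ • v from h E hE
    intro X hX
    induction hX using Algebra.adjoin_induction with
    | mem x hx =>
      obtain ⟨t, rfl⟩ := hx
      refine ⟨χ i t, fun v hv => ?_⟩
      rw [RingHom.mapMatrix_apply, map_intCast_map]
      exact hv t
    | algebraMap a =>
      refine ⟨algebraMap ℤ_[p] (QpBar p) a, fun v _ => ?_⟩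
      rw [show φ (algebraMap ℤ_[p] (Matrix (Fin D.r) (Fin D.r) ℤ_[p]) a) =
          algebraMap ℤ_[p] (QpBar p) a • 1 from Matrix.ext fun k l => by
            rcases eq_or_ne k l with rfl | hkl
            · simp [φ, Matrix.algebraMap_matrix_apply]
            · simp [φ, Matrix.algebraMap_matrix_apply, hkl],
        Matrix.smul_mulVec, Matrix.one_mulVec]
    | add x y _ _ hx hy =>
      obtain ⟨μ, hμ⟩ := hx; obtain ⟨ν, hν⟩ := hy
      exact ⟨μ + ν, fun v hv => by rw [map_add, Matrix.add_mulVec, hμ v hv, hν v hv, add_smul]⟩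
    | mul x y _ _ hx hy =>
      obtain ⟨μ, hμ⟩ := hx; obtain ⟨ν, hν⟩ := hy
      exact ⟨ν * μ, fun v hv => by
        rw [map_mul, ← Matrix.mulVec_mulVec, hν v hv, Matrix.mulVec_smul, hμ v hv, smul_smul]⟩
  have hcyc : cycloPadic p F = (N : ℤ_[p]) :=
    FLTA.Galois.cyclotomicCharacter_frobenius p hN (Ne.symm hpN) hA hF
  have hsum := sum_plane_bound (r := D.r) N hN.two_le hind htop (φ (D.rho F)) (φ (D.rho τ - 1))
    (φ (D.rho complexConjugation)) (φ (1 - E)) (hgal F) hone (hgal complexConjugation) he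
    (fun i => D.plane (QpBar p) (χ i))
    (fun i => (det_plane D (χ i) F).trans (by rw [hcyc, map_natCast]))
    (by rw [← map_mul, hn, map_zero])
    (by
      rw [← map_mul, hNn, ← map_mul, Nat.cast_smul_eq_nsmul, map_nsmul, Nat.cast_smul_eq_nsmul])
    (fun i => by
      obtain ⟨v, hv, hne⟩ := D.conj_not_scalar (QpBar p) (χ i) (-1)
      refine ⟨v, hv, fun h => hne ?_⟩
      rw [D.conj_spec, RingHom.mapMatrix_apply, map_intCast_map] at h
      rw [h, neg_smul, one_smul])
  have hFN : (φ (D.rho F) - (N : QpBar p) • 1) = φ (D.rho F - (N : ℤ_[p]) • 1) := by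
    rw [map_sub]
    congr 1
    rw [Nat.cast_smul_eq_nsmul, Nat.cast_smul_eq_nsmul, map_nsmul, map_one]
  have hc1 : φ (D.rho complexConjugation) + 1 = φ (D.rho complexConjugation + 1) := by
    rw [map_add, map_one]
  have hφ : ∀ X, φ X = X.map (algebraMap ℤ_[p] (QpBar p)) := fun X => rfl
  rw [hFN, hc1, hφ, hφ, hφ, hφ] at hsum
  rw [← blockG_map, ← blockA_map, ← blockA_map, finrank_ker_map_eq, finrank_ker_map_eq,
    finrank_ker_map_eq, finrank_ker_map_eq] at hsum
  refine (Nat.mul_le_mul (hCg m) (hCc m)).trans ?_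
  refine le_trans ?_ (Nat.mul_le_mul_left _ (Nat.mul_le_mul (le_card_kerMod _ m)
    (le_card_kerMod _ m)))
  simp only [← pow_add]
  refine Nat.pow_le_pow_right (Fact.out : p.Prime).pos ?_
  linarith [Nat.mul_le_mul_left m hsum]

end Count

end FLTA.Mazur

end
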