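import Fermat.Agent.LevelRaising.AssemblyIdentities
import Fermat.Agent.LevelRaising.AssemblyAdjoint
import Fermat.Agent.Periods.HeckePeriods
import Fermat.Agent.Periods.EichlerShimura
import Fermat.Agent.Petersson.Reduced
import Fermat.Agent.GaloisReps.TateData

/-!
# The Hecke algebra of prime level is reduced

`U_N + w = res ∘ cor ∘ w` factors through `Hom(SL₂(ℤ), ℂ) = 0`, so `U_N` is an involution; it is
then self-adjoint for the symmetrised Petersson pairing, as is every `T_r`.
-/

set_option autoImplicit false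

noncomputable section

open CongruenceSubgroup ModularCurve ModularCurve.Period FLTA.Periods FLTA.LevelRaising FLTA.Petersson
open scoped MatrixGroups

namespace FLTA.Mazur

/-- `Hom(Γ₀(1), ℂ) = 0`. -/
theorem hom_gamma0_one_eq_zero (φ : Additive (Gamma0 1) →+ ℂ) : φ = 0 := by
  have htop : Gamma0 1 = ⊤ :=
    Subgroup.eq_top_iff' _ |>.2 fun A => Gamma0_mem.2 (Subsingleton.elim _ _)
  let e : SL(2, ℤ) →* Gamma0 1 :=
    (MonoidHom.id SL(2, ℤ)).codRestrict _ fun g => htop ▸ Subgroup.mem_top g
  let ψ : Additive SL(2, ℤ) →+ ℂ := φ.comp (MonoidHom.toAdditive e)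
  have hS4 : ModularGroup.S ^ 4 = 1 := by decide
  have hST6 : (ModularGroup.S * ModularGroup.T) ^ 6 = 1 := by decide
  have hS : ψ (Additive.ofMul ModularGroup.S) = 0 := by
    have h := congrArg (fun g => ψ (Additive.ofMul g)) hS4
    simpa using h
  have hT : ψ (Additive.ofMul ModularGroup.T) = 0 := by
    have h := congrArg (fun g => ψ (Additive.ofMul g)) hST6
    simp only [ofMul_pow, ofMul_mul, ofMul_one, map_nsmul, map_add, map_zero, hS, zero_add] at h
    simpa using h
  have hker : ∀ g : SL(2, ℤ), ψ (Additive.ofMul g) = 0 := by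
    intro g
    have hg : g ∈ Subgroup.closure ({ModularGroup.S, ModularGroup.T} : Set SL(2, ℤ)) := by
      rw [SpecialLinearGroup.SL2Z_generators]; exact Subgroup.mem_top _
    induction hg using Subgroup.closure_induction with
    | mem x hx => rcases hx with rfl | rfl <;> assumption
    | one => simp
    | mul x y _ _ hx hy => rw [ofMul_mul, map_add, hx, hy, add_zero]
    | inv x _ hx => rw [ofMul_inv, map_neg, hx, neg_zero]
  refine AddMonoidHom.ext fun z => ?_
  obtain ⟨γ, rfl⟩ := Additive.ofMul.surjective z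
  exact hker (γ : SL(2, ℤ))

/-- `U_N ^ 2 = 1` on parabolic homomorphisms at prime level. -/
theorem heckeHom_self_involutive :
    ∀ (M : ℕ) [NeZero M] (q : ℕ), M = 1 * q → q.Prime → ∀ y : Additive (Gamma0 M) →+ ℂ,
      IsParabolicHom (Gamma0 M) y → heckeHom ℂ M q (heckeHom ℂ M q y) = y := by
  intro M _ q hMq hq
  subst hMq
  haveI : Fact q.Prime := ⟨hq⟩
  haveI : NeZero q := ⟨hq.ne_zero⟩
  have hq1 : ¬ q ∣ 1 := fun h => hq.ne_one (Nat.dvd_one.mp h)
  have hco : Nat.Coprime q 1 := Nat.coprime_one_right q
  have key : ∀ y : Additive (Gamma0 (1 * q)) →+ ℂ, IsParabolicHom (Gamma0 (1 * q)) y →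
      heckeHom ℂ (1 * q) q y = -alRes hco y := fun y hy => by
    have h := inclRes_corRes_alRes ℂ hq1 hco hy
    rw [hom_gamma0_one_eq_zero (corRes (alRes hco y))] at h
    refine eq_neg_of_add_eq_zero_left (h.symm.trans ?_)
    exact AddMonoidHom.ext fun z => rfl
  intro y hy
  have hy' : IsParabolicHom (Gamma0 (1 * q)) (heckeHom ℂ (1 * q) q y) :=
    heckeHom_isParabolicHom ℂ q hy
  rw [key _ hy', key y hy]
  have h2 : alRes hco (-alRes hco y) = -alRes hco (alRes hco y) := AddMonoidHom.ext fun z => rfl
  rw [h2, neg_neg, alRes_alRes]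

variable {N : ℕ} [NeZero N]

theorem heckeULin_mul_self (hN : N.Prime) :
    CuspForm.heckeULin 2 (dvd_refl N) * CuspForm.heckeULin 2 (dvd_refl N) =
      (1 : Module.End ℂ (CuspForm (Gamma0 N) 2)) := by
  refine LinearMap.ext fun f => ?_
  have h := periodHomPair_heckeULin (N := N) (dvd_refl N)
  have hpar : IsParabolicHom (Gamma0 N) (periodHomPair N (f, f)) :=
    (periodPairEquiv N (f, f)).2
  have h2 : periodHomPair N (CuspForm.heckeULin 2 (dvd_refl N) (CuspForm.heckeULin 2 (dvd_refl N) f),
      CuspForm.heckeULin 2 (dvd_refl N) (CuspForm.heckeULin 2 (dvd_refl N) f)) =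
      periodHomPair N (f, f) := by
    rw [h, h]
    exact heckeHom_self_involutive N N (one_mul N).symm hN _ hpar
  exact congrArg Prod.fst (periodHomPair_injective N h2)

/-- The Hecke algebra of prime level is reduced. -/
theorem isReduced_fullHecke (hN : N.Prime) : IsReduced (FLTA.GaloisReps.FullHecke N) := by
  set U : Module.End ℂ (CuspForm (Gamma0 N) 2) := CuspForm.heckeULin 2 (dvd_refl N) with hU
  have hUU : ∀ f, U (U f) = f := fun f => LinearMap.congr_fun (heckeULin_mul_self hN) f
  let P : CuspForm (Gamma0 N) 2 → CuspForm (Gamma0 N) 2 → ℂ :=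
    fun f g => pinner f g + pinner (U f) (U g)
  have hP0 : ∀ f, P f f = 0 → f = 0 := fun f h => by
    refine eq_zero_of_pinner_self_eq_zero ?_
    have h1 := congrArg Complex.re h
    simp only [P, Complex.add_re, Complex.zero_re] at h1
    have h2 := pinner_self_re_nonneg f
    have h3 := pinner_self_re_nonneg (U f)
    refine Complex.ext (by rw [Complex.zero_re]; linarith) ?_
    rw [pinner_self_eq, Complex.ofReal_im, Complex.zero_im]
  have hT : ∀ t ∈ CuspForm.heckeAlgebra N 2 (∅ : Set ℕ),
      ∀ f g, P (t f) g = P f (t g) := by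
    intro t ht
    induction ht using Algebra.adjoin_induction with
    | mem x hx =>
      rcases hx with ⟨ℓ, hℓ, hℓN, -, rfl⟩ | ⟨q, hqN, hq, -, rfl⟩
      · intro f g
        have hc : ∀ f, U (CuspForm.heckeTLin 2 hℓ hℓN f) = CuspForm.heckeTLin 2 hℓ hℓN (U f) :=
          fun f => (LinearMap.congr_fun
            (CuspForm.heckeTLin_heckeULin_comm 2 hℓ hℓN (dvd_refl N)).eq f).symm
        have hs : ∀ f g : CuspForm (Gamma0 N) 2,
            pinner (CuspForm.heckeTLin 2 hℓ hℓN f) g = pinner f (CuspForm.heckeTLin 2 hℓ hℓN g) :=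
          fun f g => pinner_heckeAlgebra (S := {N})
            (fun r hr hrN => (Nat.prime_dvd_prime_iff_eq hr hN).mp hrN)
            ⟨_, CuspForm.heckeTLin_mem_heckeAlgebra hℓ hℓN (fun h => hℓN (h ▸ dvd_refl N))⟩ f g
        simp only [P, hc, hs]
      · obtain rfl := (Nat.prime_dvd_prime_iff_eq hq hN).mp hqN
        intro f g
        show pinner (U f) g + pinner (U (U f)) (U g) = pinner f (U g) + pinner (U f) (U (U g))
        rw [hUU, hUU, add_comm]
    | algebraMap n =>
      rw [Algebra.algebraMap_eq_smul_one]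
      have h1 : ∀ f g, P ((1 : Module.End ℂ (CuspForm (Gamma0 N) 2)) f) g =
          P f ((1 : Module.End ℂ (CuspForm (Gamma0 N) 2)) g) := fun f g => rfl
      let S : AddSubgroup (Module.End ℂ (CuspForm (Gamma0 N) 2)) :=
        { carrier := {t | ∀ f g, P (t f) g = P f (t g)}
          add_mem' := fun {s t} hs ht f g => by
            simp only [P, LinearMap.add_apply, map_add, pinner_add_left, pinner_add_right] at hs ht ⊢
            linear_combination hs f g + ht f g
          zero_mem' := fun f g => by
            have hz : ∀ a : CuspForm (Gamma0 N) 2, pinner (0 : CuspForm (Gamma0 N) 2) a = 0 ∧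
                pinner a 0 = 0 := fun a => by
              have h : pinner (0 : CuspForm (Gamma0 N) 2) a = 0 := by
                simpa using pinner_smul_left 0 (0 : CuspForm (Gamma0 N) 2) a
              exact ⟨h, by rw [pinner_conj_symm 0 a, h, map_zero]⟩
            simp only [P, LinearMap.zero_apply, map_zero, (hz _).1, (hz _).2]
          neg_mem' := fun {t} ht f g => by
            have hl : ∀ a b : CuspForm (Gamma0 N) 2, pinner (-a) b = -pinner a b := fun a b => by
              simpa using pinner_smul_left (-1) a b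
            have hr : ∀ a b : CuspForm (Gamma0 N) 2, pinner a (-b) = -pinner a b := fun a b => by
              rw [pinner_conj_symm (-b) a, hl, map_neg, ← pinner_conj_symm]
            simp only [P, LinearMap.neg_apply, map_neg, hl, hr] at ht ⊢
            linear_combination -(ht f g) }
      exact S.zsmul_mem h1 n
    | add x y _ _ hx hy =>
      intro f g
      simp only [P, LinearMap.add_apply, map_add, pinner_add_left, pinner_add_right] at hx hy ⊢
      linear_combination hx f g + hy f g
    | mul x y hxm hym hx hy =>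
      intro f g
      have hc : x * y = y * x := congrArg Subtype.val
        (mul_comm (⟨x, hxm⟩ : CuspForm.heckeAlgebra N 2 (∅ : Set ℕ)) ⟨y, hym⟩)
      conv_rhs => rw [hc]
      rw [Module.End.mul_apply, Module.End.mul_apply, hx, hy]
  rw [isReduced_iff_pow_one_lt 2 one_lt_two]
  intro x hx
  refine Subtype.ext (LinearMap.ext fun f => hP0 _ ?_)
  rw [hT _ x.2]
  have h : (x : Module.End ℂ _) ((x : Module.End ℂ _) f) = 0 := by
    simpa [pow_two] using LinearMap.congr_fun (congrArg Subtype.val hx) f
  have hz : ∀ a : CuspForm (Gamma0 N) 2, pinner a 0 = 0 := fun a => by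
    have h : pinner (0 : CuspForm (Gamma0 N) 2) a = 0 := by
      simpa using pinner_smul_left 0 (0 : CuspForm (Gamma0 N) 2) a
    rw [pinner_conj_symm 0 a, h, map_zero]
  simp only [P, h, map_zero, hz, add_zero]

end FLTA.Mazur

end
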