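import Fermat.Agent.Mazur.EisModule
import Fermat.Agent.Mazur.PlaneLocal
import Fermat.Agent.Mazur.PrimeLevel

/-!
# Counting on the planes
-/

set_option autoImplicit false
set_option synthInstance.maxHeartbeats 400000

noncomputable section

open ModularCurve
open scoped Matrix

namespace FLTA.Mazur

open FLTA.GaloisReps

local notation "Qbar" => AlgebraicClosure ℚ

variable {N : ℕ} [NeZero N] {p : ℕ} [Fact p.Prime]

/-- The local count at `N` and at infinity, uniform in the exponent. -/
theorem exists_eisMod_count (D : TateData N p) (hN : N.Prime) (hpN : p ≠ N)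
    {A : ValuationSubring Qbar} (hA : A.LiesOverPrime N) {F τ : GalQ}
    (hF : A.IsFrobeniusAt F N) (hτI : τ ∈ A.inertiaSubgroupIn ℚ)
    (hunip : (D.rho τ - 1) * (D.rho τ - 1) = 0)
    (hrel : D.rho F * D.rho τ = D.rho τ ^ N * D.rho F) (I : EisIdem D) :
    ∃ C : ℕ, ∀ k : ℕ,
      Nat.card {z : eisMod D I.E k × eisMod D I.E k //
          eisAct D I.E (commute_of_mem_heckeSpan D I.mem) k F z.1 - N • z.1 =
            eisAct D I.E (commute_of_mem_heckeSpan D I.mem) k τ z.2 - z.2} *
        Nat.card {x : eisMod D I.E k //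
          eisAct D I.E (commute_of_mem_heckeSpan D I.mem) k complexConjugation x + x = 0} ≤
      p ^ C * (Nat.card (eisMod D I.E k) *
        Nat.card {x : eisMod D I.E k //
          eisAct D I.E (commute_of_mem_heckeSpan D I.mem) k τ x = x}) := by
  obtain ⟨C, hC⟩ := exists_card_bound (D := D) (isReduced_fullHecke hN) hN hpN I.mem hA hF hunip
    hrel
  refine ⟨C, fun k => ?_⟩
  set R := PadicInt.toZModPow (p := p) k with hR
  have hmap : ∀ (σ : GalQ) (v : Fin D.r → ZMod (p ^ k)),
      (D.rho σ - 1).map R *ᵥ v = (D.rho σ).map R *ᵥ v - v := fun σ v => by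
    rw [Matrix.map_sub _ (map_sub _), Matrix.map_one _ (map_zero _) (map_one _), Matrix.sub_mulVec,
      Matrix.one_mulVec]
  have hmap' : ∀ (σ : GalQ) (v : Fin D.r → ZMod (p ^ k)),
      (D.rho σ + 1).map R *ᵥ v = (D.rho σ).map R *ᵥ v + v := fun σ v => by
    rw [Matrix.map_add _ (map_add _), Matrix.map_one _ (map_zero _) (map_one _), Matrix.add_mulVec,
      Matrix.one_mulVec]
  have hFN : ∀ v : Fin D.r → ZMod (p ^ k), (D.rho F - (N : ℤ_[p]) • 1).map R *ᵥ v =
      (D.rho F).map R *ᵥ v - N • v := fun v => by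
    rw [Nat.cast_smul_eq_nsmul, ← RingHom.mapMatrix_apply, map_sub, map_nsmul, map_one,
      RingHom.mapMatrix_apply, Matrix.sub_mulVec, Matrix.smul_mulVec, Matrix.one_mulVec]
  have hmem : ∀ v : Fin D.r → ZMod (p ^ k), v ∈ eisMod D I.E k ↔ (1 - I.E).map R *ᵥ v = 0 :=
    fun v => LinearMap.mem_ker
  refine le_trans (le_of_eq ?_) ((hC k).trans (le_of_eq ?_))
  · congr 1
    · refine Nat.card_congr
        { toFun := fun z => ⟨Sum.elim (z.1.1 : Fin D.r → ZMod (p ^ k))
            (z.1.2 : Fin D.r → ZMod (p ^ k)), ?_⟩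
          invFun := fun z => ⟨(⟨z.1 ∘ Sum.inl, ?_⟩, ⟨z.1 ∘ Sum.inr, ?_⟩), ?_⟩
          left_inv := fun z => rfl
          right_inv := fun z => Subtype.ext (Sum.elim_comp_inl_inr z.1) }
      · rw [mem_kerMod, blockG_map, blockG_mulVec_eq_zero, Sum.elim_comp_inl, Sum.elim_comp_inr,
          hFN, hmap]
        refine ⟨?_, (hmem _).mp z.1.1.2, (hmem _).mp z.1.2.2⟩
        have h := congrArg Subtype.val z.2
        simpa [sub_eq_zero] using h
      · have h := z.2
        rw [mem_kerMod, blockG_map, blockG_mulVec_eq_zero] at h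
        exact (hmem _).mpr h.2.1
      · have h := z.2
        rw [mem_kerMod, blockG_map, blockG_mulVec_eq_zero] at h
        exact (hmem _).mpr h.2.2
      · have h := z.2
        rw [mem_kerMod, blockG_map, blockG_mulVec_eq_zero, hFN, hmap] at h
        refine Subtype.ext ?_
        simpa [sub_eq_zero] using h.1
    · refine Nat.card_congr
        { toFun := fun z => ⟨(z.1 : Fin D.r → ZMod (p ^ k)), ?_⟩
          invFun := fun z => ⟨⟨z.1, ?_⟩, ?_⟩
          left_inv := fun z => rfl
          right_inv := fun z => rfl }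
      · rw [mem_kerMod, blockA_map, blockA_mulVec_eq_zero, hmap']
        exact ⟨congrArg Subtype.val z.2, (hmem _).mp z.1.2⟩
      · have h := z.2
        rw [mem_kerMod, blockA_map, blockA_mulVec_eq_zero] at h
        exact (hmem _).mpr h.2
      · have h := z.2
        rw [mem_kerMod, blockA_map, blockA_mulVec_eq_zero, hmap'] at h
        exact Subtype.ext h.1
  · congr 2
    refine Nat.card_congr
      { toFun := fun z => ⟨⟨z.1, ?_⟩, ?_⟩
        invFun := fun z => ⟨(z.1 : Fin D.r → ZMod (p ^ k)), ?_⟩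
        left_inv := fun z => rfl
        right_inv := fun z => rfl }
    · have h := z.2
      rw [mem_kerMod, blockA_map, blockA_mulVec_eq_zero] at h
      exact (hmem _).mpr h.2
    · have h := z.2
      rw [mem_kerMod, blockA_map, blockA_mulVec_eq_zero, hmap, sub_eq_zero] at h
      exact Subtype.ext h.1
    · rw [mem_kerMod, blockA_map, blockA_mulVec_eq_zero, hmap, sub_eq_zero]
      exact ⟨congrArg Subtype.val z.2, (hmem _).mp z.1.2⟩

end FLTA.Mazur

end
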