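import Fermat.Agent.Mazur.FlatKummer
import Fermat.Agent.Grass.ModularCtx
import Fermat.Agent.Congruence.Frobenius
import Fermat.Agent.S18

/-!
# Galois modules and Kummer classes inside `J₀(N)`
-/

set_option autoImplicit false
set_option synthInstance.maxHeartbeats 400000

noncomputable section

open AlgebraicCurve ModularCurve

namespace FLTA.Mazur

open FLTA.HeckeDatum

local notation "Qbar" => AlgebraicClosure ℚ

variable {N : ℕ} [NeZero N]

/-- Inertia at `ℓ ∤ N` fixes the difference `σ z - z` killed by an integer prime to `ℓ`. -/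
theorem smul_eq_self_of_nsmul_sub_eq_zero {ℓ m : ℕ} (hℓ : ℓ.Prime) (hℓN : ¬ ℓ ∣ N)
    {A : ValuationSubring Qbar} (hA : A.LiesOverPrime ℓ) (hm : ¬ ℓ ∣ m) {σ : GalQ}
    (hσ : σ ∈ A.inertiaSubgroupIn ℚ) {z : JZero N} (hz : m • (σ • z - z) = 0) : σ • z = z := by
  haveI : Fact ℓ.Prime := ⟨hℓ⟩
  have h := FLTA.PlaceRed.reductionInputsModL N hℓN A hA
  refine sub_eq_zero.mp (Fermat.Agent.S18.result N hℓN A hA h m hm _ hz ?_)
  rw [map_sub, FLTA.Congruence.reductionModL_inertia h hσ, sub_self]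

variable {p n : ℕ} [NeZero n] {M : Type} [AddCommGroup M] [Module (ZMod n) M] [Finite M]
  {act : GalQ →* AddMonoid.End M} {incl : M →+ JZero N}

/-- A finite Galois submodule of `J₀(N)` of `p`-power exponent is unramified off `{p, N}`. -/
theorem act_eq_one_of_inertia (hN : N.Prime) (hincl : Function.Injective incl)
    (hact : ∀ σ x, incl (act σ x) = σ • incl x) {e : ℕ} (he : ∀ x : M, p ^ e • x = 0)
    (hp : p.Prime) {ℓ : ℕ} (hℓ : ℓ.Prime) (hlp : ℓ ≠ p) (hlN : ℓ ≠ N)
    {A : ValuationSubring Qbar} (hA : A.LiesOverPrime ℓ) {σ : GalQ}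
    (hσ : σ ∈ A.inertiaSubgroupIn ℚ) : act σ = 1 := by
  refine AddMonoidHom.ext fun x => hincl ?_
  show incl (act σ x) = incl x
  rw [hact]
  refine smul_eq_self_of_nsmul_sub_eq_zero hℓ
    (fun h => hlN ((Nat.prime_dvd_prime_iff_eq hℓ hN).mp h)) hA (m := p ^ e)
    (fun h => hlp ((Nat.prime_dvd_prime_iff_eq hℓ hp).mp (hℓ.dvd_of_dvd_pow h))) hσ ?_
  rw [← hact, ← map_sub, ← map_nsmul, he, map_zero]

omit [NeZero n] [Module (ZMod n) M] in
/-- A finite Galois submodule of `J₀(N)` acts through a finite level. -/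
theorem exists_level_act (hincl : Function.Injective incl)
    (hact : ∀ σ x, incl (act σ x) = σ • incl x) :
    ∃ L : IntermediateField ℚ Qbar, FiniteDimensional ℚ L ∧
      ∀ σ : GalQ, (∀ a ∈ L, σ a = a) → act σ = 1 := by
  choose L hL hfix using fun x : M => FLTA.GaloisReps.exists_finiteDimensional_fix N (incl x)
  haveI := hL
  refine ⟨⨆ x, L x, IntermediateField.finiteDimensional_iSup_of_finite, fun σ hσ =>
    AddMonoidHom.ext fun x => hincl ?_⟩
  show incl (act σ x) = incl x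
  rw [hact]
  exact hfix x σ fun a ha => hσ a (le_iSup L x ha)

omit [NeZero n] [Module (ZMod n) M] in
/-- A finite Galois submodule of `J₀(N)` has a flat model at `p ∤ N`. -/
theorem hasFlatModel_of_incl (hp : p.Prime) (hpN : ¬ p ∣ N) (hincl : Function.Injective incl)
    (hact : ∀ σ x, incl (act σ x) = σ • incl x) : HasFlatModel p M act := by
  haveI : Fact p.Prime := ⟨hp⟩
  obtain ⟨A, hA, h⟩ := FLTA.Grass.exists_reductionInputsModL N (ℓ := p) hpN
  obtain ⟨g, C, -, hinf, hbas⟩ := FLTA.Grass.exists_modularCtx N hpN A hA h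
  exact C.hasFlatModel_torsion hA (arithmeticGalois (modularFunctionFieldFull N))
    (fun σ a => rfl) hinf hbas (FLTA.Grass.exists_fixer_divisor N) act incl hincl hact

/-- The Kummer cocycle of a class `z` with `n • z` rational is a Selmer cocycle. -/
theorem selCond_kummer (hp : p.Prime) (hN : N.Prime) (hpN : p ≠ N) {e : ℕ} (hn : n = p ^ e)
    (hincl : Function.Injective incl) (hact : ∀ σ x, incl (act σ x) = σ • incl x)
    (z : JZero N) {ξ : GalQ → M} (hξ : ∀ σ, incl (ξ σ) = σ • z - z) :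
    SelCond n p N act ξ := by
  haveI : Fact p.Prime := ⟨hp⟩
  have hc : IsCocycle act ξ := by
    refine ⟨fun σ τ => hincl ?_, ?_⟩
    · rw [map_add, hact, hξ, hξ, hξ, smul_sub, mul_smul]
      abel
    · obtain ⟨L, hL, hfix⟩ := FLTA.GaloisReps.exists_finiteDimensional_fix N z
      exact ⟨L, hL, fun σ hσ => hincl (by rw [map_zero, hξ, hfix σ hσ, sub_self])⟩
  refine ⟨hc, fun ℓ hℓ hlp hlN A hA σ hσ => hincl ?_, ?_⟩
  · rw [map_zero, hξ, sub_eq_zero]
    refine smul_eq_self_of_nsmul_sub_eq_zero hℓ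
      (fun h => hlN ((Nat.prime_dvd_prime_iff_eq hℓ hN).mp h)) hA (m := n)
      (fun h => hlp ((Nat.prime_dvd_prime_iff_eq hℓ hp).mp (hℓ.dvd_of_dvd_pow (hn ▸ h)))) hσ ?_
    rw [← hξ, ← map_nsmul, ← Nat.cast_smul_eq_nsmul (ZMod n), ZMod.natCast_self, zero_smul,
      map_zero]
  · have hpN' : ¬ p ∣ N := fun h => hpN ((Nat.prime_dvd_prime_iff_eq hp hN).mp h)
    obtain ⟨A, hA, h⟩ := FLTA.Grass.exists_reductionInputsModL N (ℓ := p) hpN'
    obtain ⟨g, C, -, hinf, hbas⟩ := FLTA.Grass.exists_modularCtx N hpN' A hA h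
    exact C.hasFlatModel_twist hA (arithmeticGalois (modularFunctionFieldFull N))
      (fun σ a => rfl) hinf hbas (FLTA.Grass.exists_fixer_divisor N) act incl hincl hact z hc hξ

end FLTA.Mazur

end
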