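import Fermat.Agent.Mazur.FiniteRed
import Fermat.Agent.Kummer.Comparison
import Fermat.Agent.Mazur.KummerClass

/-!
# Rational `p`-power torsion of `J₀(N)` is bounded
-/

set_option autoImplicit false
set_option synthInstance.maxHeartbeats 400000

noncomputable section

open AlgebraicCurve ModularCurve

namespace FLTA.Mazur

local notation "Qbar" => AlgebraicClosure ℚ

/-- The rational `p`-power torsion is finite. -/
theorem exists_card_rational_torsion_le {N : ℕ} [NeZero N] (hN : N.Prime) {p : ℕ} (hp : p.Prime)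
    (hpN : p ≠ N) :
    ∃ C : ℕ, ∀ (k : ℕ) (T : Finset (JZero N)),
      (∀ x ∈ T, p ^ k • x = 0 ∧ ∀ σ : Qbar ≃ₐ[ℚ] Qbar, σ • x = x) → T.card ≤ p ^ C := by
  classical
  obtain ⟨ℓ, hle, hℓ⟩ := Nat.exists_infinite_primes (p + N + 1)
  have : Fact ℓ.Prime := ⟨hℓ⟩
  have hℓN : ¬ ℓ ∣ N := fun h => by
    have := Nat.le_of_dvd (Nat.pos_of_ne_zero (NeZero.ne N)) h
    omega
  obtain ⟨A, hA⟩ := FLTA.Galois.exists_liesOverPrime hℓ
  have h := FLTA.PlaceRed.reductionInputsModL N hℓN A hA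
  obtain ⟨D, hD0, hD⟩ := exists_pos_nsmul_reductionModL_eq_zero hN hℓ (by omega) hA h
  set a := D.factorization p
  have : NeZero (p ^ a) := ⟨pow_ne_zero _ hp.ne_zero⟩
  refine ⟨Nat.card (FLTA.Kummer.JTors N (p ^ a)), fun k T hT => ?_⟩
  have hmem : ∀ x ∈ T, x ∈ Pic0.torsion Qbar (modularFunctionFieldBar N) (p ^ a) := by
    intro x hx
    obtain ⟨hk, hfix⟩ := hT x hx
    have hDx : D • x = 0 := by
      refine Fermat.Agent.S18.result N hℓN A hA h (p ^ k) (fun hd => ?_) _ ?_ ?_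
      · have := Nat.le_of_dvd hp.pos (hℓ.dvd_of_dvd_pow hd)
        omega
      · rw [← mul_nsmul', mul_comm, mul_nsmul', hk, smul_zero]
      · rw [map_nsmul, hD x hfix]
    obtain ⟨i, -, hi⟩ := (Nat.dvd_prime_pow hp).1 (addOrderOf_dvd_of_nsmul_eq_zero hk)
    have hia : i ≤ a := (hp.pow_dvd_iff_le_factorization hD0.ne').1
      (hi ▸ addOrderOf_dvd_of_nsmul_eq_zero hDx)
    have h0 : p ^ a • x = 0 := addOrderOf_dvd_iff_nsmul_eq_zero.1 (hi ▸ pow_dvd_pow p hia)
    rw [Pic0.mem_torsion]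
    rw [natCast_zsmul, h0]
  refine le_trans ?_ (Nat.lt_pow_self hp.one_lt).le
  rw [← Nat.card_eq_finsetCard T]
  exact Nat.card_le_card_of_injective (fun x : T => (⟨x.1, hmem x.1 x.2⟩ : FLTA.Kummer.JTors N (p ^ a)))
    fun x y e => Subtype.ext (congrArg (fun z : FLTA.Kummer.JTors N (p ^ a) => (z : JZero N)) e)

end FLTA.Mazur

end
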