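import Fermat.Agent.Mazur.Selmer
import Fermat.Agent.Mazur.Constituents
import Mathlib.GroupTheory.PGroup
import Fermat.Prelude.Def_ExtCitation_AdmissibleExtension
import Fermat.Prelude.Def_GaloisRep_ComplexConjugation

/-!
# The Selmer bound for modules with an Eisenstein chain
-/

set_option autoImplicit false

noncomputable section

namespace FLTA.Mazur

open FLTA.HeckeDatum

local notation "Qbar" => AlgebraicClosure ℚ

/-- The mod `p` cyclotomic character. -/
def cycloHom (p : ℕ) [hp : Fact p.Prime] : GalQ →* (ZMod p)ˣ where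
  toFun σ :=
    haveI : NeZero p := ⟨hp.out.ne_zero⟩
    modularCyclotomicCharacter Qbar (ExtCitation.card_rootsOfUnity_eq_self p) (σ : Qbar ≃+* Qbar)
  map_one' := by
    haveI : NeZero p := ⟨hp.out.ne_zero⟩
    exact map_one (modularCyclotomicCharacter Qbar (ExtCitation.card_rootsOfUnity_eq_self p))
  map_mul' σ τ := by
    haveI : NeZero p := ⟨hp.out.ne_zero⟩
    exact map_mul (modularCyclotomicCharacter Qbar (ExtCitation.card_rootsOfUnity_eq_self p))
      (σ : Qbar ≃+* Qbar) (τ : Qbar ≃+* Qbar)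

theorem coe_cycloHom (p : ℕ) [hp : Fact p.Prime] (σ : GalQ) :
    ((cycloHom p σ : (ZMod p)ˣ) : ZMod p) = (ExtCitation.cycloExp p σ : ZMod p) := by
  have : NeZero p := ⟨hp.out.ne_zero⟩
  rw [ExtCitation.cycloExp, ZMod.natCast_zmod_val]
  rfl

theorem nsmul_congr_of_cast {p : ℕ} {M : Type} [AddCommGroup M] {x : M} (hx : p • x = 0)
    {a b : ℕ} (h : (a : ZMod p) = b) : a • x = b • x := by
  have h' : ∀ k : ℕ, k • x = (k % p) • x := fun k => by
    conv_lhs => rw [← Nat.mod_add_div k p]
    rw [add_nsmul, mul_nsmul, hx, nsmul_zero, add_zero]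
  rw [h' a, h' b, (ZMod.natCast_eq_natCast_iff' _ _ _).mp h]

/-- A stable chain whose graded pieces are killed by `p` and by `(σ - 1) (σ - ω σ)`. -/
def HasEisensteinChain (p : ℕ) [Fact p.Prime] {M : Type} [AddCommGroup M]
    (act : GalQ →* AddMonoid.End M) : Prop :=
  ∃ (k : ℕ) (U : ℕ → AddSubgroup M), U 0 = ⊥ ∧ U k = ⊤ ∧ Monotone U ∧
    (∀ i σ, ∀ x ∈ U i, act σ x ∈ U i) ∧
    ∀ i σ, ∀ x ∈ U (i + 1), p • x ∈ U i ∧
      act σ (act σ x) - (1 + ExtCitation.cycloExp p σ) • act σ x
        + ExtCitation.cycloExp p σ • x ∈ U i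

/-- A finite nonzero Galois module without proper stable subgroups, killed by `p` and by
`(σ - 1) (σ - ω σ)`, has order `p`, and its character is trivial or cyclotomic. -/
theorem card_prime_of_simple {p : ℕ} [hp : Fact p.Prime] {M : Type} [AddCommGroup M] [Finite M]
    [Nontrivial M] (act : GalQ →* AddMonoid.End M)
    (hsimple : ∀ S : AddSubgroup M, (∀ σ, ∀ x ∈ S, act σ x ∈ S) → S = ⊥ ∨ S = ⊤)
    (hkill : ∀ x : M, p • x = 0)
    (hrel : ∀ σ x, act σ (act σ x) - (1 + ExtCitation.cycloExp p σ) • act σ x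
        + ExtCitation.cycloExp p σ • x = 0) :
    Nat.card M = p ∧
      ((∀ σ x, act σ x = x) ∨ ∀ σ x, act σ x = ExtCitation.cycloExp p σ • x) := by
  have hmul : ∀ σ τ x, act (σ * τ) x = act σ (act τ x) := fun σ τ x => by rw [map_mul]; rfl
  have hcard : ∀ σ x, act σ x = x → ∀ k : ℕ, act (σ ^ k) x = x := by
    intro σ x h k
    induction k with
    | zero => rw [pow_zero, map_one]; rfl
    | succ k ih => rw [pow_succ, hmul, h, ih]
  -- the kernel of `ω` acts by elements of order `p`
  have hunip : ∀ σ, cycloHom p σ = 1 → ∀ x, act (σ ^ p) x = x := by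
    intro σ hσ x
    have hc : (ExtCitation.cycloExp p σ : ZMod p) = (1 : ℕ) := by
      rw [← coe_cycloHom, hσ, Units.val_one, Nat.cast_one]
    have hy : act σ (act σ x - x) = act σ x - x := by
      have h := hrel σ x
      rw [add_nsmul, one_nsmul, nsmul_congr_of_cast (hkill _) hc,
        nsmul_congr_of_cast (hkill _) hc, one_nsmul, one_nsmul] at h
      rw [map_sub, ← sub_eq_zero, ← h]
      abel
    have hk : ∀ k : ℕ, act (σ ^ k) x = x + k • (act σ x - x) := by
      intro k
      induction k with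
      | zero => rw [pow_zero, map_one, zero_nsmul, add_zero]; rfl
      | succ k ih =>
        rw [pow_succ', hmul, ih, map_add, map_nsmul, hy, succ_nsmul]
        abel
    rw [hk, hkill, add_zero]
  -- a nonzero vector fixed by the kernel of `ω`
  let F : AddSubgroup M :=
    { carrier := {x | ∀ σ, cycloHom p σ = 1 → act σ x = x}
      zero_mem' := fun σ _ => map_zero _
      add_mem' := fun hx hy σ hσ => by rw [map_add, hx σ hσ, hy σ hσ]
      neg_mem' := fun hx σ hσ => by rw [map_neg, hx σ hσ] }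
  have hFstable : ∀ σ, ∀ x ∈ F, act σ x ∈ F := by
    intro τ x hx σ hσ
    have h1 : cycloHom p (τ⁻¹ * σ * τ) = 1 := by
      rw [map_mul, map_mul, hσ, mul_one, map_inv, inv_mul_cancel]
    rw [← hmul, show σ * τ = τ * (τ⁻¹ * σ * τ) by group, hmul, hx _ h1]
  let ρ : (cycloHom p).ker →* Equiv.Perm M :=
    { toFun := fun σ =>
        { toFun := act σ.1
          invFun := act σ.1⁻¹
          left_inv := fun x => by rw [← hmul, inv_mul_cancel, map_one]; rfl
          right_inv := fun x => by rw [← hmul, mul_inv_cancel, map_one]; rfl }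
      map_one' := Equiv.ext fun x => by
        show act 1 x = x
        rw [map_one]; rfl
      map_mul' := fun σ τ => Equiv.ext fun x => hmul σ.1 τ.1 x }
  have hP : IsPGroup p ρ.range := by
    rintro ⟨_, σ, rfl⟩
    refine ⟨1, Subtype.ext ?_⟩
    rw [pow_one, SubmonoidClass.coe_pow, ← map_pow]
    exact Equiv.ext fun x => hunip σ.1 σ.2 x
  have hpM : p ∣ Nat.card M := by
    obtain ⟨x, hx⟩ := exists_ne (0 : M)
    rw [← addOrderOf_eq_prime (hkill x) hx]
    exact addOrderOf_dvd_natCard x
  obtain ⟨b, hb, hb0⟩ := hP.exists_fixed_point_of_prime_dvd_card_of_fixed_point M hpM (a := 0)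
    (fun g => by obtain ⟨_, σ, rfl⟩ := g; exact map_zero (act σ.1))
  have hFtop : F = ⊤ := (hsimple F hFstable).resolve_left fun h => hb0
    ((AddSubgroup.mem_bot.mp (h ▸ fun σ hσ => hb ⟨ρ ⟨σ, hσ⟩, ⟨σ, hσ⟩, rfl⟩ : b ∈ (⊥ : AddSubgroup M))).symm)
  have hH : ∀ σ, cycloHom p σ = 1 → ∀ x, act σ x = x := fun σ hσ x =>
    (hFtop ▸ AddSubgroup.mem_top x : x ∈ F) σ hσ
  -- a generator of the Galois group of `μ_p`
  obtain ⟨u, hu⟩ := IsCyclic.exists_generator (α := (ZMod p)ˣ)
  obtain ⟨A, hA⟩ := FLTA.Galois.exists_liesOverPrime hp.out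
  obtain ⟨s, -, hs⟩ := FLTA.Galois.exists_inertia_cycloExp p hA u
  have hsu : cycloHom p s = u := Units.ext ((coe_cycloHom p s).trans hs)
  have hgen : ∀ σ, ∃ k : ℕ, cycloHom p σ = cycloHom p s ^ k ∧ ∀ x, act σ x = act (s ^ k) x := by
    intro σ
    obtain ⟨k, hk⟩ : cycloHom p σ ∈ Submonoid.powers u :=
      mem_powers_iff_mem_zpowers.mpr (hu _)
    refine ⟨k, by rw [hsu]; exact hk.symm, fun x => ?_⟩
    have h1 : cycloHom p ((s ^ k)⁻¹ * σ) = 1 := by
      rw [map_mul, map_inv, map_pow, hsu]
      exact inv_mul_eq_one.mpr hk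
    rw [show σ = s ^ k * ((s ^ k)⁻¹ * σ) by group, hmul, hH _ h1]
  have hcyc : (∀ σ (S : AddSubgroup M), ∀ x ∈ S, act σ x ∈ S) → Nat.card M = p := by
    intro hall
    obtain ⟨x, hx⟩ := exists_ne (0 : M)
    rcases hsimple (AddSubgroup.zmultiples x) (fun σ y hy => hall σ _ y hy) with h | h
    · exact absurd ((AddSubgroup.zmultiples_eq_bot).mp h) hx
    · rw [← AddSubgroup.card_top (G := M), ← h, Nat.card_zmultiples,
        addOrderOf_eq_prime (hkill x) hx]
  let K : AddSubgroup M :=
    { carrier := {x | act s x = x}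
      zero_mem' := map_zero _
      add_mem' := fun hx hy => by
        show act s _ = _
        rw [map_add, hx, hy]
      neg_mem' := fun hx => by
        show act s _ = _
        rw [map_neg, hx] }
  have hKstable : ∀ σ, ∀ x ∈ K, act σ x ∈ K := by
    intro σ x hx
    obtain ⟨k, -, hk⟩ := hgen σ
    show act s (act σ x) = act σ x
    rw [hk, hcard s x hx, show act s x = x from hx]
  rcases hsimple K hKstable with hK | hK
  · -- cyclotomic
    have hs' : ∀ x, act s x = ExtCitation.cycloExp p s • x := by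
      intro x
      have hmem : act s x - ExtCitation.cycloExp p s • x ∈ K := by
        show act s _ = _
        rw [map_sub, map_nsmul, ← sub_eq_zero, ← hrel s x, add_nsmul, one_nsmul]
        abel
      rw [hK, AddSubgroup.mem_bot, sub_eq_zero] at hmem
      exact hmem
    have hall : ∀ σ x, act σ x = ExtCitation.cycloExp p σ • x := by
      intro σ x
      obtain ⟨k, hk, hk'⟩ := hgen σ
      have h1 : act (s ^ k) x = ExtCitation.cycloExp p s ^ k • x := by
        clear hk hk'
        induction k with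
        | zero => rw [pow_zero, map_one, pow_zero, one_nsmul]; rfl
        | succ k ih => rw [pow_succ', hmul, ih, map_nsmul, hs', ← mul_nsmul', pow_succ]
      rw [hk', h1]
      refine nsmul_congr_of_cast (hkill x) ?_
      rw [Nat.cast_pow, ← coe_cycloHom, ← coe_cycloHom, ← Units.val_pow_eq_pow_val, hk]
    exact ⟨hcyc fun σ S x hx => hall σ x ▸ S.nsmul_mem hx _, Or.inr hall⟩
  · -- trivial
    have hall : ∀ σ x, act σ x = x := by
      intro σ x
      obtain ⟨k, -, hk⟩ := hgen σ
      exact (hk x).trans (hcard s x (hK ▸ AddSubgroup.mem_top x : x ∈ K) k)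
    exact ⟨hcyc fun σ S x hx => (hall σ x).symm ▸ hx, Or.inl hall⟩

/-- A finite Galois module over `ℤ/p^m` with a flat model at `p`, unramified off `{p, N}` and with
an Eisenstein chain has at most `(#M)^2` Selmer triples (local conditions: inertia at a place over
`N`, and complex conjugation). -/
theorem selBound_of_eisensteinChain {p m N : ℕ} [Fact p.Prime] (hN : N.Prime) (hpN : p ≠ N)
    {AN : ValuationSubring Qbar} (hAN : AN.LiesOverPrime N)
    {M : Type} [AddCommGroup M] [Module (ZMod (p ^ m)) M] [Finite M]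
    (act : GalQ →* AddMonoid.End M)
    (hsmooth : ∃ L : IntermediateField ℚ Qbar, FiniteDimensional ℚ L ∧
      ∀ σ : GalQ, (∀ x ∈ L, σ x = x) → act σ = 1)
    (hM : HasFlatModel p M act)
    (hunr : ∀ ℓ : ℕ, ℓ.Prime → ℓ ≠ p → ℓ ≠ N → ∀ A : ValuationSubring Qbar,
      A.LiesOverPrime ℓ → ∀ σ ∈ A.inertiaSubgroupIn ℚ, act σ = 1)
    (hchain : HasEisensteinChain p act) :
    SelBound (p ^ m) p N (AN.inertiaSubgroupIn ℚ : Set GalQ) {complexConjugation} act := by
  have hp : p.Prime := Fact.out
  have : NeZero (p ^ m) := ⟨pow_ne_zero _ hp.ne_zero⟩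
  induction hd : Nat.card M using Nat.strong_induction_on generalizing M with
  | _ d ih =>
  subst hd
  rcases subsingleton_or_nontrivial M with hsub | hnt
  · refine ⟨(Set.finite_singleton ((0, 0, 0) : (GalQ → M) × M × M)).subset
      fun t _ => Subsingleton.elim _ _, ?_⟩
    rw [Nat.card_eq_one_iff_unique.mpr ⟨hsub, inferInstance⟩, one_pow]
    exact Finite.card_le_one_iff_subsingleton.mpr inferInstance
  by_cases hS : ∃ S : Submodule (ZMod (p ^ m)) M, S ≠ ⊥ ∧ S ≠ ⊤ ∧ ∀ σ, ∀ x ∈ S, act σ x ∈ S
  · obtain ⟨S, hbot, htop, hst⟩ := hS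
    let actS : GalQ →* AddMonoid.End S :=
      { toFun := fun σ => ((act σ).comp S.subtype.toAddMonoidHom).codRestrict S
          fun x => hst σ x.1 x.2
        map_one' := AddMonoidHom.ext fun x => Subtype.ext (by
          show act 1 x.1 = x.1
          rw [map_one]; rfl)
        map_mul' := fun σ τ => AddMonoidHom.ext fun x => Subtype.ext (by
          show act (σ * τ) x.1 = act σ (act τ x.1)
          rw [map_mul]; rfl) }
    let actQ : GalQ →* AddMonoid.End (M ⧸ S) :=
      { toFun := fun σ => (S.mapQ S (AddMonoidHom.toZModLinearMap (p ^ m) (act σ))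
          fun x hx => hst σ x hx).toAddMonoidHom
        map_one' := AddMonoidHom.ext fun x => by
          induction x using Submodule.Quotient.induction_on with
          | _ y =>
            show Submodule.Quotient.mk (act 1 y) = Submodule.Quotient.mk y
            rw [map_one]; rfl
        map_mul' := fun σ τ => AddMonoidHom.ext fun x => by
          induction x using Submodule.Quotient.induction_on with
          | _ y =>
            show Submodule.Quotient.mk (act (σ * τ) y) = Submodule.Quotient.mk (act σ (act τ y))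
            rw [map_mul]; rfl }
    have : Finite (M ⧸ S) := Finite.of_surjective S.mkQ S.mkQ_surjective
    obtain ⟨L, hL, hLa⟩ := hsmooth
    obtain ⟨k, U, hU0, hUk, hUm, hUst, hUg⟩ := hchain
    have hScard : Nat.card M = Nat.card S * Nat.card (M ⧸ S) :=
      Submodule.card_eq_card_quotient_mul_card S
    have h1 : 1 < Nat.card S := by
      have := Submodule.nontrivial_iff_ne_bot.mpr hbot
      exact Finite.one_lt_card
    have h2 : 1 < Nat.card (M ⧸ S) := by
      have := Submodule.Quotient.nontrivial_iff.mpr htop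
      exact Finite.one_lt_card
    refine selBound_of_exact hp hM S.subtype.toAddMonoidHom S.mkQ.toAddMonoidHom
      S.injective_subtype S.mkQ_surjective (fun x => ?_) (fun σ x => rfl) (fun σ x => rfl)
      (ih _ ?_ (act := actS) ⟨L, hL, fun σ hσ => ?_⟩ ?_ ?_ ?_ rfl)
      (ih _ ?_ (act := actQ) ⟨L, hL, fun σ hσ => ?_⟩ ?_ ?_ ?_ rfl)
    · simp
    · rw [hScard]; exact lt_mul_of_one_lt_right (by omega) h2
    · exact AddMonoidHom.ext fun x => Subtype.ext (DFunLike.congr_fun (hLa σ hσ) x.1)
    · exact HasFlatModel.of_injective hp S.subtype.toAddMonoidHom S.injective_subtype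
        (fun σ x => rfl) hM
    · exact fun ℓ hℓ hlp hlN A hA σ hσ => AddMonoidHom.ext fun x =>
        Subtype.ext (DFunLike.congr_fun (hunr ℓ hℓ hlp hlN A hA σ hσ) x.1)
    · exact ⟨k, fun i => (U i).comap S.subtype.toAddMonoidHom,
        by simp only [hU0]; exact AddMonoidHom.ker_eq_bot_iff _ |>.mpr S.injective_subtype,
        by simp only [hUk]; exact AddSubgroup.comap_top _,
        fun i j hij => AddSubgroup.comap_mono (hUm hij),
        fun i σ x hx => hUst i σ x.1 hx, fun i σ x hx => hUg i σ x.1 hx⟩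
    · rw [hScard]; exact lt_mul_of_one_lt_left (by omega) h1
    · refine AddMonoidHom.ext fun x => ?_
      induction x using Submodule.Quotient.induction_on with
      | _ y => exact congrArg Submodule.Quotient.mk (DFunLike.congr_fun (hLa σ hσ) y)
    · exact HasFlatModel.of_surjective hp S.mkQ.toAddMonoidHom S.mkQ_surjective
        (fun σ x => rfl) hM
    · refine fun ℓ hℓ hlp hlN A hA σ hσ => AddMonoidHom.ext fun x => ?_
      induction x using Submodule.Quotient.induction_on with
      | _ y =>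
        exact congrArg Submodule.Quotient.mk (DFunLike.congr_fun (hunr ℓ hℓ hlp hlN A hA σ hσ) y)
    · refine ⟨k, fun i => (U i).map S.mkQ.toAddMonoidHom, by simp [hU0],
        by simp only [hUk]; exact AddSubgroup.map_top_of_surjective _ S.mkQ_surjective,
        fun i j hij => AddSubgroup.map_mono (hUm hij), fun i σ x hx => ?_, fun i σ x hx => ?_⟩
      · obtain ⟨y, hy, rfl⟩ := hx
        exact ⟨act σ y, hUst i σ y hy, rfl⟩
      · obtain ⟨y, hy, rfl⟩ := hx
        exact ⟨⟨p • y, (hUg i σ y hy).1, map_nsmul _ _ _⟩, _, (hUg i σ y hy).2, rfl⟩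
  push Not at hS
  obtain ⟨k, U, hU0, hUk, hUm, hUst, hUg⟩ := hchain
  have hsimple : ∀ S : AddSubgroup M, (∀ σ, ∀ x ∈ S, act σ x ∈ S) → S = ⊥ ∨ S = ⊤ := by
    intro S hst
    by_contra hcon
    push Not at hcon
    obtain ⟨σ, x, hx, hx'⟩ := hS (AddSubgroup.toZModSubmodule (p ^ m) S)
      (fun h => hcon.1 (by simpa using h)) (fun h => hcon.2 (by simpa using h))
    exact hx' (hst σ x hx)
  obtain ⟨i, hi0, hi1⟩ : ∃ i, U i = ⊥ ∧ U (i + 1) = ⊤ := by
    by_contra hcon
    push Not at hcon
    have : ∀ i, U i = ⊥ := fun i => by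
      induction i with
      | zero => exact hU0
      | succ i ih => exact (hsimple _ (hUst (i + 1))).resolve_right (hcon i ih)
    exact bot_ne_top ((this k).symm.trans hUk)
  have hg : ∀ σ x, p • x = 0 ∧ act σ (act σ x) - (1 + ExtCitation.cycloExp p σ) • act σ x
      + ExtCitation.cycloExp p σ • x = 0 := fun σ x => by
    have h := hUg i σ x (hi1 ▸ AddSubgroup.mem_top x)
    rw [hi0, AddSubgroup.mem_bot, AddSubgroup.mem_bot] at h
    exact h
  obtain ⟨hcard, hcase⟩ := card_prime_of_simple act hsimple (fun x => (hg 1 x).1)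
    fun σ x => (hg σ x).2
  exact selBound_of_card_prime hN hpN hAN hcard hcase

end FLTA.Mazur

end
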