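import Fermat.Agent.Galois.Places
import Fermat.Agent.RT.LocalGalois
import Fermat.Prelude.Def_EllipticCurve_FrobeniusTrace
import Mathlib.GroupTheory.PGroup

/-!
# Tame inertia: one generator for all finite `p`-quotients
-/

set_option autoImplicit false

noncomputable section

namespace FLTA.Mazur

local notation "Qbar" => AlgebraicClosure ℚ
local notation "Γ" => AlgebraicClosure ℚ ≃ₐ[ℚ] AlgebraicClosure ℚ

/-- At a place over `N ≠ p` one inertia element generates the image of inertia in every finite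
quotient in which that image is a `p`-group, and Frobenius conjugates it to its `N`-th power. -/
theorem exists_tameGenerator {p N : ℕ} (hp : p.Prime) (hN : N.Prime) (hpN : p ≠ N)
    {A : ValuationSubring Qbar} (hA : A.LiesOverPrime N) :
    ∃ τ ∈ A.inertiaSubgroupIn ℚ, ∀ (X : Type) [Group X] [Finite X] (ρ : Γ →* X),
      (∃ L : IntermediateField ℚ Qbar, FiniteDimensional ℚ L ∧
        ∀ σ : Γ, (∀ x ∈ L, σ x = x) → ρ σ = 1) →
      IsPGroup p ((A.inertiaSubgroupIn ℚ).map ρ) →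
      (∀ σ ∈ A.inertiaSubgroupIn ℚ, ρ σ ∈ Subgroup.zpowers (ρ τ)) ∧
        ∀ F : Γ, A.IsFrobeniusAt F N → ρ (F * τ * F⁻¹) = ρ τ ^ N := by
  obtain ⟨τ, hτ⟩ := FLTA.RT.LocalGalois.exists_isTameGenerator hN hp hpN hA
  refine ⟨τ, hτ.1, fun X _ _ ρ hfin hP => ?_⟩
  have hpro : ∀ σ ∈ A.inertiaSubgroupIn ℚ, ∃ j : ℕ, ρ σ ^ p ^ j = 1 := by
    intro σ hσ
    obtain ⟨j, hj⟩ := hP ⟨ρ σ, Subgroup.mem_map_of_mem ρ hσ⟩
    exact ⟨j, congrArg Subtype.val hj⟩
  refine ⟨fun σ hσ => ?_, fun F hF => ?_⟩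
  · obtain ⟨j, hj⟩ :=
      FLTA.RT.LocalGalois.exists_apply_eq_pow ρ hN hA hp hpN hτ hfin hpro hσ
    exact ⟨j, by simp [hj]⟩
  · rw [map_mul, map_mul, map_inv,
      FLTA.RT.LocalGalois.frobenius_tame_relation ρ hN hA hp hpN hτ hfin hpro hF,
      mul_inv_cancel_right]

end FLTA.Mazur

end
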