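import Fermat.Agent.Mazur.Selmer
import Fermat.Agent.Mazur.SelmerBound
import Fermat.Agent.Mazur.Tame

/-!
# From the bound on Selmer triples to an exponent for all Selmer classes
-/

set_option autoImplicit false

noncomputable section

namespace FLTA.Mazur

open FLTA.HeckeDatum

local notation "Qbar" => AlgebraicClosure ℚ

theorem exists_pow_one_add_eq_one {R : Type*} [Ring R] (w : R) (p m : ℕ) (hw : w ^ 3 = 0)
    (hp : ((p ^ m : ℕ) : R) = 0) : ∃ j : ℕ, (1 + w) ^ p ^ j = 1 := by
  have h3 : w * w * w = 0 := by rw [← hw, pow_three, mul_assoc]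
  have key : ∀ k : ℕ, (1 + w) ^ k = 1 + k • w + k.choose 2 • (w * w) := by
    intro k
    induction k with
    | zero => simp
    | succ k ih =>
      rw [pow_succ, ih, Nat.choose_succ_succ, Nat.choose_one_right]
      simp only [add_mul, mul_add, one_mul, mul_one, smul_mul_assoc, h3, smul_zero, add_smul,
        one_smul, add_zero]
      abel
  refine ⟨m + 1, ?_⟩
  have h1 : ((p ^ (m + 1) : ℕ) : R) = 0 := by
    rw [pow_succ, Nat.cast_mul, hp, zero_mul]
  have h2 : (((p ^ (m + 1)).choose 2 : ℕ) : R) = 0 := by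
    obtain ⟨c, hc⟩ : p ^ m ∣ (p ^ (m + 1)).choose 2 := by
      rw [Nat.choose_two_right]
      obtain ⟨d, hd⟩ := even_iff_two_dvd.mp (Nat.even_mul_pred_self (p ^ (m + 1)))
      rw [hd, Nat.mul_div_cancel_left _ (by norm_num)]
      rcases Nat.even_or_odd (p ^ (m + 1) - 1) with ⟨e, he⟩ | ho
      · refine ⟨p * e, ?_⟩
        rw [he] at hd
        have : 2 * d = 2 * (p ^ m * (p * e)) := by rw [← hd, pow_succ]; ring
        omega
      · rcases Nat.eq_zero_or_pos (p ^ (m + 1)) with h0 | hpos
        · rw [h0] at hd; exact ⟨0, by simp at hd; omega⟩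
        have he : Even p := by
          have : Even (p ^ (m + 1)) := by
            rcases ho with ⟨e, he⟩; exact ⟨e + 1, by omega⟩
          exact (Nat.even_pow.mp this).1
        obtain ⟨e, he⟩ := he
        refine ⟨e * (p ^ (m + 1) - 1), ?_⟩
        have : 2 * d = 2 * (p ^ m * (e * (p ^ (m + 1) - 1))) := by
          rw [← hd, pow_succ, he]; ring
        omega
    rw [hc, Nat.cast_mul, hp, zero_mul]
  rw [key, nsmul_eq_mul, nsmul_eq_mul, h1, h2]
  simp

variable {p m N : ℕ} [Fact p.Prime] {M : Type} [AddCommGroup M] [Module (ZMod (p ^ m)) M]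
  {act : GalQ →* AddMonoid.End M}

theorem natCast_end_eq_zero {P : Type} [AddCommGroup P] [Module (ZMod (p ^ m)) P] :
    ((p ^ m : ℕ) : AddMonoid.End P) = 0 := by
  refine AddMonoidHom.ext fun x => ?_
  show (p ^ m) • x = 0
  rw [← Nat.cast_smul_eq_nsmul (ZMod (p ^ m)), ZMod.natCast_self,
    zero_smul]

theorem isCocycle_coboundary
    (hsmooth : ∃ L : IntermediateField ℚ Qbar, FiniteDimensional ℚ L ∧
      ∀ σ : GalQ, (∀ x ∈ L, σ x = x) → act σ = 1) (μ : M) :
    IsCocycle act fun σ => act σ μ - μ := by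
  obtain ⟨L, hL, h⟩ := hsmooth
  refine ⟨fun σ τ => ?_, L, hL, fun σ hσ => ?_⟩
  · simp only [map_mul, map_sub]
    show act σ (act τ μ) - μ = _
    abel
  · simp [h σ hσ]

variable [Finite M]

/-- Coboundaries satisfy the Selmer conditions. -/
theorem selCond_coboundary (hM : HasFlatModel p M act)
    (hsmooth : ∃ L : IntermediateField ℚ Qbar, FiniteDimensional ℚ L ∧
      ∀ σ : GalQ, (∀ x ∈ L, σ x = x) → act σ = 1)
    (hunr : ∀ ℓ : ℕ, ℓ.Prime → ℓ ≠ p → ℓ ≠ N → ∀ A : ValuationSubring Qbar,
      A.LiesOverPrime ℓ → ∀ σ ∈ A.inertiaSubgroupIn ℚ, act σ = 1) (μ : M) :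
    SelCond (p ^ m) p N act fun σ => act σ μ - μ := by
  haveI : NeZero (p ^ m) := ⟨pow_ne_zero _ (Fact.out : p.Prime).ne_zero⟩
  refine ⟨isCocycle_coboundary hsmooth μ, fun ℓ hℓ h1 h2 A hA σ hσ => ?_, ?_⟩
  · simp [hunr ℓ hℓ h1 h2 A hA σ hσ]
  · have h0 : SelCond (p ^ m) p N act (0 : GalQ → M) := selCond_zero Fact.out hM
    let f : M × ZMod (p ^ m) →+ M × ZMod (p ^ m) :=
      { toFun := fun z => (z.1 + z.2 • μ, z.2)
        map_zero' := by simp
        map_add' := fun z w => by
          simp only [Prod.fst_add, Prod.snd_add, Prod.mk_add_mk, add_smul]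
          congr 1
          abel }
    refine HasFlatModel.of_injective Fact.out f ?_ (fun σ z => ?_) h0.flat
    · intro z w h
      have h2' : (f z).2 = (f w).2 := by rw [h]
      have h2 : z.2 = w.2 := h2'
      have h1 : (f z).1 = (f w).1 := by rw [h]
      simp only [f, AddMonoidHom.coe_mk, ZeroHom.coe_mk, h2, add_left_inj] at h1
      exact Prod.ext h1 h2
    · simp only [f, AddMonoidHom.coe_mk, ZeroHom.coe_mk, twistAct_apply, Pi.zero_apply, smul_zero,
        add_zero, map_add, act_zmod_smul, smul_sub]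
      refine Prod.ext ?_ rfl
      show (_ : M) = _
      abel

variable {A : ValuationSubring Qbar} {τ : GalQ}

/-- What one tame generator gives on the extensions `M × ℤ/p^m`. -/
theorem tame_twist (hτ : ∀ (X : Type) [Group X] [Finite X] (ρ : GalQ →* X),
      (∃ L : IntermediateField ℚ Qbar, FiniteDimensional ℚ L ∧
        ∀ σ : GalQ, (∀ x ∈ L, σ x = x) → ρ σ = 1) →
      IsPGroup p ((A.inertiaSubgroupIn ℚ).map ρ) →
      (∀ σ ∈ A.inertiaSubgroupIn ℚ, ρ σ ∈ Subgroup.zpowers (ρ τ)) ∧
        ∀ F : GalQ, A.IsFrobeniusAt F N → ρ (F * τ * F⁻¹) = ρ τ ^ N)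
    (hsmooth : ∃ L : IntermediateField ℚ Qbar, FiniteDimensional ℚ L ∧
      ∀ σ : GalQ, (∀ x ∈ L, σ x = x) → act σ = 1)
    (hI2 : ∀ s ∈ A.inertiaSubgroupIn ℚ, ∀ x, act s (act s x - x) = act s x - x)
    {ξ : GalQ → M} (hξ : IsCocycle act ξ) :
    (∀ z : M × ZMod (p ^ m), twistAct (p ^ m) act hξ τ z = z →
        ∀ σ ∈ A.inertiaSubgroupIn ℚ, twistAct (p ^ m) act hξ σ z = z) ∧
      ∀ F : GalQ, A.IsFrobeniusAt F N → ∀ z : M × ZMod (p ^ m),
        twistAct (p ^ m) act hξ F (twistAct (p ^ m) act hξ τ z) =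
          (twistAct (p ^ m) act hξ τ ^ N) (twistAct (p ^ m) act hξ F z) := by
  haveI : NeZero (p ^ m) := ⟨pow_ne_zero _ (Fact.out : p.Prime).ne_zero⟩
  haveI : Finite (AddMonoid.End (M × ZMod (p ^ m))) :=
    Finite.of_injective _ (DFunLike.coe_injective (F := M × ZMod (p ^ m) →+ M × ZMod (p ^ m)))
  let ρ : GalQ →* (AddMonoid.End (M × ZMod (p ^ m)))ˣ := (twistAct (p ^ m) act hξ).toHomUnits
  have hρ : ∀ σ, (ρ σ : AddMonoid.End (M × ZMod (p ^ m))) = twistAct (p ^ m) act hξ σ :=
    fun σ => rfl
  have hlevel : ∃ L : IntermediateField ℚ Qbar, FiniteDimensional ℚ L ∧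
      ∀ σ : GalQ, (∀ x ∈ L, σ x = x) → ρ σ = 1 := by
    obtain ⟨L, hL, h⟩ := hsmooth
    obtain ⟨L', hL', h'⟩ := hξ.smooth
    refine ⟨L ⊔ L', inferInstance, fun σ hσ => Units.ext (AddMonoidHom.ext fun z => ?_)⟩
    show twistAct (p ^ m) act hξ σ z = z
    rw [twistAct_apply, h σ fun a ha => hσ a (SetLike.le_def.mp le_sup_left ha),
      h' σ fun a ha => hσ a (SetLike.le_def.mp le_sup_right ha)]
    simp
  have hpg : IsPGroup p ((A.inertiaSubgroupIn ℚ).map ρ) := by
    rintro ⟨g, hg⟩
    obtain ⟨s, hs, rfl⟩ := Subgroup.mem_map.mp hg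
    have hw : ((twistAct (p ^ m) act hξ s : AddMonoid.End (M × ZMod (p ^ m))) - 1) ^ 3 = 0 := by
      refine AddMonoidHom.ext fun z => ?_
      rw [pow_three]
      set u : AddMonoid.End (M × ZMod (p ^ m)) := twistAct (p ^ m) act hξ s - 1 with hu
      let d : M →+ M := AddMonoidHom.mk' (fun x => act s x - x) fun x y => by
        rw [map_add]; abel
      have hdd : ∀ x, d (d x) = 0 := fun x => sub_eq_zero.mpr (hI2 s hs x)
      have h1 : ∀ w : M × ZMod (p ^ m), u w = (d w.1 + w.2 • ξ s, 0) := fun w => by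
        show twistAct (p ^ m) act hξ s w - w = _
        rw [twistAct_apply]
        refine Prod.ext ?_ (sub_self _)
        show act s w.1 + w.2 • ξ s - w.1 = act s w.1 - w.1 + w.2 • ξ s
        abel
      show u (u (u z)) = 0
      rw [h1 z, h1, h1]
      simp only [zero_smul, add_zero, map_add, hdd, ZMod.map_smul d, smul_zero, zero_add, map_zero]
      rfl
    obtain ⟨j, hj⟩ := exists_pow_one_add_eq_one _ p m hw (natCast_end_eq_zero)
    rw [add_sub_cancel, ← hρ, ← Units.val_pow_eq_pow_val, Units.val_eq_one] at hj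
    exact ⟨j, Subtype.ext hj⟩
  obtain ⟨hgen, hfrob⟩ := hτ _ ρ hlevel hpg
  constructor
  · intro z hz σ hσ
    obtain ⟨k, hk⟩ := Subgroup.mem_zpowers_iff.mp (hgen σ hσ)
    have hS : ∀ k : ℤ, ((ρ τ ^ k : (AddMonoid.End (M × ZMod (p ^ m)))ˣ) :
        AddMonoid.End (M × ZMod (p ^ m))) z = z := by
      intro k
      induction k using Int.induction_on with
      | zero => rfl
      | succ k ih =>
        rw [zpow_add_one, Units.val_mul, AddMonoid.End.coe_mul, Function.comp_apply,
          show ((ρ τ : _) : AddMonoid.End _) z = z from hz, ih]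
      | pred k ih =>
        rw [zpow_sub_one, Units.val_mul, AddMonoid.End.coe_mul, Function.comp_apply]
        have h1 : (((ρ τ)⁻¹ : (AddMonoid.End (M × ZMod (p ^ m)))ˣ) :
            AddMonoid.End (M × ZMod (p ^ m))) z = z := by
          conv_lhs => rw [← (show ((ρ τ : _) : AddMonoid.End (M × ZMod (p ^ m))) z = z from hz)]
          show (((ρ τ)⁻¹ * ρ τ : (AddMonoid.End (M × ZMod (p ^ m)))ˣ) :
            AddMonoid.End (M × ZMod (p ^ m))) z = z
          rw [inv_mul_cancel]; rfl
        rw [h1, ih]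
    have := hS k
    rw [hk] at this
    exact this
  · intro F hF z
    have h := hfrob F hF
    rw [map_mul, map_mul, map_inv, mul_inv_eq_iff_eq_mul] at h
    exact congrArg (fun u : (AddMonoid.End (M × ZMod (p ^ m)))ˣ =>
      (u : AddMonoid.End (M × ZMod (p ^ m))) z) h

variable (hM : HasFlatModel p M act)

/-- The Selmer cocycles. -/
def selCocycles (n : ℕ) [NeZero n] [Module (ZMod n) M] (p N : ℕ) [Fact p.Prime]
    (hM : HasFlatModel p M act) : AddSubgroup (GalQ → M) :=
  AddSubgroup.ofSub {ξ | SelCond n p N act ξ} ⟨0, selCond_zero Fact.out hM⟩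
    fun a ha b hb => by
      show SelCond n p N act (a + -b)
      rw [← sub_eq_add_neg]; exact ha.sub Fact.out hb

omit [Module (ZMod (p ^ m)) M] in
theorem card_ker_mul_card_range {P : Type} [AddCommGroup P] [Finite P] (f : M →+ P) :
    Nat.card f.ker * Nat.card f.range = Nat.card M := by
  rw [AddSubgroup.card_eq_card_quotient_mul_card_addSubgroup f.ker,
    Nat.card_congr (QuotientAddGroup.quotientKerEquivRange f).toEquiv, mul_comm]

theorem card_le_of_subset {P : Type} [AddCommGroup P] [Finite P] (S : AddSubgroup P) (T : Set P)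
    (h : (S : Set P) ⊆ T) : Nat.card S ≤ Nat.card T :=
  Nat.card_mono (Set.toFinite T) h

/-- **The exponent.** -/
theorem exists_pow_smul_coboundary (hN : N.Prime) {F : GalQ} (hτI : τ ∈ A.inertiaSubgroupIn ℚ)
    (hτ : ∀ (X : Type) [Group X] [Finite X] (ρ : GalQ →* X),
      (∃ L : IntermediateField ℚ Qbar, FiniteDimensional ℚ L ∧
        ∀ σ : GalQ, (∀ x ∈ L, σ x = x) → ρ σ = 1) →
      IsPGroup p ((A.inertiaSubgroupIn ℚ).map ρ) →
      (∀ σ ∈ A.inertiaSubgroupIn ℚ, ρ σ ∈ Subgroup.zpowers (ρ τ)) ∧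
        ∀ F : GalQ, A.IsFrobeniusAt F N → ρ (F * τ * F⁻¹) = ρ τ ^ N)
    (hF : A.IsFrobeniusAt F N)
    (hM : HasFlatModel p M act)
    (hsmooth : ∃ L : IntermediateField ℚ Qbar, FiniteDimensional ℚ L ∧
      ∀ σ : GalQ, (∀ x ∈ L, σ x = x) → act σ = 1)
    (hunr : ∀ ℓ : ℕ, ℓ.Prime → ℓ ≠ p → ℓ ≠ N → ∀ B : ValuationSubring Qbar,
      B.LiesOverPrime ℓ → ∀ σ ∈ B.inertiaSubgroupIn ℚ, act σ = 1)
    (hI2 : ∀ s ∈ A.inertiaSubgroupIn ℚ, ∀ x, act s (act s x - x) = act s x - x)
    (hcc : complexConjugation * complexConjugation = 1)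
    (hsel : SelBound (p ^ m) p N (A.inertiaSubgroupIn ℚ : Set GalQ) {complexConjugation} act)
    (C : ℕ)
    (hcount : Nat.card {z : M × M // act F z.1 - N • z.1 = act τ z.2 - z.2} *
        Nat.card {x : M // act complexConjugation x + x = 0} *
        Nat.card {x : M // ∀ σ, act σ x = x} ≤
      p ^ C * (Nat.card M * Nat.card {x : M // act τ x = x}))
    {ξ : GalQ → M} (hξ : SelCond (p ^ m) p N act ξ) :
    ∃ μ : M, ∀ σ, p ^ C • ξ σ = act σ μ - μ := by
  have hp : p.Prime := Fact.out
  haveI : NeZero (p ^ m) := ⟨pow_ne_zero _ hp.ne_zero⟩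
  set c := complexConjugation
  let H : AddSubgroup (GalQ → M) := selCocycles (p ^ m) p N hM
  let dt : M →+ M := AddMonoidHom.mk' (fun x => act τ x - x) fun x y => by rw [map_add]; abel
  let dc : M →+ M := AddMonoidHom.mk' (fun x => act c x - x) fun x y => by rw [map_add]; abel
  let Φ : H →+ (M ⧸ dt.range) × (M ⧸ dc.range) :=
    AddMonoidHom.prod
      ((QuotientAddGroup.mk' dt.range).comp ((Pi.evalAddMonoidHom (fun _ => M) τ).comp H.subtype))
      ((QuotientAddGroup.mk' dc.range).comp ((Pi.evalAddMonoidHom (fun _ => M) c).comp H.subtype))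
  have hfinker : ∀ z : Φ.ker, ∃ b : M × M,
      ((z : H) : GalQ → M) τ = act τ b.1 - b.1 ∧ ((z : H) : GalQ → M) c = act c b.2 - b.2 := by
    rintro ⟨⟨η, hη⟩, hz⟩
    have h1 := congrArg (fun w : (M ⧸ dt.range) × (M ⧸ dc.range) => w.1) hz
    have h2 := congrArg (fun w : (M ⧸ dt.range) × (M ⧸ dc.range) => w.2) hz
    obtain ⟨b1, hb1⟩ := (QuotientAddGroup.eq_zero_iff _).mp h1
    obtain ⟨b2, hb2⟩ := (QuotientAddGroup.eq_zero_iff _).mp h2
    exact ⟨(b1, b2), by exact hb1.symm, by exact hb2.symm⟩
  choose b hb1 hb2 using hfinker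
  obtain ⟨hfin, hle⟩ := hsel
  have htame := fun (η : GalQ → M) (hη : IsCocycle act η) =>
    tame_twist (m := m) (A := A) (N := N) hτ hsmooth hI2 hη
  have hfix : ∀ u : M, act τ u = u → ∀ σ ∈ A.inertiaSubgroupIn ℚ, act σ u = u := by
    intro u hu σ hσ
    have h := (htame 0 (isCocycle_zero act)).1 (u, 0) (by simp [hu]) σ hσ
    simpa using congrArg (fun w : M × ZMod (p ^ m) => w.1) h
  let J : Φ.ker × {u : M // act τ u = u} × {v : M // act c v = v} →
      selTriples (p ^ m) p N (A.inertiaSubgroupIn ℚ : Set GalQ) {c} act := fun z =>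
    ⟨(((z.1 : H) : GalQ → M), (b z.1).1 + z.2.1.1, (b z.1).2 + z.2.2.1), (z.1 : H).2, by
      intro σ hσ
      set η := ((z.1 : H) : GalQ → M) with hη
      have hηc : SelCond (p ^ m) p N act η := (z.1 : H).2
      have hη' : SelCond (p ^ m) p N act (η - fun s => act s (b z.1).1 - (b z.1).1) :=
        hηc.sub hp (selCond_coboundary hM hsmooth hunr _)
      have h0 := (htame _ hη'.cocycle).1 (0, 1) (by
        simp [twistAct_apply, hb1 z.1, hη]) σ hσ
      have h1 := congrArg (fun w : M × ZMod (p ^ m) => w.1) h0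
      simp only [twistAct_apply, map_zero, one_smul, zero_add, Pi.sub_apply, sub_eq_zero] at h1
      show η σ = act σ (_ + _) - (_ + _)
      rw [h1]
      rw [map_add, hfix _ z.2.1.2 σ hσ]
      abel, by
      rintro σ rfl
      show ((z.1 : H) : GalQ → M) c = act c (_ + _) - (_ + _)
      rw [map_add, z.2.2.2, hb2]
      abel⟩
  have hJ : Function.Injective J := by
    rintro ⟨k, u, v⟩ ⟨k', u', v'⟩ h
    have h' := congrArg Subtype.val h
    simp only [J, Prod.mk.injEq] at h'
    obtain rfl : k = k' := Subtype.ext (Subtype.ext h'.1)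
    obtain rfl : u = u' := Subtype.ext (add_left_cancel h'.2.1)
    obtain rfl : v = v' := Subtype.ext (add_left_cancel h'.2.2)
    rfl
  have : Finite (selTriples (p ^ m) p N (A.inertiaSubgroupIn ℚ : Set GalQ) {c} act) :=
    hfin.to_subtype
  have hkerfin : Finite Φ.ker :=
    Finite.of_injective (fun z => J (z, ⟨0, map_zero _⟩, ⟨0, map_zero _⟩)) fun z z' h =>
      (Prod.ext_iff.mp (hJ h)).1
  have hHfin : Finite H := by
    have : Finite (H ⧸ Φ.ker) :=
      Finite.of_equiv Φ.range (QuotientAddGroup.quotientKerEquivRange Φ).symm.toEquiv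
    exact Finite.of_equiv _ (AddSubgroup.addGroupEquivQuotientProdAddSubgroup (s := Φ.ker)).symm
  have hker_le : Nat.card Φ.ker * (Nat.card {u : M // act τ u = u} *
      Nat.card {v : M // act c v = v}) ≤ Nat.card M ^ 2 := by
    have := Nat.card_le_card_of_injective J hJ
    rw [Nat.card_prod, Nat.card_prod] at this
    exact this.trans hle
  -- the image
  let e : M →+ M := AddMonoidHom.mk' (fun x => act F x - N • x) fun x y => by
    rw [map_add, nsmul_add]; abel
  let g : M × M →+ M := e.comp (AddMonoidHom.fst M M) - dt.comp (AddMonoidHom.snd M M)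
  let P : AddSubgroup M := dt.range.comap e
  let R : AddSubgroup M := (AddMonoidHom.mk' (fun x => act c x + x) fun x y => by
    rw [map_add]; abel : M →+ M).ker
  let T : AddSubgroup (M ⧸ dt.range) := P.map (QuotientAddGroup.mk' _)
  let U : AddSubgroup (M ⧸ dc.range) := R.map (QuotientAddGroup.mk' _)
  have hgker : Nat.card {z : M × M // act F z.1 - N • z.1 = act τ z.2 - z.2} = Nat.card g.ker :=
    Nat.card_congr (Equiv.subtypeEquivRight fun z => by
      simp [g, e, dt, AddMonoidHom.mem_ker, sub_eq_zero])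
  have hRcard : Nat.card {x : M // act c x + x = 0} = Nat.card R :=
    Nat.card_congr (Equiv.subtypeEquivRight fun z => by simp [R, AddMonoidHom.mem_ker])
  have hdtker : Nat.card {u : M // act τ u = u} = Nat.card dt.ker :=
    Nat.card_congr (Equiv.subtypeEquivRight fun z => by
      simp [dt, AddMonoidHom.mem_ker, sub_eq_zero])
  have hdcker : Nat.card {u : M // act c u = u} = Nat.card dc.ker :=
    Nat.card_congr (Equiv.subtypeEquivRight fun z => by
      simp [dc, AddMonoidHom.mem_ker, sub_eq_zero])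
  have hcardmap : ∀ (S D : AddSubgroup M), D ≤ S →
      Nat.card (S.map (QuotientAddGroup.mk' D)) * Nat.card D = Nat.card S := by
    intro S D hDS
    have h1 := card_ker_mul_card_range (M := S) ((QuotientAddGroup.mk' D).comp S.subtype)
    have h2 : ((QuotientAddGroup.mk' D).comp S.subtype).range = S.map (QuotientAddGroup.mk' D) := by
      rw [AddMonoidHom.range_comp, AddSubgroup.range_subtype]
    have h3 : Nat.card ((QuotientAddGroup.mk' D).comp S.subtype).ker = Nat.card D :=
      Nat.card_congr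
        { toFun := fun z => ⟨z.1.1, (QuotientAddGroup.eq_zero_iff _).mp z.2⟩
          invFun := fun z => ⟨⟨z.1, hDS z.2⟩, (QuotientAddGroup.eq_zero_iff _).mpr z.2⟩
          left_inv := fun z => rfl
          right_inv := fun z => rfl }
    rw [h2, h3] at h1
    rw [← h1, mul_comm]
  have hgP : Nat.card g.ker = Nat.card P * Nat.card dt.ker := by
    let π : g.ker →+ M := (AddMonoidHom.fst M M).comp g.ker.subtype
    have h1 := card_ker_mul_card_range (M := g.ker) π
    have h2 : π.range = P := by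
      ext x
      constructor
      · rintro ⟨⟨⟨a, a'⟩, ha⟩, rfl⟩
        exact ⟨a', (sub_eq_zero.mp ha).symm⟩
      · rintro ⟨y, hy⟩
        exact ⟨⟨(x, y), sub_eq_zero.mpr hy.symm⟩, rfl⟩
    have h3 : Nat.card π.ker = Nat.card dt.ker :=
      Nat.card_congr
        { toFun := fun z => ⟨z.1.1.2, by
            have h := z.1.2
            have hz : z.1.1.1 = 0 := z.2
            have h' : e z.1.1.1 - dt z.1.1.2 = 0 := h
            rw [hz, map_zero, zero_sub, neg_eq_zero] at h'
            exact h'⟩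
          invFun := fun z => ⟨⟨(0, z.1), by
            have h : dt z.1 = 0 := z.2
            simp [g, AddMonoidHom.mem_ker, h]⟩, rfl⟩
          left_inv := fun z => Subtype.ext (Subtype.ext (Prod.ext z.2.symm rfl))
          right_inv := fun z => rfl }
    rw [h2, h3] at h1
    rw [← h1, mul_comm]
  have hdtP : dt.range ≤ P := by
    rintro _ ⟨x, rfl⟩
    have h0 := (htame 0 (isCocycle_zero act)).2 F hF (x, 0)
    have hpow : ∀ k : ℕ, ∀ y : M,
        ((twistAct (p ^ m) act (isCocycle_zero act) τ) ^ k) (y, 0) = (y + k • dt y, 0) := by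
      intro k
      induction k with
      | zero => intro y; simp
      | succ k ih =>
        intro y
        rw [pow_succ, AddMonoid.End.coe_mul, Function.comp_apply, twistAct_apply, ih]
        have h2 : dt (act τ y) = dt y := by
          show act τ (act τ y) - act τ y = act τ y - y
          rw [← map_sub]
          exact hI2 τ hτI y
        simp only [Pi.zero_apply, smul_zero, add_zero, h2, succ_nsmul]
        refine Prod.ext ?_ rfl
        show act τ y + k • dt y = y + (k • dt y + (act τ y - y))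
        abel
    rw [twistAct_apply, twistAct_apply, twistAct_apply] at h0
    simp only [Pi.zero_apply, smul_zero, add_zero] at h0
    rw [hpow] at h0
    have h1 := congrArg (fun w : M × ZMod (p ^ m) => w.1) h0
    simp only at h1
    refine ⟨N • (act F x - x), ?_⟩
    show dt _ = e (dt x)
    have e1 : e (dt x) = N • dt (act F x) - N • dt x := by
      show act F (act τ x - x) - N • (act τ x - x) = _
      rw [map_sub, h1]
      show act F x + N • dt (act F x) - act F x - N • dt x = _
      abel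
    rw [e1, map_nsmul, map_sub, nsmul_sub]
  have hdcR : dc.range ≤ R := by
    rintro _ ⟨x, rfl⟩
    show act c (act c x - x) + (act c x - x) = 0
    rw [map_sub, ← Function.comp_apply (f := act c) (g := act c), ← AddMonoid.End.coe_mul,
      ← map_mul, hcc, map_one]
    show x - act c x + (act c x - x) = 0
    abel
  have himg : Φ.range ≤ T.prod U := by
    rintro _ ⟨⟨η, hη⟩, rfl⟩
    refine AddSubgroup.mem_prod.mpr ⟨⟨η τ, ?_, rfl⟩, ⟨η c, ?_, rfl⟩⟩
    · show e (η τ) ∈ dt.range
      have hη' : SelCond (p ^ m) p N act η := hη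
      have h0 := (htame η hη'.cocycle).2 F hF (0, 1)
      have hpow : ∀ k : ℕ, ∀ (y : M), ∃ d : M,
          ((twistAct (p ^ m) act hη'.cocycle τ) ^ k) (y, 1) = (y + k • η τ + dt d, 1) := by
        intro k
        induction k with
        | zero => intro y; exact ⟨0, by simp⟩
        | succ k ih =>
          intro y
          obtain ⟨d, hd⟩ := ih (act τ y + (1 : ZMod (p ^ m)) • η τ)
          refine ⟨d + y, ?_⟩
          rw [pow_succ, AddMonoid.End.coe_mul, Function.comp_apply, twistAct_apply, hd]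
          refine Prod.ext ?_ rfl
          show act τ y + (1 : ZMod (p ^ m)) • η τ + k • η τ + dt d =
            y + (k + 1) • η τ + dt (d + y)
          rw [one_smul, map_add, succ_nsmul]
          show _ = y + (k • η τ + η τ) + (dt d + (act τ y - y))
          abel
      rw [twistAct_apply, twistAct_apply, twistAct_apply] at h0
      simp only [map_zero, one_smul, zero_add] at h0
      obtain ⟨d, hd⟩ := hpow N (η F)
      rw [hd] at h0
      have h1 := congrArg (fun w : M × ZMod (p ^ m) => w.1) h0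
      simp only at h1
      refine ⟨d, ?_⟩
      show dt d = act F (η τ) - N • η τ
      rw [show act F (η τ) = N • η τ + dt d from add_right_cancel
        (b := η F) (by rw [h1]; abel)]
      abel
    · show act c (η c) + η c = 0
      have hη' : SelCond (p ^ m) p N act η := hη
      have h := hη'.cocycle.mul c c
      rw [hcc, hη'.cocycle.map_one] at h
      rw [h]; abel
  have hHle : Nat.card H ≤ Nat.card Φ.ker * (Nat.card T * Nat.card U) := by
    rw [← card_ker_mul_card_range (M := H) Φ]
    refine Nat.mul_le_mul_left _ ?_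
    calc Nat.card Φ.range ≤ Nat.card (T.prod U) := card_le_of_subset _ _ himg
      _ = _ := by rw [Nat.card_congr (AddSubgroup.prodEquiv T U).toEquiv, Nat.card_prod]
  -- coboundaries
  let δ : M →+ H :=
    { toFun := fun μ => ⟨fun σ => act σ μ - μ, selCond_coboundary hM hsmooth hunr μ⟩
      map_zero' := Subtype.ext (funext fun σ => by simp)
      map_add' := fun μ ν => Subtype.ext (funext fun σ => by
        show act σ (μ + ν) - (μ + ν) = (act σ μ - μ) + (act σ ν - ν)
        rw [map_add]; abel) }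
  have hδ := card_ker_mul_card_range δ
  have hδker : Nat.card δ.ker = Nat.card {x : M // ∀ σ, act σ x = x} :=
    Nat.card_congr (Equiv.subtypeEquivRight fun z => by
      simp [δ, AddMonoidHom.mem_ker, Subtype.ext_iff, funext_iff, sub_eq_zero])
  have hidx : Nat.card (H ⧸ δ.range) ≤ p ^ C := by
    have hH := AddSubgroup.card_eq_card_quotient_mul_card_addSubgroup δ.range
    have hT := hcardmap P dt.range hdtP
    have hU := hcardmap R dc.range hdcR
    have ht := card_ker_mul_card_range dt
    have hc' := card_ker_mul_card_range dc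
    rw [hgker, hRcard, hdtker, hgP, ← hT, ← hU, ← hδker] at hcount
    rw [hdtker, hdcker] at hker_le
    have hpos : 0 < Nat.card M * Nat.card dt.ker := Nat.mul_pos Nat.card_pos Nat.card_pos
    refine Nat.le_of_mul_le_mul_right ?_ hpos
    have key : Nat.card (H ⧸ δ.range) * (Nat.card M * Nat.card dt.ker) * Nat.card M ≤
        p ^ C * (Nat.card M * Nat.card dt.ker) * Nat.card M := by
      calc Nat.card (H ⧸ δ.range) * (Nat.card M * Nat.card dt.ker) * Nat.card M
          = Nat.card H * Nat.card dt.ker * Nat.card δ.ker * Nat.card M := by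
            rw [hH, ← hδ]; ring
        _ ≤ Nat.card Φ.ker * (Nat.card T * Nat.card U) * Nat.card dt.ker * Nat.card δ.ker *
              Nat.card M := by gcongr
        _ = Nat.card Φ.ker * (Nat.card dt.ker * Nat.card dc.ker) *
              (Nat.card T * Nat.card U * Nat.card dc.range * Nat.card δ.ker) := by
            rw [← hc']; ring
        _ ≤ Nat.card M ^ 2 * (Nat.card T * Nat.card U * Nat.card dc.range * Nat.card δ.ker) := by
            gcongr
        _ = Nat.card M * (Nat.card T * Nat.card dt.range * Nat.card dt.ker *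
              (Nat.card U * Nat.card dc.range) * Nat.card δ.ker) := by
            rw [← ht]; ring
        _ ≤ Nat.card M * (p ^ C * (Nat.card M * Nat.card dt.ker)) := Nat.mul_le_mul_left _ hcount
        _ = _ := by ring
    exact Nat.le_of_mul_le_mul_right key Nat.card_pos
  -- `p ^ C` kills the quotient
  let q : H ⧸ δ.range := QuotientAddGroup.mk ⟨ξ, hξ⟩
  have hkill : p ^ m • q = 0 := by
    rw [← QuotientAddGroup.mk_nsmul]
    refine (QuotientAddGroup.eq_zero_iff _).mpr ⟨0, ?_⟩
    rw [map_zero]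
    refine Subtype.ext (funext fun σ => ?_)
    show (0 : M) = p ^ m • ξ σ
    rw [← Nat.cast_smul_eq_nsmul (ZMod (p ^ m)), ZMod.natCast_self, zero_smul]
  obtain ⟨j, -, hj⟩ := (Nat.dvd_prime_pow hp).mp (addOrderOf_dvd_of_nsmul_eq_zero hkill)
  have hord : addOrderOf q ∣ p ^ C := by
    rw [hj]
    refine pow_dvd_pow p ((Nat.pow_le_pow_iff_right hp.one_lt).mp ?_)
    rw [← hj]
    exact (addOrderOf_le_card).trans hidx
  obtain ⟨μ, hμ⟩ : p ^ C • (⟨ξ, hξ⟩ : H) ∈ δ.range := by
    rw [← QuotientAddGroup.eq_zero_iff, QuotientAddGroup.mk_nsmul]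
    exact addOrderOf_dvd_iff_nsmul_eq_zero.mp hord
  exact ⟨μ, fun σ => (congrFun (congrArg Subtype.val hμ) σ).symm⟩

end FLTA.Mazur

end
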