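import Fermat.Agent.Mazur.TateFacts
import Fermat.Agent.Mazur.EisIdemExists
import Fermat.Agent.Mazur.PlaneCount
import Fermat.Agent.Mazur.RationalTorsion
import Fermat.Agent.Mazur.SelmerExponent
import Fermat.Agent.MordellWeil.Modular

/-!
# The descent on the Eisenstein part
-/

set_option autoImplicit false
set_option synthInstance.maxHeartbeats 400000

noncomputable section

open ModularCurve
open scoped Matrix

namespace FLTA.Mazur

open FLTA.GaloisReps

local notation "Qbar" => AlgebraicClosure ℚ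

variable {N : ℕ} [NeZero N] {p : ℕ} [Fact p.Prime]

/-- Away Hecke operators commute with Galois. -/
theorem awayHecke_galois {t : Module.End ℤ (JZero N)} (ht : t ∈ awayHecke N) (σ : GalQ)
    (x : JZero N) : σ • t x = t (σ • x) := by
  induction ht using Subring.closure_induction generalizing x with
  | mem t ht =>
    obtain ⟨r, -, rfl⟩ := ht
    exact heckeOperatorBar_galois N r σ x
  | zero => simp
  | one => rfl
  | add s t _ _ hs ht => simp [hs, ht]
  | neg t _ ht => simp [smul_neg, ht]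
  | mul s t _ _ hs ht => simp [hs, ht]

omit [NeZero N] in
/-- Galois commutes with natural multiples. -/
theorem galois_nsmul (σ : GalQ) (n : ℕ) (x : JZero N) : σ • (n • x) = n • (σ • x) :=
  map_nsmul (DistribSMul.toAddMonoidHom (JZero N) σ) n x

set_option maxHeartbeats 1000000 in
/-- Eisenstein classes killed by `p` are fixed by the idempotent operators, and a bounded power
of `p` times the projection of a rational class is a `p ^ k`-th multiple of a rational class. -/
theorem exists_descent (hN : N.Prime) (hpN : p ≠ N) :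
    ∃ C : ℕ, ∀ (k : ℕ) (y : JZero N), (∀ σ : GalQ, σ • y = y) →
      ∃ t ∈ awayHecke N,
        (∀ x : JZero N, p • x = 0 →
          (∀ r : Nat.Primes, (r : ℕ) ≠ N → heckeOperatorBar N r x = (1 + (r : ℕ)) • x) →
            t x = x) ∧
        ∃ w : JZero N, (∀ σ : GalQ, σ • w = w) ∧ p ^ k • w = p ^ C • t y := by
  have hp : p.Prime := Fact.out
  obtain ⟨D, hH⟩ := exists_tateData_heckeCompat (p := p) hN
  obtain ⟨I⟩ := nonempty_eisIdem D hN hpN hH
  obtain ⟨A, hA⟩ := FLTA.Galois.exists_liesOverPrime hN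
  obtain ⟨F, hF⟩ := FLTA.Galois.exists_isFrobeniusAt hN hA
  obtain ⟨τ, hτI, hτ⟩ := exists_tameGenerator hp hN hpN hA
  obtain ⟨C₁, hC₁⟩ := exists_eisMod_count D hN hpN hA hF hτI
    (rho_inertia_unipotent D hN hpN hA hτI hτI) (rho_frobenius_tame D hN hpN hA hF hτI hτ) I
  obtain ⟨C₂, hC₂⟩ := exists_card_rational_torsion_le hN hp hpN
  refine ⟨C₁ + C₂, fun k y hy => ?_⟩
  haveI : NeZero (p ^ k) := ⟨pow_ne_zero _ hp.ne_zero⟩
  obtain ⟨t, ht, htfix, htE⟩ := I.exists_away k
  refine ⟨t, ht, htfix, ?_⟩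
  have hcomm : ∀ σ, Commute (D.rho σ) I.E := fun σ => commute_of_mem_heckeSpan D I.mem σ
  set act := eisAct D I.E hcomm k
  set incl := eisIncl D I.E k
  have hinj := eisIncl_injective D I.E k
  have hact := eisIncl_act D hcomm (k := k)
  have hkill : ∀ x : eisMod D I.E k, p ^ k • x = 0 := fun x => by
    rw [← Nat.cast_smul_eq_nsmul (ZMod (p ^ k)), ZMod.natCast_self, zero_smul]
  obtain ⟨z, hz⟩ := FLTA.MordellWeil.jZero_divisible N (pow_ne_zero k hp.ne_zero) y
  -- the Kummer cocycle
  have hEE : (I.E.map (PadicInt.toZModPow k)) * (I.E.map (PadicInt.toZModPow k)) =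
      I.E.map (PadicInt.toZModPow k) := by rw [← Matrix.map_mul, I.idem]
  have hker : ∀ σ : GalQ, σ • z - z ∈ Submodule.torsionBy ℤ (JZero N) ((p : ℤ) ^ k) := fun σ => by
    rw [Submodule.mem_torsionBy_iff, ← Nat.cast_pow, natCast_zsmul, nsmul_sub,
      ← galois_nsmul, hz, hy, sub_self]
  let ξ : GalQ → eisMod D I.E k := fun σ =>
    ⟨(I.E.map (PadicInt.toZModPow k)) *ᵥ ((D.torsionEquiv k).symm ⟨_, hker σ⟩),
      (mem_eisMod D).mpr (by rw [Matrix.mulVec_mulVec, hEE])⟩
  have hξ : ∀ σ, incl (ξ σ) = σ • t z - t z := fun σ => by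
    rw [awayHecke_galois ht, ← map_sub]
    have h := htE ((D.torsionEquiv k).symm ⟨_, hker σ⟩)
    rw [(D.torsionEquiv k).apply_symm_apply] at h
    exact h.symm
  have hSel : SelCond (p ^ k) p N act ξ := selCond_kummer hp hN hpN rfl hinj hact (t z) hξ
  have hsmooth := exists_level_act hinj hact
  have hunr : ∀ ℓ : ℕ, ℓ.Prime → ℓ ≠ p → ℓ ≠ N → ∀ B : ValuationSubring Qbar,
      B.LiesOverPrime ℓ → ∀ σ ∈ B.inertiaSubgroupIn ℚ, act σ = 1 :=
    fun ℓ hℓ h1 h2 B hB σ hσ => act_eq_one_of_inertia hN hinj hact hkill hp hℓ h1 h2 hB hσ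
  have hM := hasFlatModel_of_incl hp
    (fun h => hpN ((Nat.prime_dvd_prime_iff_eq hp hN).mp h)) hinj hact
  have hI2 : ∀ s ∈ A.inertiaSubgroupIn ℚ, ∀ x, act s (act s x - x) = act s x - x := by
    intro s hs x
    refine Subtype.ext ?_
    have h := congrArg (fun M => (M.map (PadicInt.toZModPow k)) *ᵥ (x : Fin D.r → ZMod (p ^ k)))
      (rho_inertia_unipotent D hN hpN hA hs hs)
    simp only [Matrix.map_mul, Matrix.map_sub _ (map_sub _),
      Matrix.map_one _ (map_zero _) (map_one _), Matrix.map_zero _ (map_zero _),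
      ← Matrix.mulVec_mulVec, Matrix.sub_mulVec, Matrix.one_mulVec, Matrix.zero_mulVec] at h
    exact sub_eq_zero.mp h
  have hfix : Nat.card {x : eisMod D I.E k // ∀ σ, act σ x = x} ≤ p ^ C₂ := by
    classical
    haveI := Fintype.ofFinite {x : eisMod D I.E k // ∀ σ, act σ x = x}
    rw [Nat.card_eq_fintype_card, ← Finset.card_univ,
      ← Finset.card_image_of_injective _ (hinj.comp Subtype.val_injective)]
    refine hC₂ k _ fun x hx => ?_
    obtain ⟨⟨v, hv⟩, -, rfl⟩ := Finset.mem_image.mp hx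
    refine ⟨?_, fun σ => ?_⟩
    · show p ^ k • incl v = 0
      rw [← map_nsmul, hkill, map_zero]
    · show σ • incl v = incl v
      rw [← hact, hv]
  obtain ⟨μ, hμ⟩ := exists_pow_smul_coboundary (m := k) hN hτI hτ hF hM hsmooth hunr hI2
    complexConjugation_mul_self
    (selBound_of_eisensteinChain hN hpN hA act hsmooth hM hunr (I.chain k)) (C₁ + C₂)
    (by
      rw [pow_add, mul_right_comm (p ^ C₁)]
      exact Nat.mul_le_mul (hC₁ k) hfix) hSel
  refine ⟨p ^ (C₁ + C₂) • t z - incl μ, fun σ => ?_, ?_⟩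
  · have h := congrArg incl (hμ σ)
    rw [map_nsmul, hξ, map_sub, hact, nsmul_sub] at h
    rw [smul_sub, galois_nsmul]
    exact sub_eq_sub_iff_sub_eq_sub.mpr h
  · rw [nsmul_sub, ← map_nsmul incl, hkill, map_zero, sub_zero, smul_smul, mul_comm, ← smul_smul,
      ← map_nsmul t, hz]

end FLTA.Mazur

end
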