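import Fermat.Agent.Mazur.Classes
import Fermat.Agent.Mazur.Descent
import Fermat.Agent.Congruence.Inputs

/-!
# The core statement of Mazur's argument on `X₀(N)`
-/

set_option autoImplicit false
set_option synthInstance.maxHeartbeats 400000

noncomputable section

open ModularCurve

namespace FLTA.Mazur

local notation "Qb" => AlgebraicClosure ℚ

/-- At a multiplicative prime a point is minus or plus. -/
theorem isMinusAt_or_isPlusAt {N : ℕ} [NeZero N] (hN : N.Prime) {j j' : ℚ}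
    (hrel : HasModRel N hN j j') {ℓ : ℕ} (hℓ : ℓ.Prime) (hneg : padicValRat ℓ j < 0) :
    IsMinusAt N ℓ j j' ∨ IsPlusAt N ℓ j j' := by
  obtain ⟨A, hA⟩ := FLTA.Galois.exists_liesOverPrime hℓ
  have ha := one_lt_valuation_of_padicValRat_neg hℓ hA hneg
  have hroot : (modPolyAt N hN (j : Qb)).IsRoot (j' : Qb) := by
    have h1 := map_eval_modPolyAt N hN (algebraMap ℚ Qb) j j'
    have h0 : (modPolyAt N hN j).eval j' = 0 := by
      refine Eq.trans ?_ hrel
      rfl
    rw [h0, map_zero, eq_ratCast, eq_ratCast] at h1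
    exact h1.symm
  have hj : j ≠ 0 := fun h => by simp [h] at hneg
  have hvj : 0 < A.valuation (j : Qb) := lt_trans zero_lt_one ha
  have hj' : j' ≠ 0 := by
    rintro rfl
    rcases val_root_modPolyAt N hN A.valuation ha hroot with h | h <;>
      rw [Rat.cast_zero, map_zero] at h
    · exact (pow_pos hvj N).ne h
    · rw [zero_pow hN.ne_zero] at h
      exact hvj.ne h
  rcases val_root_modPolyAt N hN A.valuation ha hroot with h | h <;>
    rw [valuation_ratCast hℓ hA hj, valuation_ratCast hℓ hA hj', ← zpow_natCast, ← zpow_mul] at h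
  · exact Or.inr ⟨hneg, (zpow_valuation_natCast_inj hℓ hA h).trans (mul_comm _ _)⟩
  · exact Or.inl ⟨hneg, (mul_comm _ _).trans (zpow_valuation_natCast_inj hℓ hA h)⟩

theorem not_isMinusAt_and_isPlusAt {N ℓ : ℕ} (hN : 2 ≤ N) {j j' : ℚ} (h : IsMinusAt N ℓ j j')
    (h' : IsPlusAt N ℓ j j') : False := by
  obtain ⟨hneg, h1⟩ := h
  obtain ⟨-, h2⟩ := h'
  rw [h2] at h1
  have hN' : (4 : ℤ) ≤ (N : ℤ) * N := by exact_mod_cast Nat.mul_le_mul hN hN
  nlinarith [mul_le_mul_of_nonpos_right hN' hneg.le]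

/-- If a rational class killed by a power of `p` has reduction killed by an integer, at a place
prime to `p`, then its prime-to-`p` multiples show that it is zero. -/
theorem eq_zero_of_torsion {N : ℕ} [NeZero N] (hN : N.Prime) {p e : ℕ} (hp : p.Prime) {ℓ : ℕ}
    (hℓ : ℓ.Prime) (hℓp : ℓ ≠ p) (hℓN : ℓ ≠ N) {A : ValuationSubring Qb} (hA : A.LiesOverPrime ℓ)
    {x : JZero N} (hx : p ^ e • x = 0) {d : ℕ} (hd : ¬ p ∣ d)
    (hred : d • reductionModL A N x = 0) : x = 0 := by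
  have h := FLTA.Congruence.eq_zero_of_reductionModL_eq_zero N hℓ
    (fun h => hℓN ((Nat.prime_dvd_prime_iff_eq hℓ hN).mp h)) A hA (p ^ e)
    (fun h => hℓp ((Nat.prime_dvd_prime_iff_eq hℓ hp).mp (hℓ.dvd_of_dvd_pow h))) (d • x)
    (by rw [smul_smul, mul_comm, ← smul_smul, hx, smul_zero]) (by rw [map_nsmul, hred])
  exact AddMonoid.addOrderOf_eq_one_iff.mp (Nat.eq_one_of_dvd_coprimes
    ((hp.coprime_iff_not_dvd.mpr hd).pow_left e) (addOrderOf_dvd_of_nsmul_eq_zero hx)
    (addOrderOf_dvd_of_nsmul_eq_zero h))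

set_option maxHeartbeats 1000000 in
/-- A rational point of `X₀(N)` which is "minus" at 2 and at 3 is "minus" at every multiplicative
prime `ℓ ≠ N`. -/
theorem isMinusAt_of_two_three {N : ℕ} [NeZero N] (hN : IsMazurLevel N) {j j' : ℚ}
    (hrel : HasModRel N hN.prime j j') (h2 : IsMinusAt N 2 j j') (h3 : IsMinusAt N 3 j j')
    {ℓ : ℕ} (hℓ : ℓ.Prime) (hℓN : ℓ ≠ N) (hneg : padicValRat ℓ j < 0) :
    IsMinusAt N ℓ j j' := by
  refine (isMinusAt_or_isPlusAt hN.prime hrel hℓ hneg).resolve_right fun hplus => ?_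
  have hN5 : 5 ≤ N ∧ N ≠ 2 ∧ N ≠ 3 := by
    have h := hN.not_mem
    simp only [Finset.mem_insert, Finset.mem_singleton, not_or] at h
    have := hN.prime.two_le
    have : N ≠ 4 := fun h => by
      have := hN.prime
      rw [h] at this
      exact absurd this (by norm_num)
    omega
  obtain ⟨y, c, hy, hc, hc0, hcN, hcT, hmin, hpl, hcred⟩ := exists_classes hN hrel h2
  set n := addOrderOf c with hn_def
  have hn1 : n ≠ 1 := fun h => hc0 (AddMonoid.addOrderOf_eq_one_iff.mp h)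
  have hndvd : n ∣ N - 1 := addOrderOf_dvd_of_nsmul_eq_zero hcN
  have hn0 : n ≠ 0 := fun h => by
    rw [h] at hndvd
    have := Nat.eq_zero_of_zero_dvd hndvd
    omega
  set p := n.minFac with hp_def
  have hp : p.Prime := Nat.minFac_prime hn1
  haveI : Fact p.Prime := ⟨hp⟩
  have hpn : p ∣ n := Nat.minFac_dvd n
  have hpN : p ≠ N := fun h => by
    have h1 := Nat.le_of_dvd (by omega) (hpn.trans hndvd)
    omega
  set u := n / p
  have hu : u * p = n := Nat.div_mul_cancel hpn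
  have hu0 : u ≠ 0 := fun h => hn0 (by rw [← hu, h, zero_mul])
  have hord : addOrderOf (u • c) = p := by
    rw [addOrderOf_nsmul_of_dvd hu0 (hn_def ▸ ⟨p, hu.symm⟩), ← hn_def, ← hu,
      Nat.mul_div_cancel_left _ (Nat.pos_of_ne_zero hu0)]
  have hpc : p • (u • c) = 0 := hord ▸ addOrderOf_nsmul_eq_zero (u • c)
  have hT : ∀ r : Nat.Primes, (r : ℕ) ≠ N →
      heckeOperatorBar N r (u • c) = (1 + (r : ℕ)) • (u • c) := fun r hr => by
    rw [map_nsmul, hcT r hr, smul_comm]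
  obtain ⟨C, hC⟩ := exists_descent (p := p) hN.prime hpN
  obtain ⟨ℓ₀, hℓ₀, hℓ₀p, hℓ₀N, hmin₀⟩ : ∃ ℓ₀ : ℕ, ℓ₀.Prime ∧ ℓ₀ ≠ p ∧ ℓ₀ ≠ N ∧
      IsMinusAt N ℓ₀ j j' := by
    by_cases h : p = 2
    · exact ⟨3, Nat.prime_three, by omega, by omega, h3⟩
    · exact ⟨2, Nat.prime_two, by omega, by omega, h2⟩
  obtain ⟨A₀, hA₀⟩ := FLTA.Galois.exists_liesOverPrime hℓ₀
  obtain ⟨A, hA⟩ := FLTA.Galois.exists_liesOverPrime hℓ
  have hdiv : ∀ q : ℕ, q.Prime → q ≠ N → ¬ q ∣ N := fun q hq hne h =>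
    hne ((Nat.prime_dvd_prime_iff_eq hq hN.prime).mp h)
  obtain ⟨D₀, hD₀, hD₀k⟩ := exists_pos_nsmul_reductionModL_eq_zero hN.prime hℓ₀ hℓ₀N hA₀
    (FLTA.Congruence.reductionInputs N hℓ₀ (hdiv _ hℓ₀ hℓ₀N) A₀ hA₀)
  obtain ⟨D, hD, hDk⟩ := exists_pos_nsmul_reductionModL_eq_zero hN.prime hℓ hℓN hA
    (FLTA.Congruence.reductionInputs N hℓ (hdiv _ hℓ hℓN) A hA)
  obtain ⟨a₀, d₀, hd₀, rfl⟩ := Nat.exists_eq_pow_mul_and_not_dvd hD₀.ne' p hp.ne_one
  obtain ⟨a, d, hd, rfl⟩ := Nat.exists_eq_pow_mul_and_not_dvd hD.ne' p hp.ne_one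
  obtain ⟨t, ht, htfix, w, hw, hwk⟩ := hC (a₀ + a + C) (u • y) fun σ => by
    rw [galois_nsmul, hy]
  have htc := htfix (u • c) hpc hT
  rw [pow_add, mul_comm, ← smul_smul] at hwk
  set v := p ^ (a₀ + a) • w with hv_def
  have hvred : ∀ B : ValuationSubring Qb, ∀ b e : ℕ, b ≤ a₀ + a →
      (∀ x : JZero N, (∀ σ : Qb ≃ₐ[ℚ] Qb, σ • x = x) →
        (p ^ b * e) • reductionModL B N x = 0) → e • reductionModL B N v = 0 := by
    intro B b e hb h
    rw [hv_def, map_nsmul, smul_smul, ← Nat.add_sub_cancel' hb, pow_add,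
      show e * (p ^ b * p ^ (a₀ + a - b)) = p ^ (a₀ + a - b) * (p ^ b * e) by ring,
      ← smul_smul, h w hw, smul_zero]
  -- the projection is a multiple of a rational class
  have hτ : t (u • y) - v = 0 := by
    refine eq_zero_of_torsion hN.prime hp hℓ₀ hℓ₀p hℓ₀N hA₀ (e := C)
      (by rw [nsmul_sub, ← hwk, sub_self]) hd₀ ?_
    rw [map_sub, map_nsmul t, map_nsmul, hmin t ht ℓ₀ hℓ₀ hℓ₀N A₀ hA₀ hmin₀, smul_zero, zero_sub,
      neg_nsmul, hvred A₀ a₀ d₀ (Nat.le_add_right _ _) hD₀k, neg_zero]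
  -- the reduction of the cuspidal multiple vanishes at `ℓ`
  have hred : reductionModL A N (u • c) = 0 := by
    have h1 : reductionModL A N (t (u • y)) = reductionModL A N (u • c) := by
      have := congrArg (fun z => u • z) (hpl t ht ℓ hℓ hℓN A hA hplus)
      simp only [smul_zero, ← map_nsmul, nsmul_sub, map_sub, htc] at this
      exact sub_eq_zero.mp this
    have h2 : d • reductionModL A N (u • c) = 0 := by
      rw [← h1, sub_eq_zero.mp hτ]
      exact hvred A a d (Nat.le_add_left _ _) hDk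
    have h3 : p • reductionModL A N (u • c) = 0 := by rw [← map_nsmul, hpc, map_zero]
    exact AddMonoid.addOrderOf_eq_one_iff.mp (Nat.eq_one_of_dvd_coprimes
      (hp.coprime_iff_not_dvd.mpr hd) (addOrderOf_dvd_of_nsmul_eq_zero h3)
      (addOrderOf_dvd_of_nsmul_eq_zero h2))
  have huc : u • c ≠ 0 := fun h => hp.ne_one (by rw [← hord, h, addOrderOf_zero])
  by_cases hℓp : ℓ = p
  · subst hℓp
    by_cases h5 : 5 ≤ p
    · exact hcred p hp h5 hpN A hA u hord hred
    · have h23 : p = 2 ∨ p = 3 := by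
        have h4 : p ≠ 4 := fun h => by
          have := hp
          rw [h] at this
          exact absurd this (by norm_num)
        have := hp.two_le
        omega
      rcases h23 with h | h <;> rw [h] at hplus
      · exact not_isMinusAt_and_isPlusAt hN.prime.two_le h2 hplus
      · exact not_isMinusAt_and_isPlusAt hN.prime.two_le h3 hplus
  · exact huc (eq_zero_of_torsion hN.prime hp hℓ hℓp hℓN hA (e := 1) (d := 1)
      (by rw [pow_one, hpc]) hp.not_dvd_one (by rw [one_smul, hred]))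

end FLTA.Mazur

end
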