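import Fermat.Agent.Igusa.ModPoly
import Fermat.Prelude.Def_ModularCurve_HeckeModule

/-!
# Shared definitions of the Mazur descent (S15, S12)
-/

set_option autoImplicit false

noncomputable section

namespace FLTA.Mazur

open ModularCurve

/-- `N` is a prime for which `X₀(N)` has positive genus. -/
structure IsMazurLevel (N : ℕ) : Prop where
  prime : N.Prime
  not_mem : N ∉ ({2, 3, 5, 7, 13} : Finset ℕ)

/-- The rational pair `(j, j')` satisfies the modular equation of level `N`. -/
def HasModRel (N : ℕ) [NeZero N] (hN : N.Prime) (j j' : ℚ) : Prop :=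
  ((FLTA.Igusa.modPoly N hN).map (Polynomial.aeval (R := ℤ) j).toRingHom).eval j' = 0

/-- At `ℓ` the pair has multiplicative reduction with the toric subgroup opposite to the isogeny:
`v(j') = v(j) / N`. -/
def IsMinusAt (N ℓ : ℕ) (j j' : ℚ) : Prop :=
  padicValRat ℓ j < 0 ∧ (N : ℤ) * padicValRat ℓ j' = padicValRat ℓ j

/-- At `ℓ` the isogeny kills the toric subgroup: `v(j') = N * v(j)`. -/
def IsPlusAt (N ℓ : ℕ) (j j' : ℚ) : Prop :=
  padicValRat ℓ j < 0 ∧ padicValRat ℓ j' = (N : ℤ) * padicValRat ℓ j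

/-- The ring of endomorphisms of `J₀(N)` generated by the `T_r`, `r` prime, `r ≠ N`. -/
def awayHecke (N : ℕ) [NeZero N] : Subring (Module.End ℤ (JZero N)) :=
  Subring.closure (heckeOperatorBar N '' {r : Nat.Primes | (r : ℕ) ≠ N})

end FLTA.Mazur

end
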