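import Mathlib

/-!
# Linear algebra for the local bound at `N` in Mazur's argument

* `plane_kernel_bound`: the inequality on one Hecke plane;
* `finrank_inf_iSup_eq_sum`: dimensions of kernels split along an independent family;
* `finrank_ker_map_eq`: kernels of integral matrices commute with extension of scalars;
* `card_ker_mod_le`, `le_card_ker_mod`: kernels modulo `p ^ m`.
-/

set_option autoImplicit false

open scoped Matrix

namespace FLTA.Mazur

section Plane

variable {K : Type*} [Field K] {W : Type*} [AddCommGroup W] [Module K W]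

/-- `(x, y) ↦ (F - N) x - n y`. -/
def tameMap (f n : Module.End K W) (N : K) : W × W →ₗ[K] W :=
  (f - N • 1).coprod (-n)

theorem tameMap_apply (f n : Module.End K W) (N : K) (x y : W) :
    tameMap f n N (x, y) = f x - N • x - n y := by
  simp [tameMap, sub_eq_add_neg]

/-- The inequality on a single plane. -/
theorem plane_kernel_bound [CharZero K] [Module.Finite K W] (hW : Module.finrank K W = 2)
    (N : ℕ) (hN : 2 ≤ N) (f n c : Module.End K W) (hdet : LinearMap.det f = (N : K))
    (hn : n * n = 0) (hfn : f * n = (N : K) • (n * f)) (hcne : c ≠ -1) :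
    Module.finrank K (LinearMap.ker (tameMap f n (N : K))) +
        Module.finrank K (LinearMap.ker (1 + c)) ≤
      Module.finrank K W + Module.finrank K (LinearMap.ker n) := by
  have hN0 : (N : K) ≠ 0 := by exact_mod_cast (show N ≠ 0 by omega)
  have hc : Module.finrank K (LinearMap.ker (1 + c)) ≤ 1 := by
    by_contra h
    have htop : LinearMap.ker (1 + c) = ⊤ := Submodule.eq_top_of_finrank_eq (by
      have := Submodule.finrank_le (LinearMap.ker (1 + c)); omega)
    exact hcne (eq_neg_of_add_eq_zero_right (LinearMap.ker_eq_top.mp htop))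
  have hg := LinearMap.finrank_range_add_finrank_ker (tameMap f n (N : K))
  have hn' := LinearMap.finrank_range_add_finrank_ker n
  rw [Module.finrank_prod, hW] at hg
  rw [hW] at hn' ⊢
  have hfN : f ≠ (N : K) • 1 := by
    intro h
    rw [h, LinearMap.det_smul, map_one, mul_one, hW] at hdet
    have h' : ((N ^ 2 : ℕ) : K) = (N : K) := by push_cast; exact hdet
    have h'' : N ^ 2 = N := Nat.cast_injective h'
    nlinarith
  rcases eq_or_ne n 0 with h0 | h0
  · subst h0
    have h1 : Module.finrank K (LinearMap.range (tameMap f 0 (N : K))) ≠ 0 := by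
      intro h
      apply hfN
      rw [Submodule.finrank_eq_zero, LinearMap.range_eq_bot] at h
      refine LinearMap.ext fun x => ?_
      have hx := LinearMap.congr_fun h (x, 0)
      rw [tameMap_apply] at hx
      simpa [sub_eq_zero] using hx
    have hr0 : Module.finrank K (LinearMap.range (0 : Module.End K W)) = 0 := by simp
    omega
  · have hrn : Module.finrank K (LinearMap.range n) ≠ 0 := fun h =>
      h0 (LinearMap.range_eq_bot.mp (Submodule.finrank_eq_zero.mp h))
    have hle : LinearMap.range n ≤ LinearMap.range (tameMap f n (N : K)) := by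
      rintro _ ⟨y, rfl⟩
      exact ⟨(0, -y), by rw [tameMap_apply]; simp⟩
    have hkn : Module.finrank K (LinearMap.range n) ≤ Module.finrank K (LinearMap.ker n) := by
      refine Submodule.finrank_mono ?_
      rintro _ ⟨y, rfl⟩
      exact LinearMap.congr_fun hn y
    suffices 1 < Module.finrank K (LinearMap.range (tameMap f n (N : K))) by omega
    by_contra hcon
    have heq : LinearMap.range n = LinearMap.range (tameMap f n (N : K)) :=
      Submodule.eq_of_le_of_finrank_le hle (by omega)
    have hker : ∀ w, n (f w) = (N : K) • n w := by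
      intro w
      obtain ⟨y, hy⟩ : f w - (N : K) • w ∈ LinearMap.range n := by
        rw [heq]; exact ⟨(w, 0), by rw [tameMap_apply]; simp⟩
      have h2 : n (n y) = 0 := LinearMap.congr_fun hn y
      rw [hy, map_sub, map_smul, sub_eq_zero] at h2
      exact h2
    obtain ⟨w, hw⟩ : ∃ w, n w ≠ 0 := by
      by_contra! h; exact h0 (LinearMap.ext h)
    have hnn : n (n w) = 0 := LinearMap.congr_fun hn w
    have hli : LinearIndependent K ![n w, w] := by
      rw [LinearIndependent.pair_iff]
      intro s t hst
      have h2 := congrArg n hst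
      rw [map_add, map_smul, map_smul, hnn, smul_zero, zero_add, map_zero, smul_eq_zero] at h2
      have ht : t = 0 := h2.resolve_right hw
      rw [ht, zero_smul, add_zero, smul_eq_zero] at hst
      exact ⟨hst.resolve_right hw, ht⟩
    let b := basisOfLinearIndependentOfCardEqFinrank hli (by simp [hW])
    have hb0 : b 0 = n w := by simp [b]
    have hb1 : b 1 = w := by simp [b]
    obtain ⟨z, hz⟩ : f w - (N : K) • w ∈ LinearMap.range n := by
      rw [heq]; exact ⟨(w, 0), by rw [tameMap_apply]; simp⟩
    obtain ⟨a, ha⟩ : ∃ a : K, a • n w = n z := by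
      have hline : K ∙ n w = LinearMap.range n := Submodule.eq_of_le_of_finrank_le
        ((Submodule.span_singleton_le_iff_mem _ _).mpr ⟨w, rfl⟩)
        (by rw [finrank_span_singleton hw]; omega)
      exact Submodule.mem_span_singleton.mp (hline ▸ ⟨z, rfl⟩)
    have hfw : f w = a • b 0 + (N : K) • b 1 := by rw [hb0, hb1, ha, hz]; abel
    have hfnw : f (n w) = ((N : K) * N) • b 0 := by
      have h2 : f (n w) = (N : K) • n (f w) := LinearMap.congr_fun hfn w
      rw [h2, hker, smul_smul, hb0]
    have hM : LinearMap.toMatrix b b f = !![(N : K) * N, a; 0, (N : K)] := by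
      ext i j
      rw [LinearMap.toMatrix_apply]
      fin_cases j
      · rw [Fin.zero_eta, hb0, hfnw]
        fin_cases i <;> simp [Finsupp.single_apply]
      · rw [Fin.mk_one, hb1, hfw]
        fin_cases i <;> simp [Finsupp.single_apply]
    rw [← LinearMap.det_toMatrix b, hM, Matrix.det_fin_two_of] at hdet
    have h3 : ((N ^ 3 : ℕ) : K) = (N : K) := by push_cast; linear_combination hdet
    have h3' : N ^ 3 = N := Nat.cast_injective h3
    nlinarith [mul_le_mul hN hN (by norm_num) (Nat.zero_le N)]

end Plane

section Split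

variable {K : Type*} [Field K] {U : Type*} [AddCommGroup U] [Module K U]
  {V : Type*} [AddCommGroup V] [Module K V] [Module.Finite K U] {ι : Type*} [Fintype ι]

/-- The kernel of a map respecting independent families splits. -/
theorem finrank_inf_iSup_eq_sum {P : ι → Submodule K U} (hP : iSupIndep P)
    {S : ι → Submodule K V} (hS : iSupIndep S) (h : U →ₗ[K] V)
    (hPS : ∀ i, ∀ x ∈ P i, h x ∈ S i) :
    Module.finrank K (LinearMap.ker h ⊓ ⨆ i, P i : Submodule K U) =
      ∑ i, Module.finrank K (LinearMap.ker h ⊓ P i : Submodule K U) := by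
  classical
  have hinf : (LinearMap.ker h ⊓ ⨆ i, P i) = ⨆ i, LinearMap.ker h ⊓ P i := by
    refine le_antisymm ?_ (iSup_le fun i => inf_le_inf_left _ (le_iSup P i))
    rintro x ⟨hx, hxP⟩
    obtain ⟨z, rfl⟩ := (Submodule.mem_iSup_iff_exists_dfinsupp' _ _).mp hxP
    have hsum : (z.sum fun _ v => (v : U)) = ∑ i, (z i : U) :=
      Finset.sum_subset (Finset.subset_univ _) (fun i _ hi => by simp_all)
    rw [hsum] at hx ⊢
    rw [SetLike.mem_coe, LinearMap.mem_ker, map_sum] at hx
    have hz := (iSupIndep_iff_finset_sum_eq_zero_imp_eq_zero S).mp hS Finset.univ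
      (fun i => h (z i)) (fun i _ => hPS i _ (z i).2) hx
    exact Submodule.sum_mem _ fun i _ => Submodule.mem_iSup_of_mem i
      ⟨LinearMap.mem_ker.mpr (hz i (Finset.mem_univ i)), (z i).2⟩
  rw [hinf]
  have hind : iSupIndep fun i => LinearMap.ker h ⊓ P i := hP.mono fun i => inf_le_right
  rw [Submodule.iSup_eq_range_dfinsupp_lsum,
    LinearMap.finrank_range_of_inj hind.dfinsupp_lsum_injective]
  exact Module.finrank_directSum K fun i => (LinearMap.ker h ⊓ P i : Submodule K U)

end Split

section Scalars

variable {R : Type*} [CommRing R] [IsDomain R] [IsPrincipalIdealRing R]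
  {K : Type*} [Field K] [Algebra R K] [Module.IsTorsionFree R K]

omit [IsDomain R] [IsPrincipalIdealRing R] [Module.IsTorsionFree R K] in
theorem mulVec_smul_comp {α β : Type*} [Fintype β] (A : Matrix α β R) (c : K) (v : β → R) :
    (A.map (algebraMap R K)) *ᵥ (c • (algebraMap R K ∘ v)) = c • (algebraMap R K ∘ (A *ᵥ v)) := by
  rw [Matrix.mulVec_smul]
  congr 1
  funext a
  exact (RingHom.map_mulVec (algebraMap R K) A v a).symm

/-- Kernels of matrices commute with extension to a torsion-free field. -/
theorem finrank_ker_map_eq {α β : Type*} [Fintype α] [Fintype β] (A : Matrix α β R) :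
    Module.finrank K (LinearMap.ker (A.map (algebraMap R K)).mulVecLin) =
      Module.finrank R (LinearMap.ker A.mulVecLin) := by
  classical
  let φ : (β → R) →ₗ[R] (β → K) := (Algebra.linearMap R K).compLeft β
  let b := Module.Free.chooseBasis R (LinearMap.ker A.mulVecLin)
  let u : Module.Free.ChooseBasisIndex R (LinearMap.ker A.mulVecLin) → (β → K) :=
    fun i => φ (b i : β → R)
  have hker : ∀ v : β → R, A *ᵥ v = 0 ↔ (A.map (algebraMap R K)) *ᵥ φ v = 0 := by
    intro v
    have := mulVec_smul_comp (K := K) A 1 v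
    rw [one_smul, one_smul] at this
    rw [show φ v = algebraMap R K ∘ v from rfl, this]
    constructor
    · intro h; rw [h]; funext a; simp
    · intro h
      funext a
      have ha := congrFun h a
      simp only [Function.comp_apply, Pi.zero_apply] at ha
      exact FaithfulSMul.algebraMap_injective R K (ha.trans (map_zero _).symm)
  have hu : LinearIndependent K u := by
    rw [Fintype.linearIndependent_iff]
    intro c hc
    let M : Submodule R K := Submodule.span R (Set.range c)
    have : Module.Finite R M := Module.Finite.span_of_finite R (Set.finite_range c)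
    let e := Module.Free.chooseBasis R M
    intro i
    have hcoord : ∀ l, ∑ j, e.repr ⟨c j, Submodule.subset_span ⟨j, rfl⟩⟩ l • b j = 0 := by
      intro l
      refine Subtype.ext (funext fun a => ?_)
      have hca : ∑ j, (b j : β → R) a • (⟨c j, Submodule.subset_span ⟨j, rfl⟩⟩ : M) = 0 := by
        refine Subtype.ext ?_
        have := congrFun hc a
        simp only [Finset.sum_apply, Pi.smul_apply, Pi.zero_apply, smul_eq_mul] at this
        simpa [u, φ, Algebra.smul_def, mul_comm] using this
      have := congrArg (fun x => e.repr x l) hca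
      simp only [map_sum, map_smul, map_zero, Finsupp.coe_finset_sum, Finset.sum_apply,
        Finsupp.smul_apply, smul_eq_mul, Finsupp.zero_apply] at this
      simpa [mul_comm] using this
    have : (⟨c i, Submodule.subset_span ⟨i, rfl⟩⟩ : M) = 0 :=
      e.ext_elem fun l => by
        simpa using Fintype.linearIndependent_iff.mp b.linearIndependent _ (hcoord l) i
    exact congrArg Subtype.val this
  have hspan : Submodule.span K (Set.range u) =
      LinearMap.ker (A.map (algebraMap R K)).mulVecLin := by
    refine le_antisymm (Submodule.span_le.mpr ?_) fun x hx => ?_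
    · rintro _ ⟨i, rfl⟩
      exact (hker _).mp (b i).2
    · let M : Submodule R K := Submodule.span R (Set.range x)
      have : Module.Finite R M := Module.Finite.span_of_finite R (Set.finite_range x)
      let e := Module.Free.chooseBasis R M
      let v : Module.Free.ChooseBasisIndex R M → β → R :=
        fun l j => e.repr ⟨x j, Submodule.subset_span ⟨j, rfl⟩⟩ l
      have hx' : x = ∑ l, (e l : K) • φ (v l) := by
        funext j
        have := congrArg Subtype.val (e.sum_repr ⟨x j, Submodule.subset_span ⟨j, rfl⟩⟩)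
        simp only [Submodule.coe_sum, Submodule.coe_smul] at this
        conv_lhs => rw [← this]
        simp [φ, v, Algebra.smul_def, mul_comm]
      have hv : ∀ l, v l ∈ LinearMap.ker A.mulVecLin := by
        intro l
        refine funext fun a => ?_
        have hxa : ∑ j, A a j • (⟨x j, Submodule.subset_span ⟨j, rfl⟩⟩ : M) = 0 := by
          refine Subtype.ext ?_
          have := congrFun hx a
          simpa [Matrix.mulVec, dotProduct, Algebra.smul_def] using this
        have := congrArg (fun z => e.repr z l) hxa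
        simp only [map_sum, map_smul, map_zero, Finsupp.coe_finset_sum, Finset.sum_apply,
          Finsupp.smul_apply, smul_eq_mul, Finsupp.zero_apply] at this
        simpa [Matrix.mulVec, dotProduct, v] using this
      rw [hx']
      refine Submodule.sum_mem _ fun l _ => Submodule.smul_mem _ _ ?_
      have h2 := congrArg Subtype.val (b.sum_repr ⟨v l, hv l⟩)
      simp only [Submodule.coe_sum, Submodule.coe_smul] at h2
      rw [← h2, map_sum]
      refine Submodule.sum_mem _ fun i _ => ?_
      rw [map_smul, ← algebraMap_smul K]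
      exact Submodule.smul_mem _ _ (Submodule.subset_span ⟨i, rfl⟩)
  rw [← hspan, finrank_span_eq_card hu, Module.finrank_eq_card_chooseBasisIndex]

end Scalars

section ModPow

variable {p : ℕ} [Fact p.Prime] {α β : Type*} [Fintype α] [Fintype β]

/-- Reduction modulo `p ^ m` of vectors. -/
noncomputable def redVec (m : ℕ) : (β → ℤ_[p]) →+ (β → ZMod (p ^ m)) :=
  ((PadicInt.toZModPow m : ℤ_[p] →+* ZMod (p ^ m)).toAddMonoidHom).compLeft β

theorem redVec_surjective (m : ℕ) : Function.Surjective (redVec (p := p) (β := β) m) := by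
  intro x
  choose y hy using fun j => ZMod.ringHom_surjective (PadicInt.toZModPow m : ℤ_[p] →+* _) (x j)
  exact ⟨y, funext hy⟩

theorem redVec_eq_zero_iff (m : ℕ) (v : β → ℤ_[p]) :
    redVec m v = 0 ↔ ∃ w : β → ℤ_[p], v = (p : ℤ_[p]) ^ m • w := by
  constructor
  · intro h
    have : ∀ j, ∃ w, v j = (p : ℤ_[p]) ^ m * w := fun j => by
      have hj : v j ∈ RingHom.ker (PadicInt.toZModPow m : ℤ_[p] →+* _) := congrFun h j
      rw [PadicInt.ker_toZModPow, Ideal.mem_span_singleton] at hj
      exact hj
    choose w hw using this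
    exact ⟨w, funext hw⟩
  · rintro ⟨w, rfl⟩
    funext j
    show PadicInt.toZModPow m ((p : ℤ_[p]) ^ m * w j) = 0
    rw [map_mul, map_pow, map_natCast, ← Nat.cast_pow, ZMod.natCast_self, zero_mul]

theorem redVec_mulVec (A : Matrix α β ℤ_[p]) (m : ℕ) (v : β → ℤ_[p]) :
    redVec m (A *ᵥ v) = (A.map (PadicInt.toZModPow m)) *ᵥ redVec m v :=
  funext fun a => RingHom.map_mulVec (PadicInt.toZModPow m) A v a

/-- The kernel of a `p`-adic matrix modulo `p ^ m`. -/
noncomputable def kerMod (A : Matrix α β ℤ_[p]) (m : ℕ) : AddSubgroup (β → ZMod (p ^ m)) :=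
  (A.map (PadicInt.toZModPow m)).mulVecLin.toAddMonoidHom.ker

theorem mem_kerMod {A : Matrix α β ℤ_[p]} {m : ℕ} {x : β → ZMod (p ^ m)} :
    x ∈ kerMod A m ↔ (A.map (PadicInt.toZModPow m)) *ᵥ x = 0 := Iff.rfl

instance finite_kerMod (A : Matrix α β ℤ_[p]) (m : ℕ) : Finite (kerMod A m) := inferInstance

/-- Lower bound for the kernel modulo `p ^ m`. -/
theorem le_card_kerMod (A : Matrix α β ℤ_[p]) (m : ℕ) :
    p ^ (m * Module.finrank ℤ_[p] (LinearMap.ker A.mulVecLin)) ≤ Nat.card (kerMod A m) := by
  classical
  let b := Module.Free.chooseBasis ℤ_[p] (LinearMap.ker A.mulVecLin)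
  choose lift hlift using fun c : Module.Free.ChooseBasisIndex ℤ_[p] (LinearMap.ker A.mulVecLin) →
    ZMod (p ^ m) => redVec_surjective (p := p) m c
  let f : (Module.Free.ChooseBasisIndex ℤ_[p] (LinearMap.ker A.mulVecLin) → ZMod (p ^ m)) →
      kerMod A m := fun c =>
    ⟨redVec m (∑ i, lift c i • (b i : β → ℤ_[p])), by
      rw [mem_kerMod, ← redVec_mulVec]
      have : A *ᵥ (∑ i, lift c i • (b i : β → ℤ_[p])) = 0 := by
        have h := (∑ i, lift c i • b i).2
        simp only [Submodule.coe_sum, Submodule.coe_smul] at h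
        exact h
      rw [this, map_zero]⟩
  have hf : Function.Injective f := by
    intro c c' h
    have h' := congrArg Subtype.val h
    simp only [f] at h'
    rw [← sub_eq_zero, ← map_sub, ← Finset.sum_sub_distrib, redVec_eq_zero_iff] at h'
    obtain ⟨w, hw⟩ := h'
    simp only [← sub_smul] at hw
    have hwK : w ∈ LinearMap.ker A.mulVecLin := by
      have h0 : A.mulVecLin ((p : ℤ_[p]) ^ m • w) = 0 := by
        rw [← hw, map_sum]
        exact Finset.sum_eq_zero fun i _ => by
          rw [map_smul, show A.mulVecLin (b i : β → ℤ_[p]) = 0 from (b i).2, smul_zero]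
      rw [map_smul, smul_eq_zero] at h0
      exact LinearMap.mem_ker.mpr (h0.resolve_left (pow_ne_zero _ (by
        exact_mod_cast (Fact.out : p.Prime).ne_zero)))
    have hw' : ∑ i, (lift c i - lift c' i) • b i = (p : ℤ_[p]) ^ m • ⟨w, hwK⟩ := by
      refine Subtype.ext ?_
      simpa [Submodule.coe_sum] using hw
    funext i
    have hi := congrArg (fun z => b.repr z i) hw'
    rw [map_sum, Finsupp.coe_finset_sum, Finset.sum_apply, map_smul] at hi
    simp only [map_smul, Finsupp.smul_apply, b.repr_self, Finsupp.single_apply, smul_eq_mul,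
      mul_ite, mul_one, mul_zero, Finset.sum_ite_eq', Finset.mem_univ, if_true] at hi
    have h2 := congrArg (PadicInt.toZModPow m : ℤ_[p] →+* _) hi
    rw [map_sub, map_mul, map_pow, map_natCast, ← Nat.cast_pow, ZMod.natCast_self, zero_mul,
      sub_eq_zero] at h2
    have e1 := congrFun (hlift c) i
    have e2 := congrFun (hlift c') i
    exact e1.symm.trans (h2.trans e2)
  refine le_trans (le_of_eq ?_) (Nat.card_le_card_of_injective f hf)
  rw [Nat.card_fun, Nat.card_zmod, Nat.card_eq_fintype_card,
    Module.finrank_eq_card_chooseBasisIndex, pow_mul]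

/-- Upper bound for the kernel modulo `p ^ m`. -/
theorem exists_card_kerMod_le (A : Matrix α β ℤ_[p]) :
    ∃ C : ℕ, ∀ m, Nat.card (kerMod A m) ≤
      p ^ C * p ^ (m * Module.finrank ℤ_[p] (LinearMap.ker A.mulVecLin)) := by
  classical
  let I := LinearMap.range A.mulVecLin
  let sat : ℕ →o Submodule ℤ_[p] (α → ℤ_[p]) :=
    ⟨fun t => I.comap ((p : ℤ_[p]) ^ t • LinearMap.id), fun t t' htt' y hy => by
      obtain ⟨d, rfl⟩ := Nat.exists_eq_add_of_le htt'
      show (p : ℤ_[p]) ^ (t + d) • y ∈ I
      rw [add_comm, pow_add, mul_smul]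
      exact I.smul_mem _ hy⟩
  obtain ⟨s, hs⟩ := (monotone_stabilizes_iff_noetherian.mpr inferInstance) sat
  refine ⟨s * Fintype.card β, fun m => ?_⟩
  let b := Module.Free.chooseBasis ℤ_[p] (LinearMap.ker A.mulVecLin)
  let g : (β → Fin (p ^ s)) × (Module.Free.ChooseBasisIndex ℤ_[p] (LinearMap.ker A.mulVecLin) →
      Fin (p ^ m)) → (β → ZMod (p ^ m)) := fun z =>
    redVec m ((p : ℤ_[p]) ^ (m - s) • (fun j => ((z.1 j : ℕ) : ℤ_[p])) +
      ∑ i, ((z.2 i : ℕ) : ℤ_[p]) • (b i : β → ℤ_[p]))
  have hg : (kerMod A m : Set (β → ZMod (p ^ m))) ⊆ Set.range g := by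
    intro x hx
    obtain ⟨v, rfl⟩ := redVec_surjective m x
    rw [SetLike.mem_coe, mem_kerMod, ← redVec_mulVec, redVec_eq_zero_iff] at hx
    obtain ⟨y, hy⟩ := hx
    -- write `v = p ^ (m - s) z + kernel`
    obtain ⟨z, k, hk, hv⟩ : ∃ z k, k ∈ LinearMap.ker A.mulVecLin ∧
        v = (p : ℤ_[p]) ^ (m - s) • z + k := by
      by_cases hms : m ≤ s
      · exact ⟨v, 0, zero_mem _, by simp [Nat.sub_eq_zero_of_le hms]⟩
      push Not at hms
      have hyI : y ∈ sat m := ⟨v, by simpa using hy⟩
      rw [← hs m hms.le] at hyI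
      obtain ⟨z, hz⟩ := hyI
      refine ⟨z, v - (p : ℤ_[p]) ^ (m - s) • z, ?_, by abel⟩
      rw [LinearMap.mem_ker, map_sub, map_smul, sub_eq_zero, Matrix.mulVecLin_apply, hy]
      have hz' : A.mulVecLin z = (p : ℤ_[p]) ^ s • y := by simpa using hz
      rw [hz', smul_smul, ← pow_add, Nat.sub_add_cancel hms.le]
    have hp0 : 0 < p := (Fact.out : p.Prime).pos
    let z1 : β → Fin (p ^ s) := fun j => ⟨(PadicInt.toZModPow s (z j)).val,
      haveI : NeZero (p ^ s) := ⟨(pow_pos hp0 s).ne'⟩; ZMod.val_lt _⟩
    let z2 : Module.Free.ChooseBasisIndex ℤ_[p] (LinearMap.ker A.mulVecLin) → Fin (p ^ m) :=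
      fun i => ⟨(PadicInt.toZModPow m (b.repr ⟨k, hk⟩ i)).val,
        haveI : NeZero (p ^ m) := ⟨(pow_pos hp0 m).ne'⟩; ZMod.val_lt _⟩
    refine ⟨(z1, z2), ?_⟩
    simp only [g]
    rw [hv, map_add, map_add]
    congr 1
    · rw [← sub_eq_zero, ← map_sub, redVec_eq_zero_iff]
      have : ∀ j, ∃ d, ((z1 j : ℕ) : ℤ_[p]) - z j = (p : ℤ_[p]) ^ s * d := fun j => by
        haveI : NeZero (p ^ s) := ⟨(pow_pos hp0 s).ne'⟩
        have hmem : ((z1 j : ℕ) : ℤ_[p]) - z j ∈
            RingHom.ker (PadicInt.toZModPow s : ℤ_[p] →+* _) := by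
          rw [RingHom.mem_ker, map_sub, map_natCast, ZMod.natCast_zmod_val, sub_self]
        rw [PadicInt.ker_toZModPow, Ideal.mem_span_singleton] at hmem
        exact hmem
      choose d hd using this
      refine ⟨(p : ℤ_[p]) ^ (s - m) • d, ?_⟩
      funext j
      simp only [Pi.sub_apply, Pi.smul_apply, smul_eq_mul, ← mul_sub, hd, ← mul_assoc, ← pow_add]
      congr 2
      omega
    · conv_rhs => rw [show k = ((∑ i, b.repr ⟨k, hk⟩ i • b i : LinearMap.ker A.mulVecLin) :
        β → ℤ_[p]) by rw [b.sum_repr]]
      rw [Submodule.coe_sum, map_sum, map_sum]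
      refine Finset.sum_congr rfl fun i _ => ?_
      funext j
      haveI : NeZero (p ^ m) := ⟨(pow_pos hp0 m).ne'⟩
      show PadicInt.toZModPow m (_ * _) = PadicInt.toZModPow m (_ * _)
      rw [map_mul, map_mul, map_natCast, ZMod.natCast_zmod_val]
  calc Nat.card (kerMod A m) ≤ Nat.card (Set.range g) :=
        Nat.card_mono (Set.finite_range g) hg
    _ ≤ _ := (Finite.card_range_le g).trans (le_of_eq (by
        simp [Nat.card_eq_fintype_card, Module.finrank_eq_card_chooseBasisIndex, ← pow_mul]))

end ModPow

end FLTA.Mazur
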