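import Fermat.Agent.GaloisReps.TateData
import Fermat.Agent.Mazur.PlaneLinAlg
import Fermat.Agent.Mazur.SelmerBound
import Fermat.Agent.Mazur.Defs

/-!
# The Eisenstein part of the `p ^ k`-torsion of `J₀(N)`
-/

set_option autoImplicit false
set_option synthInstance.maxHeartbeats 400000

noncomputable section

open ModularCurve
open scoped Matrix

namespace FLTA.Mazur

open FLTA.GaloisReps

variable {N : ℕ} [NeZero N] {p : ℕ} [Fact p.Prime] (D : TateData N p)

/-- The vectors modulo `p ^ k` fixed by `E`. -/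
def eisMod (E : Matrix (Fin D.r) (Fin D.r) ℤ_[p]) (k : ℕ) :
    Submodule (ZMod (p ^ k)) (Fin D.r → ZMod (p ^ k)) :=
  LinearMap.ker ((1 - E).map (PadicInt.toZModPow k)).mulVecLin

theorem mem_eisMod {E : Matrix (Fin D.r) (Fin D.r) ℤ_[p]} {k : ℕ}
    {v : Fin D.r → ZMod (p ^ k)} :
    v ∈ eisMod D E k ↔ (E.map (PadicInt.toZModPow k)) *ᵥ v = v := by
  rw [eisMod, LinearMap.mem_ker, Matrix.mulVecLin_apply,
    Matrix.map_sub _ (map_sub _), Matrix.map_one _ (map_zero _) (map_one _),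
    Matrix.sub_mulVec, Matrix.one_mulVec, sub_eq_zero, eq_comm]

theorem galois_mulVec_mem_eisMod {E : Matrix (Fin D.r) (Fin D.r) ℤ_[p]}
    (hcomm : ∀ σ, Commute (D.rho σ) E) {k : ℕ} (σ : GalQ)
    {v : Fin D.r → ZMod (p ^ k)} (hv : v ∈ eisMod D E k) :
    ((D.rho σ).map (PadicInt.toZModPow k)) *ᵥ v ∈ eisMod D E k := by
  rw [mem_eisMod] at hv ⊢
  rw [Matrix.mulVec_mulVec, ← Matrix.map_mul, ← (hcomm σ).eq, Matrix.map_mul,
    ← Matrix.mulVec_mulVec, hv]

/-- The Galois action on `eisMod`. -/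
def eisAct (E : Matrix (Fin D.r) (Fin D.r) ℤ_[p]) (hcomm : ∀ σ, Commute (D.rho σ) E) (k : ℕ) :
    GalQ →* AddMonoid.End (eisMod D E k) where
  toFun σ :=
    AddMonoidHom.mk'
      (fun v => ⟨((D.rho σ).map (PadicInt.toZModPow k)) *ᵥ (v : Fin D.r → ZMod (p ^ k)),
        galois_mulVec_mem_eisMod D hcomm σ v.2⟩)
      fun v w => Subtype.ext (by
        simp only [Submodule.coe_add]
        exact Matrix.mulVec_add _ _ _)
  map_one' := AddMonoidHom.ext fun v => Subtype.ext (by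
    show ((D.rho 1).map (PadicInt.toZModPow k)) *ᵥ v.1 = v.1
    rw [map_one, Matrix.map_one _ (map_zero _) (map_one _), Matrix.one_mulVec])
  map_mul' σ τ := AddMonoidHom.ext fun v => Subtype.ext (by
    show ((D.rho (σ * τ)).map (PadicInt.toZModPow k)) *ᵥ v.1 =
      ((D.rho σ).map (PadicInt.toZModPow k)) *ᵥ (((D.rho τ).map (PadicInt.toZModPow k)) *ᵥ v.1)
    rw [map_mul, Matrix.map_mul, Matrix.mulVec_mulVec])

@[simp]
theorem coe_eisAct {E : Matrix (Fin D.r) (Fin D.r) ℤ_[p]} (hcomm : ∀ σ, Commute (D.rho σ) E)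
    {k : ℕ} (σ : GalQ) (v : eisMod D E k) :
    (eisAct D E hcomm k σ v : Fin D.r → ZMod (p ^ k)) =
      ((D.rho σ).map (PadicInt.toZModPow k)) *ᵥ (v : Fin D.r → ZMod (p ^ k)) :=
  rfl

/-- The embedding into `J₀(N)`. -/
def eisIncl (E : Matrix (Fin D.r) (Fin D.r) ℤ_[p]) (k : ℕ) : eisMod D E k →+ JZero N :=
  (Submodule.torsionBy ℤ (JZero N) ((p : ℤ) ^ k)).subtype.toAddMonoidHom.comp
    ((D.torsionEquiv k).toAddMonoidHom.comp (eisMod D E k).subtype.toAddMonoidHom)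

theorem eisIncl_injective (E : Matrix (Fin D.r) (Fin D.r) ℤ_[p]) (k : ℕ) :
    Function.Injective (eisIncl D E k) := fun _ _ h =>
  Subtype.ext ((D.torsionEquiv k).injective (Subtype.ext h))

theorem eisIncl_act {E : Matrix (Fin D.r) (Fin D.r) ℤ_[p]} (hcomm : ∀ σ, Commute (D.rho σ) E)
    {k : ℕ} (σ : GalQ) (v : eisMod D E k) :
    eisIncl D E k (eisAct D E hcomm k σ v) = σ • eisIncl D E k v :=
  D.torsionEquiv_galois k σ v

/-- The integer Hecke matrices. -/
def heckeSpan : Subalgebra ℤ_[p] (Matrix (Fin D.r) (Fin D.r) ℤ_[p]) :=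
  Algebra.adjoin ℤ_[p]
    (Set.range fun t : FullHecke N => (D.hecke t).map (Int.cast : ℤ → ℤ_[p]))

theorem commute_of_mem_heckeSpan {E : Matrix (Fin D.r) (Fin D.r) ℤ_[p]} (hE : E ∈ heckeSpan D)
    (σ : GalQ) : Commute (D.rho σ) E :=
  Algebra.commute_of_mem_adjoin_of_forall_mem_commute hE fun b hb => by
    obtain ⟨t, rfl⟩ := hb
    exact D.commute σ t

/-- The coordinates on torsion are equivariant for the away Hecke operators. -/
def HeckeCompat (hN : N.Prime) : Prop :=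
  ∀ (r : Nat.Primes) (hr : (r : ℕ) ≠ N) (k : ℕ) (v : Fin D.r → ZMod (p ^ k)),
    heckeOperatorBar N r (D.torsionEquiv k v : JZero N) =
      (D.torsionEquiv k (((D.hecke (CuspForm.heckeAlgebra.T r.2
        (fun h => hr ((Nat.prime_dvd_prime_iff_eq r.2 hN).mp h))
        (Set.notMem_empty (r : ℕ)))).map (Int.cast : ℤ → ZMod (p ^ k))) *ᵥ v) : JZero N)

/-- What the descent needs from an Eisenstein idempotent. -/
structure EisIdem where
  /-- The idempotent. -/
  E : Matrix (Fin D.r) (Fin D.r) ℤ_[p]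
  idem : E * E = E
  mem : E ∈ heckeSpan D
  /-- `E` is an away Hecke operator modulo `p ^ k`. -/
  exists_away : ∀ k : ℕ, ∃ t ∈ awayHecke N,
    (∀ x : JZero N, p • x = 0 →
      (∀ r : Nat.Primes, (r : ℕ) ≠ N → heckeOperatorBar N r x = (1 + (r : ℕ)) • x) →
        t x = x) ∧
    ∀ v : Fin D.r → ZMod (p ^ k),
      t (D.torsionEquiv k v : JZero N) =
        (D.torsionEquiv k ((E.map (PadicInt.toZModPow k)) *ᵥ v) : JZero N)
  chain : ∀ k : ℕ,
    HasEisensteinChain p (eisAct D E (fun σ => commute_of_mem_heckeSpan D mem σ) k)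

end FLTA.Mazur

end
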