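import Fermat.Agent.Mazur.EllCyclic
import Fermat.Agent.EllReduction.Api
import Fermat.Agent.EllTorsion.Card

/-!
# The place above `p`: the kernel of reduction on `p`-power torsion

At a semistable place above `p` where inertia moves some point of order `p` and some point of
order `p` does not reduce to infinity, `E1[p ^ n]` is cyclic of order `p ^ n` and inertia acts
trivially on `E[p ^ n] / E1[p ^ n]`.
-/

set_option autoImplicit false

open scoped Classical

open WeierstrassCurve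

open scoped WeierstrassCurve.Affine

namespace FLTA.Mazur

open FLTA.EllReduction

local notation "Qbar" => AlgebraicClosure ℚ

variable {W : WeierstrassCurve ℤ} {p : ℕ} {A : ValuationSubring Qbar}

/-- Inertia moves `p`-power torsion into the kernel of reduction. -/
lemma smul_sub_mem_E1Z_atP (hp : p.Prime) (hA : A.LiesOverPrime p) (hΔ : W.Δ ≠ 0)
    (hss : ¬ (p : ℤ) ∣ W.Δ ∨ ¬ (p : ℤ) ∣ W.c₄) {σ : Qbar ≃ₐ[ℚ] Qbar}
    (hσ : σ ∈ A.inertiaSubgroupIn ℚ) {n : ℕ} {X : GeomPoint W} (hX : p ^ n • X = 0) :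
    σ • X - X ∈ E1Z W A := by
  by_cases hgood : (p : ℤ) ∣ W.Δ
  · have hc₄ : ¬ (p : ℤ) ∣ W.c₄ := hss.resolve_left (fun h => h hgood)
    suffices ∀ (n : ℕ) (P : GeomPoint W), P ∈ E0Z W A → p ^ n • P ∈ E1Z W A → P ∈ E1Z W A from
      this n _ (smul_sub_mem_E0Z hp hA hss hΔ hσ X)
        ((congrArg (· ∈ E1Z W A) (nsmul_smul_sub_eq_zero σ hX)).mpr (zero_mem _))
    intro n
    induction n with
    | zero => intro P _ h; simpa using h
    | succ n ih =>
      intro P hP h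
      refine mem_E1Z_of_mult hp hA hΔ hgood hc₄ hP (ih _ (nsmul_mem hP p) ?_)
      rwa [smul_smul, ← pow_succ]
  · exact smul_sub_mem_E1Z hp hA hσ (mem_E0Z_of_good hp hA hgood X)

/-- The `p ^ n`-torsion of the kernel of reduction is cyclic. -/
lemma mem_zmultiples_of_E1Z_pow (hp : p.Prime) (hΔ : W.Δ ≠ 0) {P : GeomPoint W} (hP : p • P = 0)
    (hP1 : P ∉ E1Z W A) {n : ℕ} {X Y : GeomPoint W} (hX : X ∈ E1Z W A) (hY : Y ∈ E1Z W A)
    (hX0 : p ^ n • X = 0) (hY0 : addOrderOf Y = p ^ n) : X ∈ AddSubgroup.zmultiples Y := by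
  refine Cyclic.mem_zmultiples_of_rank_one hp
    (fun X hX Y hY hpX hpY hY0 => Cyclic.mem_zmultiples_of_proper hp ?_ hP hP1 hX hY hpX hpY hY0)
    hX hY hX0 hY0
  rw [← FLTA.EllTorsion.natCard_torsionBy_intModel W hΔ hp.ne_zero]
  exact Nat.card_congr (Equiv.subtypeEquivRight fun x => by
    rw [Submodule.mem_torsionBy_iff, natCast_zsmul])

/-- There are points of every `p`-power order in the kernel of reduction. -/
lemma exists_mem_E1Z_atP (hp : p.Prime) (hA : A.LiesOverPrime p) (hΔ : W.Δ ≠ 0)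
    (hss : ¬ (p : ℤ) ∣ W.Δ ∨ ¬ (p : ℤ) ∣ W.c₄) {σ : Qbar ≃ₐ[ℚ] Qbar}
    (hσ : σ ∈ A.inertiaSubgroupIn ℚ) {y : GeomPoint W} (hy : p • y = 0) (hσy : σ • y ≠ y)
    (n : ℕ) : ∃ Y ∈ E1Z W A, addOrderOf Y = p ^ n := by
  cases n with
  | zero => exact ⟨0, zero_mem _, by simp⟩
  | succ n =>
    have : (W.map (Int.castRingHom ℚ))⁄Qbar |>.IsElliptic := by
      refine ⟨isUnit_iff_ne_zero.2 ?_⟩
      simp [WeierstrassCurve.baseChange, WeierstrassCurve.map_Δ, hΔ]
    obtain ⟨x, hx⟩ : ∃ x : GeomPoint W, p ^ n • x = y := FLTA.EllTorsion.exists_nsmul_eq ((W.map (Int.castRingHom ℚ))⁄Qbar)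
      (n := p ^ n) (by exact_mod_cast pow_ne_zero n hp.ne_zero) y
    have hx0 : p ^ (n + 1) • x = 0 := by rw [pow_succ', mul_smul, hx, hy]
    refine ⟨σ • x - x, smul_sub_mem_E1Z_atP hp hA hΔ hss hσ hx0, ?_⟩
    have h1 : p ^ n • (σ • x - x) = σ • y - y := by
      rw [nsmul_sub, hx, ← hx]
      congr 1
      exact (map_nsmul (DistribSMul.toAddMonoidHom (GeomPoint W) σ) _ x).symm
    have := Fact.mk hp
    refine addOrderOf_eq_prime_pow ?_ (nsmul_smul_sub_eq_zero σ hx0)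
    rw [h1, sub_eq_zero]; exact hσy

end FLTA.Mazur
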