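import Fermat.Agent.EllReduction.Api
import Fermat.Agent.Galois.Places

/-!
# Counting points fixed by Frobenius

A group of torsion points of order prime to `ℓ`, with nonsingular reduction and fixed by a
Frobenius at `ℓ`, has at most `ℓ ^ 2 + 1` elements.
-/

set_option autoImplicit false

open scoped Classical

open WeierstrassCurve WeierstrassCurve.Affine

open scoped WeierstrassCurve.Affine

namespace FLTA.Mazur

open FLTA.EllReduction

local notation "Qbar" => AlgebraicClosure ℚ

theorem natCard_le_of_frobenius_fixed (W : WeierstrassCurve ℤ)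
    (A : ValuationSubring Qbar) {ℓ : ℕ} (hℓ : ℓ.Prime) (hA : A.LiesOverPrime ℓ)
    {σ : Qbar ≃ₐ[ℚ] Qbar} (hσ : A.IsFrobeniusAt σ ℓ) {n : ℕ} (hn : ¬ ℓ ∣ n)
    (S : AddSubgroup (GeomPoint W)) (hS0 : S ≤ E0Z W A) (hfix : ∀ P ∈ S, σ • P = P)
    (hkill : ∀ P ∈ S, n • P = 0) : Nat.card S ≤ ℓ ^ 2 + 1 := by
  let k := IsLocalRing.ResidueField A
  let hW := geomCurve_integralAt W A
  set R : Finset k := (Polynomial.X ^ ℓ - Polynomial.X : Polynomial k).roots.toFinset with hR
  have hRcard : R.card ≤ ℓ := by
    refine (Multiset.toFinset_card_le _).trans ((Polynomial.card_roots' _).trans ?_)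
    exact (Polynomial.natDegree_sub_le _ _).trans
      (max_le (by simp) (by simp; exact hℓ.one_lt.le))
  have hne : (Polynomial.X ^ ℓ - Polynomial.X : Polynomial k) ≠ 0 := by
    intro h
    have := congrArg (Polynomial.coeff · 1) h
    simp [Polynomial.coeff_X_pow, hℓ.one_lt.ne] at this
  let coords : (reducedCurve hW).toAffine.Point → Option (k × k) := fun P =>
    match P with
    | .zero => none
    | .some x y _ => some (x, y)
  have hcoords : Function.Injective coords := by
    intro P Q h
    cases P <;> cases Q <;>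
      simp_all [coords]
  have hres : ∀ x : Qbar, (hx : x ∈ A) → σ x = x → (res hx : k) ∈ R := by
    intro x hx hfx
    have h := (FLTA.Galois.isFrobeniusAt_iff.1 hσ).2 x hx
    rw [hfx] at h
    rw [hR, Multiset.mem_toFinset, Polynomial.mem_roots hne]
    have hval : A.valuation (x - x ^ ℓ) < 1 := A.mem_nonunits_iff.1 h
    have h2 : (res hx : k) = res (pow_mem hx ℓ) := (res_eq_res_iff hx _).2 hval
    have h3 : (res (pow_mem hx ℓ) : k) = (res hx : k) ^ ℓ :=
      map_pow (IsLocalRing.residue A) ⟨x, hx⟩ ℓ
    simp [← h3, ← h2]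
  let g : S → Option (k × k) := fun P => coords (redPoint hW (P : GeomPoint W))
  have hg : Function.Injective g := by
    intro P Q h
    have h1 := sub_inE1_of_redPoint_eq hW ((inZeroComponentAt_iff W A _).mp (hS0 P.2))
      ((inZeroComponentAt_iff W A _).mp (hS0 Q.2)) (hcoords h)
    have h2 : (P : GeomPoint W) - Q = 0 := eq_zero_of_mem_E1Z hℓ hA hn h1
      (by rw [nsmul_sub, hkill _ P.2, hkill _ Q.2, sub_zero])
    exact Subtype.ext (sub_eq_zero.1 h2)
  have hmem : ∀ P : S, g P ∈ Finset.insertNone (R ×ˢ R) := by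
    rintro ⟨P, hP⟩
    have h0 := (inZeroComponentAt_iff W A _).mp (hS0 hP)
    rcases P with _ | ⟨x, y, h⟩
    · exact Finset.none_mem_insertNone
    · by_cases hx : x ∈ A
      · have hy := y_mem_of_x_mem hW h.1 hx
        have hns := (inE0_some_iff hW h hx hy).mp h0
        have hf := hfix _ hP
        rw [WeierstrassCurve.Affine.Point.algEquiv_smul_def, Point.map_some,
          Point.some.injEq] at hf
        simp only [g, redPoint_some hW hx hy hns, coords]
        exact Finset.some_mem_insertNone.2
          (Finset.mem_product.2 ⟨hres x hx hf.1, hres y hy hf.2⟩)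
      · simp only [g, redPoint_of_inE1 hW (P := .some x y h) hx]
        exact Finset.none_mem_insertNone
  calc Nat.card S ≤ Nat.card (Finset.insertNone (R ×ˢ R) : Finset (Option (k × k))) :=
        Nat.card_le_card_of_injective (fun P => ⟨g P, hmem P⟩) fun a b h =>
          hg (congrArg Subtype.val h)
    _ = R.card * R.card + 1 := by
        rw [Nat.card_eq_fintype_card, Fintype.card_coe, Finset.card_insertNone, Finset.card_product]
    _ ≤ ℓ ^ 2 + 1 := by rw [sq]; gcongr

end FLTA.Mazur
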