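import Fermat.Agent.Mazur.EllCyclic

/-!
# Stable cyclic lifts with distinct eigencharacters are unique
-/

set_option autoImplicit false

namespace FLTA.Mazur.Cyclic

variable {G : Type*} [AddCommGroup G] {p : ℕ} (hp : p.Prime)

include hp

/-- An eigenvalue on a cyclic `p`-group reduces to the one on a non-zero element killed by `p`. -/
lemma eigen_congr {m : ℕ} {Y P : G} (F : G →+ G) {a e : ℤ} (hY : addOrderOf Y = p ^ m)
    (hFY : F Y = a • Y) (hP : P ∈ AddSubgroup.zmultiples Y) (hP0 : P ≠ 0) (hFP : F P = e • P) :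
    (p : ℤ) ∣ a - e := by
  obtain ⟨i, rfl⟩ := AddSubgroup.mem_zmultiples_iff.1 hP
  rw [map_zsmul, hFY, smul_smul, smul_smul] at hFP
  have h0 : (i * a - e * i) • Y = 0 := by rw [sub_smul, hFP, sub_self]
  rw [← addOrderOf_dvd_iff_zsmul_eq_zero, hY, Nat.cast_pow] at h0
  have hi : ¬ ((p : ℤ) ^ m) ∣ i := fun h => hP0 (by
    rw [← addOrderOf_dvd_iff_zsmul_eq_zero, hY, Nat.cast_pow]; exact h)
  by_contra hnd
  apply hi
  have h1 : ((p : ℤ) ^ m) ∣ (a - e) * i := by
    rwa [show (a - e) * i = i * a - e * i by ring]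
  exact (((Nat.prime_iff_prime_int.1 hp).coprime_iff_not_dvd.2 hnd).pow_left).dvd_of_dvd_mul_left h1

/-- Two stable cyclic lifts of `⟨Q⟩` with eigenvalue `≢ 1` coincide, when `F` acts trivially on
`G[p]` modulo `⟨Q⟩`. -/
lemma eq_of_eigen {m : ℕ} {Q P Y R : G} (F : G →+ G) {a c e : ℤ} (hm : addOrderOf Q = p ^ m)
    (hY : addOrderOf Y = p ^ (m + 1)) (hR : addOrderOf R = p ^ (m + 1))
    (hYQ : AddSubgroup.zmultiples (p • Y) = AddSubgroup.zmultiples Q)
    (hRQ : AddSubgroup.zmultiples (p • R) = AddSubgroup.zmultiples Q)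
    (hP : P ∈ AddSubgroup.zmultiples Q) (hP0 : P ≠ 0)
    (hFY : F Y = a • Y) (hFR : F R = c • R) (hFP : F P = e • P) (he : ¬ (p : ℤ) ∣ e - 1)
    (hquot : ∀ z, p • z = 0 → F z - z ∈ AddSubgroup.zmultiples Q) :
    AddSubgroup.zmultiples Y = AddSubgroup.zmultiples R := by
  have hQY : AddSubgroup.zmultiples Q ≤ AddSubgroup.zmultiples Y := zmultiples_le_of_nsmul hYQ
  have hQR : AddSubgroup.zmultiples Q ≤ AddSubgroup.zmultiples R := zmultiples_le_of_nsmul hRQ
  have hae := eigen_congr hp F hY hFY (hQY hP) hP0 hFP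
  have hce := eigen_congr hp F hR hFR (hQR hP) hP0 hFP
  obtain ⟨u, hu⟩ := AddSubgroup.mem_zmultiples_iff.1
    (show p • Y ∈ AddSubgroup.zmultiples (p • R) by
      rw [hRQ, ← hYQ]; exact AddSubgroup.mem_zmultiples _)
  set z := Y - u • R with hz
  have hz0 : p • z = 0 := by
    rw [hz, nsmul_sub, smul_comm p u R, hu, sub_self]
  have hmul : ∀ t : ℤ, (p : ℤ) ∣ t → t • R ∈ AddSubgroup.zmultiples Q := by
    rintro t ⟨t', rfl⟩
    rw [← hRQ]
    exact AddSubgroup.mem_zmultiples_iff.2 ⟨t', by rw [← natCast_zsmul, smul_smul, mul_comm]⟩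
  have h1 : (a - 1) • z ∈ AddSubgroup.zmultiples Q := by
    have hFz : F z - z = (a - 1) • z + (u * (a - c)) • R := by
      rw [hz, map_sub, map_zsmul, hFY, hFR]
      simp only [zsmul_sub, sub_smul, one_smul, smul_smul, mul_sub]
      rw [mul_comm a u]
      abel
    have h2 : (u * (a - c)) • R ∈ AddSubgroup.zmultiples Q :=
      hmul _ (dvd_mul_of_dvd_right (by simpa using dvd_sub hae hce) _)
    have h3 := hquot z hz0
    rw [hFz] at h3
    exact (AddSubgroup.add_mem_cancel_right _ h2).1 h3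
  have ha1 : ¬ (p : ℤ) ∣ a - 1 := fun h => he (by simpa using dvd_sub h hae)
  obtain ⟨x, y, hxy⟩ : IsCoprime (a - 1) (p : ℤ) :=
    ((Nat.prime_iff_prime_int.1 hp).coprime_iff_not_dvd.2 ha1).symm
  have hzQ : z ∈ AddSubgroup.zmultiples Q := by
    rw [← one_zsmul z, ← hxy, add_smul, mul_smul, mul_smul, natCast_zsmul, hz0, smul_zero, add_zero]
    exact AddSubgroup.zsmul_mem _ h1 x
  have hYR : Y ∈ AddSubgroup.zmultiples R := by
    have := add_mem (hQR hzQ) (AddSubgroup.zsmul_mem _ (AddSubgroup.mem_zmultiples R) u)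
    rwa [hz, sub_add_cancel] at this
  have : Finite (AddSubgroup.zmultiples R) :=
    Nat.finite_of_card_ne_zero (by rw [Nat.card_zmultiples, hR]; exact pow_ne_zero _ hp.ne_zero)
  exact AddSubgroup.eq_of_le_of_card_ge (AddSubgroup.zmultiples_le_of_mem hYR)
    (by rw [Nat.card_zmultiples, Nat.card_zmultiples, hY, hR])

end FLTA.Mazur.Cyclic
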