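import Fermat.Agent.Igusa.ModPoly
import Mathlib.RingTheory.RootsOfUnity.Complex

/-!
# The modular polynomial at a pole

Degrees of the coefficients of the modular polynomial of prime level, from the root product, and
the resulting dichotomy `v y = v x ^ N` or `v y ^ N = v x` for its roots when `1 < v x`.
-/

set_option autoImplicit false

noncomputable section

open Polynomial ModularCurve

namespace FLTA.Mazur

/-! ### Polynomials with the Newton polygon of the modular polynomial -/

section PoleShape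

variable {L : Type*} [Field L] {Γ₀ : Type*} [LinearOrderedCommGroupWithZero Γ₀]

/-- Valuations of the coefficients of `Φ_N(x, Y)` at a pole `x` with `v x = a`. -/
structure PoleShape (v : Valuation L Γ₀) (a : Γ₀) (N : ℕ) (P : L[X]) : Prop where
  natDegree_eq : P.natDegree = N + 1
  monic : P.Monic
  top : v (P.coeff N) = a ^ N
  bot : v (P.coeff 0) = a ^ (N + 1)
  mid : ∀ k, 1 ≤ k → k < N → v (P.coeff k) ≤ a ^ N

variable {v : Valuation L Γ₀} {a : Γ₀} {N : ℕ} {P : L[X]}

theorem sum_ne_zero_of_dominant {ι : Type*} {s : Finset ι} {f : ι → L} {i₀ : ι} (hi₀ : i₀ ∈ s)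
    (h0 : v (f i₀) ≠ 0) (h : ∀ i ∈ s, i ≠ i₀ → v (f i) < v (f i₀)) : ∑ i ∈ s, f i ≠ 0 := by
  classical
  have hs : v (∑ i ∈ s, f i) = v (f i₀) := by
    refine Valuation.map_sum_eq_of_lt v hi₀ fun i hi => ?_
    simp only [Finset.mem_sdiff, Finset.mem_singleton] at hi
    exact h i hi.1 hi.2
  exact fun hz => h0 (by rw [← hs, hz, map_zero])

theorem PoleShape.eval_eq (h : PoleShape v a N P) (y : L) :
    P.eval y = ∑ k ∈ Finset.range (N + 2), P.coeff k * y ^ k := by
  rw [eval_eq_sum_range, h.natDegree_eq]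

theorem PoleShape.val_root (h : PoleShape v a N P) (ha : 1 < a) (hN : 2 ≤ N) {y : L}
    (hy : P.IsRoot y) : v y = a ^ N ∨ v y ^ N = a := by
  have hyev := h.eval_eq y
  rw [hy.eq_zero] at hyev
  have ha0 : a ≠ 0 := (zero_lt_one.trans ha).ne'
  have htop : v (P.coeff (N + 1) * y ^ (N + 1)) = v y ^ (N + 1) := by
    rw [← h.natDegree_eq, h.monic.coeff_natDegree, one_mul, map_pow]
  have hmid : ∀ k, 1 ≤ k → k < N → v (P.coeff k * y ^ k) ≤ a ^ N * v y ^ k := fun k h1 h2 => by
    rw [map_mul, map_pow]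
    exact mul_le_mul_left (h.mid k h1 h2) _
  set b := v y with hb
  by_contra hne
  push Not at hne
  obtain ⟨hne1, hne2⟩ := hne
  rcases lt_or_gt_of_ne hne1 with hlt | hgt
  · rcases lt_or_gt_of_ne hne2 with hlt' | hgt'
    · -- the constant term dominates
      have hba : b < a := by
        by_contra hc
        push Not at hc
        have h1 : a ≤ a ^ N := le_self_pow ha.le (by omega)
        exact absurd (h1.trans (pow_le_pow_left₀ zero_le' hc N)) (not_le.mpr hlt')
      refine sum_ne_zero_of_dominant (s := Finset.range (N + 2)) (i₀ := 0)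
        (f := fun k => P.coeff k * y ^ k) (v := v) (by simp) ?_ ?_ hyev.symm
      · simp [h.bot, ha0]
      · intro k hk hk0
        have hk' := Finset.mem_range.mp hk
        simp only [pow_zero, mul_one, h.bot]
        have hbk : k ≤ N → b ^ k < a := fun hkN => by
          rcases le_or_gt b 1 with hb1 | hb1
          · exact (pow_le_one₀ zero_le' hb1).trans_lt ha
          · exact (pow_le_pow_right₀ hb1.le hkN).trans_lt hlt'
        rcases lt_trichotomy k N with hkN | rfl | hkN
        · calc v (P.coeff k * y ^ k) ≤ a ^ N * b ^ k := hmid k (by omega) hkN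
            _ < a ^ N * a := mul_lt_mul_of_pos_left (hbk hkN.le) (pow_pos (zero_lt_iff.mpr ha0) _)
            _ = a ^ (N + 1) := (pow_succ a N).symm
        · rw [map_mul, map_pow, h.top, pow_succ a k]
          exact mul_lt_mul_of_pos_left (hbk le_rfl) (pow_pos (zero_lt_iff.mpr ha0) _)
        · obtain rfl : k = N + 1 := by omega
          rw [htop]
          exact pow_lt_pow_left₀ hba zero_le' (by omega)
    · -- the term of degree `N` dominates
      have hb1 : 1 < b := by
        by_contra hc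
        push Not at hc
        exact absurd (pow_le_one₀ zero_le' hc) (not_le.mpr (ha.trans hgt'))
      have hb0 : b ≠ 0 := (zero_lt_one.trans hb1).ne'
      refine sum_ne_zero_of_dominant (s := Finset.range (N + 2)) (i₀ := N)
        (f := fun k => P.coeff k * y ^ k) (v := v) (by simp) ?_ ?_ hyev.symm
      · simp [h.top, ha0, ← hb, hb0]
      · intro k hk hkN
        have hk' := Finset.mem_range.mp hk
        simp only [map_mul, map_pow, h.top, ← hb]
        rcases Nat.eq_zero_or_pos k with rfl | hk1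
        · rw [pow_zero, mul_one, h.bot, pow_succ a N]
          exact mul_lt_mul_of_pos_left hgt' (pow_pos (zero_lt_iff.mpr ha0) _)
        · rcases lt_or_gt_of_ne hkN with hlt2 | hgt2
          · calc v (P.coeff k) * b ^ k ≤ a ^ N * b ^ k := mul_le_mul_left (h.mid k hk1 hlt2) _
              _ < a ^ N * b ^ N := mul_lt_mul_of_pos_left (pow_lt_pow_right₀ hb1 hlt2)
                  (pow_pos (zero_lt_iff.mpr ha0) _)
          · obtain rfl : k = N + 1 := by omega
            rw [← h.natDegree_eq, h.monic.coeff_natDegree, map_one, one_mul, h.natDegree_eq,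
              pow_succ' b N]
            exact mul_lt_mul_of_pos_right hlt (pow_pos (zero_lt_iff.mpr hb0) _)
  · -- the leading term dominates
    have hb1 : 1 < b := (one_lt_pow₀ ha (by omega)).trans hgt
    have hb0 : b ≠ 0 := (zero_lt_one.trans hb1).ne'
    refine sum_ne_zero_of_dominant (s := Finset.range (N + 2)) (i₀ := N + 1)
      (f := fun k => P.coeff k * y ^ k) (v := v) (by simp) ?_ ?_ hyev.symm
    · rw [htop]; exact pow_ne_zero _ hb0
    · intro k hk hkN
      have hk' := Finset.mem_range.mp hk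
      simp only [htop]
      rcases Nat.eq_zero_or_pos k with rfl | hk1
      · rw [pow_zero, mul_one, h.bot]
        exact pow_lt_pow_left₀ ((le_self_pow ha.le (by omega)).trans_lt hgt) zero_le' (by omega)
      · rcases eq_or_lt_of_le (show k ≤ N by omega) with rfl | hlt2
        · rw [map_mul, map_pow, h.top, pow_succ' b k]
          exact mul_lt_mul_of_pos_right hgt (pow_pos (zero_lt_iff.mpr hb0) _)
        · calc v (P.coeff k * y ^ k) ≤ a ^ N * b ^ k := hmid k hk1 hlt2
            _ < b * b ^ k := mul_lt_mul_of_pos_right hgt (pow_pos (zero_lt_iff.mpr hb0) _)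
            _ = b ^ (k + 1) := (pow_succ' b k).symm
            _ ≤ b ^ (N + 1) := pow_le_pow_right₀ hb1.le (by omega)

/-- The divided difference of `P`. -/
def divDiff (P : L[X]) (y z : L) : L :=
  ∑ m ∈ Finset.range (P.natDegree + 1),
    P.coeff m * ∑ i ∈ Finset.range m, y ^ i * z ^ (m - 1 - i)

theorem eval_sub_eval_eq (P : L[X]) (y z : L) :
    P.eval y - P.eval z = divDiff P y z * (y - z) := by
  rw [divDiff, eval_eq_sum_range, eval_eq_sum_range, ← Finset.sum_sub_distrib, Finset.sum_mul]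
  refine Finset.sum_congr rfl fun m _ => ?_
  rw [mul_assoc, geom_sum₂_mul, mul_sub]

theorem derivative_eval_eq (P : L[X]) (y : L) : P.derivative.eval y = divDiff P y y := by
  rw [divDiff]
  conv_lhs => rw [P.as_sum_range, derivative_sum, eval_finset_sum]
  refine Finset.sum_congr rfl fun m _ => ?_
  rw [derivative_monomial, eval_monomial, mul_assoc]
  congr 1
  rw [Finset.sum_congr rfl (g := fun _ => y ^ (m - 1)) fun i hi => by
    rw [← pow_add]; congr 1; have := Finset.mem_range.mp hi; omega]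
  simp

theorem PoleShape.val_add_top_le (h : PoleShape v a N P) (ha : 1 < a) (hN : 2 ≤ N) {y : L}
    (hy : P.IsRoot y) (hval : v y = a ^ N) : v (y + P.coeff N) ≤ 1 := by
  have ha0 : a ≠ 0 := (zero_lt_one.trans ha).ne'
  have hev := h.eval_eq y
  rw [hy.eq_zero, show N + 2 = (N + 1) + 1 from rfl, Finset.sum_range_succ,
    Finset.sum_range_succ] at hev
  have hkey : y ^ N * (y + P.coeff N) = -∑ k ∈ Finset.range N, P.coeff k * y ^ k := by
    rw [← h.natDegree_eq, h.monic.coeff_natDegree, h.natDegree_eq] at hev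
    linear_combination -hev
  have hbound : v (∑ k ∈ Finset.range N, P.coeff k * y ^ k) ≤ (a ^ N) ^ N := by
    refine v.map_sum_le fun k hk => ?_
    have hk' := Finset.mem_range.mp hk
    rw [map_mul, map_pow, hval]
    rcases Nat.eq_zero_or_pos k with rfl | hk1
    · rw [pow_zero, mul_one, h.bot, ← pow_mul]
      exact pow_le_pow_right₀ ha.le (by nlinarith)
    · calc v (P.coeff k) * (a ^ N) ^ k ≤ a ^ N * (a ^ N) ^ k := mul_le_mul_left (h.mid k hk1 hk') _
        _ = (a ^ N) ^ (k + 1) := (pow_succ' _ _).symm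
        _ ≤ (a ^ N) ^ N := pow_le_pow_right₀ (one_le_pow₀ ha.le) (by omega)
  have h1 : (a ^ N) ^ N * v (y + P.coeff N) ≤ (a ^ N) ^ N * 1 := by
    rw [mul_one, ← hval, ← map_pow, ← map_mul, hkey, Valuation.map_neg, map_pow, hval]
    exact hbound
  exact le_of_mul_le_mul_left h1 (pow_pos (pow_pos (zero_lt_iff.mpr ha0) _) _)

theorem PoleShape.val_divDiff (h : PoleShape v a N P) (ha : 1 < a) (hN : 2 ≤ N) {y z : L}
    (hy : P.IsRoot y) (hyv : v y = a ^ N) (hzv : v z = a ^ N) :
    v (divDiff P y z) = (a ^ N) ^ N := by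
  have ha0 : a ≠ 0 := (zero_lt_one.trans ha).ne'
  set c := a ^ N with hc
  have hc1 : 1 < c := one_lt_pow₀ ha (by omega)
  have hc0 : 0 < c := zero_lt_one.trans hc1
  have hS : ∀ m, 1 ≤ m → v (∑ i ∈ Finset.range m, y ^ i * z ^ (m - 1 - i)) ≤ c ^ (m - 1) :=
    fun m hm => v.map_sum_le fun i hi => by
      have := Finset.mem_range.mp hi
      rw [map_mul, map_pow, map_pow, hyv, hzv, ← pow_add]
      exact le_of_eq (congrArg _ (by omega))
  have hsplit : divDiff P y z = z ^ N +
      ((y + P.coeff N) * (∑ i ∈ Finset.range N, y ^ i * z ^ (N - 1 - i)) +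
        ∑ m ∈ Finset.range N, P.coeff m * ∑ i ∈ Finset.range m, y ^ i * z ^ (m - 1 - i)) := by
    have hcoe : P.coeff (N + 1) = 1 := by
      rw [← h.natDegree_eq, h.monic.coeff_natDegree]
    rw [divDiff, h.natDegree_eq, Finset.sum_range_succ, Finset.sum_range_succ, hcoe, one_mul,
      Finset.sum_range_succ' (n := N)]
    have : ∑ i ∈ Finset.range N, y ^ (i + 1) * z ^ (N + 1 - 1 - (i + 1)) =
        y * ∑ i ∈ Finset.range N, y ^ i * z ^ (N - 1 - i) := by
      rw [Finset.mul_sum]
      refine Finset.sum_congr rfl fun i _ => ?_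
      rw [pow_succ' y i, show N + 1 - 1 - (i + 1) = N - 1 - i by omega, mul_assoc]
    rw [this]
    simp only [pow_zero, one_mul, show N + 1 - 1 - 0 = N by omega]
    ring
  have hlt : v ((y + P.coeff N) * (∑ i ∈ Finset.range N, y ^ i * z ^ (N - 1 - i)) +
      ∑ m ∈ Finset.range N, P.coeff m * ∑ i ∈ Finset.range m, y ^ i * z ^ (m - 1 - i)) < c ^ N := by
    have hlt' : c ^ (N - 1) < c ^ N := pow_lt_pow_right₀ hc1 (by omega)
    refine lt_of_le_of_lt ?_ hlt'
    refine v.map_add_le ?_ (v.map_sum_le fun m hm => ?_)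
    · rw [map_mul]
      exact (mul_le_mul' (h.val_add_top_le ha hN hy hyv) (hS N (by omega))).trans_eq (one_mul _)
    · have hm' := Finset.mem_range.mp hm
      rcases Nat.eq_zero_or_pos m with rfl | hm1
      · simp
      · rw [map_mul]
        calc v (P.coeff m) * v (∑ i ∈ Finset.range m, y ^ i * z ^ (m - 1 - i))
            ≤ c * c ^ (m - 1) := mul_le_mul' (h.mid m hm1 hm') (hS m hm1)
          _ = c ^ m := by rw [← pow_succ', Nat.sub_add_cancel hm1]
          _ ≤ c ^ (N - 1) := pow_le_pow_right₀ hc1.le (by omega)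
  rw [hsplit, v.map_add_eq_of_lt_left (by rw [map_pow, hzv]; exact hlt), map_pow, hzv]

theorem PoleShape.large_unique (h : PoleShape v a N P) (ha : 1 < a) (hN : 2 ≤ N) {y z : L}
    (hy : P.IsRoot y) (hz : P.IsRoot z) (hyv : v y = a ^ N) (hzv : v z = a ^ N) : y = z := by
  by_contra hne
  have h1 := eval_sub_eval_eq P y z
  rw [hy.eq_zero, hz.eq_zero, sub_zero] at h1
  rcases mul_eq_zero.mp h1.symm with h2 | h2
  · have := h.val_divDiff ha hN hy hyv hzv
    rw [h2, map_zero] at this
    exact (pow_pos (pow_pos (zero_lt_one.trans ha) N) N).ne this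
  · exact hne (sub_eq_zero.mp h2)

theorem PoleShape.derivative_ne_zero (h : PoleShape v a N P) (ha : 1 < a) (hN : 2 ≤ N) {y : L}
    (hy : P.IsRoot y) (hyv : v y = a ^ N) : P.derivative.eval y ≠ 0 := by
  rw [derivative_eval_eq]
  intro h0
  have := h.val_divDiff ha hN hy hyv hyv
  rw [h0, map_zero] at this
  exact (pow_pos (pow_pos (zero_lt_one.trans ha) N) N).ne this

theorem PoleShape.exists_large (h : PoleShape v a N P) (ha : 1 < a) (hN : 2 ≤ N)
    (hsplit : P.roots.card = P.natDegree) : ∃ y ∈ P.roots, v y = a ^ N := by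
  classical
  by_contra hcon
  push Not at hcon
  have hsmall : ∀ y ∈ P.roots, v y ^ N = a := fun y hy =>
    (h.val_root ha hN (isRoot_of_mem_roots hy)).resolve_left (hcon y hy)
  have hprod := congrArg (fun q : L[X] => v (q.coeff 0))
    (prod_multiset_X_sub_C_of_monic_of_roots_card_eq h.monic hsplit)
  simp only [h.bot, coeff_zero_multiset_prod, Multiset.map_map, Function.comp_def, coeff_sub,
    coeff_X_zero, coeff_C_zero, zero_sub, map_multiset_prod, Valuation.map_neg] at hprod
  have hpow := congrArg (· ^ N) hprod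
  rw [← Multiset.prod_map_pow, Multiset.map_congr rfl (fun y hy => hsmall y hy),
    Multiset.map_const', Multiset.prod_replicate, hsplit, h.natDegree_eq, ← pow_mul] at hpow
  exact (pow_lt_pow_right₀ ha (by nlinarith)).ne hpow

/-- Over a field where `P` splits there is exactly one large root, and it is simple. -/
theorem PoleShape.filter_roots [DecidableEq Γ₀] (h : PoleShape v a N P) (ha : 1 < a) (hN : 2 ≤ N)
    (hsplit : P.roots.card = P.natDegree) :
    ∃ y₀, (P.roots.filter fun y => v y = a ^ N) = {y₀} := by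
  classical
  obtain ⟨y₀, hy₀, hv₀⟩ := h.exists_large ha hN hsplit
  refine ⟨y₀, Multiset.ext.mpr fun y => ?_⟩
  rw [Multiset.count_filter, Multiset.count_singleton]
  by_cases hy : y = y₀
  · subst hy
    rw [if_pos hv₀, if_pos rfl, count_roots]
    refine le_antisymm ?_ ((rootMultiplicity_pos h.monic.ne_zero).mpr (isRoot_of_mem_roots hy₀))
    by_contra hc
    have h2 := (one_lt_rootMultiplicity_iff_isRoot h.monic.ne_zero).mp (not_le.mp hc)
    exact h.derivative_ne_zero ha hN (isRoot_of_mem_roots hy₀) hv₀ h2.2.eq_zero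
  · rw [if_neg hy]
    split_ifs with hv
    · refine Multiset.count_eq_zero.mpr fun hmem => hy ?_
      exact h.large_unique ha hN (isRoot_of_mem_roots hmem) (isRoot_of_mem_roots hy₀) hv hv₀
    · rfl

end PoleShape

/-! ### Coefficient degrees of the modular polynomial -/

section Coefficients

/-- All coefficients below `n` vanish. -/
def OrdGE {R : Type*} [Zero R] (x : LaurentSeries R) (n : ℤ) : Prop := ∀ m < n, x.coeff m = 0

theorem OrdGE.mono {R : Type*} [Zero R] {x : LaurentSeries R} {n n' : ℤ} (h : OrdGE x n)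
    (hn : n' ≤ n) : OrdGE x n' := fun m hm => h m (hm.trans_le hn)

theorem OrdGE.add {R : Type*} [AddCommMonoid R] {x y : LaurentSeries R} {n : ℤ} (hx : OrdGE x n)
    (hy : OrdGE y n) : OrdGE (x + y) n := fun m hm => by simp [hx m hm, hy m hm]

theorem OrdGE.neg {R : Type*} [AddCommGroup R] {x : LaurentSeries R} {n : ℤ} (hx : OrdGE x n) :
    OrdGE (-x) n := fun m hm => by simp [hx m hm]

variable {R : Type*} [CommRing R]

theorem OrdGE.mul_coeff {x y : LaurentSeries R} {a b : ℤ} (hx : OrdGE x a) (hy : OrdGE y b)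
    {m : ℤ} (hm : m ≤ a + b) :
    (x * y).coeff m = if m = a + b then x.coeff a * y.coeff b else 0 := by
  rw [HahnSeries.coeff_mul]
  have key : ∀ ij : ℤ × ℤ, ij.1 + ij.2 = m → x.coeff ij.1 ≠ 0 → y.coeff ij.2 ≠ 0 →
      m = a + b ∧ ij = (a, b) := fun ij hsum h1 h2 => by
    have h1' : a ≤ ij.1 := not_lt.mp fun h => h1 (hx _ h)
    have h2' : b ≤ ij.2 := not_lt.mp fun h => h2 (hy _ h)
    exact ⟨by omega, Prod.ext (by omega) (by omega)⟩
  split_ifs with h
  · refine Finset.sum_eq_single (a, b) (fun ij hij hne => ?_) fun hnot => ?_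
    · obtain ⟨h1, h2, hs⟩ := Finset.mem_antidiagonal.mp hij
      exact absurd (key ij hs h1 h2).2 hne
    · by_contra hne
      exact hnot (Finset.mem_antidiagonal.mpr
        ⟨left_ne_zero_of_mul hne, right_ne_zero_of_mul hne, h.symm⟩)
  · refine Finset.sum_eq_zero fun ij hij => ?_
    obtain ⟨h1, h2, hs⟩ := Finset.mem_antidiagonal.mp hij
    exact absurd (key ij hs h1 h2).1 h

theorem OrdGE.mul {x y : LaurentSeries R} {a b : ℤ} (hx : OrdGE x a) (hy : OrdGE y b) :
    OrdGE (x * y) (a + b) := fun m hm => by rw [hx.mul_coeff hy hm.le, if_neg hm.ne]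

theorem ordGE_one : OrdGE (1 : LaurentSeries R) 0 := fun m hm => by
  simp [HahnSeries.coeff_one, hm.ne]

/-- The product `∏ (Y - b i)` of series of order at least `-1`. -/
theorem coeff_prod_X_sub_C_ordGE {ι : Type*} (s : Finset ι) (b : ι → LaurentSeries R)
    (hb : ∀ i ∈ s, OrdGE (b i) (-1)) (k : ℕ) :
    OrdGE ((∏ i ∈ s, (X - C (b i))).coeff k) ((k : ℤ) - s.card) := by
  classical
  induction s using Finset.induction_on generalizing k with
  | empty =>
    intro m hm
    rcases k with _ | k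
    · simp only [Finset.prod_empty, coeff_one_zero]
      exact ordGE_one m (by simpa using hm)
    · simp [coeff_one]
  | insert i s his ih =>
    have ih' := ih fun j hj => hb j (Finset.mem_insert_of_mem hj)
    have hbi := hb i (Finset.mem_insert_self i s)
    rw [Finset.prod_insert his, Finset.card_insert_of_notMem his, sub_mul, coeff_sub, coeff_C_mul,
      sub_eq_add_neg]
    push_cast
    refine OrdGE.add ?_ ((hbi.mul (ih' k)).mono (by omega)).neg
    rcases k with _ | k
    · intro m _; simp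
    · rw [coeff_X_mul]
      exact (ih' k).mono (by push_cast; omega)

theorem coeff_prod_X_sub_C_zero {ι : Type*} (s : Finset ι) (b : ι → LaurentSeries R)
    (hb : ∀ i ∈ s, OrdGE (b i) (-1)) :
    ((∏ i ∈ s, (X - C (b i))).coeff 0).coeff (-(s.card : ℤ)) =
      ∏ i ∈ s, -(b i).coeff (-1) := by
  classical
  induction s using Finset.induction_on with
  | empty => simp [HahnSeries.coeff_one]
  | insert i s his ih =>
    have hs := fun j hj => hb j (Finset.mem_insert_of_mem (b := i) (s := s) hj)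
    rw [Finset.prod_insert his, Finset.card_insert_of_notMem his, Finset.prod_insert his,
      sub_mul, coeff_sub, coeff_C_mul, mul_coeff_zero, coeff_X_zero, zero_mul, zero_sub,
      HahnSeries.coeff_neg, ← ih hs,
      (hb i (Finset.mem_insert_self i s)).mul_coeff (coeff_prod_X_sub_C_ordGE s b hs 0)
        (m := -(((s.card + 1 : ℕ)) : ℤ)) (by push_cast; omega),
      if_pos (by push_cast; omega)]
    simp [neg_mul]

theorem aeval_int_eq_sum {A : Type*} [CommRing A] [Algebra ℤ A] (x : A) (q : ℤ[X]) :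
    aeval x q = ∑ i ∈ Finset.range (q.natDegree + 1), (q.coeff i : A) * x ^ i := by
  rw [aeval_def, eval₂_eq_sum_range]
  exact Finset.sum_congr rfl fun i _ => by rw [eq_intCast (algebraMap ℤ A)]

theorem coeff_intCast_mul (c : ℤ) (x : LaurentSeries R) (m : ℤ) :
    ((c : LaurentSeries R) * x).coeff m = (c : R) * x.coeff m := by
  rw [← map_intCast (HahnSeries.C : R →+* LaurentSeries R), HahnSeries.C_mul_eq_smul,
    HahnSeries.coeff_smul, smul_eq_mul]

theorem coeff_aeval_jqModC_of_lt (q : ℤ[X]) {m : ℤ} (hm : m < -(q.natDegree : ℤ)) :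
    (aeval (jqModC R) q).coeff m = 0 := by
  rw [aeval_int_eq_sum, HahnSeries.coeff_sum]
  refine Finset.sum_eq_zero fun i hi => ?_
  have := Finset.mem_range.mp hi
  rw [coeff_intCast_mul, coeff_jqModC_pow_of_lt R (by omega), mul_zero]

theorem coeff_aeval_jqModC_natDegree (q : ℤ[X]) :
    (aeval (jqModC R) q).coeff (-(q.natDegree : ℤ)) = (q.leadingCoeff : R) := by
  rw [aeval_int_eq_sum, HahnSeries.coeff_sum, Finset.sum_eq_single q.natDegree]
  · rw [coeff_intCast_mul, coeff_jqModC_pow_self, mul_one, leadingCoeff]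
  · intro i hi hne
    have := Finset.mem_range.mp hi
    rw [coeff_intCast_mul, coeff_jqModC_pow_of_lt R (by omega), mul_zero]
  · exact fun h => absurd (Finset.mem_range.mpr (Nat.lt_succ_self _)) h

variable (p : ℕ) [NeZero p]

theorem aeval_qExpand (q : ℤ[X]) :
    aeval (qExpand R p (jqModC R)) q = qExpand R p (aeval (jqModC R) q) :=
  by rw [aeval_def, aeval_def, hom_eval₂,
    RingHom.ext_int ((qExpand R p).comp (algebraMap ℤ (LaurentSeries R))) (algebraMap ℤ _)]

variable (hp : p.Prime)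

/-- Lowest coefficient bounds of the coefficients of `Φ_p(j(t^p), Y)`. -/
theorem modPoly_coeff_series (R : Type) [CommRing R] [IsDomain R] {ζ : Rˣ}
    (hζ : IsPrimitiveRoot ζ p) :
    (∀ k, 1 ≤ k → k < p → OrdGE (aeval (qExpand R p (jqModC R)) ((FLTA.Igusa.modPoly p hp).coeff k))
      (-((p : ℤ) * p) - p + k)) ∧
    (OrdGE (aeval (qExpand R p (jqModC R)) ((FLTA.Igusa.modPoly p hp).coeff p)) (-((p : ℤ) * p)) ∧
      (aeval (qExpand R p (jqModC R)) ((FLTA.Igusa.modPoly p hp).coeff p)).coeff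
        (-((p : ℤ) * p)) = -1) ∧
    (OrdGE (aeval (qExpand R p (jqModC R)) ((FLTA.Igusa.modPoly p hp).coeff 0))
      (-((p : ℤ) * p) - p) ∧
      ∃ u : R, u ^ p = 1 ∧ (aeval (qExpand R p (jqModC R))
        ((FLTA.Igusa.modPoly p hp).coeff 0)).coeff (-((p : ℤ) * p) - p) = (-1) ^ (p + 1) * u) := by
  have h := (FLTA.Igusa.isModPoly_modPoly p hp).2.2 R ζ hζ
  set A : LaurentSeries R := qExpand R (p * p) (jqModC R) with hA
  set Q := ∏ i ∈ Finset.range p, (X - C (FLTA.Igusa.jAt (ζ ^ i) 1 : LaurentSeries R)) with hQ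
  have hb : ∀ i ∈ Finset.range p, OrdGE (FLTA.Igusa.jAt (ζ ^ i) 1 : LaurentSeries R) (-1) :=
    fun i _ m hm => by
      rw [FLTA.Igusa.jAt, qExpand_one_apply, FLTA.Igusa.twist_coeff, coeff_jqModC_of_lt R hm,
        mul_zero]
  have hQb : ∀ k, OrdGE (Q.coeff k) ((k : ℤ) - p) := fun k => by
    simpa using coeff_prod_X_sub_C_ordGE _ _ hb k
  have hAord : OrdGE A (-((p : ℤ) * p)) := fun m hm => by
    rw [hA]
    by_cases hd : ((p * p : ℕ) : ℤ) ∣ m
    · obtain ⟨c, rfl⟩ := hd
      rw [qExpand_coeff_mul]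
      refine coeff_jqModC_of_lt R ?_
      push_cast at hm
      nlinarith
    · exact qExpand_coeff_of_not_dvd _ _ hd
  have hA1 : A.coeff (-((p : ℤ) * p)) = 1 := by
    rw [hA, show -((p : ℤ) * p) = ((p * p : ℕ) : ℤ) * (-1) by push_cast; ring, qExpand_coeff_mul,
      coeff_jqModC_neg_one]
  have hcoeff : ∀ k, aeval (qExpand R p (jqModC R)) ((FLTA.Igusa.modPoly p hp).coeff k) =
      ((X - C A) * Q).coeff k := fun k => by
    rw [← h, coeff_map]; rfl
  have hsucc : ∀ k, ((X - C A) * Q).coeff (k + 1) = Q.coeff k + -(A * Q.coeff (k + 1)) := fun k => by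
    rw [sub_mul, coeff_sub, coeff_X_mul, coeff_C_mul, sub_eq_add_neg]
  have hQdeg : Q.natDegree = p := by
    rw [hQ, natDegree_prod_of_monic _ _ fun i _ => monic_X_sub_C _]
    simp
  have hQmon : Q.Monic := monic_prod_of_monic _ _ fun i _ => monic_X_sub_C _
  refine ⟨fun k hk hkp => ?_, ⟨?_, ?_⟩, ?_, ?_⟩
  · obtain ⟨k, rfl⟩ := Nat.exists_eq_add_of_le' hk
    rw [hcoeff, hsucc]
    refine ((hQb k).mono ?_).add ((hAord.mul (hQb (k + 1))).mono ?_).neg
    · push_cast; nlinarith [hp.two_le]
    · push_cast; omega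
  · obtain ⟨k, hk⟩ := Nat.exists_eq_add_of_le' hp.one_le
    have hkk := hsucc k
    rw [← hk] at hkk
    rw [hcoeff, hkk, ← hQdeg, hQmon.coeff_natDegree, hQdeg, mul_one]
    exact ((hQb k).mono (by push_cast [hk]; nlinarith)).add hAord.neg
  · obtain ⟨k, hk⟩ := Nat.exists_eq_add_of_le' hp.one_le
    have hkk := hsucc k
    rw [← hk] at hkk
    rw [hcoeff, hkk, ← hQdeg, hQmon.coeff_natDegree, hQdeg, mul_one, HahnSeries.coeff_add,
      HahnSeries.coeff_neg, hA1,
      hQb k _ (by push_cast [hk]; nlinarith [hp.two_le])]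
    simp
  · rw [hcoeff, sub_mul, coeff_sub, coeff_C_mul, mul_coeff_zero, coeff_X_zero, zero_mul, zero_sub]
    exact ((hAord.mul (hQb 0)).mono (by push_cast; omega)).neg
  · refine ⟨∏ i ∈ Finset.range p, (((ζ ^ i)⁻¹ : Rˣ) : R), ?_, ?_⟩
    · rw [← Finset.prod_pow]
      refine Finset.prod_eq_one fun i _ => ?_
      rw [← Units.val_pow_eq_pow_val, inv_pow, ← pow_mul, mul_comm, pow_mul, hζ.pow_eq_one,
        one_pow, inv_one, Units.val_one]
    · rw [hcoeff, sub_mul, coeff_sub, coeff_C_mul, mul_coeff_zero, coeff_X_zero, zero_mul,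
        zero_sub, HahnSeries.coeff_neg,
        hAord.mul_coeff (hQb 0) (by push_cast; omega), if_pos (by push_cast; ring), hA1, one_mul,
        show ((0 : ℕ) : ℤ) - p = -(((Finset.range p).card : ℕ) : ℤ) by simp,
        hQ, coeff_prod_X_sub_C_zero _ _ hb, Finset.prod_neg, Finset.card_range]
      simp only [FLTA.Igusa.jAt, qExpand_one_apply, FLTA.Igusa.twist_coeff, coeff_jqModC_neg_one,
        mul_one, zpow_neg_one]
      ring

/-- A primitive root of unity in `ℂˣ`. -/
theorem exists_primitiveRoot_complex : ∃ ζ : ℂˣ, IsPrimitiveRoot ζ p :=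
  ⟨_, (Complex.isPrimitiveRoot_exp p (NeZero.ne p)).isUnit_unit (NeZero.ne p)⟩

theorem natDegree_mul_le_of_ordGE {q : ℤ[X]} {B : ℤ} (hq : q ≠ 0)
    (h : OrdGE (aeval (qExpand ℂ p (jqModC ℂ)) q) B) : B ≤ -((p : ℤ) * q.natDegree) := by
  by_contra hc
  have h1 := h _ (not_le.mp hc)
  rw [aeval_qExpand, show -((p : ℤ) * q.natDegree) = (p : ℤ) * (-(q.natDegree : ℤ)) by ring,
    qExpand_coeff_mul, coeff_aeval_jqModC_natDegree] at h1
  exact leadingCoeff_ne_zero.mpr hq (by exact_mod_cast h1)

theorem natDegree_eq_of_ordGE {q : ℤ[X]} {d : ℕ}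
    (h : OrdGE (aeval (qExpand ℂ p (jqModC ℂ)) q) (-((p : ℤ) * d)))
    (hne : (aeval (qExpand ℂ p (jqModC ℂ)) q).coeff (-((p : ℤ) * d)) ≠ 0) :
    q.natDegree = d ∧
      (q.leadingCoeff : ℂ) = (aeval (qExpand ℂ p (jqModC ℂ)) q).coeff (-((p : ℤ) * d)) := by
  have hq : q ≠ 0 := fun h0 => hne (by rw [h0, map_zero]; rfl)
  have hle := natDegree_mul_le_of_ordGE p hq h
  have hpos : (0 : ℤ) < p := by exact_mod_cast NeZero.pos p
  have h1 : q.natDegree ≤ d := by
    have : (q.natDegree : ℤ) ≤ d := le_of_mul_le_mul_left (by linarith) hpos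
    exact_mod_cast this
  rw [aeval_qExpand, show -((p : ℤ) * d) = (p : ℤ) * (-(d : ℤ)) by ring, qExpand_coeff_mul] at hne ⊢
  have h2 : ¬ q.natDegree < d := fun hlt =>
    hne (coeff_aeval_jqModC_of_lt q (by omega))
  have h3 : q.natDegree = d := by omega
  exact ⟨h3, by rw [← h3, coeff_aeval_jqModC_natDegree]⟩

theorem natDegree_modPoly_coeff_le {k : ℕ} (hk : 1 ≤ k) (hkp : k < p) :
    ((FLTA.Igusa.modPoly p hp).coeff k).natDegree ≤ p := by
  rcases eq_or_ne ((FLTA.Igusa.modPoly p hp).coeff k) 0 with h0 | h0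
  · simp [h0]
  have h := natDegree_mul_le_of_ordGE p h0 ((modPoly_coeff_series p hp ℂ (exists_primitiveRoot_complex p).choose_spec).1 k hk hkp)
  by_contra hc
  have : (p : ℤ) * (p + 1) ≤ (p : ℤ) * ((FLTA.Igusa.modPoly p hp).coeff k).natDegree :=
    mul_le_mul_of_nonneg_left (by omega) (by positivity)
  nlinarith

theorem modPoly_coeff_top :
    ((FLTA.Igusa.modPoly p hp).coeff p).natDegree = p ∧
      ((FLTA.Igusa.modPoly p hp).coeff p).leadingCoeff = -1 := by
  obtain ⟨h1, h2⟩ := (modPoly_coeff_series p hp ℂ (exists_primitiveRoot_complex p).choose_spec).2.1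
  obtain ⟨h3, h4⟩ := natDegree_eq_of_ordGE p h1 (by rw [h2]; norm_num)
  rw [h2] at h4
  exact ⟨h3, by exact_mod_cast h4⟩

theorem modPoly_coeff_zero :
    ((FLTA.Igusa.modPoly p hp).coeff 0).natDegree = p + 1 ∧
      IsUnit ((FLTA.Igusa.modPoly p hp).coeff 0).leadingCoeff := by
  obtain ⟨h1, u, hu, h2⟩ := (modPoly_coeff_series p hp ℂ (exists_primitiveRoot_complex p).choose_spec).2.2
  have hexp : -((p : ℤ) * p) - p = -((p : ℤ) * ((p + 1 : ℕ) : ℤ)) := by push_cast; ring
  rw [hexp] at h1 h2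
  have hu0 : u ≠ 0 := fun h => by rw [h, zero_pow hp.ne_zero] at hu; exact zero_ne_one hu
  obtain ⟨h3, h4⟩ := natDegree_eq_of_ordGE p h1 (by rw [h2]; simp [hu0])
  rw [h2] at h4
  refine ⟨h3, IsUnit.of_pow_eq_one (n := 2 * p) ?_ (by have := hp.pos; omega)⟩
  have : (((FLTA.Igusa.modPoly p hp).coeff 0).leadingCoeff : ℂ) ^ (2 * p) = 1 := by
    rw [h4, mul_pow, mul_comm 2 p, pow_mul u, hu, one_pow, mul_one, ← pow_mul,
      Even.neg_one_pow ⟨(p + 1) * p, by ring⟩]
  exact_mod_cast this

end Coefficients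

/-! ### The dichotomy -/

section Dichotomy

variable (p : ℕ) [NeZero p] (hp : p.Prime) {L : Type*} [Field L]

/-- `Φ_p(x, Y)`. -/
def modPolyAt (x : L) : L[X] :=
  (FLTA.Igusa.modPoly p hp).map (aeval (R := ℤ) x).toRingHom

theorem modPolyAt_monic (x : L) : (modPolyAt p hp x).Monic :=
  (FLTA.Igusa.modPoly_monic p hp).map _

theorem natDegree_modPolyAt (x : L) : (modPolyAt p hp x).natDegree = p + 1 := by
  rw [modPolyAt, (FLTA.Igusa.modPoly_monic p hp).natDegree_map, FLTA.Igusa.modPoly_natDegree]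

variable {Γ₀ : Type*} [LinearOrderedCommGroupWithZero Γ₀] (v : Valuation L Γ₀)

theorem val_aeval_le {x : L} (hx : 1 ≤ v x) (q : ℤ[X]) {d : ℕ} (hd : q.natDegree ≤ d) :
    v (aeval x q) ≤ v x ^ d := by
  rw [aeval_eq_sum_range]
  refine v.map_sum_le fun i hi => ?_
  have := Finset.mem_range.mp hi
  rw [zsmul_eq_mul, map_mul, map_pow]
  exact (mul_le_of_le_one_left' (intCast_mem v.integer _)).trans
    (pow_le_pow_right₀ hx (by omega))

theorem val_aeval_eq {x : L} (hx : 1 < v x) (q : ℤ[X]) (hq : IsUnit q.leadingCoeff) :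
    v (aeval x q) = v x ^ q.natDegree := by
  have hx0 : v x ≠ 0 := (zero_lt_one.trans hx).ne'
  have hlead : v (q.coeff q.natDegree • x ^ q.natDegree) = v x ^ q.natDegree := by
    rcases Int.isUnit_iff.mp hq with h | h <;>
      simp [coeff_natDegree, h, map_pow]
  rw [aeval_eq_sum_range, ← hlead]
  refine Valuation.map_sum_eq_of_lt v (by simp) fun i hi => ?_
  simp only [Finset.mem_sdiff, Finset.mem_range, Finset.mem_singleton] at hi
  rw [hlead, zsmul_eq_mul, map_mul, map_pow]
  exact (mul_le_of_le_one_left' (intCast_mem v.integer _)).trans_lt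
    (pow_lt_pow_right₀ hx (by omega))

theorem poleShape_modPolyAt {x : L} (hx : 1 < v x) : PoleShape v (v x) p (modPolyAt p hp x) where
  natDegree_eq := natDegree_modPolyAt p hp x
  monic := modPolyAt_monic p hp x
  top := by
    obtain ⟨h1, h2⟩ := modPoly_coeff_top p hp
    rw [modPolyAt, coeff_map]
    exact (val_aeval_eq v hx _ (by rw [h2]; exact isUnit_one.neg)).trans (by rw [h1])
  bot := by
    obtain ⟨h1, h2⟩ := modPoly_coeff_zero p hp
    rw [modPolyAt, coeff_map]
    exact (val_aeval_eq v hx _ h2).trans (by rw [h1])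
  mid k hk hkp := by
    rw [modPolyAt, coeff_map]
    exact val_aeval_le v hx.le _ (natDegree_modPoly_coeff_le p hp hk hkp)

/-- If `x` is a pole then every root `y` of `Φ_p(x, Y)` has `v y = v x ^ p` or `v y ^ p = v x`. -/
theorem val_root_modPolyAt {x y : L} (hx : 1 < v x) (hy : (modPolyAt p hp x).IsRoot y) :
    v y = v x ^ p ∨ v y ^ p = v x :=
  (poleShape_modPolyAt p hp v hx).val_root hx hp.two_le hy

/-- A root of `Φ_p(x, Y)` with `x` integral is integral. -/
theorem val_le_one_of_root {x y : L} (hx : v x ≤ 1) (hy : (modPolyAt p hp x).IsRoot y) :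
    v y ≤ 1 := by
  by_contra hc
  push Not at hc
  refine sum_ne_zero_of_dominant (v := v) (s := Finset.range (p + 2)) (i₀ := p + 1)
    (f := fun k => (modPolyAt p hp x).coeff k * y ^ k) (by simp) ?_ ?_ ?_
  · rw [← natDegree_modPolyAt p hp x, (modPolyAt_monic p hp x).coeff_natDegree, one_mul, map_pow]
    exact pow_ne_zero _ (zero_lt_one.trans hc).ne'
  · intro k hk hne
    have hk' := Finset.mem_range.mp hk
    rw [map_mul, map_mul, ← natDegree_modPolyAt p hp x, (modPolyAt_monic p hp x).coeff_natDegree,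
      map_one, one_mul, map_pow, map_pow, natDegree_modPolyAt p hp x, modPolyAt, coeff_map]
    refine (mul_le_of_le_one_left' ?_).trans_lt (pow_lt_pow_right₀ hc (by omega))
    show v (aeval x ((FLTA.Igusa.modPoly p hp).coeff k)) ≤ 1
    rw [aeval_eq_sum_range]
    refine v.map_sum_le fun i _ => ?_
    rw [zsmul_eq_mul, map_mul, map_pow]
    exact mul_le_one' (intCast_mem v.integer _) (pow_le_one₀ zero_le' hx)
  · rw [← eval_eq_sum_range' (show (modPolyAt p hp x).natDegree < p + 2 by
      rw [natDegree_modPolyAt]; omega), hy.eq_zero]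

theorem filter_roots_modPolyAt [IsAlgClosed L] [DecidableEq Γ₀] {x : L} (hx : 1 < v x) :
    ∃ y₀, ((modPolyAt p hp x).roots.filter fun y => v y = v x ^ p) = {y₀} :=
  (poleShape_modPolyAt p hp v hx).filter_roots hx hp.two_le
    (IsAlgClosed.card_roots_eq_natDegree)

end Dichotomy

end FLTA.Mazur

end
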