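import Fermat.Agent.EllReduction.Api
import Fermat.Agent.Mazur.ModPolyVal

/-!
# Hypothesis bundles for the elliptic part of Mazur's argument

* `IsEllJ`: the `j`-invariants of quotients by cyclic `p`-power subgroups;
* `ModPolyPlus`: valuations of roots of the modular polynomial at a pole;
-/

set_option autoImplicit false

open WeierstrassCurve

open scoped WeierstrassCurve.Affine

namespace FLTA.Mazur

local notation "Qbar" => AlgebraicClosure ℚ

/-- The cyclic subgroups of order `p ^ (n + 1)` containing `⟨Q⟩`, or the one of index `p` inside. -/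
def IsNeighbour {G : Type*} [AddCommGroup G] (p n : ℕ) (Q : G) (K : AddSubgroup G) : Prop :=
  (∃ R : G, addOrderOf R = p ^ (n + 1) ∧ K = AddSubgroup.zmultiples R ∧
      AddSubgroup.zmultiples Q ≤ K) ∨
    (0 < n ∧ K = AddSubgroup.zmultiples (p • Q))

/-- `J` gives the `j`-invariants of the quotients of `W` by its cyclic `p`-power subgroups. -/
structure IsEllJ (W : WeierstrassCurve ℤ) (p : ℕ) [NeZero p] (hp : p.Prime)
    (J : AddSubgroup (FLTA.EllReduction.GeomPoint W) → Qbar) : Prop where
  bot : J ⊥ = (W.c₄ : Qbar) ^ 3 / (W.Δ : Qbar)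
  galois : ∀ (σ : Qbar ≃ₐ[ℚ] Qbar) (n : ℕ) (Q : FLTA.EllReduction.GeomPoint W), addOrderOf Q = p ^ n →
    σ (J (AddSubgroup.zmultiples Q)) = J (AddSubgroup.zmultiples (σ • Q))
  roots : ∀ (n : ℕ) (Q : FLTA.EllReduction.GeomPoint W), addOrderOf Q = p ^ n →
    ∃ s : Finset (AddSubgroup (FLTA.EllReduction.GeomPoint W)), (∀ K, K ∈ s ↔ IsNeighbour p n Q K) ∧
      (modPolyAt p hp (J (AddSubgroup.zmultiples Q))).roots = s.val.map J

open Classical in
/-- Above a pole exactly one root has valuation multiplied by `p`; the others divide it by `p`. -/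
structure ModPolyPlus (p : ℕ) [NeZero p] (hp : p.Prime) : Prop where
  dichotomy : ∀ (A : ValuationSubring Qbar) (x : Qbar), 1 < A.valuation x →
    ∀ y ∈ (modPolyAt p hp x).roots,
      A.valuation y = A.valuation x ^ p ∨ A.valuation y ^ p = A.valuation x
  unique : ∀ (A : ValuationSubring Qbar) (x : Qbar), 1 < A.valuation x →
    Multiset.card ((modPolyAt p hp x).roots.filter
      fun y => A.valuation y = A.valuation x ^ p) = 1

open Classical in
theorem modPolyPlus (p : ℕ) [NeZero p] (hp : p.Prime) : ModPolyPlus p hp where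
  dichotomy A x hx y hy :=
    val_root_modPolyAt p hp A.valuation hx (Polynomial.mem_roots'.1 hy).2
  unique A x hx := by
    obtain ⟨y₀, hy₀⟩ := filter_roots_modPolyAt p hp A.valuation hx
    exact (congrArg Multiset.card (by convert hy₀)).trans (Multiset.card_singleton y₀)

end FLTA.Mazur
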