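import Mathlib.AlgebraicGeometry.EllipticCurve.Affine.Point
import Mathlib.Algebra.BigOperators.Finprod
import Mathlib.Tactic

/-!
# The `j`-invariant of the quotient by a finite subgroup, as an algebraic expression

For a finite subgroup `K` of the points of `W` we put
`g₂' = g₂ + 10 ∑ (6 X² - g₂ / 2)`, `g₃' = g₃ + ∑ (140 X³ - 21 g₂ X - 14 g₃)`
(sums over the nonzero points of `K`, `X = x + b₂ / 12`) and
`subJ W K = 1728 g₂'³ / (g₂'³ - 27 g₃'²)`.
-/

set_option autoImplicit false

open WeierstrassCurve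
open scoped WeierstrassCurve.Affine

namespace FLTA.Mazur

variable {F : Type*} [Field F]

/-- `g₂` of the short model `Y² = 4 X³ - g₂ X - g₃`. -/
def curveG2 (W : WeierstrassCurve F) : F := W.c₄ / 12

/-- `g₃` of the short model `Y² = 4 X³ - g₂ X - g₃`. -/
def curveG3 (W : WeierstrassCurve F) : F := W.c₆ / 216

/-- Contribution of a point to `g₂'`. -/
def termG2 (W : WeierstrassCurve F) : W.toAffine.Point → F
  | .zero => 0
  | .some x _ _ => 10 * (6 * (x + W.b₂ / 12) ^ 2 - curveG2 W / 2)

/-- Contribution of a point to `g₃'`. -/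
def termG3 (W : WeierstrassCurve F) : W.toAffine.Point → F
  | .zero => 0
  | .some x _ _ =>
      140 * (x + W.b₂ / 12) ^ 3 - 21 * curveG2 W * (x + W.b₂ / 12) - 14 * curveG3 W

variable [DecidableEq F]

/-- `g₂` of the quotient by `K`. -/
noncomputable def subG2 (W : WeierstrassCurve F) (K : AddSubgroup W.toAffine.Point) : F :=
  curveG2 W + ∑ᶠ P ∈ (K : Set W.toAffine.Point), termG2 W P

/-- `g₃` of the quotient by `K`. -/
noncomputable def subG3 (W : WeierstrassCurve F) (K : AddSubgroup W.toAffine.Point) : F :=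
  curveG3 W + ∑ᶠ P ∈ (K : Set W.toAffine.Point), termG3 W P

/-- The `j`-invariant of the quotient by `K`. -/
noncomputable def subJ (W : WeierstrassCurve F) (K : AddSubgroup W.toAffine.Point) : F :=
  1728 * subG2 W K ^ 3 / (subG2 W K ^ 3 - 27 * subG3 W K ^ 2)

theorem subG2_bot (W : WeierstrassCurve F) : subG2 W ⊥ = curveG2 W := by
  simp [subG2, ← Affine.Point.zero_def, termG2]

theorem subG3_bot (W : WeierstrassCurve F) : subG3 W ⊥ = curveG3 W := by
  simp [subG3, ← Affine.Point.zero_def, termG3]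

/-- The trivial subgroup gives the `j`-invariant of `W`. -/
theorem subJ_bot (W : WeierstrassCurve F) [W.IsElliptic] [CharZero F] :
    subJ W ⊥ = W.j := by
  have hΔ : W.Δ ≠ 0 := W.isUnit_Δ.ne_zero
  have hd : curveG2 W ^ 3 - 27 * curveG3 W ^ 2 = W.Δ := by
    have := W.c_relation
    simp only [curveG2, curveG3]
    linear_combination (-1 / 1728 : F) * this
  rw [subJ, subG2_bot, subG3_bot, hd, WeierstrassCurve.j, Units.val_inv_eq_inv_val,
    coe_Δ', curveG2]
  field_simp
  ring

section Map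

variable {R : Type*} [CommRing R] {W' : WeierstrassCurve R} {K : Type*} [Field K] [DecidableEq K]
  [Algebra R F] [Algebra R K]

theorem curveG2_map (f : F →ₐ[R] K) : curveG2 (W'⁄K) = f (curveG2 (W'⁄F)) := by
  simp [curveG2, WeierstrassCurve.baseChange, map_div₀, map_ofNat]

theorem curveG3_map (f : F →ₐ[R] K) : curveG3 (W'⁄K) = f (curveG3 (W'⁄F)) := by
  simp [curveG3, WeierstrassCurve.baseChange, map_div₀, map_ofNat]

theorem b₂_map (f : F →ₐ[R] K) : (W'⁄K).b₂ = f ((W'⁄F).b₂) := by
  simp [WeierstrassCurve.baseChange]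

theorem termG2_map (f : F →ₐ[R] K) (P : (W'⁄F).toAffine.Point) :
    termG2 (W'⁄K) (Affine.Point.map (W' := W') f P) = f (termG2 (W'⁄F) P) := by
  rcases P with _ | ⟨x, y, h⟩
  · exact (map_zero f).symm
  · simp [Affine.Point.map_some, termG2, curveG2_map f, b₂_map f, map_ofNat]

theorem termG3_map (f : F →ₐ[R] K) (P : (W'⁄F).toAffine.Point) :
    termG3 (W'⁄K) (Affine.Point.map (W' := W') f P) = f (termG3 (W'⁄F) P) := by
  rcases P with _ | ⟨x, y, h⟩
  · exact (map_zero f).symm
  · simp [Affine.Point.map_some, termG3, curveG2_map f, curveG3_map f, b₂_map f, map_ofNat]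

theorem subG2_map (f : F →ₐ[R] K) (C : AddSubgroup (W'⁄F).toAffine.Point) [Finite C] :
    subG2 (W'⁄K) (C.map (Affine.Point.map (W' := W') f)) = f (subG2 (W'⁄F) C) := by
  rw [subG2, subG2, AddSubgroup.coe_map,
    finsum_mem_image (Affine.Point.map_injective (W' := W') (f := f)).injOn,
    finsum_mem_congr rfl (fun P _ => termG2_map f P), map_add, ← curveG2_map f]
  congr 1
  exact (AddMonoidHom.map_finsum_mem (termG2 (W'⁄F)) (f : F →+* K).toAddMonoidHom
    (Set.toFinite _)).symm

theorem subG3_map (f : F →ₐ[R] K) (C : AddSubgroup (W'⁄F).toAffine.Point) [Finite C] :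
    subG3 (W'⁄K) (C.map (Affine.Point.map (W' := W') f)) = f (subG3 (W'⁄F) C) := by
  rw [subG3, subG3, AddSubgroup.coe_map,
    finsum_mem_image (Affine.Point.map_injective (W' := W') (f := f)).injOn,
    finsum_mem_congr rfl (fun P _ => termG3_map f P), map_add, ← curveG3_map f]
  congr 1
  exact (AddMonoidHom.map_finsum_mem (termG3 (W'⁄F)) (f : F →+* K).toAddMonoidHom
    (Set.toFinite _)).symm

/-- `subJ` commutes with field homomorphisms: in particular it is Galois equivariant. -/
theorem subJ_map (f : F →ₐ[R] K) (C : AddSubgroup (W'⁄F).toAffine.Point) [Finite C] :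
    subJ (W'⁄K) (C.map (Affine.Point.map (W' := W') f)) = f (subJ (W'⁄F) C) := by
  simp [subJ, subG2_map f C, subG3_map f C, map_div₀, map_ofNat]

/-- `subJ` of a subgroup stable under an automorphism is fixed by it. -/
theorem subJ_fixed (σ : F ≃ₐ[R] F) (C : AddSubgroup (W'⁄F).toAffine.Point) [Finite C]
    (h : C.map (Affine.Point.map (W' := W') σ.toAlgHom) = C) :
    σ (subJ (W'⁄F) C) = subJ (W'⁄F) C := by
  conv_rhs => rw [← h, subJ_map σ.toAlgHom C]
  rfl

end Map

end FLTA.Mazur
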