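import Fermat.Agent.Mazur.ModelOps
import Fermat.Prelude.Def_FLTPrelim_Ramification

/-!
# Selmer triples of a finite Galois module

A triple `(ξ, b₁, b₂)`: a cocycle `ξ`, unramified off `{p, N}`, whose extension of `ℤ/n` has a flat
model at `p`, together with trivialisations `b₁`, `b₂` of its restrictions to two given sets of
Galois elements.
-/

set_option autoImplicit false

noncomputable section

namespace FLTA.Mazur

open FLTA.HeckeDatum

local notation "Qbar" => AlgebraicClosure ℚ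

variable {n : ℕ} {M : Type} [AddCommGroup M]

/-- A continuous one-cocycle of `G_ℚ`. -/
structure IsCocycle (act : GalQ →* AddMonoid.End M) (ξ : GalQ → M) : Prop where
  mul : ∀ σ τ : GalQ, ξ (σ * τ) = ξ σ + act σ (ξ τ)
  smooth : ∃ L : IntermediateField ℚ Qbar, FiniteDimensional ℚ L ∧
    ∀ σ : GalQ, (∀ a ∈ L, σ a = a) → ξ σ = 0

theorem IsCocycle.map_one {act : GalQ →* AddMonoid.End M} {ξ : GalQ → M} (h : IsCocycle act ξ) :
    ξ 1 = 0 := by
  have h1 := h.mul 1 1
  rw [mul_one, _root_.map_one] at h1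
  simpa using h1

theorem isCocycle_zero (act : GalQ →* AddMonoid.End M) : IsCocycle act (0 : GalQ → M) :=
  ⟨fun σ τ => by simp, ⊥, inferInstance, fun _ _ => rfl⟩

theorem IsCocycle.sub {act : GalQ →* AddMonoid.End M} {ξ η : GalQ → M} (h : IsCocycle act ξ)
    (h' : IsCocycle act η) : IsCocycle act (ξ - η) := by
  obtain ⟨L, hL, hξ⟩ := h.smooth
  obtain ⟨L', hL', hη⟩ := h'.smooth
  refine ⟨fun σ τ => ?_, L ⊔ L', inferInstance, fun σ hσ => ?_⟩
  · simp only [Pi.sub_apply, h.mul, h'.mul, map_sub]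
    abel
  · rw [Pi.sub_apply, hξ σ fun a ha => hσ a (SetLike.le_def.mp le_sup_left ha),
      hη σ fun a ha => hσ a (SetLike.le_def.mp le_sup_right ha), sub_zero]

theorem IsCocycle.comp {M' : Type} [AddCommGroup M'] {act : GalQ →* AddMonoid.End M}
    {act' : GalQ →* AddMonoid.End M'} {ξ : GalQ → M} (h : IsCocycle act ξ) (f : M →+ M')
    (hf : ∀ σ x, f (act σ x) = act' σ (f x)) : IsCocycle act' (f ∘ ξ) := by
  obtain ⟨L, hL, hξ⟩ := h.smooth
  exact ⟨fun σ τ => by simp [h.mul, hf], L, hL, fun σ hσ => by simp [hξ σ hσ]⟩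

variable [Module (ZMod n) M]

theorem act_zmod_smul (act : GalQ →* AddMonoid.End M) (σ : GalQ) (k : ZMod n) (x : M) :
    act σ (k • x) = k • act σ x :=
  ZMod.map_smul (act σ) k x

variable (n) in
/-- The action of `σ` on the extension `M × ℤ/n` defined by a cocycle. -/
def twistEnd (act : GalQ →* AddMonoid.End M) (ξ : GalQ → M) (σ : GalQ) :
    M × ZMod n →+ M × ZMod n where
  toFun z := (act σ z.1 + z.2 • ξ σ, z.2)
  map_zero' := by simp
  map_add' z w := by
    simp only [Prod.fst_add, Prod.snd_add, map_add, add_smul, Prod.mk_add_mk]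
    congr 1
    abel

variable (n) in
/-- The extension of `ℤ/n` by `M` defined by a cocycle. -/
def twistAct (act : GalQ →* AddMonoid.End M) {ξ : GalQ → M} (hξ : IsCocycle act ξ) :
    GalQ →* AddMonoid.End (M × ZMod n) where
  toFun σ := twistEnd n act ξ σ
  map_one' := by
    refine AddMonoidHom.ext fun z => ?_
    show (act 1 z.1 + z.2 • ξ 1, z.2) = z
    rw [hξ.map_one, map_one]
    simp
  map_mul' σ τ := by
    refine AddMonoidHom.ext fun z => ?_
    show (act (σ * τ) z.1 + z.2 • ξ (σ * τ), z.2) =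
      (act σ (act τ z.1 + z.2 • ξ τ) + z.2 • ξ σ, z.2)
    rw [map_mul, hξ.mul, smul_add, map_add, act_zmod_smul]
    refine Prod.ext ?_ rfl
    show act σ (act τ z.1) + (z.2 • ξ σ + z.2 • act σ (ξ τ)) = _
    abel

@[simp]
theorem twistAct_apply {act : GalQ →* AddMonoid.End M} {ξ : GalQ → M} (hξ : IsCocycle act ξ)
    (σ : GalQ) (z : M × ZMod n) : twistAct n act hξ σ z = (act σ z.1 + z.2 • ξ σ, z.2) :=
  rfl

variable (n) in
/-- The conditions on a Selmer cocycle: unramified off `{p, N}`, flat at `p`. -/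
structure SelCond (p N : ℕ) (act : GalQ →* AddMonoid.End M) (ξ : GalQ → M) : Prop where
  cocycle : IsCocycle act ξ
  unramified : ∀ ℓ : ℕ, ℓ.Prime → ℓ ≠ p → ℓ ≠ N → ∀ A : ValuationSubring Qbar,
    A.LiesOverPrime ℓ → ∀ σ ∈ A.inertiaSubgroupIn ℚ, ξ σ = 0
  flat : HasFlatModel p (M × ZMod n) (twistAct n act cocycle)

variable (n) in
/-- The Selmer triples. -/
def selTriples (p N : ℕ) (H₁ H₂ : Set GalQ) (act : GalQ →* AddMonoid.End M) :
    Set ((GalQ → M) × M × M) :=
  {t | SelCond n p N act t.1 ∧ (∀ σ ∈ H₁, t.1 σ = act σ t.2.1 - t.2.1) ∧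
    ∀ σ ∈ H₂, t.1 σ = act σ t.2.2 - t.2.2}

variable (n) in
/-- The count of Selmer triples is at most the square of the order. -/
def SelBound (p N : ℕ) (H₁ H₂ : Set GalQ) (act : GalQ →* AddMonoid.End M) : Prop :=
  (selTriples n p N H₁ H₂ act).Finite ∧
    Nat.card (selTriples n p N H₁ H₂ act) ≤ Nat.card M ^ 2

end FLTA.Mazur

end
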