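import Fermat.Agent.Grass.TorsionModel
import Fermat.Agent.Mazur.SelmerDefs

/-!
# Flat models of finite extensions of `ℤ/n` by torsion points

If `T → ℤ/n` is a Galois invariant homomorphism and `j : T → J` is an equivariant section-like map
whose failure of additivity is a multiple of a fixed class `y` depending only on the images in
`ℤ/n`, then `T` has a flat model.  The example is `{(z, k) : n • z = k • y}` for a rational `y`.
-/

set_option autoImplicit false
set_option linter.style.haveILetI false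

noncomputable section

open AlgebraicCurve AlgebraicCurve.SemilinearAut

namespace FLTA.Grass

open FLTA.HeckeDatum
open scoped Classical

local notation "Qbar" => AlgebraicClosure ℚ

/-- The fibres of an invariant finite-valued map on powers are cut out by `powAdjoin`. -/
theorem indicator_mem_powAdjoin {ℓ : ℕ} {X : Type} (act' : GalQ →* Equiv.Perm X)
    (A : ValuationSubring Qbar) {S : Type*} [DecidableEq S] (f : X → S) (hf : ∀ σ x, f (act' σ x) = f x)
    {m : ℕ} (a : Fin m → S) :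
    (fun w : Fin m → X => if f ∘ w = a then (1 : A) else 0) ∈ powAdjoin ℓ act' A m := by
  have h : (fun w : Fin m → X => if f ∘ w = a then (1 : A) else 0) =
      ∏ i, fun w : Fin m → X => if f (w i) = a i then (1 : A) else 0 := by
    funext w
    rw [Finset.prod_apply]
    by_cases hw : f ∘ w = a
    · rw [if_pos hw, Finset.prod_eq_one]
      exact fun i _ => if_pos (congrFun hw i)
    · rw [if_neg hw, eq_comm]
      obtain ⟨i, hi⟩ := Function.ne_iff.1 hw
      exact Finset.prod_eq_zero (Finset.mem_univ i) (if_neg hi)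
  rw [h]
  refine Subalgebra.prod_mem _ fun i _ => Algebra.subset_adjoin
    ⟨i, fun x => if f x = a i then 1 else 0, mem_intFun.2 ⟨fun σ x => ?_, fun x => ?_⟩, fun w => ?_⟩
  · rw [hf]
    split_ifs
    · exact (map_one σ).symm
    · exact (map_zero σ).symm
  · split_ifs
    · exact isIntegral_one
    · exact isIntegral_zero
  · dsimp only
    split_ifs <;> rfl

namespace Ctx

section General

variable {K : Type*} [Field K] {A : ValuationSubring K} {k : Type*} [Field k] {π : A →+* k}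
  {F : Type*} [Field F] [Algebra K F] {F' : Type*} [Field F'] [Algebra k F'] {g : ℕ}
  {Ω : Type*} (C : Ctx A π F F' g)

/-- A family of divisors factoring through finitely many fibres cut out by `Rg` is generated. -/
theorem genAt_locConst {S : Type*} [Finite S] [DecidableEq S] (Rg : Subalgebra A (Ω → A)) (h : Ω → S)
    (hh : ∀ s, (fun ω => if h ω = s then (1 : A) else 0) ∈ Rg) {N : ℕ} (D : S → Divisor K F)
    (hD : ∀ s, D s ≤ C.infDiv N) (hfull : ∀ s, C.Full (D s)) :
    C.GenAt Rg N fun ω => D (h ω) := by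
  haveI := Fintype.ofFinite S
  choose r x hxA hxmem hspan using fun s =>
    (C.genAt_const (⊤ : Subalgebra A (Unit → A)) (hD s) (hfull s)).2.2
  let e := Fintype.equivFin (Σ s, Fin (r s))
  let v : (Σ s, Fin (r s)) → Ω → Fin (C.dimInf N) → A := fun si ω i =>
    (if h ω = si.1 then (1 : A) else 0) * x si.1 si.2 () i
  have hv1 : ∀ s i ω, h ω = s → v ⟨s, i⟩ ω = x s i () := fun s i ω hs => funext fun l => by
    simp [v, hs]
  have hv0 : ∀ si ω, h ω ≠ si.1 → v si ω = fun _ => 0 := fun si ω hs => funext fun l => by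
    simp [v, hs]
  have h0 : C.vec N (fun _ => (0 : A)) = 0 := by simp [Ctx.vec]
  refine ⟨fun ω => hD _, fun ω => hfull _, _, fun j => v (e.symm j),
    fun j i => Rg.mul_mem (hh _) (Rg.algebraMap_mem _), fun j ω => ?_, fun ω => ?_⟩
  · obtain ⟨⟨s, i⟩, rfl⟩ := e.surjective j
    simp only [Equiv.symm_apply_apply]
    by_cases hj : h ω = s
    · rw [hv1 s i ω hj]
      subst hj
      exact hxmem _ i ()
    · rw [hv0 ⟨s, i⟩ ω hj, h0]
      exact Submodule.zero_mem _
  · rw [← hspan (h ω) ()]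
    refine le_antisymm (Submodule.span_le.2 ?_) (Submodule.span_le.2 ?_)
    · rintro _ ⟨j, rfl⟩
      obtain ⟨⟨s, i⟩, rfl⟩ := e.surjective j
      simp only [Equiv.symm_apply_apply]
      by_cases hj : h ω = s
      · rw [hv1 s i ω hj]
        subst hj
        exact Submodule.subset_span ⟨i, rfl⟩
      · rw [hv0 ⟨s, i⟩ ω hj, h0, map_zero]
        exact Submodule.zero_mem _
    · rintro _ ⟨i, rfl⟩
      refine Submodule.subset_span ⟨e ⟨h ω, i⟩, ?_⟩
      simp only [Equiv.symm_apply_apply, hv1 _ i ω rfl]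

end General

variable {ℓ : ℕ} [Fact ℓ.Prime] {A : ValuationSubring Qbar} {k : Type*} [Field k] {π : A →+* k}
  {F : Type} [Field F] [Algebra Qbar F] {F' : Type*} [Field F'] [Algebra k F'] {g : ℕ}

variable (C : Ctx A π F F' g)

local notation "L" => riemannRochSpace
local notation "Prin" => Divisor.principal (K := Qbar) (F := F)

/-- A finite extension of a trivial module by torsion classes has a flat model at `ℓ`. -/
theorem hasFlatModel_torsionExt (hA : A.LiesOverPrime ℓ) (γ : GalQ →* SemilinearAut Qbar F)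
    (hbase : ∀ (σ : GalQ) (a : Qbar), baseAut (γ σ) a = σ a)
    (hinf : ∀ σ : GalQ, γ σ • C.inf = C.inf)
    (hbas : ∀ (σ : GalQ) (M : ℕ) (i : Fin (C.dimInf M)), γ σ • (C.bas M i : F) = C.bas M i)
    (hdiv : ∀ D : Divisor Qbar F, ∃ K₀ : IntermediateField ℚ Qbar, FiniteDimensional ℚ K₀ ∧
      ∀ σ : GalQ, (∀ a ∈ K₀, σ a = a) → γ σ • D = D)
    {T : Type} [AddCommGroup T] [Finite T] (act : GalQ →* AddMonoid.End T)
    {n : ℕ} [NeZero n] (q : T →+ ZMod n) (hq : ∀ σ x, q (act σ x) = q x)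
    (j : T → Pic0 Qbar F) (hjact : ∀ σ x, j (act σ x) = γ σ • j x)
    (hsepT : ∀ x x', q x = q x' → j x = j x' → x = x')
    (y : Pic0 Qbar F) (κ : ∀ {m : ℕ}, (Fin m → ZMod n) → ℤ)
    (hcarry : ∀ (m : ℕ) (x : Fin m → T), j (∑ i, x i) = (∑ i, j (x i)) + κ (q ∘ x) • y) :
    HasFlatModel ℓ T act := by
  haveI := Fintype.ofFinite T
  choose c hc using fun x => Pic0.mk_surjective (j x)
  have hcdeg : ∀ x, Divisor.degree (c x : Divisor Qbar F) = 0 := fun x => (c x).2
  choose E₀ hE₀le hE₀deg hE₀cl using fun x => C.exists_small_rep (c x : Divisor Qbar F) (hcdeg x)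
  let actD : GalQ →* Equiv.Perm (Divisor Qbar F) :=
    (MulAction.toPermHom (SemilinearAut Qbar F) (Divisor Qbar F)).comp γ
  have hactD : ∀ σ D, actD σ D = γ σ • D := fun _ _ => rfl
  obtain ⟨T₀, hfin, act₀, ι, hι, hsm₀, hιact, hchoice₀, horb⟩ :=
    exists_finite_stable_cover actD (fun D => hdiv D) E₀
  haveI := hfin
  have hinfD : ∀ σ (n : ℤ), γ σ • C.infDiv n = C.infDiv n := fun σ n => by
    rw [infDiv, smul_single, hinf]
  -- lifts: a small divisor together with the value in `ℤ/n`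
  let T' := {t : T₀ × ZMod n // ∃ σ x, ι t.1 = γ σ • E₀ x ∧ q x = t.2}
  let actP : GalQ → Equiv.Perm (T₀ × ZMod n) := fun σ => (act₀ σ).prodCongr (Equiv.refl _)
  have hstab : ∀ σ (t : T₀ × ZMod n), (∃ τ x, ι t.1 = γ τ • E₀ x ∧ q x = t.2) →
      ∃ τ x, ι (actP σ t).1 = γ τ • E₀ x ∧ q x = (actP σ t).2 := by
    rintro σ t ⟨τ, x, hx, hqx⟩
    refine ⟨σ * τ, x, ?_, hqx⟩
    show ι (act₀ σ t.1) = _
    rw [hιact, hactD, hx, map_mul, mul_smul]
  let act' : GalQ →* Equiv.Perm T' :=
    { toFun := fun σ =>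
        { toFun := fun t => ⟨actP σ t.1, hstab σ t.1 t.2⟩
          invFun := fun t => ⟨actP σ⁻¹ t.1, hstab σ⁻¹ t.1 t.2⟩
          left_inv := fun t => Subtype.ext (Prod.ext (by
            show act₀ σ⁻¹ (act₀ σ t.1.1) = t.1.1
            rw [map_inv]; exact Equiv.symm_apply_apply _ _) rfl)
          right_inv := fun t => Subtype.ext (Prod.ext (by
            show act₀ σ (act₀ σ⁻¹ t.1.1) = t.1.1
            rw [map_inv]; exact Equiv.apply_symm_apply _ _) rfl) }
      map_one' := Equiv.ext fun t => Subtype.ext (Prod.ext (by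
        show act₀ 1 t.1.1 = t.1.1
        rw [map_one]; rfl) rfl)
      map_mul' := fun σ τ => Equiv.ext fun t => Subtype.ext (Prod.ext (by
        show act₀ (σ * τ) t.1.1 = act₀ σ (act₀ τ t.1.1)
        rw [map_mul]; rfl) rfl) }
  have hsm : IsSmoothAct act' := fun t => by
    obtain ⟨K₀, hK₀, h⟩ := hsm₀ t.1.1
    exact ⟨K₀, hK₀, fun σ hσ => Subtype.ext (Prod.ext (h σ hσ) rfl)⟩
  let ι' : T' → Divisor Qbar F := fun t => ι t.1.1
  have hequ : ∀ σ t, ι' (act' σ t) = γ σ • ι' t := fun σ t => (hιact σ t.1.1).trans (hactD σ _)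
  have hιdeg : ∀ t, Divisor.degree (ι' t) = ((2 * g : ℕ) : ℤ) := fun t => by
    obtain ⟨σ, x, hx, -⟩ := t.2
    show Divisor.degree (ι t.1.1) = _
    rw [hx, degree_smul, hE₀deg]
  have hιle : ∀ t, ι' t ≤ C.infDiv ((4 * g : ℕ) : ℤ) := fun t => by
    obtain ⟨σ, x, hx, -⟩ := t.2
    show ι t.1.1 ≤ _
    rw [hx, ← hinfD σ]
    exact smul_le_smul_divisor _ (hE₀le x)
  let d : T' → Divisor.degZero (K := Qbar) (F := F) := fun t =>
    ⟨ι' t - C.infDiv ((2 * g : ℕ) : ℤ), by
      rw [Divisor.mem_degZero, map_sub, hιdeg, C.degree_infDiv, sub_self]⟩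
  have hd0 : ∀ t x, ι' t = E₀ x → Pic0.mk (d t) = j x := fun t x h => by
    rw [← hc x, mk_eq_mk_iff_sub_mem]
    convert hE₀cl x using 1
    simp only [d, h]
    abel
  have hdact : ∀ σ t, Pic0.mk (d (act' σ t)) = γ σ • Pic0.mk (d t) := fun σ t => by
    rw [pic0_smul_mk]
    refine congrArg Pic0.mk (Subtype.ext ?_)
    rw [coe_degZeroSMulHom]
    show ι' (act' σ t) - C.infDiv _ = γ σ • (ι' t - C.infDiv _)
    rw [smul_sub, hinfD, hequ]
  have hpt : ∀ x, ∃ t : T', ι' t = E₀ x ∧ t.1.2 = q x := fun x => by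
    obtain ⟨t₀, ht₀⟩ := hchoice₀ x
    exact ⟨⟨(t₀, q x), 1, x, by rw [ht₀, map_one, one_smul], rfl⟩, ht₀, rfl⟩
  have hcls : ∀ t : T', ∃ x, j x = Pic0.mk (d t) ∧ q x = t.1.2 := fun t => by
    obtain ⟨σ, x, hx, hqx⟩ := t.2
    obtain ⟨t₀, ht₀, ht₀'⟩ := hpt x
    have ht : t = act' σ t₀ := Subtype.ext (Prod.ext
      (hι (by rw [hx, ← ht₀]; exact (hequ σ t₀).symm)) (hqx.symm.trans ht₀'.symm))
    exact ⟨act σ x, by rw [ht, hdact, hd0 t₀ x ht₀, hjact], by rw [hq, hqx]⟩
  choose cls hcls hclsq using hcls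
  have hqinv : ∀ σ (t : T'), (act' σ t).1.2 = t.1.2 := fun _ _ => rfl
  obtain ⟨Φ, -, hsep, -, -, huniv⟩ :=
    C.exists_chart_functions (fun x => (c x : Divisor Qbar F)) hcdeg
  let Φ' : Set (T → A) := Φ ∪ Set.range fun a : ZMod n => fun x => if q x = a then (1 : A) else 0
  refine hasFlatModel_of_bounded act act' hsm cls (fun x => ?_) (fun σ t => ?_) A hA Φ'
    (fun x x' hxy => ?_) fun m φ hφ => ?_
  · obtain ⟨t, ht, htq⟩ := hpt x
    exact ⟨t, hsepT _ _ ((hclsq t).trans htq) ((hcls t).trans (hd0 t x ht))⟩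
  · exact hsepT _ _ (by rw [hclsq, hq, hclsq, hqinv]) (by rw [hcls, hjact, hcls, hdact])
  · by_contra h
    push Not at h
    refine hxy (hsepT _ _ ?_ ?_)
    · have := h _ (Or.inr ⟨q x, rfl⟩)
      simp only [if_pos] at this
      by_contra hne
      rw [if_neg (Ne.symm hne)] at this
      exact one_ne_zero this
    · rw [← hc x, ← hc x', mk_eq_mk_iff_sub_mem]
      exact hsep x x' fun φ hφ => h φ (Or.inl hφ)
  let hm : (Fin m → T') → (Fin m → ZMod n) := fun w i => (w i).1.2
  have hhm : ∀ a : Fin m → ZMod n,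
      (fun w => if hm w = a then (1 : A) else 0) ∈ powAdjoin ℓ act' A m := fun a =>
    indicator_mem_powAdjoin act' A (fun t : T' => t.1.2) hqinv a
  have hqsum : ∀ w, q (∑ i, cls (w i)) = ∑ i, hm w i := fun w => by
    rw [map_sum]
    exact Finset.sum_congr rfl fun i _ => hclsq (w i)
  rcases hφ with hφ | ⟨a, rfl⟩
  swap
  · have h : (fun w : Fin m → T' => if q (∑ i, cls (w i)) = a then (1 : A) else 0) =
        ∑ b : Fin m → ZMod n with ∑ i, b i = a, fun w => if hm w = b then (1 : A) else 0 := by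
      funext w
      rw [Finset.sum_apply, Finset.sum_ite_eq]
      simp [hqsum]
    show (fun w : Fin m → T' => if q (∑ i, cls (w i)) = a then (1 : A) else 0) ∈ _
    rw [h]
    exact Subalgebra.sum_mem _ fun b _ => hhm b
  refine huniv (powAdjoin ℓ act' A m) (fun w => ∑ i, cls (w i)) ?_ φ hφ
  have hsum : C.Carries (powAdjoin ℓ act' A m) fun w : Fin m → T' =>
      ∑ i, (d (w i) : Divisor Qbar F) := by
    refine C.carries_sum (Rg := powAdjoin ℓ act' A m) (Finset.univ : Finset (Fin m))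
      (fun i (w : Fin m → T') => (d (w i) : Divisor Qbar F)) fun i _ => ?_
    have hfull : ∀ t, C.Full (ι' t) := fun t => by
      refine C.full_of_degree ?_
      rw [hιdeg]
      omega
    have hgen : C.GenAt (powAdjoin ℓ act' A m) (4 * g) (fun w : Fin m → T' => ι' (w i)) :=
      C.genAt_equivariant hA γ hbase hbas act' hsm (N := 4 * g) ι' hequ hιle hfull m i
    refine C.carries_of_genAt (e := 2 * g) hgen (fun w => hιdeg _) le_rfl fun w => ?_
    have h0 : ι' (w i) - ((d (w i) : Divisor Qbar F) + C.infDiv ((2 * g : ℕ) : ℤ)) = 0 := by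
      show ι' (w i) - ((ι' (w i) - _) + _) = 0
      rw [sub_add_cancel, sub_self]
    rw [h0]
    exact zero_mem _
  -- the carry
  choose cy hcy using fun a : Fin m → ZMod n => Pic0.mk_surjective (κ a • y)
  choose Ey hEyle hEydeg hEycl using fun a => C.exists_small_rep (cy a : Divisor Qbar F) (cy a).2
  have hcar : C.Carries (powAdjoin ℓ act' A m) fun w => (cy (hm w) : Divisor Qbar F) :=
    C.carries_of_genAt (e := 2 * g)
      (C.genAt_locConst (powAdjoin ℓ act' A m) hm hhm Ey hEyle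
        fun a => C.full_of_degree (by rw [hEydeg]; omega))
      (fun w => hEydeg _) le_rfl fun w => hEycl _
  refine C.carries_congr (C.carries_add hsum hcar) fun w => ?_
  have h : Pic0.mk ((∑ i, d (w i)) + cy (hm w)) = Pic0.mk (c (∑ i, cls (w i))) := by
    rw [Pic0.mk_add, mk_sum, hcy, hc, hcarry]
    refine congrArg₂ (· + ·) (Finset.sum_congr rfl fun i _ => (hcls (w i)).symm) ?_
    rw [show q ∘ (fun i => cls (w i)) = hm w from funext fun i => hclsq (w i)]
  rw [mk_eq_mk_iff_sub_mem, AddSubgroup.coe_add, AddSubmonoidClass.coe_finsetSum] at h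
  exact h

/-- The Kummer extension of a class `z₀` with `n • z₀` rational has a flat model at `ℓ`. -/
theorem hasFlatModel_twist (hA : A.LiesOverPrime ℓ) (γ : GalQ →* SemilinearAut Qbar F)
    (hbase : ∀ (σ : GalQ) (a : Qbar), baseAut (γ σ) a = σ a)
    (hinf : ∀ σ : GalQ, γ σ • C.inf = C.inf)
    (hbas : ∀ (σ : GalQ) (M : ℕ) (i : Fin (C.dimInf M)), γ σ • (C.bas M i : F) = C.bas M i)
    (hdiv : ∀ D : Divisor Qbar F, ∃ K₀ : IntermediateField ℚ Qbar, FiniteDimensional ℚ K₀ ∧
      ∀ σ : GalQ, (∀ a ∈ K₀, σ a = a) → γ σ • D = D)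
    {n : ℕ} [NeZero n] {M : Type} [AddCommGroup M] [Module (ZMod n) M] [Finite M]
    (act : GalQ →* AddMonoid.End M) (incl : M →+ Pic0 Qbar F) (hincl : Function.Injective incl)
    (hact : ∀ σ x, incl (act σ x) = γ σ • incl x) (z₀ : Pic0 Qbar F)
    {ξ : GalQ → M} (hξ : FLTA.Mazur.IsCocycle act ξ)
    (hz₀ : ∀ σ, incl (ξ σ) = γ σ • z₀ - z₀) :
    HasFlatModel ℓ (M × ZMod n) (FLTA.Mazur.twistAct n act hξ) := by
  refine C.hasFlatModel_torsionExt hA γ hbase hinf hbas hdiv _ (AddMonoidHom.snd M (ZMod n))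
    (fun σ x => rfl) (fun x => incl x.1 + x.2.val • z₀) (fun σ x => ?_) (fun x x' h1 h2 => ?_)
    (n • z₀) (fun {m} a => (((∑ i, a i).val : ℤ) - ∑ i, ((a i).val : ℤ)) / n) fun m x => ?_
  · have hk : γ σ • (x.2.val • z₀) = x.2.val • (γ σ • z₀) :=
      map_nsmul (DistribSMul.toAddMonoidHom (Pic0 Qbar F) (γ σ)) _ _
    simp only [FLTA.Mazur.twistAct_apply, map_add, hact, smul_add, hk]
    have h1 : incl (x.2 • ξ σ) = x.2.val • (γ σ • z₀ - z₀) := by
      conv_lhs => rw [← ZMod.natCast_zmod_val x.2, Nat.cast_smul_eq_nsmul, map_nsmul, hz₀]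
    rw [h1, nsmul_sub]
    abel
  · change x.2 = x'.2 at h1
    change incl x.1 + x.2.val • z₀ = incl x'.1 + x'.2.val • z₀ at h2
    rw [h1, add_left_inj] at h2
    exact Prod.ext (hincl h2) h1
  · have hsum : (⇑(AddMonoidHom.snd M (ZMod n)) ∘ x) = fun i => (x i).2 := rfl
    have hdvd : (n : ℤ) ∣ ((∑ i, (x i).2).val : ℤ) - ∑ i, ((x i).2.val : ℤ) := by
      rw [← ZMod.intCast_zmod_eq_zero_iff_dvd, Int.cast_sub, Int.cast_sum]
      simp only [Int.cast_natCast, ZMod.natCast_zmod_val, sub_self]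
    simp only [hsum, Prod.fst_sum, Prod.snd_sum, map_sum, Finset.sum_add_distrib]
    rw [add_assoc]
    congr 1
    rw [← natCast_zsmul z₀ n, smul_smul, Int.ediv_mul_cancel hdvd, sub_smul, Finset.sum_smul]
    simp only [natCast_zsmul]
    abel

end Ctx

end FLTA.Grass

end
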