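import Fermat.Agent.Mazur.Chain
import Fermat.Agent.Mazur.ChainExt
import Fermat.Agent.Mazur.EllCount
import Fermat.Agent.Mazur.EllAtP
import Fermat.Agent.Mazur.EllEigen
import Fermat.Agent.EllReducible.Eisenstein
import Fermat.Agent.Galois.Cyclotomic

/-!
# A cofixed line at `2`, `3` and at `p`
-/

set_option autoImplicit false

open scoped Classical

open WeierstrassCurve WeierstrassCurve.Affine.Point

namespace FLTA.Mazur

open FLTA.EllReduction

local notation "Qbar" => AlgebraicClosure ℚ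
local notation "Γℚ" => (AlgebraicClosure ℚ ≃ₐ[ℚ] AlgebraicClosure ℚ)

variable {W : WeierstrassCurve ℤ} {p : ℕ} [Fact p.Prime] {P₁ : GeomPoint W}

lemma IsMazurLevel.eleven_le {p : ℕ} (h : IsMazurLevel p) : 11 ≤ p := by
  by_contra hlt
  have h2 := h.prime.two_le
  have hp := h.prime
  have hn := h.not_mem
  have hlt' : p < 11 := by omega
  interval_cases p <;> simp_all +decide

lemma IsCofixedGen.ne_zero (hP₁ : IsCofixedGen W p P₁) : P₁ ≠ 0 := fun h => by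
  have := hP₁.order
  rw [h, addOrderOf_zero] at this
  exact (Fact.out : p.Prime).one_lt.ne this

lemma IsCofixedGen.nsmul_eq_zero (hP₁ : IsCofixedGen W p P₁) : p • P₁ = 0 := by
  rw [← hP₁.order, addOrderOf_nsmul_eq_zero]

/-- Stability of the cofixed line. -/
lemma IsCofixedGen.stable (hP₁ : IsCofixedGen W p P₁) (σ : Γℚ) :
    σ • P₁ ∈ AddSubgroup.zmultiples P₁ := by
  rw [hP₁.smul_eq σ]
  exact AddSubgroup.nsmul_mem _ (AddSubgroup.mem_zmultiples _) _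

/-- A non-zero Frobenius-fixed point of order `p` off the cofixed line. -/
lemma exists_fixed_of_ne_one (hΔ : W.Δ ≠ 0) (hP₁ : IsCofixedGen W p P₁) {σ : Γℚ}
    (hσ : (ExtCitation.cycloExp p σ : ZMod p) ≠ 1) :
    ∃ v : GeomPoint W, addOrderOf v = p ∧ σ • v = v := by
  have hp : p.Prime := Fact.out
  obtain ⟨x, hx0, hxP⟩ : ∃ x : GeomPoint W, p • x = 0 ∧ x ∉ AddSubgroup.zmultiples P₁ := by
    by_contra hno
    push Not at hno
    have hle : (nsmulAddMonoidHom (α := GeomPoint W) p).ker ≤ AddSubgroup.zmultiples P₁ :=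
      fun x hx => hno x hx
    have : Finite (AddSubgroup.zmultiples P₁) :=
      finite_zmultiples_of_order hP₁.order hp.ne_zero
    have h := AddSubgroup.card_le_of_le hle
    rw [natCard_nsmul_ker hp hΔ, Nat.card_zmultiples, hP₁.order, sq] at h
    nlinarith [hp.one_lt]
  obtain ⟨k, hk⟩ := AddSubgroup.mem_zmultiples_iff.1 (hP₁.quot σ x hx0)
  set c : ℤ := (ExtCitation.cycloExp p σ : ℤ) with hc
  have hc1 : ¬ (p : ℤ) ∣ c - 1 := fun h => hσ (by
    have h' := (ZMod.intCast_zmod_eq_zero_iff_dvd (c - 1) p).2 h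
    rw [hc] at h'; push_cast at h'
    exact sub_eq_zero.1 h')
  obtain ⟨a, b, hab⟩ : IsCoprime (c - 1) (p : ℤ) :=
    (((Nat.prime_iff_prime_int.1 hp).coprime_iff_not_dvd.2 hc1)).symm
  have hcP : σ • P₁ = c • P₁ := by rw [hP₁.smul_eq σ, hc, natCast_zsmul]
  refine ⟨x - (k * a) • P₁, ?_, ?_⟩
  · refine addOrderOf_eq_prime ?_ fun h => hxP ?_
    · rw [nsmul_sub, hx0, nsmul_zsmul_comm, hP₁.nsmul_eq_zero, zsmul_zero, sub_zero]
    · rw [sub_eq_zero.1 h]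
      exact AddSubgroup.zsmul_mem _ (AddSubgroup.mem_zmultiples _) _
  · have hz : ((k * b) * (p : ℤ)) • P₁ = 0 := by
      rw [mul_smul, natCast_zsmul, hP₁.nsmul_eq_zero, zsmul_zero]
    rw [smul_sub, smul_zsmul_geom, hcP, smul_smul,
      show σ • x = x + k • P₁ by rw [hk]; abel,
      show k * a * c = k * a + (k - k * b * (p : ℤ)) by linear_combination k * hab,
      add_zsmul, sub_zsmul, hz]
    abel

/-- At `2` and `3` the curve has bad reduction. -/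
lemma dvd_Δ_of_small (hΔ : W.Δ ≠ 0) (hP₁ : IsCofixedGen W p P₁) (hp11 : 11 ≤ p) {ℓ : ℕ}
    (hℓ : ℓ.Prime) (hℓ3 : ℓ ≤ 3) : (ℓ : ℤ) ∣ W.Δ := by
  by_contra hgood
  have hp : p.Prime := Fact.out
  have hℓp : ℓ ≠ p := by omega
  obtain ⟨A, hA⟩ := FLTA.Galois.exists_liesOverPrime hℓ
  obtain ⟨φ, hφ⟩ := FLTA.Galois.exists_isFrobeniusAt hℓ hA
  obtain ⟨v, hv, hfix⟩ := exists_fixed_of_ne_one hΔ hP₁ (σ := φ) (by
    rw [FLTA.Galois.cycloExp_frobenius p hℓ hℓp hA hφ, ← Nat.cast_one, ne_eq,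
      ZMod.natCast_eq_natCast_iff']
    rw [Nat.mod_eq_of_lt (by omega), Nat.mod_eq_of_lt (by omega)]
    exact hℓ.one_lt.ne')
  have h := natCard_le_of_frobenius_fixed W A hℓ hA hφ (n := p)
    (fun h => hℓp ((Nat.prime_dvd_prime_iff_eq hℓ hp).1 h)) (AddSubgroup.zmultiples v)
    (fun x _ => mem_E0Z_of_good hℓ hA hgood x)
    (fun x hx => by
      obtain ⟨k, rfl⟩ := AddSubgroup.mem_zmultiples_iff.1 hx
      rw [smul_zsmul_geom, hfix])
    (fun x hx => by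
      obtain ⟨k, rfl⟩ := AddSubgroup.mem_zmultiples_iff.1 hx
      rw [nsmul_zsmul_comm, show p • v = 0 from hv ▸ addOrderOf_nsmul_eq_zero v, zsmul_zero])
  rw [Nat.card_zmultiples, hv] at h
  nlinarith [hℓ.two_le]

/-- At `2` and `3` the cofixed line is in the identity component. -/
lemma mem_E0Z_of_small (hΔ : W.Δ ≠ 0) (hss : W.IsSemistableModel) (hP₁ : IsCofixedGen W p P₁)
    (hp11 : 11 ≤ p) {ℓ : ℕ} (hℓ : ℓ.Prime) (hℓ3 : ℓ ≤ 3) {A : ValuationSubring Qbar}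
    (hA : A.LiesOverPrime ℓ) : P₁ ∈ E0Z W A := by
  have hp : p.Prime := Fact.out
  have hℓp : ℓ ≠ p := by omega
  have hℓΔ := dvd_Δ_of_small hΔ hP₁ hp11 hℓ hℓ3
  have hc₄ := hss ℓ hℓ hℓΔ
  obtain ⟨Y, hY, hY0, hYst⟩ := exists_mem_E0Z_stable hΔ hp hℓ hℓp hA hℓΔ hc₄ 1
  rw [pow_one] at hY
  obtain ⟨φ, hφ⟩ := FLTA.Galois.exists_isFrobeniusAt hℓ hA
  have hdec : φ ∈ A.decompositionSubgroup ℚ := (FLTA.Galois.isFrobeniusAt_iff.1 hφ).1
  obtain ⟨a, ha⟩ := AddSubgroup.mem_zmultiples_iff.1 (hYst φ hdec)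
  have hpY : p • Y = 0 := hY ▸ addOrderOf_nsmul_eq_zero Y
  by_cases hfix : φ • Y = Y
  · exfalso
    have h := natCard_le_of_frobenius_fixed W A hℓ hA hφ (n := p)
      (fun h => hℓp ((Nat.prime_dvd_prime_iff_eq hℓ hp).1 h)) (AddSubgroup.zmultiples Y)
      (AddSubgroup.zmultiples_le_of_mem hY0)
      (fun x hx => by
        obtain ⟨k, rfl⟩ := AddSubgroup.mem_zmultiples_iff.1 hx
        rw [smul_zsmul_geom, hfix])
      (fun x hx => by
        obtain ⟨k, rfl⟩ := AddSubgroup.mem_zmultiples_iff.1 hx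
        rw [nsmul_zsmul_comm, hpY, zsmul_zero])
    rw [Nat.card_zmultiples, hY] at h
    nlinarith [hℓ.two_le]
  · obtain ⟨k, hk⟩ := AddSubgroup.mem_zmultiples_iff.1 (hP₁.quot φ Y hpY)
    have hkY : k • P₁ ∈ E0Z W A := by
      rw [hk, ← ha]; exact sub_mem (AddSubgroup.zsmul_mem _ hY0 a) hY0
    have hk0 : ¬ (p : ℤ) ∣ k := fun h => hfix (by
      have : k • P₁ = 0 := by
        rw [← addOrderOf_dvd_iff_zsmul_eq_zero, hP₁.order]; exact h
      rwa [hk, sub_eq_zero] at this)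
    have := Cyclic.pow_nsmul_mem hp (M := 1) (n := 1) (S := E0Z W A) (x := P₁)
      (by rw [pow_one, hP₁.nsmul_eq_zero]; exact zero_mem _) hkY (by simpa using hk0)
    simpa using this

/-- Inertia at `p` has an element acting on the cofixed line by `-1`. -/
lemma exists_inertia_neg_one {A : ValuationSubring Qbar} (hA : A.LiesOverPrime p) :
    ∃ σ ∈ A.inertiaSubgroupIn ℚ, (ExtCitation.cycloExp p σ : ZMod p) = -1 := by
  obtain ⟨σ, hσ, h⟩ := FLTA.Galois.exists_inertia_cycloExp p hA (-1 : (ZMod p)ˣ)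
  exact ⟨σ, hσ, by rw [h]; simp⟩

lemma not_dvd_neg_two (hp11 : 11 ≤ p) : ¬ (p : ℤ) ∣ -1 - 1 := fun h => by
  have := Int.le_of_dvd (by norm_num) ((dvd_neg (α := ℤ)).2 h)
  omega

/-- The facts at a place over `p`. -/
lemma exists_E1Z_stable (hΔ : W.Δ ≠ 0) (hss : W.IsSemistableModel)
    (hline : HasGaloisStableCofixedLine (K := Qbar) ℚ (W.map (Int.castRingHom ℚ)) p)
    (hP₁ : IsCofixedGen W p P₁) (hp11 : 11 ≤ p) {A : ValuationSubring Qbar}
    (hA : A.LiesOverPrime p) :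
    (∃ P : GeomPoint W, p • P = 0 ∧ P ∉ E1Z W A) ∧ P₁ ∈ E1Z W A ∧
      ∀ n : ℕ, ∃ Y ∈ E1Z W A, addOrderOf Y = p ^ n := by
  have hp : p.Prime := Fact.out
  have hssp : ¬ (p : ℤ) ∣ W.Δ ∨ ¬ (p : ℤ) ∣ W.c₄ :=
    (em ((p : ℤ) ∣ W.Δ)).elim (fun h => Or.inr (hss p hp h)) Or.inl
  refine ⟨?_, ?_⟩
  · obtain ⟨N, hN, -⟩ := exists_isCofixedGen W hΔ hline
    obtain ⟨x, y, h, hpP, hx⟩ :=
      FLTA.EllReducible.exists_torsion_integral_x W hΔ hp (by omega) hN A hA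
    exact ⟨_, hpP, fun h1 => h1 hx⟩
  obtain ⟨σ, hσ, hσc⟩ := exists_inertia_neg_one (p := p) hA
  obtain ⟨t, ht⟩ : (p : ℤ) ∣ (ExtCitation.cycloExp p σ : ℤ) - (-1) := by
    rw [← ZMod.intCast_zmod_eq_zero_iff_dvd]; push_cast; rw [hσc]; ring
  have hσP : σ • P₁ = -P₁ := by
    rw [hP₁.smul_eq σ, ← natCast_zsmul, show (ExtCitation.cycloExp p σ : ℤ) = -1 + t * p by
      linear_combination ht, add_zsmul, mul_smul, natCast_zsmul, hP₁.nsmul_eq_zero, zsmul_zero,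
      add_zero, neg_one_zsmul]
  have hne : σ • P₁ ≠ P₁ := fun h => by
    rw [hσP] at h
    have h2 : (2 : ℤ) • P₁ = 0 := by rw [two_zsmul]; nth_rw 1 [← h]; exact neg_add_cancel _
    rw [← addOrderOf_dvd_iff_zsmul_eq_zero, hP₁.order] at h2
    have := Int.le_of_dvd (by norm_num) h2
    omega
  refine ⟨?_, fun n => exists_mem_E1Z_atP hp hA hΔ hssp hσ hP₁.nsmul_eq_zero hne n⟩
  have h1 : σ • P₁ - P₁ ∈ E1Z W A :=
    smul_sub_mem_E1Z_atP hp hA hΔ hssp hσ (n := 1) (by rw [pow_one]; exact hP₁.nsmul_eq_zero)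
  have h2 : (-2 : ℤ) • P₁ ∈ E1Z W A := by
    rw [show (-2 : ℤ) • P₁ = σ • P₁ - P₁ by rw [hσP, neg_zsmul, two_zsmul]; abel]; exact h1
  have := Cyclic.pow_nsmul_mem hp (M := 1) (n := 1) (S := E1Z W A) (x := P₁)
    (by rw [pow_one, hP₁.nsmul_eq_zero]; exact zero_mem _) h2
    (by simpa using not_dvd_neg_two (p := p) hp11)
  simpa using this

/-- Decomposition groups preserve the kernel of reduction. -/
lemma smul_mem_E1Z {A : ValuationSubring Qbar} {σ : Γℚ} (hσ : σ ∈ A.decompositionSubgroup ℚ)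
    {P : GeomPoint W} (hP : P ∈ E1Z W A) : σ • P ∈ E1Z W A := by
  rcases P with _ | ⟨x, y, h⟩
  · exact trivial
  · show InE1 A _ (σ • (Affine.Point.some x y h))
    rw [algEquiv_smul_def, Affine.Point.map_some]
    exact fun hx => hP (((FLTA.Galois.mem_decompositionSubgroup_iff).1 hσ x).1 hx)

end FLTA.Mazur
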