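import Fermat.Agent.Galois.Cyclotomic
import Fermat.Agent.Galois.PlacesFinite
import Fermat.Agent.EllReduction.FreyVal
import Mathlib.RepresentationTheory.Homological.GroupCohomology.Hilbert90
import Mathlib.NumberTheory.RamificationInertia.Unramified

/-!
# Radicals: Kummer's description of `μ_p`-valued cocycles, and their valuations
-/

set_option autoImplicit false
set_option synthInstance.maxHeartbeats 400000

noncomputable section

namespace FLTA.Mazur

open NumberField FLTA.Galois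
open scoped IntermediateField

local notation "Qbar" => AlgebraicClosure ℚ
local notation "Γ" => AlgebraicClosure ℚ ≃ₐ[ℚ] AlgebraicClosure ℚ

theorem exists_rat_of_fixed {x : Qbar} (hx : ∀ σ : Γ, σ x = x) : ∃ r : ℚ, (r : Qbar) = x := by
  obtain ⟨r, hr⟩ := (InfiniteGalois.mem_range_algebraMap_iff_fixed x).mpr hx
  exact ⟨r, (eq_ratCast (algebraMap ℚ Qbar) r).symm.trans hr⟩

theorem qbar_exists_primitiveRoot (p : ℕ) (hp : p.Prime) : ∃ ζ : Qbar, IsPrimitiveRoot ζ p :=
  have : NeZero (p : Qbar) := ⟨Nat.cast_ne_zero.mpr hp.ne_zero⟩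
  HasEnoughRootsOfUnity.exists_primitiveRoot Qbar p

/-- Hilbert 90: a `μ_p`-valued cocycle comes from the `p`-th root of an integer. -/
theorem exists_radical {p : ℕ} (hp : p.Prime) {ζ : Qbar} (hζ : IsPrimitiveRoot ζ p) (u : Γ → Qbar)
    (hu : ∀ σ τ : Γ, u (σ * τ) = u σ * σ (u τ)) (hup : ∀ σ, u σ ^ p = 1)
    (hsm : ∃ L : IntermediateField ℚ Qbar, FiniteDimensional ℚ L ∧
      ∀ σ : Γ, (∀ a ∈ L, σ a = a) → u σ = 1) :
    ∃ α : Qbar, ∃ m : ℤ, m ≠ 0 ∧ α ^ p = (m : Qbar) ∧ ∀ σ : Γ, σ α = u σ * α := by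
  obtain ⟨L, hL, hsm⟩ := hsm
  have : FiniteDimensional ℚ ℚ⟮ζ⟯ :=
    IntermediateField.adjoin.finiteDimensional (Algebra.IsIntegral.isIntegral ζ)
  let N : IntermediateField ℚ Qbar := IntermediateField.normalClosure ℚ ↥(L ⊔ ℚ⟮ζ⟯) Qbar
  have : FiniteDimensional ℚ N := normalClosure.is_finiteDimensional ℚ _ Qbar
  have : Normal ℚ N := normalClosure.normal ℚ _ Qbar
  have hLN : ∀ a ∈ L, a ∈ N := fun a ha =>
    IntermediateField.le_normalClosure (L ⊔ ℚ⟮ζ⟯) (SetLike.le_def.mp le_sup_left ha)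
  have hζN : ζ ∈ N := IntermediateField.le_normalClosure (L ⊔ ℚ⟮ζ⟯)
    (SetLike.le_def.mp le_sup_right (IntermediateField.mem_adjoin_simple_self ℚ ζ))
  have : NeZero p := ⟨hp.ne_zero⟩
  have huN : ∀ σ, u σ ∈ N := fun σ => by
    obtain ⟨i, -, hi⟩ := hζ.eq_pow_of_pow_eq_one (hup σ)
    exact hi ▸ pow_mem hζN i
  have hu0 : ∀ σ, u σ ≠ 0 := fun σ h => by
    have := hup σ
    rw [h, zero_pow hp.ne_zero] at this
    exact zero_ne_one this
  have hfac : ∀ σ τ : Γ, (∀ a ∈ N, σ a = τ a) → u σ = u τ := by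
    intro σ τ h
    have h1 : u (τ⁻¹ * σ) = 1 := hsm _ fun a ha => by
      rw [AlgEquiv.mul_apply, h a (hLN a ha)]
      exact τ.symm_apply_apply a
    have h2 := hu τ (τ⁻¹ * σ)
    rwa [mul_inv_cancel_left, h1, map_one, mul_one] at h2
  let lift : (N ≃ₐ[ℚ] N) → Γ := fun g => g.liftNormal Qbar
  have hlift : ∀ (g : N ≃ₐ[ℚ] N) (x : N), lift g (x : Qbar) = (g x : Qbar) :=
    fun g x => g.liftNormal_commutes Qbar x
  let f : (N ≃ₐ[ℚ] N) → Nˣ := fun g =>
    Units.mk0 ⟨u (lift g), huN _⟩ (fun h => hu0 _ (congrArg Subtype.val h))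
  have hf : groupCohomology.IsMulCocycle₁ f := by
    intro g h
    apply Units.ext
    apply Subtype.ext
    have h1 : u (lift (g * h)) = u (lift g * lift h) := hfac _ _ fun a ha => by
      rw [hlift _ ⟨a, ha⟩, AlgEquiv.mul_apply, AlgEquiv.mul_apply, hlift _ ⟨a, ha⟩, hlift]
    show u (lift (g * h)) = ((g • f h * f g : Nˣ) : N).1
    rw [h1, hu]
    simp only [Units.val_mul, MulMemClass.coe_mul, AlgEquiv.smul_units_def, Units.coe_map,
      MonoidHom.coe_coe, f, Units.val_mk0]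
    rw [show lift g (u (lift h)) = ((g ⟨u (lift h), huN _⟩ : N) : Qbar) from hlift g ⟨_, huN _⟩,
      mul_comm]
  obtain ⟨β, hβ⟩ := groupCohomology.isMulCoboundary₁_of_isMulCocycle₁_of_aut_to_units f hf
  have hβ' : ∀ σ : Γ, σ ((β : N) : Qbar) = u σ * ((β : N) : Qbar) := by
    intro σ
    let g := AlgEquiv.restrictNormalHom (F := ℚ) (K₁ := Qbar) N σ
    have hg : ∀ a ∈ N, σ a = lift g a := fun a ha => by
      rw [hlift g ⟨a, ha⟩]
      exact (AlgEquiv.restrictNormal_commutes σ N ⟨a, ha⟩).symm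
    have h1 := congrArg (fun x : Nˣ => ((x : N) : Qbar)) (hβ g)
    simp only [AlgEquiv.smul_units_def, Units.val_div_eq_div_val, Units.coe_map,
      MonoidHom.coe_coe, f, Units.val_mk0] at h1
    have hb : ((β : N) : Qbar) ≠ 0 := fun h => β.ne_zero (Subtype.ext h)
    rw [hg _ (β : N).2, hlift g (β : N), hfac σ (lift g) hg, ← h1]
    push_cast
    rw [div_mul_cancel₀ _ hb]
  have hb : ((β : N) : Qbar) ≠ 0 := fun h => β.ne_zero (Subtype.ext h)
  obtain ⟨r, hr⟩ := exists_rat_of_fixed (x := ((β : N) : Qbar) ^ p) fun σ => by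
    rw [map_pow, hβ', mul_pow, hup, one_mul]
  refine ⟨(r.den : Qbar) * ((β : N) : Qbar), r.num * (r.den : ℤ) ^ (p - 1), ?_, ?_, fun σ => ?_⟩
  · refine mul_ne_zero (Rat.num_ne_zero.mpr fun h => ?_)
      (pow_ne_zero _ (Int.natCast_ne_zero.mpr r.den_ne_zero))
    rw [h, Rat.cast_zero, eq_comm, pow_eq_zero_iff hp.ne_zero] at hr
    exact hb hr
  · rw [mul_pow, ← hr, Rat.cast_def]
    push_cast
    rw [← pow_sub_one_mul hp.ne_zero (r.den : Qbar)]
    have : (r.den : Qbar) ≠ 0 := Nat.cast_ne_zero.mpr r.den_ne_zero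
    field_simp
  · rw [map_mul, map_natCast, hβ']
    ring

/-- If every inertia group over `ℓ` (`ℓ ≠ p`, or `p = 2`) fixes a `p`-th root of `m`, then `p ∣ v_ℓ(m)`. -/
theorem dvd_padicValInt_of_fixed {p ℓ : ℕ} (hp : p.Prime) (hℓ : ℓ.Prime) (hℓp : ℓ ≠ p ∨ p = 2) {m : ℤ}
    (hm : m ≠ 0) {α : Qbar} (hα : α ^ p = (m : Qbar))
    (hfix : ∀ A : ValuationSubring Qbar, A.LiesOverPrime ℓ →
      ∀ σ ∈ A.inertiaSubgroupIn ℚ, σ α = α) :
    p ∣ padicValInt ℓ m := by
  obtain ⟨ζ, hζ⟩ := qbar_exists_primitiveRoot p hp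
  have : NeZero p := ⟨hp.ne_zero⟩
  have hα0 : α ≠ 0 := by
    rintro rfl
    rw [zero_pow hp.ne_zero, eq_comm, Int.cast_eq_zero] at hα
    exact hm hα
  have hαint : IsIntegral ℤ α := IsIntegral.of_pow hp.pos (hα ▸ isIntegral_algebraMap)
  have hfixζ : ∀ A : ValuationSubring Qbar, A.LiesOverPrime ℓ →
      ∀ σ ∈ A.inertiaSubgroupIn ℚ, σ ζ = ζ := by
    intro A hA σ hσ
    rcases hℓp with hℓp | rfl
    · exact inertia_apply_rootOfUnity hℓ hA hσ
        (fun h => hℓp ((Nat.prime_dvd_prime_iff_eq hℓ hp).mp h)) hζ.pow_eq_one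
    · rw [hζ.eq_neg_one_of_two_right, map_neg, map_one]
  let q : Polynomial ℚ := Polynomial.X ^ p - Polynomial.C (m : ℚ)
  have hq : (q.map (algebraMap ℚ Qbar)).Splits := IsAlgClosed.splits _
  let N : IntermediateField ℚ Qbar := IntermediateField.adjoin ℚ (q.rootSet Qbar)
  have : Polynomial.IsSplittingField ℚ N q :=
    IntermediateField.adjoin_rootSet_isSplittingField hq
  have : FiniteDimensional ℚ N := Polynomial.IsSplittingField.finiteDimensional N q
  have : Normal ℚ N := Normal.of_isSplittingField q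
  have hroots : ∀ x : Qbar, x ∈ q.rootSet Qbar ↔ x ^ p = (m : Qbar) := fun x => by
    rw [Polynomial.mem_rootSet', Polynomial.map_ne_zero_iff (algebraMap ℚ Qbar).injective,
      and_iff_right (Polynomial.X_pow_sub_C_ne_zero hp.pos _)]
    simp [q, sub_eq_zero]
  have hαN : α ∈ N := IntermediateField.subset_adjoin ℚ _ ((hroots α).mpr hα)
  have hle : ∀ A : ValuationSubring Qbar, A.LiesOverPrime ℓ →
      A.inertiaSubgroupIn ℚ ≤ N.fixingSubgroup := by
    intro A hA σ hσ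
    rw [IntermediateField.mem_fixingSubgroup_iff]
    intro x hx
    induction hx using IntermediateField.adjoin_induction with
    | mem y hy =>
      have hroot : (y / α) ^ p = 1 := by
        rw [div_pow, (hroots y).mp hy, ← hα, div_self (pow_ne_zero _ hα0)]
      obtain ⟨i, -, hi⟩ := hζ.eq_pow_of_pow_eq_one hroot
      rw [← div_mul_cancel₀ y hα0, ← hi, map_mul, map_pow, hfix A hA σ hσ,
        hfixζ A hA σ hσ]
    | algebraMap r => exact σ.commutes r
    | add u v _ _ hu hv => rw [map_add, hu, hv]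
    | inv u _ hu => rw [map_inv₀, hu]
    | mul u v _ _ hu hv => rw [map_mul, hu, hv]
  have : NumberField N := { to_finiteDimensional := inferInstance }
  have hunr := (isUnramifiedIn_iff_inertia_le hℓ).mpr hle
  obtain ⟨A, hA⟩ := exists_liesOverPrime hℓ
  set P := placeIdeal A N
  have hPmax : P.IsMaximal := placeIdeal_isMaximal hℓ hA
  have hPover : P.LiesOver (Ideal.span {(ℓ : ℤ)}) := placeIdeal_liesOver hℓ hA
  have hℓprime : Prime (ℓ : ℤ) := Nat.prime_iff_prime_int.mp hℓ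
  have hℓbot : Ideal.span {(ℓ : ℤ)} ≠ ⊥ := by simpa using hℓ.ne_zero
  have : (Ideal.span {(ℓ : ℤ)}).IsPrime :=
    (Ideal.span_singleton_prime hℓprime.ne_zero).mpr hℓprime
  have hPbot : P ≠ ⊥ := Ideal.ne_bot_of_liesOver_of_ne_bot hℓbot P
  have he : (Ideal.span {(ℓ : ℤ)}).ramificationIdx' P = 1 := by
    rw [Ideal.ramificationIdx'_eq_ramificationIdx _ P hℓbot]
    exact (Algebra.isUnramifiedIn_iff_forall_ramificationIdx_eq_one.mp hunr) P hPover
  let a : 𝓞 N := ⟨⟨α, hαN⟩, (isIntegral_algebraMap_iff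
    (algebraMap N Qbar).injective).mp hαint⟩
  have ha : a ^ p = (m : 𝓞 N) := RingOfIntegers.ext (Subtype.ext (by
    push_cast
    exact hα))
  have hkey := Ideal.IsDedekindDomain.emultiplicity_map_eq_ramificationIdx'_mul
    (I := Ideal.span {m}) (v := Ideal.span {(ℓ : ℤ)}) (w := P) (by simpa using hm)
    (Ideal.prime_of_isPrime hℓbot inferInstance).irreducible
    (Ideal.prime_of_isPrime hPbot hPmax.isPrime).irreducible hPbot
  have hv : emultiplicity (Ideal.span {(ℓ : ℤ)}) (Ideal.span {m}) = padicValInt ℓ m := by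
    have : Fact ℓ.Prime := ⟨hℓ⟩
    refine emultiplicity_eq_coe.mpr ⟨?_, ?_⟩
    · rw [Ideal.span_singleton_pow, Ideal.dvd_iff_le, Ideal.span_singleton_le_span_singleton]
      exact padicValInt_dvd m
    · rw [Ideal.span_singleton_pow, Ideal.dvd_iff_le, Ideal.span_singleton_le_span_singleton,
        padicValInt_dvd_iff]
      push Not
      exact ⟨hm, Nat.lt_succ_self _⟩
  rw [Ideal.map_span, Set.image_singleton, eq_intCast, ← ha, ← Ideal.span_singleton_pow,
    emultiplicity_pow (Ideal.prime_of_isPrime hPbot hPmax.isPrime), he, hv, Nat.cast_one,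
    one_mul] at hkey
  have hfin : FiniteMultiplicity P (Ideal.span {a}) :=
    FiniteMultiplicity.of_prime_left (Ideal.prime_of_isPrime hPbot hPmax.isPrime) (by
      intro h
      rw [Ideal.zero_eq_bot, Ideal.span_singleton_eq_bot] at h
      rw [h, zero_pow hp.ne_zero, eq_comm, Int.cast_eq_zero] at ha
      exact hm ha)
  rw [hfin.emultiplicity_eq_multiplicity] at hkey
  exact ⟨_, (by exact_mod_cast hkey.symm)⟩

end FLTA.Mazur

end
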