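import Mathlib.Analysis.SpecialFunctions.Elliptic.Weierstrass
import Mathlib.Analysis.Normed.Module.Connected
import Mathlib.Analysis.Analytic.Uniqueness
import Mathlib.Analysis.Calculus.MeanValue
import Mathlib.Analysis.Complex.Convex
import Mathlib.Tactic

/-!
# The addition theorem for the Weierstrass `℘` function

Euler's proof: for fixed `c` the expression
`((℘' z - ℘' (c - z)) / (℘ z - ℘ (c - z)))² / 4 - ℘ z - ℘ (c - z)` has derivative zero, and its
limit at `z = 0` is `℘ c`.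
-/

set_option autoImplicit false

open Filter Topology PeriodPair

namespace FLTA.Mazur.Lattice

variable (L : PeriodPair)

lemma mem_nhds_compl {z : ℂ} (hz : z ∉ L.lattice) : (L.lattice : Set ℂ)ᶜ ∈ 𝓝 z :=
  L.isClosed_lattice.isOpen_compl.mem_nhds hz

lemma hasDerivAt_weierstrassP {z : ℂ} (hz : z ∉ L.lattice) :
    HasDerivAt ℘[L] (℘'[L] z) z := by
  have h := (L.differentiableOn_weierstrassP.differentiableAt (mem_nhds_compl L hz)).hasDerivAt
  rwa [L.deriv_weierstrassP] at h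

lemma countable_lattice : (L.lattice : Set ℂ).Countable := by
  have h : Countable L.lattice := L.latticeEquivProd.toEquiv.injective.countable
  exact Set.countable_coe_iff.mp h

lemma isPreconnected_compl {s : Set ℂ} (hs : s.Countable) : IsPreconnected sᶜ :=
  (hs.isPathConnected_compl_of_one_lt_rank (by simp)).isConnected.isPreconnected

/-- `℘` minus its principal part at the origin. -/
lemma weierstrassP_eq (z : ℂ) : ℘[L] z = 1 / z ^ 2 + ℘[L - (0 : ℂ)] z := by
  have := L.weierstrassPExcept_def ⟨0, zero_mem _⟩ z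
  simp only [sub_zero] at this
  rw [this]; simp

/-- `℘'` minus its principal part at the origin. -/
lemma derivWeierstrassP_eq (z : ℂ) : ℘'[L] z = -2 / z ^ 3 + ℘'[L - (0 : ℂ)] z := by
  have := L.derivWeierstrassPExcept_def ⟨0, zero_mem _⟩ z
  simp only [sub_zero] at this
  rw [this]; ring

lemma weierstrassPExcept_zero : ℘[L - (0 : ℂ)] 0 = 0 := by
  have := L.weierstrassPExcept_def ⟨0, zero_mem _⟩ 0
  rw [this]; simp

lemma eventually_notMem : ∀ᶠ z in 𝓝[≠] (0 : ℂ), z ∉ L.lattice := by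
  filter_upwards [self_mem_nhdsWithin, mem_nhdsWithin_of_mem_nhds
    (L.compl_lattice_sdiff_singleton_mem_nhds 0)] with z hz hz' hzl
  exact hz' ⟨hzl, hz⟩

lemma eventually_deriv_ne : ∀ᶠ z in 𝓝[≠] (0 : ℂ), ℘'[L] z ≠ 0 := by
  have hc : ContinuousAt (fun z : ℂ => -2 + z ^ 3 * ℘'[L - (0 : ℂ)] z) 0 :=
    continuousAt_const.add ((continuousAt_id.pow 3).mul
      (L.analyticAt_derivWeierstrassPExcept 0).continuousAt)
  have h0 : ∀ᶠ z in 𝓝 (0 : ℂ), -2 + z ^ 3 * ℘'[L - (0 : ℂ)] z ≠ 0 :=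
    hc.eventually_ne (by norm_num)
  filter_upwards [self_mem_nhdsWithin, h0.filter_mono nhdsWithin_le_nhds] with z hz h h'
  apply h
  have hz : z ≠ 0 := hz
  rw [derivWeierstrassP_eq] at h'
  field_simp at h'
  linear_combination h'

/-- `℘'' = 6 ℘² - g₂ / 2`. -/
lemma deriv_derivWeierstrassP {z : ℂ} (hz : z ∉ L.lattice) :
    deriv ℘'[L] z = 6 * ℘[L] z ^ 2 - L.g₂ / 2 := by
  have hD : AnalyticOnNhd ℂ (fun z => deriv ℘'[L] z - (6 * ℘[L] z ^ 2 - L.g₂ / 2))
      (L.lattice : Set ℂ)ᶜ :=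
    L.analyticOnNhd_derivWeierstrassP.deriv.sub
      ((analyticOnNhd_const.mul (L.analyticOnNhd_weierstrassP.pow 2)).sub analyticOnNhd_const)
  obtain ⟨z₀, hz₀, hne⟩ :=
    (show ∀ᶠ z in 𝓝[≠] (0 : ℂ), z ∉ L.lattice ∧ ℘'[L] z ≠ 0 from
      (eventually_notMem L).and (eventually_deriv_ne L)).exists
  have hev : (fun z => deriv ℘'[L] z - (6 * ℘[L] z ^ 2 - L.g₂ / 2)) =ᶠ[𝓝 z₀] 0 := by
    have hne' : ∀ᶠ z in 𝓝 z₀, ℘'[L] z ≠ 0 :=
      (L.analyticOnNhd_derivWeierstrassP z₀ hz₀).continuousAt.eventually_ne hne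
    filter_upwards [hne', mem_nhds_compl L hz₀] with w hw hwl
    have hwl : w ∉ L.lattice := hwl
    have h1 : HasDerivAt (fun z => ℘'[L] z ^ 2) (2 * ℘'[L] w * deriv ℘'[L] w) w := by
      simpa using! (L.differentiableOn_derivWeierstrassP.differentiableAt
        (mem_nhds_compl L hwl)).hasDerivAt.fun_pow 2
    have h2 : HasDerivAt (fun z => 4 * ℘[L] z ^ 3 - L.g₂ * ℘[L] z - L.g₃)
        (4 * (3 * ℘[L] w ^ 2 * ℘'[L] w) - L.g₂ * ℘'[L] w) w := by
      simpa using! (((hasDerivAt_weierstrassP L hwl).fun_pow 3).const_mul 4 |>.sub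
        ((hasDerivAt_weierstrassP L hwl).const_mul L.g₂)).sub_const L.g₃
    have h12 := h1.unique (h2.congr_of_eventuallyEq (by
      filter_upwards [mem_nhds_compl L hwl] with u hu using L.derivWeierstrassP_sq u hu))
    simp only [Pi.zero_apply]
    apply mul_left_cancel₀ (mul_ne_zero two_ne_zero hw)
    linear_combination h12
  have := hD.eqOn_zero_of_preconnected_of_eventuallyEq_zero
    (isPreconnected_compl (countable_lattice L)) hz₀ hev hz
  exact sub_eq_zero.mp this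

lemma hasDerivAt_derivWeierstrassP {z : ℂ} (hz : z ∉ L.lattice) :
    HasDerivAt ℘'[L] (6 * ℘[L] z ^ 2 - L.g₂ / 2) z := by
  have h := (L.differentiableOn_derivWeierstrassP.differentiableAt (mem_nhds_compl L hz)).hasDerivAt
  rwa [deriv_derivWeierstrassP L hz] at h

/-- Euler's first integral. -/
noncomputable def eulerH (c z : ℂ) : ℂ :=
  ((℘'[L] z - ℘'[L] (c - z)) / (℘[L] z - ℘[L] (c - z))) ^ 2 / 4 - ℘[L] z - ℘[L] (c - z)

lemma hasDerivAt_eulerH {c z : ℂ} (hz : z ∉ L.lattice) (hcz : c - z ∉ L.lattice)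
    (hne : ℘[L] z ≠ ℘[L] (c - z)) : HasDerivAt (eulerH L c) 0 z := by
  have hs : HasDerivAt (fun u => c - u) (-1 : ℂ) z := (hasDerivAt_id' z).const_sub c
  have hP := hasDerivAt_weierstrassP L hz
  have hP' := hasDerivAt_derivWeierstrassP L hz
  have hQ := (hasDerivAt_weierstrassP L hcz).comp z hs
  have hQ' := (hasDerivAt_derivWeierstrassP L hcz).comp z hs
  simp only [mul_neg, mul_one, Function.comp_def] at hQ hQ'
  have hd : ℘[L] z - ℘[L] (c - z) ≠ 0 := sub_ne_zero.mpr hne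
  have h := (((((hP'.sub hQ').div (hP.sub hQ) hd).pow 2).div_const 4).sub hP).sub hQ
  refine h.congr_deriv ?_
  have e1 := L.derivWeierstrassP_sq z hz
  have e2 := L.derivWeierstrassP_sq (c - z) hcz
  simp only [Pi.div_apply, Pi.sub_apply, Nat.cast_ofNat, Nat.add_one_sub_one, pow_one]
  generalize ℘[L] z = p, ℘'[L] z = p', ℘[L] (c - z) = q, ℘'[L] (c - z) = q' at *
  field_simp
  linear_combination (2 * (q' - p')) * (e1 - e2)

/-- The addition theorem: `(℘' z - ℘' w)² = 4 (℘ (z + w) + ℘ z + ℘ w) (℘ z - ℘ w)²`. -/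
theorem addition_sq {c z : ℂ} (hc : c ∉ L.lattice) (hz : z ∉ L.lattice)
    (hcz : c - z ∉ L.lattice) :
    (℘'[L] z - ℘'[L] (c - z)) ^ 2
      - 4 * (℘[L] c + ℘[L] z + ℘[L] (c - z)) * (℘[L] z - ℘[L] (c - z)) ^ 2 = 0 := by
  set A : ℂ → ℂ := ℘[L - (0 : ℂ)] with hA
  set A' : ℂ → ℂ := ℘'[L - (0 : ℂ)] with hA'
  have hB : ContinuousAt (fun z => ℘[L] (c - z)) 0 :=
    ContinuousAt.comp_of_eq (hasDerivAt_weierstrassP L hc).continuousAt
      (by fun_prop) (sub_zero c)
  have hB' : ContinuousAt (fun z => ℘'[L] (c - z)) 0 :=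
    ContinuousAt.comp_of_eq (f := fun z => c - z) (g := ℘'[L]) (hasDerivAt_derivWeierstrassP L hc).continuousAt
      (by fun_prop) (sub_zero c)
  have hAc : ContinuousAt A 0 := (L.analyticAt_weierstrassPExcept 0).continuousAt
  have hA'c : ContinuousAt A' 0 := (L.analyticAt_derivWeierstrassPExcept 0).continuousAt
  let den : ℂ → ℂ := fun z => 1 + z ^ 2 * (A z - ℘[L] (c - z))
  have hden : ContinuousAt den 0 := by fun_prop
  have hden0 : den 0 = 1 := by simp [den]
  let R : ℂ → ℂ := fun z =>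
    (-z * (A' z - ℘'[L] (c - z)) + z ^ 4 * (A' z - ℘'[L] (c - z)) ^ 2 / 4
      - 2 * (A z - ℘[L] (c - z)) - z ^ 2 * (A z - ℘[L] (c - z)) ^ 2) / den z ^ 2
      - A z - ℘[L] (c - z)
  have hR : ContinuousAt R 0 := by
    have : den 0 ^ 2 ≠ 0 := by simp [hden0]
    fun_prop (disch := assumption)
  have hR0 : R 0 = ℘[L] c := by
    simp [R, hden0, hA, weierstrassPExcept_zero L]
    ring
  have hsmall : ∀ᶠ u in 𝓝 (0 : ℂ), den u ≠ 0 ∧ c - u ∉ L.lattice := by
    refine (hden.eventually_ne (by simp [hden0])).and ?_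
    have : ContinuousAt (fun u : ℂ => c - u) 0 := by fun_prop
    exact this.preimage_mem_nhds (by simpa using mem_nhds_compl L hc)
  obtain ⟨r, hr, hball⟩ := Metric.eventually_nhds_iff_ball.mp
    (hsmall.and (eventually_nhdsWithin_iff.mp (eventually_notMem L)))
  let S : Set ℂ := Metric.ball 0 r ∩ {u | 0 < u.re}
  have hSne : ∀ u ∈ S, u ≠ 0 := fun u hu h0 => by simp [S, h0] at hu
  have hSfacts : ∀ u ∈ S, u ∉ L.lattice ∧ c - u ∉ L.lattice ∧
      ℘[L] u ≠ ℘[L] (c - u) ∧ eulerH L c u = R u := by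
    intro u hu
    obtain ⟨⟨h1, h2⟩, h3⟩ := hball u hu.1
    have hu0 := hSne u hu
    refine ⟨h3 hu0, h2, ?_, ?_⟩
    · intro he; apply h1
      rw [weierstrassP_eq] at he
      simp only [den, hA, ← he]
      field_simp
      ring
    · simp only [den] at h1
      have h1' : 1 + u ^ 2 * A u - u ^ 2 * ℘[L] (c - u) ≠ 0 := by
        intro h; apply h1; linear_combination h
      simp only [eulerH, weierstrassP_eq L u, derivWeierstrassP_eq L u, ← hA, ← hA', R, den]
      generalize A u = a, A' u = a', ℘[L] (c - u) = b, ℘'[L] (c - u) = b' at *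
      field_simp
      ring
  have hSo : IsOpen S := Metric.isOpen_ball.inter (isOpen_lt continuous_const Complex.continuous_re)
  have hSc : Convex ℝ S := (convex_ball 0 r).inter (convex_halfSpace_re_gt 0)
  have hconst : ∀ u ∈ S, ∀ v ∈ S, eulerH L c u = eulerH L c v := fun u hu v hv => by
    have h := Convex.norm_image_sub_le_of_norm_hasDerivWithin_le (C := 0) (f' := fun _ => (0 : ℂ))
      (fun w hw => (hasDerivAt_eulerH L (hSfacts w hw).1 (hSfacts w hw).2.1
        (hSfacts w hw).2.2.1).hasDerivWithinAt) (by simp) hSc hv hu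
    simpa [sub_eq_zero] using h
  have hmem : ∀ t : ℝ, 0 < t → t < r → (t : ℂ) ∈ S := fun t h1 h2 => by
    simp [S, abs_of_pos h1, h1, h2]
  have hval : ∀ u ∈ S, eulerH L c u = ℘[L] c := by
    intro u hu
    have hlim : Tendsto (fun t : ℝ => R t) (𝓝[>] 0) (𝓝 (℘[L] c)) := by
      rw [← hR0]
      exact (hR.tendsto.comp (by simpa using (Complex.continuous_ofReal.tendsto 0))).mono_left
        nhdsWithin_le_nhds
    refine tendsto_nhds_unique (tendsto_const_nhds.congr' ?_) hlim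
    filter_upwards [Ioo_mem_nhdsGT hr] with t ht
    rw [← (hSfacts _ (hmem t ht.1 ht.2)).2.2.2]
    exact hconst u hu _ (hmem t ht.1 ht.2)
  -- propagate to the complement of `Λ ∪ (c - Λ)`
  let V : Set ℂ := ((L.lattice : Set ℂ) ∪ (fun l => c - l) '' (L.lattice : Set ℂ))ᶜ
  have hVmem : ∀ u, u ∈ V ↔ u ∉ L.lattice ∧ c - u ∉ L.lattice := fun u => by
    simp only [V, Set.mem_compl_iff, Set.mem_union, not_or, SetLike.mem_coe, Set.mem_image]
    refine and_congr_right fun _ => not_congr ⟨?_, fun h => ⟨_, h, sub_sub_self c u⟩⟩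
    rintro ⟨l, hl, rfl⟩
    simpa using hl
  let Φ : ℂ → ℂ := fun u => (℘'[L] u - ℘'[L] (c - u)) ^ 2
      - 4 * (℘[L] c + ℘[L] u + ℘[L] (c - u)) * (℘[L] u - ℘[L] (c - u)) ^ 2
  have hΦ : AnalyticOnNhd ℂ Φ V := by
    intro u hu
    obtain ⟨h1, h2⟩ := (hVmem u).mp hu
    have := L.analyticOnNhd_weierstrassP u h1
    have := L.analyticOnNhd_derivWeierstrassP u h1
    have := (L.analyticOnNhd_weierstrassP (c - u) h2).fun_comp (f := fun u => c - u) (by fun_prop)
    have := (L.analyticOnNhd_derivWeierstrassP (c - u) h2).fun_comp (f := fun u => c - u) (by fun_prop)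
    simp only [Φ]
    fun_prop
  have hr2 : ((r / 2 : ℝ) : ℂ) ∈ S := hmem _ (by linarith) (by linarith)
  have hVp : IsPreconnected V :=
    isPreconnected_compl ((countable_lattice L).union ((countable_lattice L).image _))
  refine hΦ.eqOn_zero_of_preconnected_of_eventuallyEq_zero hVp
    ((hVmem _).mpr ⟨(hSfacts _ hr2).1, (hSfacts _ hr2).2.1⟩) ?_ ((hVmem z).mpr ⟨hz, hcz⟩)
  filter_upwards [hSo.mem_nhds hr2] with u hu
  have h := hval u hu
  have hd : ℘[L] u - ℘[L] (c - u) ≠ 0 := sub_ne_zero.mpr (hSfacts u hu).2.2.1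
  simp only [eulerH] at h
  simp only [Φ, Pi.zero_apply]
  field_simp at h
  linear_combination h

lemma notMem_add_of_ne {z w : ℂ} (hne : ℘[L] z ≠ ℘[L] w) : z + w ∉ L.lattice := fun h => by
  apply hne
  have h1 := L.weierstrassP_sub_coe z ⟨z + w, h⟩
  simp only [sub_add_cancel_left, L.weierstrassP_neg] at h1
  exact h1.symm

/-- The addition theorem. -/
theorem weierstrassP_add {z w : ℂ} (hz : z ∉ L.lattice) (hw : w ∉ L.lattice)
    (hne : ℘[L] z ≠ ℘[L] w) :
    ℘[L] (z + w) = ((℘'[L] z - ℘'[L] w) / (℘[L] z - ℘[L] w)) ^ 2 / 4 - ℘[L] z - ℘[L] w := by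
  have h := addition_sq L (notMem_add_of_ne L hne) hz (by simpa using hw)
  rw [add_sub_cancel_left] at h
  have hd : ℘[L] z - ℘[L] w ≠ 0 := sub_ne_zero.mpr hne
  field_simp
  linear_combination -h

/-- The addition theorem for the derivative. -/
theorem derivWeierstrassP_add {z w : ℂ} (hz : z ∉ L.lattice) (hw : w ∉ L.lattice)
    (hne : ℘[L] z ≠ ℘[L] w) :
    ℘'[L] (z + w) = -((℘'[L] z - ℘'[L] w) / (℘[L] z - ℘[L] w))
        * (℘[L] (z + w) - ℘[L] z) - ℘'[L] z := by
  have hP := hasDerivAt_weierstrassP L hz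
  have hP' := hasDerivAt_derivWeierstrassP L hz
  have hd : ℘[L] z - ℘[L] w ≠ 0 := sub_ne_zero.mpr hne
  have h1 : HasDerivAt (fun u => ℘[L] (u + w)) (℘'[L] (z + w)) z :=
    (hasDerivAt_weierstrassP L (notMem_add_of_ne L hne)).comp_add_const z w
  have h2 : (fun u => ℘[L] (u + w)) =ᶠ[𝓝 z]
      fun u => ((℘'[L] u - ℘'[L] w) / (℘[L] u - ℘[L] w)) ^ 2 / 4 - ℘[L] u - ℘[L] w := by
    filter_upwards [mem_nhds_compl L hz, hP.continuousAt.eventually_ne hne] with u hu hu'
    exact weierstrassP_add L hu hw hu'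
  have h3 := (((((hP'.sub_const (℘'[L] w)).div (hP.sub_const (℘[L] w)) hd).pow 2).div_const 4).sub
    hP).sub_const (℘[L] w)
  rw [h1.unique (h3.congr_of_eventuallyEq h2)]
  have e1 := L.derivWeierstrassP_sq z hz
  have e2 := L.derivWeierstrassP_sq w hw
  rw [weierstrassP_add L hz hw hne]
  simp only [Pi.div_apply, Pi.sub_apply, Nat.cast_ofNat, Nat.add_one_sub_one, pow_one]
  generalize ℘[L] z = p, ℘'[L] z = p', ℘[L] w = q, ℘'[L] w = q' at *
  field_simp
  linear_combination (q' - p') * (e1 - e2)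

end FLTA.Mazur.Lattice
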