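import Fermat.Agent.Mazur.LatticeAdd
import Fermat.Agent.Mazur.EllSubJ
import Fermat.Agent.EllTorsion.Card
import Mathlib.Analysis.Complex.Polynomial.Basic

/-!
# The map `ℂ / Λ → E(ℂ)`

If `L.g₂ = g₂(W)` and `L.g₃ = g₃(W)`, then `z ↦ (℘ z - b₂ / 12, (℘' z - a₁ x - a₃) / 2)` is a
homomorphism with kernel `Λ`, surjective on torsion.
-/

set_option autoImplicit false

open Filter Topology PeriodPair WeierstrassCurve
open scoped WeierstrassCurve.Affine

namespace FLTA.Mazur.Lattice

variable (L : PeriodPair) (W : WeierstrassCurve ℂ)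

/-- The `x`-coordinate of the parametrisation. -/
noncomputable def latX (z : ℂ) : ℂ := ℘[L] z - W.b₂ / 12

/-- The `y`-coordinate of the parametrisation. -/
noncomputable def latY (z : ℂ) : ℂ := (℘'[L] z - W.a₁ * latX L W z - W.a₃) / 2

/-- `W` is the curve of the lattice `L`. -/
def IsLatticeOf : Prop := L.g₂ = curveG2 W ∧ L.g₃ = curveG3 W

variable {L W} [W.IsElliptic]

theorem equation_lat (h : IsLatticeOf L W) {z : ℂ} (hz : z ∉ L.lattice) :
    W.toAffine.Equation (latX L W z) (latY L W z) := by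
  have e := L.derivWeierstrassP_sq z hz
  rw [h.1, h.2] at e
  rw [Affine.equation_iff]
  simp only [latY, latX, curveG2, curveG3, c₄, c₆, b₂, b₄, b₆] at e ⊢
  linear_combination e / 4

theorem nonsingular_lat (h : IsLatticeOf L W) {z : ℂ} (hz : z ∉ L.lattice) :
    W.toAffine.Nonsingular (latX L W z) (latY L W z) :=
  Affine.equation_iff_nonsingular.mp (equation_lat h hz)

/-- The point attached to `z`. -/
noncomputable def latPoint (h : IsLatticeOf L W) (z : ℂ) : W.toAffine.Point :=
  letI := Classical.propDecidable (z ∈ L.lattice)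
  if hz : z ∈ L.lattice then 0 else .some _ _ (nonsingular_lat h hz)

theorem latPoint_of_mem (h : IsLatticeOf L W) {z : ℂ} (hz : z ∈ L.lattice) :
    latPoint h z = 0 := by rw [latPoint, dif_pos hz]

theorem latPoint_of_notMem (h : IsLatticeOf L W) {z : ℂ} (hz : z ∉ L.lattice) :
    latPoint h z = .some _ _ (nonsingular_lat h hz) := by rw [latPoint, dif_neg hz]

theorem latPoint_eq_zero_iff (h : IsLatticeOf L W) {z : ℂ} :
    latPoint h z = 0 ↔ z ∈ L.lattice := by
  by_cases hz : z ∈ L.lattice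
  · simp [latPoint_of_mem h hz, hz]
  · simp [latPoint_of_notMem h hz, hz, Affine.Point.some_ne_zero]

theorem latPoint_zero (h : IsLatticeOf L W) : latPoint h 0 = 0 :=
  latPoint_of_mem h (zero_mem _)

theorem latPoint_add_coe (h : IsLatticeOf L W) (z : ℂ) {l : ℂ} (hl : l ∈ L.lattice) :
    latPoint h (z + l) = latPoint h z := by
  have hiff : z + l ∈ L.lattice ↔ z ∈ L.lattice :=
    L.lattice.add_mem_iff_left hl
  by_cases hz : z ∈ L.lattice
  · rw [latPoint_of_mem h hz, latPoint_of_mem h (hiff.mpr hz)]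
  · rw [latPoint_of_notMem h hz, latPoint_of_notMem h (fun h' => hz (hiff.mp h'))]
    have e1 : latX L W (z + l) = latX L W z := by
      simp [latX, L.weierstrassP_add_coe z ⟨l, hl⟩]
    have e2 : latY L W (z + l) = latY L W z := by
      simp [latY, e1, L.derivWeierstrassP_add_coe z ⟨l, hl⟩]
    simp [e1, e2]

theorem latPoint_add_of_ne (h : IsLatticeOf L W) {z w : ℂ} (hz : z ∉ L.lattice)
    (hw : w ∉ L.lattice) (hne : ℘[L] z ≠ ℘[L] w) :
    latPoint h z + latPoint h w = latPoint h (z + w) := by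
  have hx : latX L W z ≠ latX L W w := fun e => hne (by simpa [latX] using e)
  rw [latPoint_of_notMem h hz, latPoint_of_notMem h hw,
    latPoint_of_notMem h (notMem_add_of_ne L hne), Affine.Point.add_of_X_ne hx]
  have hS := weierstrassP_add L hz hw hne
  have hT := derivWeierstrassP_add L hz hw hne
  have hd : ℘[L] z - ℘[L] w ≠ 0 := sub_ne_zero.mpr hne
  have hl : W.toAffine.slope (latX L W z) (latX L W w) (latY L W z) (latY L W w)
      = ((℘'[L] z - ℘'[L] w) / (℘[L] z - ℘[L] w) - W.a₁) / 2 := by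
    rw [Affine.slope_of_X_ne hx]
    simp only [latY, latX, sub_sub_sub_cancel_right]
    field_simp
    ring
  simp only [Affine.Point.some.injEq]
  refine ⟨?_, ?_⟩
  · rw [hl]
    simp only [Affine.addX, latX, hS, b₂]
    ring
  · simp only [Affine.addY, Affine.negAddY, Affine.negY, hl]
    simp only [Affine.addX, latY, latX, hT, hS, b₂]
    generalize (℘'[L] z - ℘'[L] w) / (℘[L] z - ℘[L] w) = m at *
    ring

lemma tendsto_weierstrassP_zero : Tendsto ℘[L] (𝓝[≠] 0) (Bornology.cobounded ℂ) :=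
  tendsto_cobounded_of_meromorphicOrderAt_neg (by rw [L.order_weierstrassP 0 (zero_mem _)]; decide)

lemma eventually_ne_const (a : ℂ) : ∀ᶠ u in 𝓝[≠] (0 : ℂ), ℘[L] u ≠ a :=
  tendsto_weierstrassP_zero.eventually
    (show {a}ᶜ ∈ Bornology.cobounded ℂ from Bornology.isBounded_singleton)

lemma eventually_ne_const' {w : ℂ} (a : ℂ) (hw : w ∉ L.lattice) :
    ∀ᶠ u in 𝓝[≠] w, ℘[L] u ≠ a := by
  have hF : AnalyticOnNhd ℂ (fun u => ℘[L] u - a) (L.lattice : Set ℂ)ᶜ :=
    L.analyticOnNhd_weierstrassP.sub analyticOnNhd_const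
  rcases (hF w hw).eventually_eq_zero_or_eventually_ne_zero with h0 | h0
  · exfalso
    have hall := hF.eqOn_zero_of_preconnected_of_eventuallyEq_zero
      (isPreconnected_compl (countable_lattice L)) hw h0
    obtain ⟨u, hu, hu'⟩ := ((eventually_notMem L).and (eventually_ne_const (L := L) a)).exists
    exact hu' (sub_eq_zero.mp (hall hu))
  · filter_upwards [h0] with u hu using sub_ne_zero.mp hu

/-- The parametrisation is a homomorphism. -/
theorem latPoint_add (h : IsLatticeOf L W) (z w : ℂ) :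
    latPoint h (z + w) = latPoint h z + latPoint h w := by
  by_cases hz : z ∈ L.lattice
  · rw [add_comm z w, latPoint_add_coe h w hz, latPoint_of_mem h hz, zero_add]
  by_cases hw : w ∈ L.lattice
  · rw [latPoint_add_coe h z hw, latPoint_of_mem h hw, add_zero]
  have hc : Tendsto (fun u : ℂ => w + u) (𝓝[≠] 0) (𝓝[≠] w) := by
    refine tendsto_nhdsWithin_iff.mpr ⟨?_, ?_⟩
    · have : Tendsto (fun u : ℂ => w + u) (𝓝 0) (𝓝 (w + 0)) := (continuous_const.add continuous_id).tendsto 0
      rw [add_zero] at this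
      exact this.mono_left nhdsWithin_le_nhds
    · filter_upwards [self_mem_nhdsWithin] with u hu
      simpa using hu
  have hwu : ∀ᶠ u in 𝓝[≠] (0 : ℂ), w + u ∉ L.lattice :=
    hc.eventually (Filter.Eventually.filter_mono nhdsWithin_le_nhds (mem_nhds_compl L hw))
  obtain ⟨u, hu, hu1, hu2, hu3, hu4⟩ := ((eventually_notMem L).and
    (hwu.and ((eventually_ne_const (L := L) (℘[L] w)).and
    ((eventually_ne_const (L := L) (℘[L] (z + w))).and
      (hc.eventually (eventually_ne_const' (℘[L] z) hw)))))).exists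
  have e1 := latPoint_add_of_ne h hw hu hu2.symm
  have e2 := latPoint_add_of_ne h hz hu1 hu4.symm
  rw [← e1, ← add_assoc z w u] at e2
  by_cases hzw : z + w ∈ L.lattice
  · rw [latPoint_of_mem h hzw]
    rw [add_comm (z + w) u, latPoint_add_coe h u hzw, ← add_assoc] at e2
    exact (left_eq_add.mp ((e2.symm).trans (add_comm _ _))).symm
  · have e3 := latPoint_add_of_ne h hzw hu hu3.symm
    rw [← e3, ← add_assoc] at e2
    exact (add_right_cancel e2).symm

/-- The parametrisation as a homomorphism. -/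
noncomputable def latHom (h : IsLatticeOf L W) : ℂ →+ W.toAffine.Point where
  toFun := latPoint h
  map_zero' := latPoint_zero h
  map_add' := latPoint_add h

@[simp] theorem latHom_apply (h : IsLatticeOf L W) (z : ℂ) : latHom h z = latPoint h z := rfl

theorem latHom_eq_zero_iff (h : IsLatticeOf L W) {z : ℂ} :
    latHom h z = 0 ↔ z ∈ L.lattice := latPoint_eq_zero_iff h

/-- Coordinates with respect to the periods. -/
theorem coord_int_of_mem {s t : ℝ} (hm : (s : ℂ) * L.ω₁ + t * L.ω₂ ∈ L.lattice) :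
    ∃ m n : ℤ, s = m ∧ t = n := by
  obtain ⟨m, n, hmn⟩ := L.mem_lattice.mp hm
  refine ⟨m, n, ?_⟩
  have := LinearIndependent.pair_iff.mp L.indep (s - m) (t - n) (by
    simp only [Complex.real_smul, Complex.ofReal_sub, Complex.ofReal_intCast]
    linear_combination -hmn)
  exact ⟨sub_eq_zero.mp this.1, sub_eq_zero.mp this.2⟩

/-- Every torsion point comes from `ℂ`. -/
theorem exists_latHom_eq (h : IsLatticeOf L W) {n : ℕ} (hn : n ≠ 0) {P : W.toAffine.Point}
    (hP : n • P = 0) : ∃ z : ℂ, latHom h z = P := by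
  have hn' : (n : ℂ) ≠ 0 := Nat.cast_ne_zero.mpr hn
  let d : Fin n × Fin n → ℂ := fun a => ((a.1 : ℕ) * L.ω₁ + (a.2 : ℕ) * L.ω₂) / n
  have hmem : ∀ a, latHom h (d a) ∈ Submodule.torsionBy ℤ W.toAffine.Point (n : ℤ) := fun a => by
    rw [Submodule.mem_torsionBy_iff, natCast_zsmul, ← map_nsmul, latHom_eq_zero_iff, nsmul_eq_mul]
    simp only [d, mul_div_cancel₀ _ hn']
    refine L.mem_lattice.mpr ⟨(a.1 : ℕ), (a.2 : ℕ), ?_⟩
    norm_cast
  let f : Fin n × Fin n → Submodule.torsionBy ℤ W.toAffine.Point (n : ℤ) :=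
    fun a => ⟨latHom h (d a), hmem a⟩
  have hinj : Function.Injective f := by
    intro a b hab
    have h0 : latHom h (d a - d b) = 0 := by
      rw [map_sub, sub_eq_zero]; exact congrArg Subtype.val hab
    rw [latHom_eq_zero_iff] at h0
    have he : d a - d b = ((((a.1 : ℕ) : ℝ) - (b.1 : ℕ)) / n : ℝ) * L.ω₁
        + ((((a.2 : ℕ) : ℝ) - (b.2 : ℕ)) / n : ℝ) * L.ω₂ := by
      simp only [d]; push_cast; field_simp; ring
    rw [he] at h0
    obtain ⟨m, k, h1, h2⟩ := coord_int_of_mem h0
    have key : ∀ x y : Fin n, ∀ i : ℤ, ((((x : ℕ) : ℝ) - (y : ℕ)) / n : ℝ) = i → x = y := by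
      intro x y i hi
      rw [div_eq_iff (Nat.cast_ne_zero.mpr hn)] at hi
      have hi' : ((x : ℕ) : ℤ) - (y : ℕ) = i * n := by exact_mod_cast hi
      have hx := x.2
      have hy := y.2
      have : i = 0 := by
        rcases lt_trichotomy i 0 with hi0 | hi0 | hi0
        · nlinarith
        · exact hi0
        · nlinarith
      rw [this, zero_mul, sub_eq_zero] at hi'
      exact Fin.ext (by exact_mod_cast hi')
    exact Prod.ext (key _ _ m h1) (key _ _ k h2)
  have hcard := EllTorsion.natCard_torsionBy W hn'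
  haveI : Finite (Submodule.torsionBy ℤ W.toAffine.Point (n : ℤ)) :=
    EllTorsion.finite_torsionBy W hn'
  have hbij : Function.Bijective f :=
    (Nat.bijective_iff_injective_and_card f).mpr ⟨hinj, by rw [hcard]; simp [sq]⟩
  obtain ⟨a, ha⟩ := hbij.2 ⟨P, by rw [Submodule.mem_torsionBy_iff, natCast_zsmul, hP]⟩
  exact ⟨d a, congrArg Subtype.val ha⟩

end FLTA.Mazur.Lattice
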