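import Fermat.Agent.Mazur.LatticeInvariants
import Mathlib.LinearAlgebra.FreeModule.PID
import Mathlib.LinearAlgebra.Dimension.Free

/-!
# Finite subgroups of `E(ℂ)` and lattices containing `Λ`
-/

set_option autoImplicit false

open Filter Topology PeriodPair WeierstrassCurve
open scoped WeierstrassCurve.Affine

namespace FLTA.Mazur.Lattice

variable {L : PeriodPair}

/-- A group between `Λ` and `Λ / n` is a lattice. -/
theorem exists_periodPair_eq (L : PeriodPair) (M : AddSubgroup ℂ) {n : ℕ} (hn : n ≠ 0)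
    (hle : ∀ x ∈ L.lattice, x ∈ M) (hM : ∀ x ∈ M, (n : ℂ) * x ∈ L.lattice) :
    ∃ P : PeriodPair, ∀ x, x ∈ P.lattice ↔ x ∈ M := by
  let S : Submodule ℤ ℂ := AddSubgroup.toIntSubmodule M
  haveI : Module.Free ℤ L.lattice := Module.Free.of_basis L.latticeBasis
  haveI : Module.Finite ℤ L.lattice := Module.Finite.of_basis L.latticeBasis
  let T : S →ₗ[ℤ] L.lattice :=
    { toFun := fun x => ⟨(n : ℂ) * x, hM x x.2⟩
      map_add' := fun x y => Subtype.ext (by simp [mul_add])
      map_smul' := fun m x => Subtype.ext (by simp [zsmul_eq_mul, mul_left_comm]) }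
  have hT : Function.Injective T := fun x y h => Subtype.ext
    (mul_left_cancel₀ (Nat.cast_ne_zero.mpr hn) (congrArg Subtype.val h))
  haveI : Module.Finite ℤ S := Module.Finite.of_injective T hT
  haveI : Module.Free ℤ S := Module.free_of_finite_type_torsion_free'
  have h2 : Module.finrank ℤ L.lattice = 2 := by
    rw [Module.finrank_eq_card_basis L.latticeBasis]; simp
  have hrank : Module.finrank ℤ S = 2 := by
    refine le_antisymm (h2 ▸ LinearMap.finrank_le_finrank_of_injective hT) ?_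
    rw [← h2]
    exact LinearMap.finrank_le_finrank_of_injective
      (Submodule.inclusion_injective (show L.lattice ≤ S from hle))
  let b : Module.Basis (Fin 2) ℤ S := Module.finBasisOfFinrankEq ℤ S hrank
  have hspan : Submodule.span ℤ {(b 0 : ℂ), (b 1 : ℂ)} = S := by
    have h : Submodule.span ℤ (S.subtype '' Set.range b) = S := by
      rw [Submodule.span_image, b.span_eq, Submodule.map_subtype_top]
    rw [show ({(b 0 : ℂ), (b 1 : ℂ)} : Set ℂ) = S.subtype '' Set.range b by
      ext x; simp [Fin.exists_fin_two, eq_comm]]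
    exact h
  have hind : LinearIndependent ℝ ![(b 0 : ℂ), (b 1 : ℂ)] := by
    refine linearIndependent_of_top_le_span_of_card_eq_finrank ?_ (by simp)
    have hin : ∀ x ∈ S, x ∈ Submodule.span ℝ (Set.range ![(b 0 : ℂ), (b 1 : ℂ)]) := by
      intro x hx
      rw [← hspan, Submodule.mem_span_pair] at hx
      obtain ⟨p, q, rfl⟩ := hx
      rw [Matrix.range_cons, Matrix.range_cons, Matrix.range_empty]
      simp only [Set.union_empty, Set.singleton_union, Submodule.mem_span_pair]
      exact ⟨p, q, by simp [zsmul_eq_mul]⟩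
    rw [← L.basis.span_eq, Submodule.span_le]
    rintro _ ⟨i, rfl⟩
    fin_cases i
    · simpa using hin _ (hle _ L.ω₁_mem_lattice)
    · simpa using hin _ (hle _ L.ω₂_mem_lattice)
  refine ⟨⟨b 0, b 1, hind⟩, fun x => ?_⟩
  show x ∈ Submodule.span ℤ {(b 0 : ℂ), (b 1 : ℂ)} ↔ x ∈ M
  rw [hspan]
  rfl

variable {W : WeierstrassCurve ℂ} [W.IsElliptic]

/-- `LK` is the lattice of the finite subgroup `K`. -/
def IsSubLattice (h : IsLatticeOf L W) (K : AddSubgroup W.toAffine.Point) (LK : PeriodPair) :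
    Prop :=
  ∀ z, z ∈ LK.lattice ↔ latHom h z ∈ K

theorem card_smul_eq_zero {G : Type*} [AddGroup G] (K : AddSubgroup G) [Finite K] {P : G}
    (hP : P ∈ K) : Nat.card K • P = 0 :=
  congrArg Subtype.val (card_nsmul_eq_zero' (G := K) (x := ⟨P, hP⟩))

theorem exists_isSubLattice (h : IsLatticeOf L W) (K : AddSubgroup W.toAffine.Point) [Finite K] :
    ∃ LK, IsSubLattice h K LK := by
  obtain ⟨P, hP⟩ := exists_periodPair_eq L (K.comap (latHom h)) (n := Nat.card K)
    Nat.card_pos.ne' (fun x hx => by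
      simp [AddSubgroup.mem_comap, latPoint_of_mem h hx, zero_mem])
    (fun x hx => by
      rw [← nsmul_eq_mul, ← latHom_eq_zero_iff h, map_nsmul]
      exact card_smul_eq_zero K hx)
  exact ⟨P, fun z => by rw [hP]; rfl⟩

/-- A chosen preimage of a torsion point. -/
theorem exists_latHom_eq_of_mem (h : IsLatticeOf L W) (K : AddSubgroup W.toAffine.Point) [Finite K]
    {P : W.toAffine.Point} (hP : P ∈ K) : ∃ z, latHom h z = P :=
  exists_latHom_eq h Nat.card_pos.ne' (card_smul_eq_zero K hP)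

theorem sumInvPow_of_mem (L : PeriodPair) {c : ℂ} (hc : c ∈ L.lattice) (r : ℕ) :
    L.sumInvPow c r = L.G r := by
  rw [PeriodPair.sumInvPow, PeriodPair.G, ← (Equiv.addRight (⟨c, hc⟩ : L.lattice)).tsum_eq]
  simp

theorem deriv_sumInvPow (L : PeriodPair) {c : ℂ} (hc : c ∉ L.lattice) :
    6 * L.sumInvPow c 4 = 6 * ℘[L] c ^ 2 - L.g₂ / 2 ∧
    120 * L.sumInvPow c 6 = 120 * ℘[L] c ^ 3 - 18 * L.g₂ * ℘[L] c - 12 * L.g₃ := by
  have h1 : deriv ℘'[L] =ᶠ[𝓝 c] fun z => 6 * ℘[L] z ^ 2 - L.g₂ / 2 := by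
    filter_upwards [mem_nhds_compl L hc] with z hz using deriv_derivWeierstrassP L hz
  have hd2 : ∀ z, z ∉ L.lattice → HasDerivAt (fun z => 6 * ℘[L] z ^ 2 - L.g₂ / 2)
      (12 * ℘[L] z * ℘'[L] z) z := fun z hz => by
    refine ((((hasDerivAt_weierstrassP L hz).fun_pow 2).const_mul 6).sub_const _).congr_deriv ?_
    simp; ring
  have h2 : deriv (deriv ℘'[L]) =ᶠ[𝓝 c] fun z => 12 * ℘[L] z * ℘'[L] z :=
    h1.deriv.trans (by filter_upwards [mem_nhds_compl L hc] with z hz using (hd2 z hz).deriv)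
  have h3 : deriv (deriv (deriv ℘'[L])) c
      = 12 * ℘'[L] c * ℘'[L] c + 12 * ℘[L] c * (6 * ℘[L] c ^ 2 - L.g₂ / 2) := by
    rw [h2.deriv_eq]
    exact (((hasDerivAt_weierstrassP L hc).const_mul 12).mul
      (hasDerivAt_derivWeierstrassP L hc)).deriv
  have e4 := L.iteratedDeriv_derivWeierstrassPExcept_self c (n := 1)
  have e6 := L.iteratedDeriv_derivWeierstrassPExcept_self c (n := 3)
  rw [L.derivWeierstrassPExcept_of_notMem c hc] at e4 e6
  simp only [iteratedDeriv_one, iteratedDeriv_succ, iteratedDeriv_zero,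
    Nat.reduceAdd] at e4 e6
  rw [deriv_derivWeierstrassP L hc] at e4
  rw [h3] at e6
  norm_num [Nat.factorial] at e4 e6
  refine ⟨e4.symm, ?_⟩
  rw [← e6]
  linear_combination 12 * L.derivWeierstrassP_sq c hc

variable {LK : PeriodPair}

/-- `G_k` of the sublattice as a sum over the subgroup. -/
theorem G_isSubLattice (h : IsLatticeOf L W) {K : AddSubgroup W.toAffine.Point} [Fintype K]
    (hK : IsSubLattice h K LK) (s : K → ℂ) (hs : ∀ P : K, latHom h (s P) = P)
    {k : ℕ} (hk : 2 < k) : LK.G k = ∑ P : K, L.sumInvPow (s P) k := by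
  have hmem : ∀ (P : K) (l : L.lattice), (l : ℂ) - s P ∈ LK.lattice := fun P l => by
    rw [hK, map_sub, hs, (latHom_eq_zero_iff h).mpr l.2, zero_sub]
    exact neg_mem P.2
  let f : K × L.lattice → LK.lattice := fun x => ⟨(x.2 : ℂ) - s x.1, hmem x.1 x.2⟩
  have hf : Function.Bijective f := by
    constructor
    · rintro ⟨P, l⟩ ⟨Q, m⟩ he
      have he' : (l : ℂ) - s P = m - s Q := congrArg Subtype.val he
      have h0 := congrArg (latHom h) he'
      rw [map_sub, map_sub, hs, hs, (latHom_eq_zero_iff h).mpr l.2,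
        (latHom_eq_zero_iff h).mpr m.2, zero_sub, zero_sub, neg_inj] at h0
      obtain rfl : P = Q := Subtype.ext h0
      exact Prod.ext rfl (Subtype.ext (sub_left_inj.mp he'))
    · rintro ⟨z, hz⟩
      let P : K := ⟨-latHom h z, neg_mem ((hK z).mp hz)⟩
      have hl : z + s P ∈ L.lattice := by
        rw [← latHom_eq_zero_iff h, map_add, hs]; simp [P]
      exact ⟨⟨P, ⟨_, hl⟩⟩, Subtype.ext (by simp [f])⟩
  have hsum : Summable (fun x : K × L.lattice => (((x.2 : ℂ) - s x.1) ^ k)⁻¹) := by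
    have h0 := (LK.hasSum_sumInvPow 0 hk).summable
    simp only [sub_zero] at h0
    exact ((Equiv.ofBijective f hf).summable_iff).mpr h0
  rw [PeriodPair.G, ← (Equiv.ofBijective f hf).tsum_eq]
  show ∑' x : K × L.lattice, (((x.2 : ℂ) - s x.1) ^ k)⁻¹ = _
  rw [hsum.tsum_prod, tsum_fintype]
  rfl

theorem subG_eq (h : IsLatticeOf L W) {K : AddSubgroup W.toAffine.Point} [Finite K]
    (hK : IsSubLattice h K LK) : LK.g₂ = subG2 W K ∧ LK.g₃ = subG3 W K := by
  classical
  haveI : Fintype K := Fintype.ofFinite K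
  choose s hs using fun P : K => exists_latHom_eq_of_mem h K P.2
  have key : ∀ P : K,
      60 * L.sumInvPow (s P) 4 = (if P = 0 then L.g₂ else 0) + termG2 W P.1 ∧
      140 * L.sumInvPow (s P) 6 = (if P = 0 then L.g₃ else 0) + termG3 W P.1 := by
    intro P
    by_cases hP : P = 0
    · subst hP
      have hmem : s 0 ∈ L.lattice := by rw [← latHom_eq_zero_iff h, hs]; rfl
      simp [sumInvPow_of_mem L hmem, PeriodPair.g₂, PeriodPair.g₃, ← Affine.Point.zero_def,
        termG2, termG3]
    · have hnot : s P ∉ L.lattice := by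
        rw [← latHom_eq_zero_iff h, hs]
        exact fun h0 => hP (Subtype.ext h0)
      have hPe : P.1 = .some _ _ (nonsingular_lat h hnot) := by
        rw [← latPoint_of_notMem h hnot, ← latHom_apply h, hs]
      obtain ⟨e4, e6⟩ := deriv_sumInvPow L hnot
      rw [h.1] at e4 e6
      rw [h.2] at e6
      simp only [if_neg hP, zero_add, hPe, termG2, termG3, latX, sub_add_cancel]
      exact ⟨by linear_combination 10 * e4, by linear_combination (7 / 6 : ℂ) * e6⟩
  have hfin : ∀ f : W.toAffine.Point → ℂ,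
      ∑ᶠ P ∈ (K : Set W.toAffine.Point), f P = ∑ P : K, f P.1 := fun f => by
    rw [← finsum_set_coe_eq_finsum_mem, ← finsum_eq_sum_of_fintype]
    rfl
  constructor
  · rw [PeriodPair.g₂, G_isSubLattice h hK s hs (by norm_num), Finset.mul_sum,
      Finset.sum_congr rfl (fun P _ => (key P).1), Finset.sum_add_distrib,
      Finset.sum_ite_eq' Finset.univ (0 : K) (fun _ => L.g₂), if_pos (Finset.mem_univ _),
      subG2, hfin, h.1]
  · rw [PeriodPair.g₃, G_isSubLattice h hK s hs (by norm_num), Finset.mul_sum,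
      Finset.sum_congr rfl (fun P _ => (key P).2), Finset.sum_add_distrib,
      Finset.sum_ite_eq' Finset.univ (0 : K) (fun _ => L.g₃), if_pos (Finset.mem_univ _),
      subG3, hfin, h.2]

/-- `subJ W K` is the `j`-invariant of the lattice of `K`. -/
theorem latJ_isSubLattice (h : IsLatticeOf L W) {K : AddSubgroup W.toAffine.Point} [Finite K]
    (hK : IsSubLattice h K LK) : latJ LK = subJ W K := by
  rw [latJ, subJ, (subG_eq h hK).1, (subG_eq h hK).2]

end FLTA.Mazur.Lattice
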