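import Fermat.Agent.Mazur.Cusps
import Fermat.Prelude.Def_AlgebraicCurve_Correspondence

/-!
# Transport of the minus condition along an isogeny of degree prime to `N`, and sums over fibres
-/

set_option autoImplicit false

noncomputable section

open AlgebraicCurve ModularCurve Polynomial

namespace FLTA.Mazur

/-! ### Transport in a valued field -/

/-- If `(a', b')` is minus and `a, a'`, resp. `b, b'`, are related by `Φ_r`, `r ≠ N`, then `(a, b)`
is minus. -/
theorem minus_transport {L : Type*} [Field L] {Γ₀ : Type*} [LinearOrderedCommGroupWithZero Γ₀]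
    (v : Valuation L Γ₀) {N : ℕ} [NeZero N] (hN : N.Prime) {r : ℕ} [NeZero r] (hr : r.Prime)
    (hrN : r ≠ N) {a b a' b' : L} (h1 : (modPolyAt r hr a).IsRoot a')
    (h2 : (modPolyAt r hr b).IsRoot b') (h3 : (modPolyAt N hN a).IsRoot b) (ha' : 1 < v a')
    (hm : v b' ^ N = v a') : 1 < v a ∧ v b ^ N = v a := by
  have hx : 1 < v a := by
    by_contra hc
    exact absurd ha' (not_lt.mpr (val_le_one_of_root r hr v (not_lt.mp hc) h1))
  have hb' : 1 < v b' := by
    by_contra hc
    exact absurd ha' (not_lt.mpr (hm ▸ pow_le_one₀ zero_le (not_lt.mp hc)))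
  have hy : 1 < v b := by
    by_contra hc
    exact absurd hb' (not_lt.mpr (val_le_one_of_root r hr v (not_lt.mp hc) h2))
  refine ⟨hx, (val_root_modPolyAt N hN v hx h3).resolve_left fun hplus => ?_⟩
  set x := v a
  have hinj : ∀ {m n : ℕ}, x ^ m = x ^ n → m = n := fun h => (pow_right_strictMono₀ hx).injective h
  have hr2 := hr.two_le
  have hN2 := hN.two_le
  rcases val_root_modPolyAt r hr v hx h1 with hA | hA <;>
    rcases val_root_modPolyAt r hr v hy h2 with hB | hB
  · rw [hA, hB, hplus, ← pow_mul, ← pow_mul] at hm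
    nlinarith [hinj hm, Nat.mul_le_mul_right r (Nat.mul_le_mul hN2 hN2)]
  · have h : x ^ (N * N) = x ^ (r * r) := by
      calc x ^ (N * N) = (v b' ^ r) ^ N := by rw [hB, hplus, ← pow_mul]
        _ = (v b' ^ N) ^ r := by rw [← pow_mul, ← pow_mul, mul_comm]
        _ = x ^ (r * r) := by rw [hm, hA, ← pow_mul]
    exact hrN (Nat.mul_self_inj.mp (hinj h)).symm
  · rw [hB, hplus, ← pow_mul, ← pow_mul] at hm
    have h : x ^ (N * (r * N) * r) = x ^ 1 := by rw [pow_one, pow_mul, hm, hA]
    nlinarith [hinj h, Nat.mul_le_mul (Nat.mul_le_mul hN2 hN2) (Nat.mul_le_mul hr2 hr2)]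
  · have h : x ^ (N * N) = x ^ 1 := by
      calc x ^ (N * N) = (v b' ^ r) ^ N := by rw [hB, hplus, ← pow_mul]
        _ = (v b' ^ N) ^ r := by rw [← pow_mul, ← pow_mul, mul_comm]
        _ = x ^ 1 := by rw [hm, hA, pow_one]
    nlinarith [hinj h]

/-! ### Places -/

section Places

variable {K F : Type*} [Field K] [Field F] [Algebra K F] (v : Place K F)

theorem one_lt_adicValuation_iff {f : F} : 1 < v.adicValuation f ↔ v.ord f < 0 := by
  rcases eq_or_ne f 0 with rfl | hf
  · simp
  rw [v.adicValuation_eq_exp_neg_ord hf, ← WithZero.exp_zero, WithZero.exp_lt_exp]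
  omega

theorem adicValuation_lt_one_iff {f : F} :
    v.adicValuation f < 1 ↔ f = 0 ∨ 0 < v.ord f := by
  rcases eq_or_ne f 0 with rfl | hf
  · simp
  rw [v.adicValuation_eq_exp_neg_ord hf, ← WithZero.exp_zero, WithZero.exp_lt_exp]
  simp [hf]

theorem adicValuation_pow_eq_iff {f g : F} (hf : f ≠ 0) (hg : g ≠ 0) (n : ℕ) :
    v.adicValuation f ^ n = v.adicValuation g ↔ (n : ℤ) * v.ord f = v.ord g := by
  rw [← map_pow, v.adicValuation_eq_exp_neg_ord (pow_ne_zero n hf),
    v.adicValuation_eq_exp_neg_ord hg, WithZero.exp_inj, FLTA.Curves.ord_pow, neg_inj]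

end Places

section Along

variable {K F F' : Type*} [Field K] [Field F] [Field F'] [Algebra K F] [Algebra K F']
  (φ : F →ₐ[K] F') (hφ : φ.toRingHom.IsIntegral)

include hφ in
theorem ramificationIndexAlong_pos (w : Place K F') : 0 < w.ramificationIndexAlong φ := by
  letI := algebraAlong φ
  haveI := isScalarTower_along φ
  haveI := isIntegral_along φ hφ
  exact w.ramificationIndex_pos (F := F)

theorem exists_mem_support_of_pushforwardAlong {D : Divisor K F'} {v : Place K F}
    (h : v ∈ (Divisor.pushforwardAlong φ hφ D).support) :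
    ∃ w ∈ D.support, w.restrictAlong φ hφ = v := by
  classical
  rw [← D.sum_single, map_finsuppSum] at h
  obtain ⟨w, hw, hv⟩ := Finset.mem_biUnion.mp (Finsupp.support_sum h)
  rw [Divisor.pushforwardAlong_single] at hv
  exact ⟨w, hw, (Finset.mem_singleton.mp (Finsupp.support_single_subset hv)).symm⟩

theorem restrictAlong_mem_support [HasPrincipalDivisors K F'] {D : Divisor K F}
    {w : Place K F'} (h : w ∈ (Divisor.pullbackAlong φ hφ D).support) :
    w.restrictAlong φ hφ ∈ D.support := by
  rw [Finsupp.mem_support_iff, Divisor.pullbackAlong_apply] at h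
  exact Finsupp.mem_support_iff.mpr (right_ne_zero_of_mul h)

end Along

/-! ### Fibres of `mapDomain` -/

/-- A sum over a fibre is at least the sum over any part of it outside of which the terms are
nonnegative. -/
theorem sum_le_mapDomain_apply {α β : Type*} [DecidableEq α] (r : α → β) (D : α →₀ ℤ) (Q : β)
    (s : Finset α) (hs : ∀ P ∈ s, r P = Q) (hnn : ∀ P, r P = Q → P ∉ s → 0 ≤ D P) :
    ∑ P ∈ s, D P ≤ Finsupp.mapDomain r D Q := by
  classical
  have hQ : Finsupp.mapDomain r D Q = ∑ P ∈ (s ∪ D.support).filter (fun P => r P = Q), D P := by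
    rw [Finsupp.mapDomain, Finsupp.sum_apply, Finsupp.sum, Finset.sum_filter]
    simp only [Finsupp.single_apply]
    refine Finset.sum_subset Finset.subset_union_right fun P _ hP => ?_
    simp [Finsupp.notMem_support_iff.mp hP]
  rw [hQ]
  refine Finset.sum_le_sum_of_subset_of_nonneg (fun P hP => ?_) fun P hP hPs => ?_
  · exact Finset.mem_filter.mpr ⟨Finset.mem_union_left _ hP, hs P hP⟩
  · exact hnn P (Finset.mem_filter.mp hP).2 hPs

theorem mapDomain_eq_single {α β : Type*} (r : α → β) (D : α →₀ ℤ) {Q : β}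
    (h : ∀ P ∈ D.support, r P = Q) :
    Finsupp.mapDomain r D = Finsupp.single Q (D.sum fun _ n => n) := by
  rw [Finsupp.mapDomain, Finsupp.sum, Finsupp.sum, Finsupp.single_finsetSum]
  exact Finset.sum_congr rfl fun P hP => by rw [h P hP]

end FLTA.Mazur

end
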