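import Fermat.Agent.Mazur.MinusAux
import Fermat.Agent.Galois.Places
import Fermat.Agent.Mazur.Defs
import Fermat.Prelude.Def_ModularCurve_ReductionModL
import Fermat.Prelude.Def_FLTPrelim_Ramification

/-!
# Minus and plus places

At a valuation ring `A` of `ℚ̄`, a place of `X₀(N)` is minus if it is the cusp `0` or a point
`(a, b)` with `1 < |a|` and `|b| ^ N = |a|`, plus if it is the cusp `∞` or `|b| = |a| ^ N`.
Both sets are stable under the correspondences `T_r`, `r ≠ N`, and reduce to a single cusp.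
-/

set_option autoImplicit false

noncomputable section

open AlgebraicCurve ModularCurve Polynomial

namespace FLTA.Mazur

local notation "Qb" => AlgebraicClosure ℚ

set_option synthInstance.maxHeartbeats 400000
set_option maxHeartbeats 1000000

variable (N : ℕ) [NeZero N] (A : ValuationSubring (AlgebraicClosure ℚ))

local notation "FB" => modularFunctionFieldBar N
local notation "k" => IsLocalRing.ResidueField A
local notation "Fk" => modularFunctionFieldFullC (IsLocalRing.ResidueField A) N

/-- The cusp `0`, or a point `(a, b)` with `1 < |a|`, `|b| ^ N = |a|`. -/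
def IsMinus (v : Place Qb FB) : Prop :=
  v = cuspZero N FB ∨ ∃ a b : Qb, IsPoint N v a b ∧ 1 < A.valuation a ∧
    A.valuation b ^ N = A.valuation a

/-- The cusp `∞`, or a point `(a, b)` with `1 < |a|`, `|b| = |a| ^ N`. -/
def IsPlus (v : Place Qb FB) : Prop :=
  v = cuspInf N FB ∨ ∃ a b : Qb, IsPoint N v a b ∧ 1 < A.valuation a ∧
    A.valuation b = A.valuation a ^ N

/-- Classes of divisors of degree zero supported on places satisfying `P`. -/
def supportedClasses (P : Place Qb FB → Prop) : AddSubgroup (JZero N) where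
  carrier := {x | ∃ D : Divisor.degZero (K := Qb) (F := FB),
    (∀ v ∈ (D : Divisor Qb FB).support, P v) ∧ Pic0.mk D = x}
  zero_mem' := ⟨0, by simp, Pic0.mk_zero⟩
  add_mem' := by
    classical
    rintro x y ⟨D, hD, rfl⟩ ⟨E, hE, rfl⟩
    refine ⟨D + E, fun v hv => ?_, Pic0.mk_add D E⟩
    rcases Finset.mem_union.mp (Finsupp.support_add hv) with h | h
    exacts [hD v h, hE v h]
  neg_mem' := by
    rintro x ⟨D, hD, rfl⟩
    refine ⟨-D, fun v hv => hD v (by simpa using hv), ?_⟩
    exact map_neg (QuotientAddGroup.mk' _) D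

/-- Classes supported on minus places. -/
def minusClasses : AddSubgroup (JZero N) := supportedClasses N (IsMinus N A)

/-- Classes supported on plus places. -/
def plusClasses : AddSubgroup (JZero N) := supportedClasses N (IsPlus N A)

/-! ### Reduction -/

section Reduction

variable {N A}

/-- The divisor identity defining a reduction of places, for named elements. -/
theorem mapDomain_eq_ord
    {r : Place Qb FB → Place k (modularFunctionFieldFullC k N)}
    (hr : IsPlaceReductionModL A N r) (y : LaurentSeries A) {f : FB}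
    (hf : coeffMap A.subtype y = (f : LaurentSeries Qb)) {g : modularFunctionFieldFullC k N}
    (hg : coeffMap (IsLocalRing.residue A) y = (g : LaurentSeries k)) (hg0 : g ≠ 0)
    {D : Divisor Qb FB} (hD : ∀ P, D P = P.ord f) (Q : Place k (modularFunctionFieldFullC k N)) :
    Finsupp.mapDomain r D Q = Q.ord g := by
  have hy : coeffMap A.subtype y ∈ FB := hf ▸ f.2
  have hyk : coeffMap (IsLocalRing.residue A) y ∈ modularFunctionFieldFullC k N := hg ▸ g.2
  have hne : coeffMap (IsLocalRing.residue A) y ≠ 0 := by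
    rw [hg]; simpa using hg0
  have hD' : ∀ P, D P = P.ord (⟨_, hy⟩ : FB) := fun P => by
    rw [hD P]; exact congrArg _ (Subtype.ext hf.symm)
  rw [hr.2 y hy hyk hne D hD' Q]
  exact congrArg _ (Subtype.ext hg)

theorem hasPrincipalDivisors_bar : HasPrincipalDivisors Qb FB :=
  FLTA.Curves.hasPrincipalDivisors_of_isSepFunctionField _ _

theorem natCast_ne_zero_qbar : (N : Qb) ≠ 0 := Nat.cast_ne_zero.mpr (NeZero.ne N)

variable {r : Place Qb (modularFunctionFieldBar N) →
  Place (IsLocalRing.ResidueField A)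
    (modularFunctionFieldFullC (IsLocalRing.ResidueField A) N)}
variable (hr : IsPlaceReductionModL A N r) (hN : N.Prime) (hk : (N : IsLocalRing.ResidueField A) ≠ 0)

include hr hN hk

theorem placeReduction_cusps :
    r (cuspZero N FB) = cuspZero N (modularFunctionFieldFullC k N) ∧
      r (cuspInf N FB) = cuspInf N (modularFunctionFieldFullC k N) := by
  classical
  haveI := FLTA.Galois.isAlgClosed_residueField A
  haveI := hasPrincipalDivisors_bar (N := N)
  have hQ := natCast_ne_zero_qbar (N := N)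
  have hj0 : jEl N FB ≠ 0 := fun h => jEl_ne_algebraMap N FB 0 (by rw [h, map_zero])
  have hg0 : jEl N Fk ≠ 0 := fun h => jEl_ne_algebraMap N Fk 0 (by rw [h, map_zero])
  obtain ⟨D, hD, -⟩ := HasPrincipalDivisors.exists_divisor (K := Qb) (jEl N FB) hj0
  have hkey : ∀ Q, Finsupp.mapDomain r D Q = Q.ord (jEl N Fk) :=
    mapDomain_eq_ord hr (jqModC A) (coeffMap_jqModC A.subtype)
      (coeffMap_jqModC (IsLocalRing.residue A)) hg0 hD
  have hnn : ∀ P, P ≠ cuspZero N FB → P ≠ cuspInf N FB → 0 ≤ D P := fun P h0 h1 => by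
    rw [hD]
    by_contra h
    rcases eq_cusp_of_ord_jEl_neg N FB hN hQ P (not_le.mp h) with h' | h'
    exacts [h1 h', h0 h']
  have hne := cuspInf_ne_cuspZero N FB hN hQ
  have hN2 := hN.two_le
  have h0 : r (cuspZero N FB) = cuspZero N Fk := by
    by_contra hc
    have hle := sum_le_mapDomain_apply r D (cuspZero N Fk)
      (({cuspInf N FB} : Finset _).filter fun P => r P = cuspZero N Fk)
      (fun P hP => (Finset.mem_filter.mp hP).2) (fun P hP hnot => by
        refine hnn P (fun h => hc (h ▸ hP)) fun h => hnot ?_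
        simp [h, h ▸ hP])
    rw [hkey, ord_cuspZero_jEl N Fk hN hk, Finset.filter_singleton] at hle
    split_ifs at hle
    · rw [Finset.sum_singleton, hD, ord_cuspInf_jEl] at hle; omega
    · rw [Finset.sum_empty] at hle; omega
  refine ⟨h0, ?_⟩
  by_contra hc
  have hle := sum_le_mapDomain_apply r D (cuspInf N Fk) ∅ (by simp) (fun P hP _ => by
    refine hnn P (fun h => ?_) fun h => hc (h ▸ hP)
    rw [h, h0] at hP
    exact cuspInf_ne_cuspZero N Fk hN hk hP.symm)
  rw [hkey, ord_cuspInf_jEl, Finset.sum_empty] at hle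
  omega

/-- Zeros of `j` do not reduce to cusps. -/
theorem placeReduction_ne_cusp {P : Place Qb FB} (hP : 0 < P.ord (jEl N FB)) :
    r P ≠ cuspZero N (modularFunctionFieldFullC k N) ∧
      r P ≠ cuspInf N (modularFunctionFieldFullC k N) := by
  classical
  haveI := FLTA.Galois.isAlgClosed_residueField A
  haveI := hasPrincipalDivisors_bar (N := N)
  have hQ := natCast_ne_zero_qbar (N := N)
  obtain ⟨h0, hi⟩ := placeReduction_cusps hr hN hk
  have hj0 : jEl N FB ≠ 0 := fun h => jEl_ne_algebraMap N FB 0 (by rw [h, map_zero])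
  have hg0 : jEl N Fk ≠ 0 := fun h => jEl_ne_algebraMap N Fk 0 (by rw [h, map_zero])
  obtain ⟨D, hD, -⟩ := HasPrincipalDivisors.exists_divisor (K := Qb) (jEl N FB) hj0
  have hkey : ∀ Q, Finsupp.mapDomain r D Q = Q.ord (jEl N Fk) :=
    mapDomain_eq_ord hr (jqModC A) (coeffMap_jqModC A.subtype)
      (coeffMap_jqModC (IsLocalRing.residue A)) hg0 hD
  have main : ∀ (C : Place Qb FB) (Q : Place k Fk), C.ord (jEl N FB) = Q.ord (jEl N Fk) →
      C.ord (jEl N FB) < 0 → r C = Q →
      (∀ P', P'.ord (jEl N FB) < 0 → r P' = Q → P' = C) → r P ≠ Q := by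
    intro C Q hCQ hC hrC huniq hPQ
    have hPC : P ≠ C := by rintro rfl; omega
    have hle := sum_le_mapDomain_apply r D Q {C, P} (by simp [hrC, hPQ]) (fun P' hP' hnot => by
      rw [hD]
      by_contra h
      exact hnot (by simp [huniq P' (not_le.mp h) hP']))
    rw [hkey, Finset.sum_pair hPC.symm, hD, hD, hCQ] at hle
    omega
  refine ⟨main _ _ ?_ ?_ h0 ?_, main _ _ ?_ ?_ hi ?_⟩
  · rw [ord_cuspZero_jEl N FB hN hQ, ord_cuspZero_jEl N Fk hN hk]
  · rw [ord_cuspZero_jEl N FB hN hQ]; have := hN.pos; omega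
  · intro P' hP' hr'
    rcases eq_cusp_of_ord_jEl_neg N FB hN hQ P' hP' with rfl | h
    · exact absurd (hi ▸ hr') (cuspInf_ne_cuspZero N Fk hN hk)
    · exact h
  · rw [ord_cuspInf_jEl, ord_cuspInf_jEl]
  · rw [ord_cuspInf_jEl]; omega
  · intro P' hP' hr'
    rcases eq_cusp_of_ord_jEl_neg N FB hN hQ P' hP' with h | rfl
    · exact h
    · exact absurd (h0 ▸ hr').symm (cuspInf_ne_cuspZero N Fk hN hk)

/-- A point with a non-integral first coordinate reduces to a cusp. -/
theorem placeReduction_isPoint_cusp {v : Place Qb FB} {a b : Qb} (hv : IsPoint N v a b)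
    (ha : 1 < A.valuation a) :
    r v = cuspZero N (modularFunctionFieldFullC k N) ∨
      r v = cuspInf N (modularFunctionFieldFullC k N) := by
  classical
  haveI := FLTA.Galois.isAlgClosed_residueField A
  haveI := hasPrincipalDivisors_bar (N := N)
  have hQ := natCast_ne_zero_qbar (N := N)
  obtain ⟨h0, hi⟩ := placeReduction_cusps hr hN hk
  have ha0 : a ≠ 0 := fun h => by simp [h] at ha
  have hinv : a⁻¹ ∈ A := (A.valuation_le_one_iff _).mp (by
    rw [map_inv₀]; exact inv_le_one_of_one_le₀ ha.le)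
  have hres : IsLocalRing.residue A ⟨a⁻¹, hinv⟩ = 0 := by
    rw [IsLocalRing.residue_eq_zero_iff, A.valuation_lt_one_iff]
    show A.valuation a⁻¹ < 1
    rw [map_inv₀]
    exact inv_lt_one_of_one_lt₀ ha
  have hne : jEl N FB - algebraMap Qb FB a ≠ 0 := sub_ne_zero.mpr (jEl_ne_algebraMap N FB a)
  obtain ⟨D, hD, -⟩ := HasPrincipalDivisors.exists_divisor (K := Qb) _ hne
  have hD' : ∀ P, D P = P.ord (1 - algebraMap Qb FB a⁻¹ * jEl N FB) := fun P => by
    have hc : algebraMap Qb FB (-a⁻¹) ≠ 0 := by simpa using ha0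
    have : 1 - algebraMap Qb FB a⁻¹ * jEl N FB =
        algebraMap Qb FB (-a⁻¹) * (jEl N FB - algebraMap Qb FB a) := by
      rw [mul_sub, ← map_mul, neg_mul, inv_mul_cancel₀ ha0, map_neg, map_neg, map_one]
      ring
    rw [this, P.ord_mul hc hne, FLTA.Curves.ord_algebraMap, zero_add, hD]
  have hkey := mapDomain_eq_ord hr
    (1 - HahnSeries.single 0 (⟨a⁻¹, hinv⟩ : A) * jqModC A) (g := 1)
    (f := 1 - algebraMap Qb FB a⁻¹ * jEl N FB) (by
      rw [map_sub, map_mul, map_one, coeffMap_single, coeffMap_jqModC]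
      push_cast
      rw [← map_inv₀, algebraMap_laurentSeries_eq_single]
      rfl) (by
      rw [map_sub, map_mul, map_one, coeffMap_single, hres, map_zero, zero_mul, sub_zero]
      rfl) one_ne_zero hD'
  by_contra hcon
  push Not at hcon
  have hle := sum_le_mapDomain_apply r D (r v) {v} (by simp) (fun P hP hnot => by
    rw [hD]
    by_contra h
    have hj : P.ord (jEl N FB) < 0 := by
      by_contra hge
      push Not at hge
      rcases eq_or_ne a 0 with rfl | ha'
      · exact ha0 rfl
      · have h1 := FLTA.Curves.min_ord_le_ord_add P (f := jEl N FB) (g := -algebraMap Qb FB a)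
          (by rw [← sub_eq_add_neg]; exact hne)
        rw [← sub_eq_add_neg, FLTA.Curves.ord_neg, FLTA.Curves.ord_algebraMap] at h1
        omega
    rcases eq_cusp_of_ord_jEl_neg N FB hN hQ P hj with rfl | rfl
    · exact hcon.2 (hP.symm.trans hi)
    · exact hcon.1 (hP.symm.trans h0))
  rw [hkey, Finset.sum_singleton, hD, Place.ord_one] at hle
  have := hv.fst
  omega

/-- The test function `j_N / j ^ N` separates plus and minus points modulo the valuation. -/
theorem placeReduction_ne_of_ratio {v : Place Qb FB} {a b : Qb} (hv : IsPoint N v a b)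
    (ha : 1 < A.valuation a) (ht : b * (a ^ N)⁻¹ ∈ A) :
    (IsLocalRing.residue A ⟨_, ht⟩ = 0 → r v ≠ cuspInf N (modularFunctionFieldFullC k N)) ∧
      (IsLocalRing.residue A ⟨_, ht⟩ ≠ 0 → r v ≠ cuspZero N (modularFunctionFieldFullC k N)) := by
  classical
  haveI := FLTA.Galois.isAlgClosed_residueField A
  haveI := hasPrincipalDivisors_bar (N := N)
  have hQ := natCast_ne_zero_qbar (N := N)
  have ha0 : a ≠ 0 := fun h => by simp [h] at ha
  have hN2 := hN.two_le
  set t : A := ⟨_, ht⟩ with htdef
  set w : FB := jNEl N FB * (jEl N FB ^ N)⁻¹ with hw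
  set wk : Fk := jNEl N Fk * (jEl N Fk ^ N)⁻¹ with hwk
  have hj : jEl N FB ≠ 0 := fun h => jEl_ne_algebraMap N FB 0 (by rw [h, map_zero])
  have hjN : jNEl N FB ≠ 0 := fun h => jNEl_ne_algebraMap N FB 0 (by rw [h, map_zero])
  have hjk : jEl N Fk ≠ 0 := fun h => jEl_ne_algebraMap N Fk 0 (by rw [h, map_zero])
  have hjNk : jNEl N Fk ≠ 0 := fun h => jNEl_ne_algebraMap N Fk 0 (by rw [h, map_zero])
  have hwk0 : wk ≠ 0 := mul_ne_zero hjNk (inv_ne_zero (pow_ne_zero _ hjk))
  have hordw : ∀ P : Place Qb FB, P.ord w = P.ord (jNEl N FB) - N * P.ord (jEl N FB) :=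
    fun P => by
    rw [hw, P.ord_mul hjN (inv_ne_zero (pow_ne_zero _ hj)), P.ord_inv, FLTA.Curves.ord_pow]
    ring
  have hordwk : ∀ P : Place k Fk, P.ord wk = P.ord (jNEl N Fk) - N * P.ord (jEl N Fk) :=
    fun P => by
    rw [hwk, P.ord_mul hjNk (inv_ne_zero (pow_ne_zero _ hjk)), P.ord_inv, FLTA.Curves.ord_pow]
    ring
  have hk0 : (cuspZero N Fk).ord wk = (N : ℤ) * N - 1 := by
    rw [hordwk, ord_cuspZero_jNEl N Fk hN hk, ord_cuspZero_jEl N Fk hN hk]; ring
  have hki : (cuspInf N Fk).ord wk = 0 := by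
    rw [hordwk, ord_cuspInf_jNEl, ord_cuspInf_jEl]; ring
  have hNN : (4 : ℤ) ≤ (N : ℤ) * N := by exact_mod_cast Nat.mul_le_mul hN2 hN2
  -- the integral series
  have hu : IsUnit (jqModC A) := by
    refine IsUnit.mul (IsUnit.of_mul_eq_one (HahnSeries.single (1 : ℤ) (1 : A)) (by simp)) ?_
    refine IsUnit.map _ (PowerSeries.isUnit_iff_constantCoeff.mpr ?_)
    rw [← PowerSeries.coeff_zero_eq_constantCoeff_apply, PowerSeries.coeff_map,
      PowerSeries.coeff_zero_eq_constantCoeff_apply, constantCoeff_jNum, map_one]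
    exact isUnit_one
  obtain ⟨u, hu⟩ := hu
  set y : LaurentSeries A :=
    jqNModC A N * ((u⁻¹ : (LaurentSeries A)ˣ) : LaurentSeries A) ^ N - HahnSeries.single 0 t with hy
  have hmap : ∀ {S : Type} [Field S] (φ : A →+* S), coeffMap φ y =
      jqNModC S N * ((jqModC S) ^ N)⁻¹ - HahnSeries.single 0 (φ t) := fun {S} _ φ => by
    have h1 : coeffMap φ ((u⁻¹ : (LaurentSeries A)ˣ) : LaurentSeries A) = (jqModC S)⁻¹ := by
      apply eq_inv_of_mul_eq_one_left
      rw [← coeffMap_jqModC φ, ← map_mul, ← hu, Units.inv_mul, map_one]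
    rw [hy, map_sub, map_mul, map_pow, coeffMap_jqNModC, coeffMap_single, h1, inv_pow]
  have hf : coeffMap A.subtype y = ((w - algebraMap Qb FB (t : Qb) : FB) : LaurentSeries Qb) := by
    rw [hmap, hw]
    push_cast
    rw [algebraMap_laurentSeries_eq_single]
    rfl
  have hg : coeffMap (IsLocalRing.residue A) y =
      ((wk - algebraMap k Fk (IsLocalRing.residue A t) : Fk) : LaurentSeries k) := by
    rw [hmap, hwk]
    push_cast
    rw [algebraMap_laurentSeries_eq_single]
    rfl
  have hg0 : wk - algebraMap k Fk (IsLocalRing.residue A t) ≠ 0 := fun h => by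
    rw [sub_eq_zero] at h
    rw [h, FLTA.Curves.ord_algebraMap] at hk0
    omega
  -- the value of `w` at `v`
  have hvj : v.ord (jEl N FB) = 0 := by
    have h1 := FLTA.Curves.ord_add_eq_of_lt v (f := algebraMap Qb FB a)
      (g := jEl N FB - algebraMap Qb FB a) (by simpa using ha0)
      (sub_ne_zero.mpr (jEl_ne_algebraMap N FB a)) (by rw [FLTA.Curves.ord_algebraMap]; exact hv.fst)
    rwa [add_sub_cancel, FLTA.Curves.ord_algebraMap] at h1
  have hfv : v.adicValuation (w - algebraMap Qb FB (t : Qb)) < 1 := by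
    have hne : (X ^ N - C (a ^ N) : Qb[X]) ≠ 0 := X_pow_sub_C_ne_zero hN.pos _
    obtain ⟨h1, h2⟩ := ord_aeval_eq v hv.fst hne
    have hmult : 0 < (X ^ N - C (a ^ N) : Qb[X]).rootMultiplicity a :=
      (rootMultiplicity_pos hne).mpr (by simp)
    rw [map_sub, map_pow, aeval_X, aeval_C] at h1 h2
    have hd1 : v.adicValuation (jEl N FB ^ N - algebraMap Qb FB (a ^ N)) < 1 := by
      rw [adicValuation_lt_one_iff, h2]
      exact Or.inr (mul_pos (by exact_mod_cast hmult) hv.fst)
    have hd2 : v.adicValuation (jNEl N FB - algebraMap Qb FB b) < 1 :=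
      (adicValuation_lt_one_iff v).mpr (Or.inr hv.snd)
    have heq : w - algebraMap Qb FB (t : Qb) =
        ((jNEl N FB - algebraMap Qb FB b) -
          algebraMap Qb FB (t : Qb) * (jEl N FB ^ N - algebraMap Qb FB (a ^ N))) *
            (jEl N FB ^ N)⁻¹ := by
      have hb : algebraMap Qb FB b = algebraMap Qb FB (t : Qb) * algebraMap Qb FB (a ^ N) := by
        rw [← map_mul]
        congr 1
        show b = b * (a ^ N)⁻¹ * a ^ N
        field_simp
      rw [hw, hb]
      field_simp
      ring
    have hj1 : v.adicValuation (jEl N FB ^ N)⁻¹ = 1 := by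
      rw [map_inv₀, map_pow, v.adicValuation_eq_exp_neg_ord hj, hvj, neg_zero, WithZero.exp_zero,
        one_pow, inv_one]
    rw [heq, map_mul, hj1, mul_one]
    refine v.adicValuation.map_sub_lt hd2 ?_
    rw [map_mul]
    exact (mul_le_of_le_one_left' (v.adicValuation_algebraMap_le_one _)).trans_lt hd1
  have hf0 : w - algebraMap Qb FB (t : Qb) ≠ 0 := fun h => by
    have h1 := hmap (IsLocalRing.residue A)
    have h2 : coeffMap A.subtype y = 0 := by rw [hf, h]; rfl
    have h3 : y = 0 := FLTA.Curves.coeffMap_injective_of_injective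
      (f := A.subtype) Subtype.val_injective (by rw [h2, map_zero])
    refine hg0 (Subtype.ext ?_)
    rw [← hg, h3, map_zero]
    rfl
  obtain ⟨D, hD, -⟩ := HasPrincipalDivisors.exists_divisor (K := Qb) _ hf0
  have hkey := mapDomain_eq_ord hr y hf hg hg0 hD
  have hpos : 0 < D v := by
    rw [hD]
    exact ((adicValuation_lt_one_iff v).mp hfv).resolve_left hf0
  -- poles of `w - t` only come from zeros of `j`
  have hle : ∀ Q, (Q = cuspZero N Fk ∨ Q = cuspInf N Fk) → r v = Q → 0 < Q.ord
      (wk - algebraMap k Fk (IsLocalRing.residue A t)) := fun Q hQc hvQ => by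
    have h1 := sum_le_mapDomain_apply r D Q {v} (by simp [hvQ]) (fun P hP hnot => by
      rw [hD]
      by_contra hneg
      push Not at hneg
      have hw' : P.ord w < 0 := by
        by_contra hge
        push Not at hge
        rcases eq_or_ne (t : Qb) 0 with h0 | h0
        · rw [h0, map_zero, sub_zero] at hneg
          omega
        · have h2 := FLTA.Curves.min_ord_le_ord_add P (f := w)
            (g := -algebraMap Qb FB (t : Qb)) (by rw [← sub_eq_add_neg]; exact hf0)
          rw [← sub_eq_add_neg, FLTA.Curves.ord_neg, FLTA.Curves.ord_algebraMap] at h2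
          omega
      rw [hordw] at hw'
      rcases lt_or_ge 0 (P.ord (jEl N FB)) with hz | hz
      · obtain ⟨h3, h4⟩ := placeReduction_ne_cusp hr hN hk hz
        rcases hQc with rfl | rfl
        exacts [h3 hP, h4 hP]
      · have hjNneg : P.ord (jNEl N FB) < 0 := by nlinarith
        rcases eq_cusp_of_ord_jNEl_neg N FB hN hQ P hjNneg with rfl | rfl
        · rw [ord_cuspInf_jNEl, ord_cuspInf_jEl] at hw'; omega
        · rw [ord_cuspZero_jNEl N FB hN hQ, ord_cuspZero_jEl N FB hN hQ] at hw'; nlinarith)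
    rw [hkey, Finset.sum_singleton] at h1
    omega
  refine ⟨fun ht0 hvQ => ?_, fun ht0 hvQ => ?_⟩
  · have h1 := hle _ (Or.inr rfl) hvQ
    rw [ht0, map_zero, sub_zero, hki] at h1
    exact lt_irrefl _ h1
  · have h1 := hle _ (Or.inl rfl) hvQ
    have hc : -algebraMap k Fk (IsLocalRing.residue A t) ≠ 0 := by simpa using ht0
    rw [sub_eq_add_neg, add_comm, FLTA.Curves.ord_add_eq_of_lt _ hc hwk0
      (by rw [FLTA.Curves.ord_neg, FLTA.Curves.ord_algebraMap, hk0]; omega),
      FLTA.Curves.ord_neg, FLTA.Curves.ord_algebraMap] at h1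
    exact lt_irrefl _ h1

end Reduction

variable (hN : N.Prime) (hk : (N : IsLocalRing.ResidueField A) ≠ 0)

include hN hk in
theorem placeReduction_of_isMinus
    {r : Place Qb FB → Place k (modularFunctionFieldFullC k N)}
    (hr : IsPlaceReductionModL A N r) {v : Place Qb FB} (hv : IsMinus N A v) :
    r v = cuspZero N (modularFunctionFieldFullC k N) := by
  rcases hv with rfl | ⟨a, b, hpt, ha, hm⟩
  · exact (placeReduction_cusps hr hN hk).1
  have hb : A.valuation b ≤ A.valuation a := by
    by_contra hc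
    have h1 : 1 < A.valuation b := ha.trans (not_le.mp hc)
    exact hc (hm ▸ le_self_pow h1.le hN.ne_zero)
  have ha0 : a ≠ 0 := fun h => by simp [h] at ha
  have hlt : A.valuation (b * (a ^ N)⁻¹) < 1 := by
    rw [map_mul, map_inv₀, map_pow, mul_inv_lt_iff₀ (pow_pos (zero_lt_one.trans ha) N), one_mul]
    exact hb.trans_lt (by
      conv_lhs => rw [← pow_one (A.valuation a)]
      exact pow_lt_pow_right₀ ha hN.one_lt)
  have ht := (A.valuation_le_one_iff _).mp hlt.le
  refine (placeReduction_isPoint_cusp hr hN hk hpt ha).resolve_right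
    ((placeReduction_ne_of_ratio hr hN hk hpt ha ht).1 ?_)
  rw [IsLocalRing.residue_eq_zero_iff, A.valuation_lt_one_iff]
  exact hlt

include hN hk in
theorem placeReduction_of_isPlus
    {r : Place Qb FB → Place k (modularFunctionFieldFullC k N)}
    (hr : IsPlaceReductionModL A N r) {v : Place Qb FB} (hv : IsPlus N A v) :
    r v = cuspInf N (modularFunctionFieldFullC k N) := by
  rcases hv with rfl | ⟨a, b, hpt, ha, hm⟩
  · exact (placeReduction_cusps hr hN hk).2
  have heq : A.valuation (b * (a ^ N)⁻¹) = 1 := by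
    rw [map_mul, map_inv₀, map_pow, hm, mul_inv_cancel₀ (pow_pos (zero_lt_one.trans ha) N).ne']
  have ht := (A.valuation_le_one_iff _).mp heq.le
  refine (placeReduction_isPoint_cusp hr hN hk hpt ha).resolve_left
    ((placeReduction_ne_of_ratio hr hN hk hpt ha ht).2 ?_)
  rw [Ne, IsLocalRing.residue_eq_zero_iff, A.valuation_lt_one_iff]
  exact heq.not_lt

/-- Classes supported on places reducing to one place reduce to zero. -/
theorem reductionModL_eq_zero_of_supported (P : Place Qb FB → Prop)
    (Q : Place k (modularFunctionFieldFullC k N))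
    (hPQ : ∀ {r}, IsPlaceReductionModL A N r → ∀ v, P v → r v = Q) {x : JZero N}
    (hx : x ∈ supportedClasses N P) : reductionModL A N x = 0 := by
  by_cases h : ReductionInputsModL A N
  swap
  · rw [reductionModL_of_not h]; rfl
  obtain ⟨D, hD, rfl⟩ := hx
  rw [reductionModL_mk h, ← Pic0.mk_zero]
  congr 1
  refine Subtype.ext ?_
  rw [coe_reductionDegZeroAlong,
    mapDomain_eq_single _ _ fun v hv => hPQ (isPlaceReductionModL_placeReductionModL h) v (hD v hv)]
  have hdeg : Divisor.degree (D : Divisor Qb FB) = 0 := D.2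
  rw [FLTA.Curves.degree_eq_sum] at hdeg
  rw [hdeg, Finsupp.single_zero]
  rfl

include hN hk in
theorem reductionModL_eq_zero_of_mem_minusClasses {x : JZero N} (hx : x ∈ minusClasses N A) :
    reductionModL A N x = 0 := by
  exact reductionModL_eq_zero_of_supported N A _ _
    (fun hr => fun v => placeReduction_of_isMinus N A hN hk hr (v := v)) hx

include hN hk in
theorem reductionModL_eq_zero_of_mem_plusClasses {x : JZero N} (hx : x ∈ plusClasses N A) :
    reductionModL A N x = 0 := by
  exact reductionModL_eq_zero_of_supported N A _ _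
    (fun hr => fun v => placeReduction_of_isPlus N A hN hk hr (v := v)) hx

/-! ### Stability under the correspondences -/

section Hecke

variable {N A}

theorem one_lt_and_pow_eq_of_ord {K F : Type*} [Field K] [Field F] [Algebra K F] (W : Place K F)
    {f g : F} (hf : W.ord f < 0) (hg : g ≠ 0) {n : ℕ} (h : (n : ℤ) * W.ord g = W.ord f) :
    1 < W.adicValuation f ∧ W.adicValuation g ^ n = W.adicValuation f := by
  have hf0 : f ≠ 0 := fun h0 => by simp [h0] at hf
  exact ⟨(one_lt_adicValuation_iff W).mpr hf, (adicValuation_pow_eq_iff W hg hf0 n).mpr h⟩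

variable {r : ℕ} [NeZero r] (hr : r.Prime)

include hr in
theorem isRoot_alpha_beta_jEl :
    (modPolyAt r hr (heckeAlphaBar Qb N r (jEl N FB))).IsRoot
        (heckeBetaBar Qb N r (jEl N FB)) ∧
      (modPolyAt r hr (heckeBetaBar Qb N r (jEl N FB))).IsRoot
        (heckeAlphaBar Qb N r (jEl N FB)) ∧
      (modPolyAt r hr (heckeAlphaBar Qb N r (jNEl N FB))).IsRoot
        (heckeBetaBar Qb N r (jNEl N FB)) ∧
      (modPolyAt r hr (heckeBetaBar Qb N r (jNEl N FB))).IsRoot
        (heckeAlphaBar Qb N r (jNEl N FB)) := by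
  have hinj := (algebraMap (laurentBaseChange Qb (modularFunctionFieldFull (N * r)))
    (LaurentSeries Qb)).injective
  have h1 : (modPolyAt r hr (jqModC Qb)).eval (jqNModC Qb r) = 0 := by
    rw [eval_modPolyAt]
    refine Eq.trans ?_ (FLTA.Igusa.modPoly_eval_jp Qb r hr)
    congr 1
    exact ringHom_ext' (Subsingleton.elim _ _) (by simp)
  have h2 : (modPolyAt r hr (jqNModC Qb r)).eval (jqModC Qb) = 0 := by
    rw [eval_modPolyAt]
    refine Eq.trans ?_ (FLTA.Igusa.modPoly_eval_jp_swap Qb r hr)
    congr 1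
    exact ringHom_ext' (Subsingleton.elim _ _) (by simp)
  have hq : qExpand Qb N (jqNModC Qb r) = qExpand Qb r (jqNModC Qb N) := by
    rw [jqNModC, jqNModC, qExpand_qExpand, qExpand_qExpand]
    exact qExpand_congr (mul_comm _ _) _
  refine ⟨hinj ?_, hinj ?_, hinj ?_, hinj ?_⟩ <;> rw [map_eval_modPolyAt, map_zero]
  · exact h1
  · exact h2
  · show (modPolyAt r hr (qExpand Qb N (jqModC Qb))).eval (qExpand Qb r (jqNModC Qb N)) = 0
    rw [← hq, ← map_eval_modPolyAt, h1, map_zero]
  · show (modPolyAt r hr (qExpand Qb r (jqNModC Qb N))).eval (qExpand Qb N (jqModC Qb)) = 0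
    rw [← hq, ← map_eval_modPolyAt, h2, map_zero]

variable {hα : HeckeAlphaBarIntegral Qb N r} {hβ : HeckeBetaBarIntegral Qb N r}
  (hrN : r ≠ N) (W : Place Qb (laurentBaseChange Qb (modularFunctionFieldFull (N * r))))

include hN hrN hr in
/-- A correspondence carries the cusp `0` only to itself, and the cusp `∞` likewise. -/
theorem restrictAlong_cusp :
    (W.restrictAlong _ hβ = cuspZero N FB → W.restrictAlong _ hα = cuspZero N FB) ∧
      (W.restrictAlong _ hβ = cuspInf N FB → W.restrictAlong _ hα = cuspInf N FB) := by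
  have hQ := natCast_ne_zero_qbar (N := N)
  set al := heckeAlphaBar Qb N r
  set be := heckeBetaBar Qb N r
  set v := W.restrictAlong be hβ with hv
  set v' := W.restrictAlong al hα with hv'
  have heβ : (0 : ℤ) < W.ramificationIndexAlong be := by
    exact_mod_cast ramificationIndexAlong_pos be hβ W
  have heα : (0 : ℤ) < W.ramificationIndexAlong al := by
    exact_mod_cast ramificationIndexAlong_pos al hα W
  have hb : ∀ f : FB, W.ord (be f) = W.ramificationIndexAlong be * v.ord f :=
    Place.ord_restrictAlong be hβ W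
  have ha : ∀ f : FB, W.ord (al f) = W.ramificationIndexAlong al * v'.ord f :=
    Place.ord_restrictAlong al hα W
  obtain ⟨r1, r2, r3, r4⟩ := isRoot_alpha_beta_jEl (N := N) hr
  have rN : (modPolyAt N hN (al (jEl N FB))).IsRoot (al (jNEl N FB)) := by
    show (modPolyAt N hN (al.toRingHom (jEl N FB))).eval (al.toRingHom (jNEl N FB)) = 0
    rw [← map_eval_modPolyAt, (isRoot_jEl_jNEl N FB hN).eq_zero, map_zero]
  have rN' : (modPolyAt N hN (al (jNEl N FB))).IsRoot (al (jEl N FB)) := by
    show (modPolyAt N hN (al.toRingHom (jNEl N FB))).eval (al.toRingHom (jEl N FB)) = 0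
    rw [← map_eval_modPolyAt, (isRoot_jNEl_jEl N FB hN).eq_zero, map_zero]
  have hj : jEl N FB ≠ 0 := fun h => jEl_ne_algebraMap N FB 0 (by rw [h, map_zero])
  have hjN : jNEl N FB ≠ 0 := fun h => jNEl_ne_algebraMap N FB 0 (by rw [h, map_zero])
  have hN2 := hN.two_le
  have h4 : (4 : ℤ) ≤ (N : ℤ) * N := by exact_mod_cast Nat.mul_le_mul hN2 hN2
  have h4e := mul_le_mul_of_nonneg_left h4 heα.le
  constructor
  · intro h
    have hlt : W.ord (be (jEl N FB)) < 0 := by
      rw [hb, h, ord_cuspZero_jEl N FB hN hQ]; nlinarith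
    obtain ⟨g1, g2⟩ := one_lt_and_pow_eq_of_ord W hlt
      ((map_ne_zero be).mpr hjN) (n := N) (by
        rw [hb, hb, h, ord_cuspZero_jEl N FB hN hQ, ord_cuspZero_jNEl N FB hN hQ]; ring)
    obtain ⟨g3, g4⟩ := minus_transport W.adicValuation hN hr hrN r1 r3 rN g1 g2
    rw [one_lt_adicValuation_iff, ha] at g3
    rw [adicValuation_pow_eq_iff W ((map_ne_zero al).mpr hjN) ((map_ne_zero al).mpr hj), ha, ha]
      at g4
    have g3' : v'.ord (jEl N FB) < 0 := by nlinarith
    refine (eq_cusp_of_ord_jEl_neg N FB hN hQ v' g3').resolve_left fun h' => ?_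
    rw [h', ord_cuspInf_jEl, ord_cuspInf_jNEl] at g4
    nlinarith
  · intro h
    have hlt : W.ord (be (jNEl N FB)) < 0 := by
      rw [hb, h, ord_cuspInf_jNEl]; nlinarith
    obtain ⟨g1, g2⟩ := one_lt_and_pow_eq_of_ord W hlt
      ((map_ne_zero be).mpr hj) (n := N) (by
        rw [hb, hb, h, ord_cuspInf_jEl, ord_cuspInf_jNEl]; ring)
    obtain ⟨g3, g4⟩ := minus_transport W.adicValuation hN hr hrN r3 r1 rN' g1 g2
    rw [one_lt_adicValuation_iff, ha] at g3
    rw [adicValuation_pow_eq_iff W ((map_ne_zero al).mpr hj) ((map_ne_zero al).mpr hjN), ha, ha]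
      at g4
    have g3' : v'.ord (jNEl N FB) < 0 := by nlinarith
    refine (eq_cusp_of_ord_jNEl_neg N FB hN hQ v' g3').resolve_right fun h' => ?_
    rw [h', ord_cuspZero_jEl N FB hN hQ, ord_cuspZero_jNEl N FB hN hQ] at g4
    nlinarith

include hN hr in
theorem exists_isPoint_restrictAlong {a' b' : Qb} (h : IsPoint N (W.restrictAlong _ hβ) a' b') :
    ∃ a b : Qb, IsPoint N (W.restrictAlong _ hα) a b ∧ (modPolyAt r hr a).IsRoot a' ∧
      (modPolyAt r hr b).IsRoot b' := by
  have hQ := natCast_ne_zero_qbar (N := N)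
  set al := heckeAlphaBar Qb N r
  set be := heckeBetaBar Qb N r
  set v := W.restrictAlong be hβ with hv
  set v' := W.restrictAlong al hα with hv'
  have heβ : (0 : ℤ) < W.ramificationIndexAlong be := by
    exact_mod_cast ramificationIndexAlong_pos be hβ W
  have heα : (0 : ℤ) < W.ramificationIndexAlong al := by
    exact_mod_cast ramificationIndexAlong_pos al hα W
  have hb : ∀ f : FB, W.ord (be f) = W.ramificationIndexAlong be * v.ord f :=
    Place.ord_restrictAlong be hβ W
  have ha : ∀ f : FB, W.ord (al f) = W.ramificationIndexAlong al * v'.ord f :=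
    Place.ord_restrictAlong al hα W
  obtain ⟨r1, r2, r3, r4⟩ := isRoot_alpha_beta_jEl (N := N) hr
  have hreg : 0 ≤ v.ord (jEl N FB) := by
    by_contra hneg
    push Not at hneg
    have := h.fst
    rw [ord_sub_algebraMap_of_neg v hneg] at this
    omega
  have hreg' : 0 ≤ v'.ord (jEl N FB) := by
    by_contra hneg
    push Not at hneg
    have h1 : 1 < W.adicValuation (al (jEl N FB)) :=
      (one_lt_adicValuation_iff W).mpr (by rw [ha]; nlinarith)
    refine absurd (val_le_one_of_root r hr W.adicValuation ?_ r2) (not_le.mpr h1)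
    exact W.adicValuation_le_one_iff.mpr (Or.inr (by rw [hb]; positivity))
  obtain h' | h' | ⟨a, b, hab⟩ := cusp_or_exists_isPoint N FB hN hQ v'
  · rw [h', ord_cuspInf_jEl] at hreg'; omega
  · rw [h', ord_cuspZero_jEl N FB hN hQ] at hreg'; have := hN.pos; omega
  refine ⟨a, b, hab, isRoot_of_ord_sub_pos r hr W ?_ ?_ r1, isRoot_of_ord_sub_pos r hr W ?_ ?_ r3⟩
  · rw [← al.commutes, ← map_sub, ha]; exact mul_pos heα hab.fst
  · rw [← be.commutes, ← map_sub, hb]; exact mul_pos heβ h.fst
  · rw [← al.commutes, ← map_sub, ha]; exact mul_pos heα hab.snd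
  · rw [← be.commutes, ← map_sub, hb]; exact mul_pos heβ h.snd

include hN hrN hr in
theorem isMinus_restrictAlong (h : IsMinus N A (W.restrictAlong _ hβ)) :
    IsMinus N A (W.restrictAlong _ hα) := by
  rcases h with h | ⟨a', b', hpt, ha', hm⟩
  · exact Or.inl ((restrictAlong_cusp hN hr hrN W).1 h)
  obtain ⟨a, b, hab, h1, h2⟩ := exists_isPoint_restrictAlong (hα := hα) hN hr W hpt
  exact Or.inr ⟨a, b, hab, minus_transport A.valuation hN hr hrN h1 h2 (hab.isRoot N hN) ha' hm⟩

include hN hrN hr in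
theorem isPlus_restrictAlong (h : IsPlus N A (W.restrictAlong _ hβ)) :
    IsPlus N A (W.restrictAlong _ hα) := by
  rcases h with h | ⟨a', b', hpt, ha', hm⟩
  · exact Or.inl ((restrictAlong_cusp hN hr hrN W).2 h)
  obtain ⟨a, b, hab, h1, h2⟩ := exists_isPoint_restrictAlong (hα := hα) hN hr W hpt
  have hb' : 1 < A.valuation b' := hm ▸ one_lt_pow₀ ha' hN.ne_zero
  obtain ⟨h3, h4⟩ := minus_transport A.valuation hN hr hrN h2 h1 (hab.isRoot_swap N hN) hb' hm.symm
  have ha : 1 < A.valuation a := by
    by_contra hc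
    exact absurd (h4 ▸ h3) (not_lt.mpr (pow_le_one₀ zero_le (not_lt.mp hc)))
  exact Or.inr ⟨a, b, hab, ha, h4.symm⟩

end Hecke

variable (P : Place Qb (modularFunctionFieldBar N) → Prop)

theorem heckeOperatorBar_mem_supportedClasses (r : Nat.Primes)
    (hP : ∀ [NeZero (r : ℕ)] (hα : HeckeAlphaBarIntegral Qb N r)
      (hβ : HeckeBetaBarIntegral Qb N r)
      (W : Place Qb (laurentBaseChange Qb (modularFunctionFieldFull (N * r)))),
      P (W.restrictAlong _ hβ) → P (W.restrictAlong _ hα)) {x : JZero N}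
    (hx : x ∈ supportedClasses N P) : heckeOperatorBar N r x ∈ supportedClasses N P := by
  haveI : NeZero (r : ℕ) := ⟨r.2.ne_zero⟩
  obtain ⟨hα, hβ, hPD, hfin, hFI, hNF⟩ := FLTA.Curves.heckeInputsAlong N Qb (r : ℕ)
  haveI := hPD
  obtain ⟨D, hD, rfl⟩ := hx
  rw [heckeOperatorBar_apply, heckeOperatorAlong_eq hα hβ hFI hfin hNF]
  refine ⟨Pic0.degZeroCorrespondence (heckeBetaBar Qb N r) (heckeAlphaBar Qb N r) hβ hα hFI D,
    fun v hv => ?_, rfl⟩
  replace hv : v ∈ (Divisor.pushforwardAlong (heckeAlphaBar Qb N r) hα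
      (Divisor.pullbackAlong (heckeBetaBar Qb N r) hβ (D : Divisor Qb _))).support := hv
  obtain ⟨W, hW, rfl⟩ := exists_mem_support_of_pushforwardAlong _ _ hv
  exact hP hα hβ W (hD _ (restrictAlong_mem_support _ _ hW))

theorem awayHecke_mem_supportedClasses
    (hP : ∀ r : Nat.Primes, (r : ℕ) ≠ N → ∀ x ∈ supportedClasses N P,
      heckeOperatorBar N r x ∈ supportedClasses N P)
    {t : Module.End ℤ (JZero N)} (ht : t ∈ awayHecke N) :
    ∀ x ∈ supportedClasses N P, t x ∈ supportedClasses N P := by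
  induction ht using Subring.closure_induction with
  | mem s hs =>
    obtain ⟨r, hr, rfl⟩ := hs
    exact hP r hr
  | zero => exact fun _ _ => zero_mem _
  | one => exact fun _ hx => hx
  | add s t _ _ hs ht => exact fun x hx => add_mem (hs x hx) (ht x hx)
  | neg s _ hs => exact fun x hx => neg_mem (hs x hx)
  | mul s t _ _ hs ht => exact fun x hx => hs _ (ht x hx)

include hN in
theorem heckeOperatorBar_mem_minusClasses {r : Nat.Primes} (hr : (r : ℕ) ≠ N) {x : JZero N}
    (hx : x ∈ minusClasses N A) : heckeOperatorBar N r x ∈ minusClasses N A := by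
  exact heckeOperatorBar_mem_supportedClasses N _ r
    (fun hα hβ W h => isMinus_restrictAlong hN r.2 hr W h) hx

include hN in
theorem heckeOperatorBar_mem_plusClasses {r : Nat.Primes} (hr : (r : ℕ) ≠ N) {x : JZero N}
    (hx : x ∈ plusClasses N A) : heckeOperatorBar N r x ∈ plusClasses N A := by
  exact heckeOperatorBar_mem_supportedClasses N _ r
    (fun hα hβ W h => isPlus_restrictAlong hN r.2 hr W h) hx

include hN in
theorem awayHecke_mem_minusClasses {t : Module.End ℤ (JZero N)} (ht : t ∈ awayHecke N)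
    {x : JZero N} (hx : x ∈ minusClasses N A) : t x ∈ minusClasses N A := by
  exact awayHecke_mem_supportedClasses N _
    (fun r hr x hx => heckeOperatorBar_mem_minusClasses N A hN hr hx) ht x hx

include hN in
theorem awayHecke_mem_plusClasses {t : Module.End ℤ (JZero N)} (ht : t ∈ awayHecke N)
    {x : JZero N} (hx : x ∈ plusClasses N A) : t x ∈ plusClasses N A := by
  exact awayHecke_mem_supportedClasses N _
    (fun r hr x hx => heckeOperatorBar_mem_plusClasses N A hN hr hx) ht x hx

end FLTA.Mazur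

end
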