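import Fermat.Agent.HeckeDatum.FlatModel
import Mathlib.Data.ZMod.Basic

/-!
# More operations on flat models: generation, products, constant models, indicator functions
-/

set_option autoImplicit false

noncomputable section

open scoped TensorProduct

namespace FLTA.Mazur

open FLTA.HeckeDatum FLTA.HeckeDatum.Flat

local notation "Qbar" => AlgebraicClosure ℚ

variable {p : ℕ} {P Q : Type} [AddCommGroup P] [AddCommGroup Q]
  {act : GalQ →* AddMonoid.End P} {act' : GalQ →* AddMonoid.End Q}

/-- A finite set of integral equivariant separating functions, closed under comultiplication in the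
algebra it generates, generates a flat model. -/
theorem exists_model_of_generators (G : Set (P → Qbar)) (hG : G.Finite)
    (hint : ∀ g ∈ G, IsIntegral (Rp p) g)
    (heq : ∀ g ∈ G, ∀ (σ : GalQ) x, g (act σ x) = σ (g x))
    (hsep : ∀ x y : P, x ≠ y → ∃ g ∈ G, g x ≠ g y)
    (hcomul : ∀ g ∈ G, pull p (fun z : P × P => z.1 + z.2) g ∈
      (mulMap (Algebra.adjoin (Rp p) G).val (Algebra.adjoin (Rp p) G).val).range) :
    ∃ M : FlatModel p P act, G ⊆ M.O := by
  classical
  set O := Algebra.adjoin (Rp p) G with hO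
  have hle : O ≤ (mulMap O.val O.val).range.comap (pull p fun z : P × P => z.1 + z.2) :=
    Algebra.adjoin_le fun g hg => hcomul g hg
  refine ⟨{ O := O, finite_O := ?_, equivariant := ?_, separates := ?_, comul := ?_ },
    Algebra.subset_adjoin⟩
  · exact Module.Finite.iff_fg.mpr (fg_adjoin_of_finite hG hint)
  · intro g hg σ x
    induction hg using Algebra.adjoin_induction with
    | mem g hg => exact heq g hg σ x
    | algebraMap r => exact ((galHom p σ).commutes r).symm
    | add u v _ _ hu hv => simp [hu, hv]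
    | mul u v _ _ hu hv => simp [hu, hv]
  · intro x y hxy
    obtain ⟨g, hg, hne⟩ := hsep x y hxy
    exact ⟨g, Algebra.subset_adjoin hg, hne⟩
  · intro g hg
    obtain ⟨t, ht⟩ := hle hg
    change mulMap O.val O.val t = pull p (fun z : P × P => z.1 + z.2) g at ht
    rw [show (fun xy : P × P => g (xy.1 + xy.2)) = mulMap O.val O.val t from ht.symm]
    clear ht
    induction t using TensorProduct.induction_on with
    | zero => rw [map_zero]; exact Submodule.zero_mem _
    | tmul u v =>
      exact Submodule.subset_span ⟨u, u.2, v, v.2, funext fun z => mulMap_tmul _ _ _ _ z⟩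
    | add u v hu hv => rw [map_add]; exact Submodule.add_mem _ hu hv

/-- Pullback of a model along an equivariant homomorphism: a finite generating set, and the
comultiplication inside any algebra containing it. -/
theorem exists_generators (M : FlatModel p P act) (f : Q →+ P)
    (hcomm : ∀ σ x, f (act' σ x) = act σ (f x)) :
    ∃ G : Set (Q → Qbar), G.Finite ∧ (∀ g ∈ G, IsIntegral (Rp p) g) ∧
      (∀ g ∈ G, ∀ (σ : GalQ) x, g (act' σ x) = σ (g x)) ∧
      (∀ x y, f x ≠ f y → ∃ g ∈ G, g x ≠ g y) ∧
      (∀ O : Subalgebra (Rp p) (Q → Qbar), G ⊆ O → ∀ g ∈ G,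
        pull p (fun z : Q × Q => z.1 + z.2) g ∈ (mulMap O.val O.val).range) := by
  classical
  have := M.finite_O
  obtain ⟨s, hs⟩ := (Module.Finite.fg_top (R := Rp p) (M := M.O))
  let φ : M.O →ₐ[Rp p] (Q → Qbar) := (pull p f).comp (incl M)
  refine ⟨φ '' (s : Set M.O), s.finite_toSet.image _, ?_, ?_, ?_, ?_⟩
  · rintro _ ⟨a, -, rfl⟩
    exact (Algebra.IsIntegral.isIntegral a).map φ
  · rintro _ ⟨a, -, rfl⟩ σ x
    show (a : P → Qbar) (f (act' σ x)) = σ ((a : P → Qbar) (f x))
    rw [hcomm]
    exact M.equivariant _ a.2 σ (f x)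
  · intro x y hxy
    obtain ⟨a, ha, hne⟩ := M.separates _ _ hxy
    by_contra! hall
    apply hne
    have hmem : (⟨a, ha⟩ : M.O) ∈ Submodule.span (Rp p) (s : Set M.O) := hs ▸ Submodule.mem_top
    have : ∀ b ∈ Submodule.span (Rp p) (s : Set M.O), φ b x = φ b y := by
      intro b hb
      induction hb using Submodule.span_induction with
      | mem b hb => exact hall _ ⟨b, hb, rfl⟩
      | zero => simp
      | add b c _ _ hb hc => simp only [map_add, Pi.add_apply, hb, hc]
      | smul r b _ hb => simp only [map_smul, Pi.smul_apply, hb]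
    exact this _ hmem
  · intro O hGO g hg
    obtain ⟨a, ha, rfl⟩ := hg
    have hφO : ∀ b, φ b ∈ O := by
      intro b
      have hb : b ∈ Submodule.span (Rp p) (s : Set M.O) := hs ▸ Submodule.mem_top
      induction hb using Submodule.span_induction with
      | mem b hb => exact hGO ⟨b, hb, rfl⟩
      | zero => rw [map_zero]; exact O.zero_mem
      | add b c _ _ hb hc => rw [map_add]; exact O.add_mem hb hc
      | smul r b _ hb => rw [map_smul]; exact O.smul_mem hb r
    obtain ⟨t, ht⟩ := (mem_prodSpan_iff M).mp (M.comul _ a.2)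
    refine ⟨Algebra.TensorProduct.map (φ.codRestrict O hφO) (φ.codRestrict O hφO) t, funext fun z => ?_⟩
    have key : ∀ u : M.O ⊗[Rp p] M.O,
        mulMap O.val O.val (Algebra.TensorProduct.map (φ.codRestrict O hφO) (φ.codRestrict O hφO) u) z
          = mulMap₂ M u (f z.1, f z.2) := by
      intro u
      induction u using TensorProduct.induction_on with
      | zero => simp
      | tmul c d => simp [φ, mulMap₂]
      | add c d hc hd => simp only [map_add, Pi.add_apply, hc, hd]
    refine (key t).trans ?_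
    rw [ht]
    simp [φ]

/-- The indicator of the fibre over `k`. -/
def fibreIndicator {n : ℕ} (κ : P →+ ZMod n) (k : ZMod n) : P → Qbar :=
  fun x => if κ x = k then 1 else 0

theorem fibreIndicator_integral {n : ℕ} (κ : P →+ ZMod n) (k : ZMod n) :
    IsIntegral (Rp p) (fibreIndicator κ k) := by
  refine ⟨Polynomial.X ^ 2 - Polynomial.X, ?_, ?_⟩
  · refine (Polynomial.monic_X_pow 2).sub_of_left ?_
    rw [Polynomial.degree_X, Polynomial.degree_X_pow]
    exact_mod_cast one_lt_two
  · rw [Polynomial.eval₂_sub, Polynomial.eval₂_X_pow, Polynomial.eval₂_X, sub_eq_zero]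
    funext x
    simp only [fibreIndicator, Pi.pow_apply]
    split_ifs <;> norm_num

theorem fibreIndicator_comul {n : ℕ} [NeZero n] (κ : P →+ ZMod n) (k : ZMod n)
    (O : Subalgebra (Rp p) (P → Qbar)) (hO : ∀ i, fibreIndicator κ i ∈ O) :
    pull p (fun z : P × P => z.1 + z.2) (fibreIndicator κ k) ∈ (mulMap O.val O.val).range := by
  classical
  refine ⟨∑ i : ZMod n, (⟨_, hO i⟩ : O) ⊗ₜ[Rp p] (⟨_, hO (k - i)⟩ : O), funext fun z => ?_⟩
  show mulMap O.val O.val _ z = fibreIndicator κ k (z.1 + z.2)
  rw [map_sum, Finset.sum_apply, Finset.sum_eq_single (κ z.1)]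
  · simp only [mulMap_tmul, Subalgebra.coe_val, fibreIndicator, if_pos, map_add]
    simp only [one_mul]
    by_cases h : κ z.2 = k - κ z.1
    · rw [if_pos h, if_pos (by rw [h]; abel)]
    · rw [if_neg h, if_neg (fun h' => h (by rw [← h']; abel))]
  · intro i _ hi
    simp only [mulMap_tmul, Subalgebra.coe_val, fibreIndicator, if_neg (Ne.symm hi), zero_mul]
  · intro h
    exact absurd (Finset.mem_univ _) h

/-- Any model can be enlarged to contain the indicators of the fibres of an invariant character. -/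
theorem exists_model_indicator {n : ℕ} [NeZero n] (M : FlatModel p P act) (κ : P →+ ZMod n)
    (hκ : ∀ σ x, κ (act σ x) = κ x) :
    ∃ M' : FlatModel p P act, ∀ k, fibreIndicator κ k ∈ M'.O := by
  obtain ⟨G, hGf, hGi, hGe, hGs, hGc⟩ :=
    exists_generators (act' := act) M (AddMonoidHom.id P) (fun _ _ => rfl)
  refine Exists.elim (exists_model_of_generators (act := act)
    (G ∪ Set.range (fibreIndicator κ)) (hGf.union (Set.finite_range _)) ?_ ?_ ?_ ?_)
    fun M' hM' => ⟨M', fun k => hM' (Or.inr ⟨k, rfl⟩)⟩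
  · rintro g (hg | ⟨k, rfl⟩)
    · exact hGi g hg
    · exact fibreIndicator_integral κ k
  · rintro g (hg | ⟨k, rfl⟩) σ x
    · exact hGe g hg σ x
    · simp only [fibreIndicator, hκ]
      split_ifs <;> simp
  · intro x y hxy
    obtain ⟨g, hg, hne⟩ := hGs x y hxy
    exact ⟨g, Or.inl hg, hne⟩
  · rintro g (hg | ⟨k, rfl⟩)
    · exact hGc _ (fun a ha => Algebra.subset_adjoin (Or.inl ha)) g hg
    · exact fibreIndicator_comul κ k _ fun i => Algebra.subset_adjoin (Or.inr ⟨i, rfl⟩)

/-- The constant model of `ℤ/n`. -/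
theorem hasFlatModel_zmod {n : ℕ} [NeZero n] {actc : GalQ →* AddMonoid.End (ZMod n)}
    (hc : ∀ σ x, actc σ x = x) : HasFlatModel p (ZMod n) actc := by
  refine Exists.elim (exists_model_of_generators (act := actc)
    (Set.range (fibreIndicator (AddMonoidHom.id (ZMod n)))) (Set.finite_range _) ?_ ?_ ?_ ?_)
    fun M _ => ⟨M⟩
  · rintro g ⟨k, rfl⟩
    exact fibreIndicator_integral _ k
  · rintro g ⟨k, rfl⟩ σ x
    simp only [fibreIndicator, hc]
    split_ifs <;> simp
  · intro x y hxy
    refine ⟨_, ⟨x, rfl⟩, ?_⟩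
    simp [fibreIndicator, Ne.symm hxy]
  · rintro g ⟨k, rfl⟩
    exact fibreIndicator_comul _ k _ fun i => Algebra.subset_adjoin ⟨i, rfl⟩

/-- A product of two Galois modules with models has a model. -/
theorem hasFlatModel_prod (hP : HasFlatModel p P act) (hQ : HasFlatModel p Q act')
    {actp : GalQ →* AddMonoid.End (P × Q)}
    (hact : ∀ σ x, actp σ x = (act σ x.1, act' σ x.2)) : HasFlatModel p (P × Q) actp := by
  obtain ⟨M⟩ := hP
  obtain ⟨M₂⟩ := hQ
  obtain ⟨G, hGf, hGi, hGe, hGs, hGc⟩ := exists_generators (act' := actp) M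
    (AddMonoidHom.fst P Q) (fun σ x => by simp [hact])
  obtain ⟨G₂, hGf₂, hGi₂, hGe₂, hGs₂, hGc₂⟩ := exists_generators (act' := actp) M₂
    (AddMonoidHom.snd P Q) (fun σ x => by simp [hact])
  refine Exists.elim (exists_model_of_generators (act := actp) (G ∪ G₂) (hGf.union hGf₂)
    (fun g hg => hg.elim (hGi g) (hGi₂ g)) (fun g hg => hg.elim (hGe g) (hGe₂ g)) ?_ ?_)
    fun M' _ => ⟨M'⟩
  · intro x y hxy
    by_cases h : x.1 = y.1
    · obtain ⟨g, hg, hne⟩ := hGs₂ x y (fun h2 => hxy (Prod.ext h h2))
      exact ⟨g, Or.inr hg, hne⟩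
    · obtain ⟨g, hg, hne⟩ := hGs x y h
      exact ⟨g, Or.inl hg, hne⟩
  · rintro g (hg | hg)
    · exact hGc _ (fun a ha => Algebra.subset_adjoin (Or.inl ha)) g hg
    · exact hGc₂ _ (fun a ha => Algebra.subset_adjoin (Or.inr ha)) g hg

end FLTA.Mazur

end
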