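import Fermat.Agent.Mazur.MinusPlaces

/-!
# The place of a rational point of the plane model
-/

set_option autoImplicit false

noncomputable section

open AlgebraicCurve ModularCurve Polynomial

namespace FLTA.Mazur

local notation "Qb" => AlgebraicClosure ℚ

variable {N : ℕ} [NeZero N]

theorem valuation_natCast {ℓ : ℕ} (hℓ : ℓ.Prime) {A : ValuationSubring Qb}
    (hA : A.LiesOverPrime ℓ) {n : ℕ} (hn : n ≠ 0) :
    A.valuation (n : Qb) = A.valuation (ℓ : Qb) ^ padicValNat ℓ n := by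
  obtain ⟨e, m, hm, rfl⟩ := Nat.exists_eq_pow_mul_and_not_dvd hn ℓ hℓ.ne_one
  haveI := Fact.mk hℓ
  have hm0 : m ≠ 0 := fun h => hm (h ▸ dvd_zero ℓ)
  have h1 : A.valuation (m : Qb) = 1 := by
    refine le_antisymm ((A.valuation_le_one_iff _).mpr (natCast_mem A m)) (not_lt.mp fun h => hm ?_)
    exact (FLTA.Galois.natCast_mem_nonunits_iff hℓ hA m).mp ((A.mem_nonunits_iff).mpr h)
  rw [Nat.cast_mul, Nat.cast_pow, map_mul, map_pow, h1, mul_one,
    padicValNat.mul (pow_ne_zero _ hℓ.ne_zero) hm0, padicValNat.prime_pow,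
    padicValNat.eq_zero_of_not_dvd hm, add_zero]

/-- `|q| = |ℓ| ^ v_ℓ(q)` at a valuation ring over `ℓ`. -/
theorem valuation_ratCast {ℓ : ℕ} (hℓ : ℓ.Prime) {A : ValuationSubring Qb}
    (hA : A.LiesOverPrime ℓ) {q : ℚ} (hq : q ≠ 0) :
    A.valuation (q : Qb) = A.valuation (ℓ : Qb) ^ padicValRat ℓ q := by
  have hne : A.valuation (ℓ : Qb) ≠ 0 := by
    rw [Valuation.ne_zero_iff]
    exact_mod_cast hℓ.ne_zero
  have hnum : A.valuation (q.num : Qb) = A.valuation (q.num.natAbs : Qb) := by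
    rcases Int.natAbs_eq q.num with h | h
    · conv_lhs => rw [h, Int.cast_natCast]
    · conv_lhs => rw [h, Int.cast_neg, Int.cast_natCast, Valuation.map_neg]
  rw [Rat.cast_def, map_div₀, hnum, valuation_natCast hℓ hA
    (Int.natAbs_ne_zero.mpr (Rat.num_ne_zero.mpr hq)), valuation_natCast hℓ hA q.den_nz,
    padicValRat, zpow_sub₀ hne, zpow_natCast, zpow_natCast, padicValInt]

theorem one_lt_valuation_of_padicValRat_neg {ℓ : ℕ} (hℓ : ℓ.Prime) {A : ValuationSubring Qb}
    (hA : A.LiesOverPrime ℓ) {q : ℚ} (hq : padicValRat ℓ q < 0) : 1 < A.valuation (q : Qb) := by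
  have hq0 : q ≠ 0 := fun h => by simp [h] at hq
  have hne : A.valuation (ℓ : Qb) ≠ 0 := by
    rw [Valuation.ne_zero_iff]
    exact_mod_cast hℓ.ne_zero
  have hlt : A.valuation (ℓ : Qb) < 1 := (A.mem_nonunits_iff).mp hA
  rw [valuation_ratCast hℓ hA hq0]
  obtain ⟨n, hn⟩ := Int.eq_negSucc_of_lt_zero hq
  rw [hn, zpow_negSucc, one_lt_inv₀ (pow_pos (zero_lt_iff.mpr hne) _)]
  exact pow_lt_one₀ zero_le hlt (Nat.succ_ne_zero n)

/-- `v(j') * N = v(j) < 0` gives `|j'| ^ N = |j|`. -/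
theorem valuation_eq_of_padicValRat {ℓ : ℕ} (hℓ : ℓ.Prime) {A : ValuationSubring Qb}
    (hA : A.LiesOverPrime ℓ) {n : ℕ} {q q' : ℚ} (hq : padicValRat ℓ q < 0)
    (h : (n : ℤ) * padicValRat ℓ q' = padicValRat ℓ q) :
    A.valuation (q' : Qb) ^ n = A.valuation (q : Qb) := by
  have hq0 : q ≠ 0 := fun e => by simp [e] at hq
  have hq'0 : q' ≠ 0 := fun e => by simp [e] at h; omega
  rw [valuation_ratCast hℓ hA hq0, valuation_ratCast hℓ hA hq'0, ← h, ← zpow_natCast, ← zpow_mul,
    mul_comm]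

/-- `σ` carries a point over `(a, b)` to a point over `(σ a, σ b)`. -/
theorem isPoint_galois_smul (σ : Qb ≃ₐ[ℚ] Qb) {x : Place Qb (modularFunctionFieldBar N)}
    {a b a' b' : Qb} (hx : IsPoint N x a b) (ha : σ a = a') (hb : σ b = b') :
    IsPoint N (arithmeticGalois (modularFunctionFieldFull N) σ • x) a' b' := by
  set g := arithmeticGalois (modularFunctionFieldFull N) σ with hg
  have hj : g • jEl N (modularFunctionFieldBar N) = jEl N (modularFunctionFieldBar N) := by
    refine Subtype.ext ?_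
    rw [hg, coe_arithmeticGalois_smul, coe_jEl]
    exact coeffMap_jqModC _
  have hjN : g • jNEl N (modularFunctionFieldBar N) = jNEl N (modularFunctionFieldBar N) := by
    refine Subtype.ext ?_
    rw [hg, coe_arithmeticGalois_smul, coe_jNEl]
    exact coeffMap_jqNModC _ N
  have hc : ∀ c : Qb, g • algebraMap Qb (modularFunctionFieldBar N) c =
      algebraMap Qb (modularFunctionFieldBar N) (σ c) := fun c =>
    (SemilinearAut.smul_algebraMap g c).trans (by rw [hg, baseAut_arithmeticGalois]; rfl)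
  constructor
  · rw [← ha, ← hc, ← hj, ← smul_sub, SemilinearAut.ord_smul]
    exact hx.fst
  · rw [← hb, ← hc, ← hjN, ← smul_sub, SemilinearAut.ord_smul]
    exact hx.snd

/-- A rational pair which is minus somewhere has exactly one, hence rational, place above it. -/
theorem exists_rational_place (hN : N.Prime) {j j' : ℚ} (hrel : HasModRel N hN j j') {ℓ : ℕ}
    (hℓ : ℓ.Prime) (h : IsMinusAt N ℓ j j') :
    ∃ x : Place Qb (modularFunctionFieldBar N), IsPoint N x (j : Qb) (j' : Qb) ∧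
      ∀ σ : Qb ≃ₐ[ℚ] Qb, arithmeticGalois (modularFunctionFieldFull N) σ • x = x := by
  obtain ⟨A, hA⟩ := FLTA.Galois.exists_liesOverPrime hℓ
  have ha := one_lt_valuation_of_padicValRat_neg hℓ hA h.1
  have hm := valuation_eq_of_padicValRat hℓ hA h.1 h.2
  have hroot : (modPolyAt N hN (j : Qb)).IsRoot (j' : Qb) := by
    have h1 := map_eval_modPolyAt N hN (algebraMap ℚ Qb) j j'
    have h0 : (modPolyAt N hN j).eval j' = 0 := by
      refine Eq.trans ?_ hrel
      rfl
    rw [h0, map_zero, eq_ratCast, eq_ratCast] at h1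
    exact h1.symm
  have hQ := natCast_ne_zero_qbar (N := N)
  have hsw := (isRoot_modPolyAt_comm N hN hQ).mp hroot
  have hb : 1 < A.valuation (j' : Qb) := by
    by_contra hc
    exact absurd ha (not_lt.mpr (hm ▸ pow_le_one₀ zero_le (not_lt.mp hc)))
  have hder := (poleShape_modPolyAt N hN A.valuation hb).derivative_ne_zero hb hN.two_le hsw hm.symm
  obtain ⟨x, hx, huniq⟩ :=
    existsUnique_isPoint N (modularFunctionFieldBar N) hN hQ hsw hder
  refine ⟨x, hx, fun σ => huniq _ ?_⟩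
  exact isPoint_galois_smul σ hx (σ.commutes j |> fun e => by simpa using e)
    (σ.commutes j' |> fun e => by simpa using e)

theorem isMinus_of_isMinusAt {j j' : ℚ} {x : Place Qb (modularFunctionFieldBar N)}
    (hx : IsPoint N x (j : Qb) (j' : Qb)) {ℓ : ℕ} (hℓ : ℓ.Prime) {A : ValuationSubring Qb}
    (hA : A.LiesOverPrime ℓ) (h : IsMinusAt N ℓ j j') : IsMinus N A x := by
  exact Or.inr ⟨_, _, hx, one_lt_valuation_of_padicValRat_neg hℓ hA h.1,
    valuation_eq_of_padicValRat hℓ hA h.1 h.2⟩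

theorem isPlus_of_isPlusAt {j j' : ℚ} {x : Place Qb (modularFunctionFieldBar N)}
    (hx : IsPoint N x (j : Qb) (j' : Qb)) {ℓ : ℕ} (hℓ : ℓ.Prime) {A : ValuationSubring Qb}
    (hA : A.LiesOverPrime ℓ) (h : IsPlusAt N ℓ j j') : IsPlus N A x := by
  have hj' : padicValRat ℓ j' < 0 := by
    rw [h.2]
    exact mul_neg_of_pos_of_neg (by exact_mod_cast NeZero.pos N) h.1
  exact Or.inr ⟨_, _, hx, one_lt_valuation_of_padicValRat_neg hℓ hA h.1,
    (valuation_eq_of_padicValRat hℓ hA hj' h.2.symm).symm⟩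

end FLTA.Mazur

end
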