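import Fermat.Agent.Mazur.SelmerDefs
import Mathlib.GroupTheory.Index

/-!
# Devissage of Selmer triples: the count is submultiplicative in short exact sequences
-/

set_option autoImplicit false

noncomputable section

namespace FLTA.Mazur

open FLTA.HeckeDatum

local notation "Qbar" => AlgebraicClosure ℚ

variable {n p N : ℕ} [NeZero n] {H₁ H₂ : Set GalQ}
variable {M : Type} [AddCommGroup M] [Module (ZMod n) M] [Finite M]
  {act : GalQ →* AddMonoid.End M}

theorem selCond_zero (hp : p.Prime) (hM : HasFlatModel p M act) : SelCond n p N act 0 := by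
  refine ⟨isCocycle_zero act, fun _ _ _ _ _ _ _ _ => rfl, ?_⟩
  refine hasFlatModel_prod hM (hasFlatModel_zmod (actc := 1) fun σ x => rfl) fun σ z => ?_
  simp

theorem SelCond.sub (hp : p.Prime) {ξ η : GalQ → M} (h : SelCond n p N act ξ)
    (h' : SelCond n p N act η) : SelCond n p N act (ξ - η) := by
  refine ⟨h.cocycle.sub h'.cocycle, fun ℓ hℓ hp' hN A hA σ hσ => by
    rw [Pi.sub_apply, h.unramified ℓ hℓ hp' hN A hA σ hσ,
      h'.unramified ℓ hℓ hp' hN A hA σ hσ, sub_zero], ?_⟩
  let actE : GalQ →* AddMonoid.End ((M × ZMod n) × (M × ZMod n)) :=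
    { toFun := fun σ =>
        AddMonoidHom.prodMap (twistAct n act h.cocycle σ) (twistAct n act h'.cocycle σ)
      map_one' := AddMonoidHom.ext fun z => by
        show (twistAct n act h.cocycle 1 z.1, twistAct n act h'.cocycle 1 z.2) = z
        rw [map_one, map_one]
        rfl
      map_mul' := fun σ τ => AddMonoidHom.ext fun z => by
        show (twistAct n act h.cocycle (σ * τ) z.1, twistAct n act h'.cocycle (σ * τ) z.2) =
          (twistAct n act h.cocycle σ (twistAct n act h.cocycle τ z.1),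
            twistAct n act h'.cocycle σ (twistAct n act h'.cocycle τ z.2))
        rw [map_mul, map_mul]
        rfl }
  have hE : HasFlatModel p ((M × ZMod n) × (M × ZMod n)) actE :=
    hasFlatModel_prod h.flat h'.flat fun σ z => rfl
  let actF : GalQ →* AddMonoid.End ((M × M) × ZMod n) :=
    { toFun := fun σ =>
        { toFun := fun z => ((act σ z.1.1 + z.2 • ξ σ, act σ z.1.2 + z.2 • η σ), z.2)
          map_zero' := by simp
          map_add' := fun z w => by
            simp only [Prod.fst_add, Prod.snd_add, map_add, add_smul, Prod.mk_add_mk]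
            congr 2 <;> abel }
      map_one' := AddMonoidHom.ext fun z => by
        show ((act 1 z.1.1 + z.2 • ξ 1, act 1 z.1.2 + z.2 • η 1), z.2) = z
        rw [h.cocycle.map_one, h'.cocycle.map_one, map_one]
        simp
      map_mul' := fun σ τ => AddMonoidHom.ext fun z => by
        show ((act (σ * τ) z.1.1 + z.2 • ξ (σ * τ), act (σ * τ) z.1.2 + z.2 • η (σ * τ)), z.2) =
          ((act σ (act τ z.1.1 + z.2 • ξ τ) + z.2 • ξ σ,
            act σ (act τ z.1.2 + z.2 • η τ) + z.2 • η σ), z.2)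
        rw [map_mul, h.cocycle.mul, h'.cocycle.mul, smul_add, smul_add, map_add, map_add,
          act_zmod_smul, act_zmod_smul]
        refine Prod.ext (Prod.ext ?_ ?_) rfl
        · show act σ (act τ z.1.1) + (z.2 • ξ σ + z.2 • act σ (ξ τ)) = _
          abel
        · show act σ (act τ z.1.2) + (z.2 • η σ + z.2 • act σ (η τ)) = _
          abel }
  let inc : (M × M) × ZMod n →+ (M × ZMod n) × (M × ZMod n) :=
    { toFun := fun z => ((z.1.1, z.2), (z.1.2, z.2))
      map_zero' := rfl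
      map_add' := fun _ _ => rfl }
  have hF : HasFlatModel p ((M × M) × ZMod n) actF :=
    HasFlatModel.of_injective hp inc
      (fun z w hzw => by
        simp only [inc, AddMonoidHom.coe_mk, ZeroHom.coe_mk, Prod.mk.injEq] at hzw
        exact Prod.ext (Prod.ext hzw.1.1 hzw.2.1) hzw.1.2)
      (fun σ z => rfl) hE
  let dif : (M × M) × ZMod n →+ M × ZMod n :=
    { toFun := fun z => (z.1.1 - z.1.2, z.2)
      map_zero' := by simp
      map_add' := fun z w => by
        simp only [Prod.fst_add, Prod.snd_add, Prod.mk_add_mk]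
        congr 1
        abel }
  refine HasFlatModel.of_surjective hp dif (fun z => ⟨((z.1, 0), z.2), by simp [dif]⟩)
    (fun σ z => ?_) hF
  show ((act σ z.1.1 + z.2 • ξ σ) - (act σ z.1.2 + z.2 • η σ), z.2) =
    (act σ (z.1.1 - z.1.2) + z.2 • (ξ σ - η σ), z.2)
  rw [map_sub, smul_sub]
  refine Prod.ext ?_ rfl
  show (_ : M) = _
  abel

/-- The Selmer triples as a subgroup. -/
def selGroup (hp : p.Prime) (hM : HasFlatModel p M act) :
    AddSubgroup ((GalQ → M) × M × M) :=
  AddSubgroup.ofSub (selTriples n p N H₁ H₂ act)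
    ⟨0, selCond_zero hp hM, fun σ _ => by simp, fun σ _ => by simp⟩
    fun a ha b hb => by
      refine ⟨?_, fun σ hσ => ?_, fun σ hσ => ?_⟩
      · simpa [sub_eq_add_neg] using ha.1.sub hp hb.1
      · simp only [Prod.fst_add, Prod.snd_add, Prod.fst_neg, Prod.snd_neg, Pi.add_apply,
          Pi.neg_apply, ha.2.1 σ hσ, hb.2.1 σ hσ, map_add, map_neg]
        abel
      · simp only [Prod.fst_add, Prod.snd_add, Prod.fst_neg, Prod.snd_neg, Pi.add_apply,
          Pi.neg_apply, ha.2.2 σ hσ, hb.2.2 σ hσ, map_add, map_neg]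
        abel

variable {M' M'' : Type} [AddCommGroup M'] [Module (ZMod n) M'] [Finite M']
  [AddCommGroup M''] [Module (ZMod n) M''] [Finite M'']
  {act' : GalQ →* AddMonoid.End M'} {act'' : GalQ →* AddMonoid.End M''}

/-- Devissage. -/
theorem selBound_of_exact (hp : p.Prime) (hM : HasFlatModel p M act) (f : M' →+ M) (g : M →+ M'')
    (hf : Function.Injective f) (hg : Function.Surjective g)
    (hfg : ∀ x, g x = 0 ↔ x ∈ f.range)
    (hf' : ∀ σ x, f (act' σ x) = act σ (f x)) (hg' : ∀ σ x, g (act σ x) = act'' σ (g x))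
    (h' : SelBound n p N H₁ H₂ act') (h'' : SelBound n p N H₁ H₂ act'') :
    SelBound n p N H₁ H₂ act := by
  let G : AddSubgroup ((GalQ → M) × M × M) := selGroup (n := n) (N := N) (H₁ := H₁) (H₂ := H₂) hp hM
  let Φ₀ : (GalQ → M) × M × M →+ (GalQ → M'') × M'' × M'' :=
    (AddMonoidHom.compLeft g GalQ).prodMap (g.prodMap g)
  let Φ : G →+ (GalQ → M'') × M'' × M'' := Φ₀.comp G.subtype
  have hcard : Nat.card M = Nat.card M' * Nat.card M'' := by
    have h1 : g.ker = f.range := AddSubgroup.ext hfg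
    rw [AddSubgroup.card_eq_card_quotient_mul_card_addSubgroup g.ker,
      Nat.card_congr (QuotientAddGroup.quotientKerEquivOfSurjective g hg).toEquiv, h1,
      ← Nat.card_congr (AddMonoidHom.ofInjective hf).toEquiv, mul_comm]
  have hrange : (Φ.range : Set ((GalQ → M'') × M'' × M'')) ⊆ selTriples n p N H₁ H₂ act'' := by
    rintro _ ⟨⟨t, ht⟩, rfl⟩
    obtain ⟨⟨hc, hu, hfl⟩, h1, h2⟩ := ht
    refine ⟨⟨hc.comp g hg', fun ℓ hℓ hlp hlN A hA σ hσ => ?_, ?_⟩, fun σ hσ => ?_, fun σ hσ => ?_⟩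
    · show g (t.1 σ) = 0
      rw [hu ℓ hℓ hlp hlN A hA σ hσ, map_zero]
    · refine HasFlatModel.of_surjective hp (g.prodMap (AddMonoidHom.id (ZMod n)))
        (hg.prodMap Function.surjective_id) (fun σ z => ?_) hfl
      simp [Φ, Φ₀, hg', ZMod.map_smul]
    · simp [Φ, Φ₀, h1 σ hσ, hg']
    · simp [Φ, Φ₀, h2 σ hσ, hg']
  let Ψ : (GalQ → M') × M' × M' →+ (GalQ → M) × M × M :=
    (AddMonoidHom.compLeft f GalQ).prodMap (f.prodMap f)
  have hΨ : Function.Injective Ψ := (hf.comp_left).prodMap (hf.prodMap hf)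
  have hker : ∀ t : G, Φ t = 0 → (t : (GalQ → M) × M × M) ∈ Ψ '' selTriples n p N H₁ H₂ act' := by
    rintro ⟨⟨ξ, b₁, b₂⟩, ht⟩ h0
    simp only [Φ, Φ₀, AddMonoidHom.coe_comp, Function.comp_apply, AddSubgroup.subtype_apply,
      AddMonoidHom.coe_prodMap, Prod.map, Prod.mk_eq_zero] at h0
    obtain ⟨h0, h01, h02⟩ := h0
    choose ξ' hξ' using fun σ => (hfg (ξ σ)).mp (congrFun h0 σ)
    obtain ⟨b₁', rfl⟩ := (hfg b₁).mp h01
    obtain ⟨b₂', rfl⟩ := (hfg b₂).mp h02
    obtain ⟨⟨hc, hu, hfl⟩, h1, h2⟩ := ht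
    obtain ⟨L, hL, hs⟩ := hc.smooth
    have hc' : IsCocycle act' ξ' := by
      refine ⟨fun σ τ => hf ?_, L, hL, fun σ hσ => hf ?_⟩
      · rw [map_add, hf', hξ', hξ', hξ']
        exact hc.mul σ τ
      · rw [map_zero, hξ']
        exact hs σ hσ
    refine ⟨(ξ', b₁', b₂'), ⟨⟨hc', fun ℓ hℓ hlp hlN A hA σ hσ => hf ?_, ?_⟩, fun σ hσ => hf ?_,
      fun σ hσ => hf ?_⟩, Prod.ext (funext hξ') rfl⟩
    · rw [map_zero, hξ']
      exact hu ℓ hℓ hlp hlN A hA σ hσ
    · refine HasFlatModel.of_injective hp (f.prodMap (AddMonoidHom.id (ZMod n)))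
        (hf.prodMap Function.injective_id) (fun σ z => ?_) hfl
      simp [hf', hξ', ZMod.map_smul]
    · rw [hξ', map_sub, hf']
      exact h1 σ hσ
    · rw [hξ', map_sub, hf']
      exact h2 σ hσ
  have : Finite Φ.range := (h''.1.subset hrange).to_subtype
  have hkfin : ((fun t : G => (t : (GalQ → M) × M × M)) '' (Φ.ker : Set G)).Finite :=
    (h'.1.image Ψ).subset fun _ ⟨t, ht, hte⟩ => hte ▸ hker t ht
  have : Finite Φ.ker :=
    ((Set.finite_image_iff Subtype.val_injective.injOn).mp hkfin).to_subtype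
  have : Finite (G ⧸ Φ.ker) :=
    Finite.of_equiv _ (QuotientAddGroup.quotientKerEquivRange Φ).toEquiv.symm
  have hGfin : Finite G := Finite.of_addSubgroup_quotient Φ.ker
  refine ⟨Set.finite_coe_iff.mp (show Finite G from hGfin), ?_⟩
  change Nat.card G ≤ _
  rw [AddSubgroup.card_eq_card_quotient_mul_card_addSubgroup Φ.ker,
    Nat.card_congr (QuotientAddGroup.quotientKerEquivRange Φ).toEquiv, hcard, mul_pow,
    mul_comm]
  refine Nat.mul_le_mul (le_trans ?_ h'.2) (le_trans ?_ h''.2)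
  · rw [show Nat.card Φ.ker = Nat.card ((fun t : G => (t : (GalQ → M) × M × M)) '' (Φ.ker : Set G))
      from (Nat.card_image_of_injective Subtype.val_injective _).symm,
      ← Nat.card_image_of_injective hΨ]
    exact Nat.card_mono (h'.1.image Ψ) fun _ ⟨t, ht, hte⟩ => hte ▸ hker t ht
  · exact Nat.card_mono h''.1 hrange

end FLTA.Mazur

end
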