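import Fermat.Agent.Mazur.Chain

/-!
# A rational point of order `p` off the identity component at `2` and `3`
-/

set_option autoImplicit false

open scoped Classical

open WeierstrassCurve

open scoped WeierstrassCurve.Affine

namespace FLTA.Mazur

open FLTA.EllReduction

local notation "Qbar" => AlgebraicClosure ℚ
local notation "Γℚ" => (AlgebraicClosure ℚ ≃ₐ[ℚ] AlgebraicClosure ℚ)

variable {W : WeierstrassCurve ℤ} {p : ℕ} [NeZero p]

lemma hasModRel_of_root (hp : p.Prime) {x y : ℚ}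
    (h : (y : Qbar) ∈ (modPolyAt p hp (x : Qbar)).roots) : HasModRel p hp x y := by
  have h := (Polynomial.mem_roots'.1 h).2
  rw [Polynomial.IsRoot.def, modPolyAt] at h
  have hcomp : (algebraMap ℚ Qbar).comp (Polynomial.aeval (R := ℤ) x).toRingHom
      = (Polynomial.aeval (R := ℤ) (x : Qbar)).toRingHom := by
    refine Polynomial.ringHom_ext' (Subsingleton.elim _ _) ?_
    simp
  have h' : ((Igusa.modPoly p hp).map ((algebraMap ℚ Qbar).comp
      (Polynomial.aeval (R := ℤ) x).toRingHom)).eval (y : Qbar) = 0 := by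
    rw [hcomp]; exact h
  rw [← Polynomial.map_map, ← eq_ratCast (algebraMap ℚ Qbar) y,
    Polynomial.eval_map_apply, map_eq_zero] at h'
  exact h'

/-- A stable subgroup of order `p` off the identity component at `2` and `3` is off it at every
multiplicative prime away from `p`. -/
theorem not_mem_E0Z_of_two_three (hΔ : W.Δ ≠ 0) (hlev : IsMazurLevel p) {Q : GeomPoint W}
    (hQ : addOrderOf Q = p) (hst : ∀ σ : Γℚ, σ • Q ∈ AddSubgroup.zmultiples Q)
    (h2Δ : (2 : ℤ) ∣ W.Δ) (h2c₄ : ¬ (2 : ℤ) ∣ W.c₄)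
    {A₂ : ValuationSubring Qbar} (hA₂ : A₂.LiesOverPrime 2) (h2 : Q ∉ E0Z W A₂)
    (h3Δ : (3 : ℤ) ∣ W.Δ) (h3c₄ : ¬ (3 : ℤ) ∣ W.c₄)
    {A₃ : ValuationSubring Qbar} (hA₃ : A₃.LiesOverPrime 3) (h3 : Q ∉ E0Z W A₃)
    {ℓ : ℕ} (hℓ : ℓ.Prime) (hℓp : ℓ ≠ p) (hℓΔ : (ℓ : ℤ) ∣ W.Δ) (hc₄ : ¬ (ℓ : ℤ) ∣ W.c₄)
    {A : ValuationSubring Qbar} (hA : A.LiesOverPrime ℓ) : Q ∉ E0Z W A := by
  have hp := hlev.prime
  have hp5 : 5 ≤ p := by
    have h2' := hp.two_le
    have := hlev.not_mem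
    simp only [Finset.mem_insert, Finset.mem_singleton, not_or] at this
    by_contra hlt
    interval_cases p <;> simp_all +decide
  have hJ := isEllJ_ellJ hΔ p hp
  have hQ1 : addOrderOf Q = p ^ 1 := by rw [pow_one]; exact hQ
  have h0 : addOrderOf (0 : GeomPoint W) = p ^ 0 := by simp
  obtain ⟨x, hx⟩ := exists_rat_ellJ hΔ hp h0 (fun σ => by
    rw [show σ • (0 : GeomPoint W) = 0 from (DistribSMul.toAddMonoidHom (GeomPoint W) σ).map_zero]
    exact zero_mem _)
  rw [AddSubgroup.zmultiples_zero_eq_bot] at hx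
  obtain ⟨y, hy⟩ := exists_rat_ellJ hΔ hp hQ1 hst
  obtain ⟨s, hs, hroots⟩ := hJ.roots 0 0 h0
  rw [AddSubgroup.zmultiples_zero_eq_bot] at hroots
  have hyroot : (y : Qbar) ∈ (modPolyAt p hp (x : Qbar)).roots := by
    rw [hx, hy, hroots]
    refine Multiset.mem_map_of_mem _ ((hs _).2 (Or.inl ⟨Q, hQ1, rfl, ?_⟩))
    rw [AddSubgroup.zmultiples_zero_eq_bot]; exact bot_le
  -- minus is the same as lying off the identity component
  have key : ∀ {l : ℕ}, l.Prime → l ≠ p → (l : ℤ) ∣ W.Δ → ¬ (l : ℤ) ∣ W.c₄ →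
      ∀ {B : ValuationSubring Qbar}, B.LiesOverPrime l →
        padicValRat l x < 0 ∧ (Q ∉ E0Z W B ↔ (p : ℤ) * padicValRat l y = padicValRat l x) := by
    intro l hl hlp hlΔ hlc₄ B hB
    have hpole := one_lt_valuation_ellJ_bot hΔ hp hl hB hlΔ hlc₄
    have hx1 : 1 < B.valuation (x : Qbar) := by rw [hx]; exact hpole
    have hiff : Q ∈ E0Z W B ↔ B.valuation (y : Qbar) = B.valuation (x : Qbar) ^ p := by
      rw [hx, hy]
      refine ⟨fun h => ?_, fun h => ?_⟩
      · simpa using ((isPlusChain_iff hΔ hp hl hlp hB hlΔ hlc₄).2 ⟨hQ1, h⟩).val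
      · exact ((isPlusChain_iff hΔ hp hl hlp hB hlΔ hlc₄).1
          ((isPlusChain_zero (W := W) (p := p) (J := ellJ W) (A := B)).succ hJ (modPolyPlus p hp)
            hpole hQ1 (by rw [AddSubgroup.zmultiples_zero_eq_bot]; exact bot_le)
            (by rw [AddSubgroup.zmultiples_zero_eq_bot]; exact h))).2
    have hexcl : B.valuation (y : Qbar) = B.valuation (x : Qbar) ^ p →
        B.valuation (y : Qbar) ^ p ≠ B.valuation (x : Qbar) := fun h h' => by
      rw [h, ← pow_mul] at h'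
      have h'' : B.valuation (x : Qbar) ^ (p * p) = B.valuation (x : Qbar) ^ 1 := by rw [pow_one, h']
      have := (pow_right_injective₀ (zero_lt_one.trans hx1) hx1.ne') h''
      nlinarith
    have hx0 : x ≠ 0 := by rintro rfl; simp at hx1
    have hy0 : y ≠ 0 := by
      rintro rfl
      rcases (modPolyPlus p hp).dichotomy B _ hx1 _ hyroot with h | h
      · simp only [Rat.cast_zero, map_zero] at h
        exact (pow_pos (zero_lt_one.trans hx1) p).ne h
      · simp only [Rat.cast_zero, map_zero, zero_pow hp.ne_zero] at h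
        exact (zero_lt_one.trans hx1).ne h
    refine ⟨(one_lt_valuation_rat_iff hl hB).1 hx1, ?_⟩
    rw [← valuation_eq_pow_iff hl hB hx0 hy0, hiff, eq_comm (a := B.valuation (x : Qbar))]
    exact ⟨fun h => ((modPolyPlus p hp).dichotomy B _ hx1 _ hyroot).resolve_left h,
      fun h h' => hexcl h' h⟩
  obtain ⟨k2, k2'⟩ := key Nat.prime_two (by omega) h2Δ h2c₄ hA₂
  obtain ⟨k3, k3'⟩ := key Nat.prime_three (by omega) h3Δ h3c₄ hA₃
  obtain ⟨kℓ, kℓ'⟩ := key hℓ hℓp hℓΔ hc₄ hA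
  exact kℓ'.2 (isMinusAt_of_two_three hlev (hasModRel_of_root hp hyroot) ⟨k2, k2'.1 h2⟩
    ⟨k3, k3'.1 h3⟩ hℓ hℓp kℓ).2

end FLTA.Mazur
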