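import Fermat.Agent.Mazur.EisModule
import Fermat.Agent.Mazur.Tame
import Fermat.Agent.GaloisReps.TateConstruct
import Fermat.Agent.BadRed.Galois
import Fermat.Agent.BadRed.Endgame.Tate

/-!
# The Tate module of `J₀(N)` for prime `N`: Hecke compatibility and inertia at `N`
-/

set_option autoImplicit false
set_option synthInstance.maxHeartbeats 400000

noncomputable section

open ModularCurve
open scoped Matrix

namespace FLTA.Mazur

open FLTA.GaloisReps

local notation "Qbar" => AlgebraicClosure ℚ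

variable {N : ℕ} [NeZero N] {p : ℕ} [Fact p.Prime]

theorem exists_tateData_heckeCompat (hN : N.Prime) :
    ∃ D : TateData N p, HeckeCompat D hN :=
  ⟨tateData N p, fun r _ k v => (tateTorsionEquiv_hecke N p k r.2 _ v).symm⟩

/-- Inertia at the prime level acts unipotently. -/
theorem rho_inertia_unipotent (D : TateData N p) (hN : N.Prime) (hpN : p ≠ N)
    {A : ValuationSubring Qbar} (hA : A.LiesOverPrime N) {s t : GalQ}
    (hs : s ∈ A.inertiaSubgroupIn ℚ) (ht : t ∈ A.inertiaSubgroupIn ℚ) :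
    (D.rho t - 1) * (D.rho s - 1) = 0 := by
  refine FLTA.BadRed.tateData_inertia_unipotent D hN (fun h => hpN h.symm) dvd_rfl
    (fun h => ?_) hA hs ht
  have := Nat.le_of_dvd hN.pos h
  nlinarith [hN.two_le]

/-- Frobenius conjugates a tame generator to its `N`-th power. -/
theorem rho_frobenius_tame (D : TateData N p) (hN : N.Prime) (hpN : p ≠ N)
    {A : ValuationSubring Qbar} (hA : A.LiesOverPrime N) {F τ : GalQ}
    (hF : A.IsFrobeniusAt F N) (hτI : τ ∈ A.inertiaSubgroupIn ℚ)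
    (hτ : ∀ (X : Type) [Group X] [Finite X] (ρ : GalQ →* X),
      (∃ L : IntermediateField ℚ Qbar, FiniteDimensional ℚ L ∧
        ∀ σ : GalQ, (∀ x ∈ L, σ x = x) → ρ σ = 1) →
      IsPGroup p ((A.inertiaSubgroupIn ℚ).map ρ) →
      (∀ σ ∈ A.inertiaSubgroupIn ℚ, ρ σ ∈ Subgroup.zpowers (ρ τ)) ∧
        ∀ F : GalQ, A.IsFrobeniusAt F N → ρ (F * τ * F⁻¹) = ρ τ ^ N) :
    D.rho F * D.rho τ = D.rho τ ^ N * D.rho F := by
  refine matrix_ext_of_toZModPow fun k => ?_
  let f : Matrix (Fin D.r) (Fin D.r) ℤ_[p] →+* Matrix (Fin D.r) (Fin D.r) (ZMod (p ^ k)) :=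
    (PadicInt.toZModPow k).mapMatrix
  let ρ : GalQ →* (Matrix (Fin D.r) (Fin D.r) (ZMod (p ^ k)))ˣ :=
    (f.toMonoidHom.comp D.rho).toHomUnits
  have hρ : ∀ σ, ((ρ σ : (Matrix (Fin D.r) (Fin D.r) (ZMod (p ^ k)))ˣ) :
      Matrix (Fin D.r) (Fin D.r) (ZMod (p ^ k))) = f (D.rho σ) := fun σ => rfl
  have : NeZero (p ^ k) := ⟨pow_ne_zero _ (Fact.out (p := p.Prime)).ne_zero⟩
  have hfin : ∃ L : IntermediateField ℚ Qbar, FiniteDimensional ℚ L ∧
      ∀ σ : GalQ, (∀ x ∈ L, σ x = x) → ρ σ = 1 := by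
    obtain ⟨L, hL, h⟩ := D.isContinuous k
    exact ⟨L, hL, fun σ hσ => Units.ext (h σ hσ)⟩
  have hP : IsPGroup p ((A.inertiaSubgroupIn ℚ).map ρ) := by
    rintro ⟨_, σ, hσ, rfl⟩
    refine ⟨k, Subtype.ext (Units.ext ?_)⟩
    show f (D.rho σ) ^ p ^ k = 1
    set w := f (D.rho σ) - 1 with hw
    have h2 : w * w = 0 := by
      have := congrArg f (rho_inertia_unipotent D hN hpN hA hσ hσ)
      rwa [map_mul, map_sub, map_one, map_zero] at this
    have key : ∀ j : ℕ, (1 + w) ^ j = 1 + j • w := fun j => by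
      induction j with
      | zero => simp
      | succ j ih =>
        rw [pow_succ, ih, add_mul, one_mul, smul_mul_assoc, mul_add, mul_one, h2, add_zero,
          succ_nsmul]
        abel
    rw [show f (D.rho σ) = 1 + w by rw [hw]; abel, key, nsmul_eq_mul]
    have h0 : ((p ^ k : ℕ) : Matrix (Fin D.r) (Fin D.r) (ZMod (p ^ k))) = 0 := by
      rw [← map_natCast (Matrix.scalar (Fin D.r)), ZMod.natCast_self, map_zero]
    rw [h0, zero_mul, add_zero]
  have h := congrArg Units.val ((hτ _ ρ hfin hP).2 F hF)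
  rw [map_mul, map_mul, map_inv, Units.val_mul, Units.val_mul, Units.val_pow_eq_pow_val, hρ,
    hρ] at h
  show f (D.rho F * D.rho τ) = f (D.rho τ ^ N * D.rho F)
  rw [map_mul, map_mul, map_pow, ← h, mul_assoc, ← hρ F, Units.inv_mul, mul_one]

end FLTA.Mazur

end
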